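import Fermat.Statements.S18
import Fermat.Agent.S24.Degree
import Fermat.Agent.S24.Principal

/-!
# S18 step (0) : reduction of the statement to an `m`-th power problem
-/

set_option autoImplicit false

open ModularCurve AlgebraicCurve

namespace Fermat.Agent.S18Lib

open Fermat.Agent.S24Lib

set_option synthInstance.maxHeartbeats 400000

namespace Reduce

/-- the residue field of `A` -/
abbrev kA (A : ValuationSubring Kb) : Type := IsLocalRing.ResidueField A

/-- the function field in characteristic `ℓ` -/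
abbrev Fk (A : ValuationSubring Kb) (N : ℕ) : Type := ↥(modularFunctionFieldFullC (kA A) N)

/-- shortcut instance (the search is very slow) -/
noncomputable instance instAlgebraFk (A : ValuationSubring Kb) (N : ℕ) :
    Algebra (kA A) (Fk A N) := inferInstance

/-- reduction of the coefficients -/
noncomputable abbrev resA (A : ValuationSubring Kb) : LaurentSeries A →+* LaurentSeries (kA A) :=
  coeffMap (IsLocalRing.residue A)

/-- the ring of the `y ∈ A((q))` which lie in `F_L` and whose reduction lies in `F_k` -/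
noncomputable def goodRing (A : ValuationSubring Kb) (N : ℕ) : Subring (LaurentSeries A) :=
  (modularFunctionFieldBar N).toSubring.comap (coeffMap A.subtype) ⊓
    (modularFunctionFieldFullC (kA A) N).toSubring.comap (resA A)

section Good

variable (A : ValuationSubring Kb) (N : ℕ)

noncomputable def toL : goodRing A N →+* FN N :=
  RingHom.codRestrict ((coeffMap A.subtype).comp (goodRing A N).subtype)
    (modularFunctionFieldBar N) (fun y => y.2.1)

noncomputable def toK : goodRing A N →+* Fk A N :=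
  RingHom.codRestrict ((resA A).comp (goodRing A N).subtype)
    (modularFunctionFieldFullC (kA A) N) (fun y => y.2.2)

variable {A N}

theorem coe_toL (y : goodRing A N) : (toL A N y : LaurentSeries Kb) = coeffMap A.subtype y := rfl

theorem coe_toK (y : goodRing A N) : (toK A N y : LaurentSeries (kA A)) = resA A y := rfl

theorem toL_injective : Function.Injective (toL A N) := by
  intro y y' h
  have h1 : coeffMap A.subtype (y : LaurentSeries A) = coeffMap A.subtype y' :=
    congrArg Subtype.val h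
  ext n
  have h2 := congrArg (fun s => s.coeff n) h1
  simpa using h2

theorem toL_ne_zero {y : goodRing A N} (hy : toK A N y ≠ 0) : toL A N y ≠ 0 := by
  intro h
  apply hy
  have : y = 0 := toL_injective (by rw [h, map_zero])
  rw [this, map_zero]

theorem const_mem_goodRing (a : A) : (HahnSeries.single 0 a : LaurentSeries A) ∈ goodRing A N := by
  constructor
  · show coeffMap A.subtype _ ∈ modularFunctionFieldBar N
    rw [coeffMap_single, ← algebraMap_laurentSeries_eq_single]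
    exact (modularFunctionFieldBar N).algebraMap_mem _
  · show coeffMap _ _ ∈ modularFunctionFieldFullC (kA A) N
    rw [coeffMap_single, ← algebraMap_laurentSeries_eq_single]
    exact (modularFunctionFieldFullC (kA A) N).algebraMap_mem _

theorem jd_mem_goodRing {d : ℕ} [NeZero d] (hd : d ∣ N) :
    qExpand A d (jqModC A) ∈ goodRing A N := by
  constructor
  · show coeffMap A.subtype _ ∈ modularFunctionFieldBar N
    have h1 : coeffMap A.subtype (qExpand A d (jqModC A)) = coeffEmb Kb (qExpand ℚ d jq) := by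
      rw [ModularCurve.coeffMap_qExpand, coeffMap_jqModC, coeffEmb, ModularCurve.coeffMap_qExpand, ← jqModC_rat,
        coeffMap_jqModC]
    rw [h1]
    exact coeffEmb_mem_laurentBaseChange Kb (jqd_mem_full N hd)
  · show coeffMap _ _ ∈ modularFunctionFieldFullC (kA A) N
    rw [ModularCurve.coeffMap_qExpand, coeffMap_jqModC]
    exact jqModCd_mem_full (kA A) N hd

theorem exists_lift_alg (x : LaurentSeries (kA A))
    (hx : x ∈ Algebra.adjoin (kA A) (divisorExpansionsC (kA A) N)) :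
    ∃ y : goodRing A N, resA A y = x := by
  induction hx using Algebra.adjoin_induction with
  | mem x hx =>
    obtain ⟨d, hd, hdN, rfl⟩ := hx
    exact ⟨⟨_, jd_mem_goodRing hdN⟩, by
      show coeffMap _ _ = _
      rw [ModularCurve.coeffMap_qExpand, coeffMap_jqModC]⟩
  | algebraMap r =>
    obtain ⟨a, rfl⟩ := IsLocalRing.residue_surjective r
    exact ⟨⟨_, const_mem_goodRing a⟩, by
      show coeffMap _ _ = _
      rw [coeffMap_single, algebraMap_laurentSeries_eq_single]⟩
  | add x y _ _ hx hy =>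
    obtain ⟨a, rfl⟩ := hx
    obtain ⟨b, rfl⟩ := hy
    exact ⟨a + b, by simp⟩
  | mul x y _ _ hx hy =>
    obtain ⟨a, rfl⟩ := hx
    obtain ⟨b, rfl⟩ := hy
    exact ⟨a * b, by simp⟩

theorem exists_lift (γ : Fk A N) :
    ∃ a b : goodRing A N, toK A N b ≠ 0 ∧ γ * toK A N b = toK A N a := by
  obtain ⟨r, hr, s, hs, hγ⟩ := IntermediateField.mem_adjoin_iff_div.mp γ.2
  obtain ⟨a, rfl⟩ := exists_lift_alg r hr
  obtain ⟨b, rfl⟩ := exists_lift_alg s hs
  by_cases hb : toK A N b = 0
  · refine ⟨0, 1, by simp, ?_⟩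
    have : (γ : LaurentSeries (kA A)) = 0 := by
      have hb' : resA A b = 0 := congrArg Subtype.val hb
      rw [hγ, hb', div_zero]
    have h0 : γ = 0 := Subtype.ext this
    rw [h0]; simp
  · refine ⟨a, b, hb, Subtype.ext ?_⟩
    have hb' : resA A b ≠ 0 := fun h => hb (Subtype.ext h)
    show (γ : LaurentSeries (kA A)) * resA A b = resA A a
    rw [hγ, div_mul_cancel₀ _ hb']

end Good

section Red

variable {A : ValuationSubring Kb} {N : ℕ}

theorem red_ord {r : Place Kb (FN N) → Place (kA A) (Fk A N)} (hr : IsPlaceReductionModL A N r)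
    (y : goodRing A N) (hy : toK A N y ≠ 0) (D : Divisor Kb (FN N))
    (hD : ∀ P, D P = P.ord (toL A N y)) (Q : Place (kA A) (Fk A N)) :
    Finsupp.mapDomain r D Q = Q.ord (toK A N y) :=
  hr.2 y y.2.1 y.2.2 (fun h => hy (Subtype.ext h)) D hD Q

theorem exists_good_of_mem_closure {D : Divisor Kb (FN N)}
    (hD : D ∈ AddSubgroup.closure (integralPrincipalDivisors A (IsLocalRing.residue A) N)) :
    ∃ Y1 Y2 : goodRing A N, toK A N Y1 ≠ 0 ∧ toK A N Y2 ≠ 0 ∧
      ∀ P : Place Kb (FN N), D P = P.ord (toL A N Y1) - P.ord (toL A N Y2) := by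
  induction hD using AddSubgroup.closure_induction with
  | mem E hE =>
    obtain ⟨y, hy, hyk, hne, hE⟩ := hE
    refine ⟨⟨y, hy, hyk⟩, 1, fun h => hne (congrArg Subtype.val h), by simp, fun P => ?_⟩
    rw [hE P, map_one, Place.ord_one, sub_zero]
    rfl
  | zero => exact ⟨1, 1, by simp, by simp, fun P => by simp⟩
  | add E E' _ _ hE hE' =>
    obtain ⟨Y1, Y2, h1, h2, h⟩ := hE
    obtain ⟨Y1', Y2', h1', h2', h'⟩ := hE'
    refine ⟨Y1 * Y1', Y2 * Y2', by rw [map_mul]; exact mul_ne_zero h1 h1',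
      by rw [map_mul]; exact mul_ne_zero h2 h2', fun P => ?_⟩
    rw [Finsupp.add_apply, h P, h' P, map_mul, map_mul,
      P.ord_mul (toL_ne_zero h1) (toL_ne_zero h1'), P.ord_mul (toL_ne_zero h2) (toL_ne_zero h2')]
    ring
  | neg E _ hE =>
    obtain ⟨Y1, Y2, h1, h2, h⟩ := hE
    refine ⟨Y2, Y1, h2, h1, fun P => ?_⟩
    rw [Finsupp.neg_apply, h P]
    ring

theorem degree_pos_of_nonneg {K F : Type*} [Field K] [Field F] [Algebra K F] (E : Divisor K F)
    (hE : ∀ Q, 0 ≤ E Q) (Q0 : Place K F) (h0 : 0 < E Q0) (hd : 0 < Q0.deg) :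
    0 < Divisor.degree E := by
  have hdeg : Divisor.degree E = E.sum (fun v n => n * (v.deg : ℤ)) := by
    simp [Divisor.degree, Finsupp.liftAddHom_apply]
  rw [hdeg, Finsupp.sum]
  have hmem : Q0 ∈ E.support := Finsupp.mem_support_iff.mpr h0.ne'
  have h1 : E Q0 * (Q0.deg : ℤ) ≤ ∑ v ∈ E.support, E v * (v.deg : ℤ) :=
    Finset.single_le_sum (f := fun v => E v * (v.deg : ℤ))
      (fun v _ => mul_nonneg (hE v) (Int.natCast_nonneg _)) hmem
  have h2 : 0 < E Q0 * (Q0.deg : ℤ) := mul_pos h0 (by exact_mod_cast hd)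
  omega

theorem exists_sub_ord_pos_of_deg_one {K F : Type*} [Field K] [Field F] [Algebra K F]
    (Q0 : Place K F) (hdeg : Q0.deg = 1) (c : F) (hc : 0 ≤ Q0.ord c) :
    ∃ lam : K, c = algebraMap K F lam ∨ 0 < Q0.ord (c - algebraMap K F lam) := by
  have hcmem : c ∈ Q0.toValuationSubring := mem_toValuationSubring_of_ord_nonneg Q0 hc
  have hbt : (⊥ : Subalgebra K Q0.ResidueField) = ⊤ :=
    Subalgebra.bot_eq_top_of_finrank_eq_one hdeg
  have hmem : IsLocalRing.residue Q0.toValuationSubring ⟨c, hcmem⟩ ∈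
      (⊥ : Subalgebra K Q0.ResidueField) := by rw [hbt]; exact Algebra.mem_top
  obtain ⟨lam, hlam⟩ := Algebra.mem_bot.mp hmem
  refine ⟨lam, ?_⟩
  have h1 : (⟨c, hcmem⟩ - algebraMap K Q0.toValuationSubring lam : Q0.toValuationSubring) ∈
      IsLocalRing.maximalIdeal Q0.toValuationSubring := by
    rw [← IsLocalRing.residue_eq_zero_iff, map_sub, ← hlam, sub_eq_zero]
    rfl
  rcases (mem_maximalIdeal_iff Q0 _).mp h1 with h2 | h2
  · left
    have := congrArg Subtype.val h2
    exact sub_eq_zero.mp this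
  · right
    exact h2

theorem toK_const (a : A) : toK A N ⟨_, const_mem_goodRing a⟩ =
    algebraMap (kA A) (Fk A N) (IsLocalRing.residue A a) := by
  apply Subtype.ext
  show coeffMap _ (HahnSeries.single 0 a) = algebraMap (kA A) (LaurentSeries (kA A)) _
  rw [coeffMap_single, algebraMap_laurentSeries_eq_single]

/-- the constants lemma in characteristic `ℓ`, from the reduction of places -/
theorem const_of_ord_eq_zero [NeZero N] {r : Place Kb (FN N) → Place (kA A) (Fk A N)}
    (hr : IsPlaceReductionModL A N r) (P0 : Place Kb (FN N)) (c : Fk A N)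
    (h0 : ∀ Q : Place (kA A) (Fk A N), Q.ord c = 0) :
    ∃ lam : kA A, c = algebraMap (kA A) (Fk A N) lam := by
  have hdeg : (r P0).deg = 1 := by rw [hr.1 P0, deg_eq_one (isFF N) P0]
  obtain ⟨lam, hlam⟩ := exists_sub_ord_pos_of_deg_one (r P0) hdeg c (h0 _).ge
  refine ⟨lam, ?_⟩
  by_contra hne
  have hpos := hlam.resolve_left hne
  have hne' : c - algebraMap (kA A) (Fk A N) lam ≠ 0 := sub_ne_zero.mpr hne
  obtain ⟨a, b, hb, hab⟩ := exists_lift c
  obtain ⟨lam', rfl⟩ := IsLocalRing.residue_surjective lam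
  obtain ⟨y1, hy1⟩ : ∃ y1 : goodRing A N, y1 = a - ⟨_, const_mem_goodRing lam'⟩ * b := ⟨_, rfl⟩
  have hy1k : toK A N y1 = (c - algebraMap (kA A) (Fk A N) (IsLocalRing.residue A lam')) *
      toK A N b := by
    rw [hy1, map_sub, map_mul, toK_const, ← hab]
    ring
  have hy1ne : toK A N y1 ≠ 0 := by rw [hy1k]; exact mul_ne_zero hne' hb
  obtain ⟨D1, hD1, hD1deg⟩ := exists_principal_divisor (isFF N) (toL_ne_zero hy1ne)
  obtain ⟨Db, hDb, hDbdeg⟩ := exists_principal_divisor (isFF N) (toL_ne_zero hb)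
  have hEQ : ∀ Q, Finsupp.mapDomain r (D1 - Db) Q =
      Q.ord (c - algebraMap (kA A) (Fk A N) (IsLocalRing.residue A lam')) := by
    intro Q
    rw [Finsupp.mapDomain_sub, Finsupp.sub_apply, red_ord hr y1 hy1ne D1 hD1 Q,
      red_ord hr b hb Db hDb Q, hy1k, Q.ord_mul hne' hb]
    ring
  have hEdeg : Divisor.degree (Finsupp.mapDomain r (D1 - Db)) = 0 := by
    rw [degree_mapDomain_of_deg_eq hr.1, map_sub, hD1deg, hDbdeg, sub_zero]
  have hEnn : ∀ Q, 0 ≤ Finsupp.mapDomain r (D1 - Db) Q := by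
    intro Q
    rw [hEQ]
    have := le_ord_sub Q hne'
    rw [h0 Q, ord_algebraMap] at this
    simpa using this
  have := degree_pos_of_nonneg _ hEnn (r P0) (by rw [hEQ]; exact hpos) (by rw [hdeg]; exact one_pos)
  omega

/-- `m`-th roots in the residue field -/
theorem exists_pow_eq_residue (m : ℕ) (hm : m ≠ 0) (lam : kA A) : ∃ mu : kA A, mu ^ m = lam := by
  obtain ⟨a, rfl⟩ := IsLocalRing.residue_surjective lam
  obtain ⟨b, hb⟩ := IsAlgClosed.exists_pow_nat_eq (a : Kb) (Nat.pos_of_ne_zero hm)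
  have hbA : b ∈ A := by
    have hint : IsIntegral A b := by
      refine ⟨Polynomial.X ^ m - Polynomial.C a, Polynomial.monic_X_pow_sub_C a hm, ?_⟩
      simp [hb]
    obtain ⟨b', hb'⟩ := (IsIntegrallyClosed.isIntegral_iff (R := A) (K := Kb)).mp hint
    rw [← hb']
    exact b'.2
  refine ⟨IsLocalRing.residue A ⟨b, hbA⟩, ?_⟩
  rw [← map_pow]
  congr 1
  exact Subtype.ext hb

theorem reduce_core (N : ℕ) [NeZero N] (A : ValuationSubring Kb)
    (h : ReductionInputsModL A N) (m : ℕ) (hm : m ≠ 0) (z : JZero N)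
    (hmz : m • z = 0) (hz : reductionModL A N z = 0) :
    ∃ Y Y' : goodRing A N, toK A N Y = toK A N Y' ∧ toK A N Y ≠ 0 ∧
      (∀ P : Place Kb (FN N), (m : ℤ) ∣ P.ord (toL A N Y / toL A N Y')) ∧
      ((∃ u : FN N, toL A N Y / toL A N Y' = u ^ m) → z = 0) := by
  obtain ⟨D, rfl⟩ := Pic0.mk_surjective z
  rcases isEmpty_or_nonempty (Place Kb (FN N)) with hemp | ⟨⟨P0⟩⟩
  · have hD : D = 0 := Subtype.ext (Subsingleton.elim _ _)
    exact ⟨1, 1, rfl, by simp, fun P => (hemp.false P).elim, fun _ => by rw [hD]; rfl⟩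
  have hr := isPlaceReductionModL_placeReductionModL h
  have hgen : PrincipalGeneratedByIntegral A (IsLocalRing.residue A) N := h.choose_spec.2
  obtain ⟨r, hrdef⟩ : ∃ r, r = placeReductionModL h := ⟨_, rfl⟩
  rw [← hrdef] at hr
  have hmD : m • (D : Divisor Kb (FN N)) ∈ Divisor.principal (K := Kb) (F := FN N) := by
    have h1 : (Pic0.mk (m • D) : JZero N) = 0 := hmz
    have h2 := (QuotientAddGroup.eq_zero_iff _).mp h1
    rw [AddSubgroup.mem_addSubgroupOf] at h2
    exact h2
  obtain ⟨Y1, Y2, hY1, hY2, hY⟩ := exists_good_of_mem_closure (hgen hmD)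
  rw [reductionModL_mk h] at hz
  have hz2 := (QuotientAddGroup.eq_zero_iff _).mp hz
  rw [AddSubgroup.mem_addSubgroupOf, coe_reductionDegZeroAlong, ← hrdef] at hz2
  obtain ⟨γ, hγ0, hγ⟩ := hz2
  obtain ⟨D1, hD1, -⟩ := exists_principal_divisor (isFF N) (toL_ne_zero hY1)
  obtain ⟨D2, hD2, -⟩ := exists_principal_divisor (isFF N) (toL_ne_zero hY2)
  have hDD : m • (D : Divisor Kb (FN N)) = D1 - D2 := by
    ext P
    rw [hY P, Finsupp.sub_apply, hD1, hD2]
  have hQ : ∀ Q : Place (kA A) (Fk A N),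
      Q.ord (toK A N Y1) - Q.ord (toK A N Y2) = m * Q.ord γ := by
    intro Q
    rw [← red_ord hr Y1 hY1 D1 hD1 Q, ← red_ord hr Y2 hY2 D2 hD2 Q, ← Finsupp.sub_apply,
      ← Finsupp.mapDomain_sub, ← hDD, ← Finsupp.mapDomain.addMonoidHom_apply, map_nsmul,
      Finsupp.mapDomain.addMonoidHom_apply, Finsupp.smul_apply, hγ Q, nsmul_eq_mul]
  have hγm : γ ^ m ≠ 0 := pow_ne_zero m hγ0
  have hc0 : ∀ Q : Place (kA A) (Fk A N), Q.ord (toK A N Y1 / (toK A N Y2 * γ ^ m)) = 0 := by
    intro Q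
    rw [div_eq_mul_inv, Q.ord_mul hY1 (inv_ne_zero (mul_ne_zero hY2 hγm)), Q.ord_inv,
      Q.ord_mul hY2 hγm, ord_pow]
    have := hQ Q
    omega
  obtain ⟨lam, hlam⟩ := const_of_ord_eq_zero hr P0 _ hc0
  obtain ⟨mu, rfl⟩ := exists_pow_eq_residue m hm lam
  have hmu : algebraMap (kA A) (Fk A N) mu ≠ 0 := by
    intro h0
    rw [map_pow, h0, zero_pow hm] at hlam
    exact div_ne_zero hY1 (mul_ne_zero hY2 hγm) hlam
  obtain ⟨a, b, hb, hab⟩ := exists_lift (algebraMap (kA A) (Fk A N) mu * γ)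
  have ha : toK A N a ≠ 0 := by rw [← hab]; exact mul_ne_zero (mul_ne_zero hmu hγ0) hb
  have hkey : toK A N Y1 = toK A N Y2 * (algebraMap (kA A) (Fk A N) mu * γ) ^ m := by
    rw [div_eq_iff (mul_ne_zero hY2 hγm), map_pow] at hlam
    rw [hlam]
    ring
  have hL1 := toL_ne_zero hY1
  have hL2 := toL_ne_zero hY2
  have hLa := toL_ne_zero ha
  have hLb := toL_ne_zero hb
  have hord : ∀ P : Place Kb (FN N), P.ord (toL A N (Y1 * b ^ m) / toL A N (Y2 * a ^ m)) =
      m * ((D : Divisor Kb (FN N)) P + P.ord (toL A N b) - P.ord (toL A N a)) := by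
    intro P
    have h1 : (m • (D : Divisor Kb (FN N))) P = m * (D : Divisor Kb (FN N)) P := by
      rw [Finsupp.smul_apply, nsmul_eq_mul]
    rw [map_mul, map_mul, map_pow, map_pow, div_eq_mul_inv,
      P.ord_mul (mul_ne_zero hL1 (pow_ne_zero m hLb))
        (inv_ne_zero (mul_ne_zero hL2 (pow_ne_zero m hLa))), P.ord_inv,
      P.ord_mul hL1 (pow_ne_zero m hLb), P.ord_mul hL2 (pow_ne_zero m hLa), ord_pow, ord_pow]
    have h2 := hY P
    rw [h1] at h2
    linear_combination -h2
  refine ⟨Y1 * b ^ m, Y2 * a ^ m, ?_, ?_, fun P => ⟨_, hord P⟩, ?_⟩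
  · rw [map_mul, map_mul, map_pow, map_pow, hkey, ← hab]
    ring
  · rw [map_mul, map_pow]
    exact mul_ne_zero hY1 (pow_ne_zero m hb)
  · rintro ⟨u, hu⟩
    have hu0 : u ≠ 0 := by
      rintro rfl
      rw [zero_pow hm, map_mul, map_mul, map_pow, map_pow] at hu
      exact div_ne_zero (mul_ne_zero hL1 (pow_ne_zero m hLb))
        (mul_ne_zero hL2 (pow_ne_zero m hLa)) hu
    have hDprin : (D : Divisor Kb (FN N)) ∈ Divisor.principal (K := Kb) (F := FN N) := by
      refine ⟨u * toL A N a / toL A N b, div_ne_zero (mul_ne_zero hu0 hLa) hLb, fun P => ?_⟩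
      have h1 := hord P
      rw [hu, ord_pow] at h1
      have hm' : (m : ℤ) ≠ 0 := by exact_mod_cast hm
      have h2 := mul_left_cancel₀ hm' h1
      rw [div_eq_mul_inv, P.ord_mul (mul_ne_zero hu0 hLa) (inv_ne_zero hLb), P.ord_inv,
        P.ord_mul hu0 hLa, h2]
      ring
    exact (QuotientAddGroup.eq_zero_iff _).mpr (AddSubgroup.mem_addSubgroupOf.mpr hDprin)

end Red

end Reduce

open Reduce in
/-- **Step (0)**. -/
theorem reduce_main (N : ℕ) [NeZero N] (A : ValuationSubring Kb)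
    (h : ReductionInputsModL A N) (m : ℕ) (hm : m ≠ 0) (z : JZero N)
    (hmz : m • z = 0) (hz : reductionModL A N z = 0) :
    ∃ (Y Y' : LaurentSeries A) (hY : coeffMap A.subtype Y ∈ modularFunctionFieldBar N)
      (hY' : coeffMap A.subtype Y' ∈ modularFunctionFieldBar N),
      coeffMap (IsLocalRing.residue A) Y = coeffMap (IsLocalRing.residue A) Y' ∧
      coeffMap (IsLocalRing.residue A) Y ≠ 0 ∧
      (∀ P : Place Kb (FN N), (m : ℤ) ∣ P.ord ((⟨_, hY⟩ : FN N) / ⟨_, hY'⟩)) ∧
      ((∃ u : FN N, ((⟨_, hY⟩ : FN N) / ⟨_, hY'⟩) = u ^ m) → z = 0) := by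
  obtain ⟨Y, Y', h1, h2, h3, h4⟩ := reduce_core N A h m hm z hmz hz
  exact ⟨Y, Y', Y.2.1, Y'.2.1, congrArg Subtype.val h1, fun h => h2 (Subtype.ext h), h3, h4⟩

end Fermat.Agent.S18Lib
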