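import Fermat.Agent.S18.FinalH
import Fermat.Agent.S18.Reduce

set_option autoImplicit false

/-!
# S18 : top level assembly
-/

open ModularCurve AlgebraicCurve

namespace Fermat.Agent.S18Lib

open Fermat.Agent.S24Lib (Kb FN)

theorem top_main (N : ℕ) [NeZero N] {ℓ : ℕ}
    [Fact ℓ.Prime] (hℓN : ¬ ℓ ∣ N) (A : ValuationSubring (AlgebraicClosure ℚ))
    (hA : A.LiesOverPrime ℓ)
    (h : ModularCurve.ReductionInputsModL A N) (m : ℕ) (hm : ¬ ℓ ∣ m) (z : ModularCurve.JZero N)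
    (hmz : m • z = 0) (hz : ModularCurve.reductionModL A N z = 0) :
    z = 0 := by
  have hℓ : ℓ.Prime := Fact.out
  have hm0 : m ≠ 0 := by
    rintro rfl
    exact hm (dvd_zero _)
  obtain ⟨Y, Y', hY, hY', hres, hne, hord, hfin⟩ := reduce_main N A h m hm0 z hmz hz
  apply hfin
  set y : FN N := ⟨_, hY⟩ with hy
  set y' : FN N := ⟨_, hY'⟩ with hy'
  have hdvd := lvl_dvd_auxLevel ℓ N
  have hordM := lvl_ord_dvd hdvd m (y / y') hord
  rw [map_div₀] at hordM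
  obtain ⟨s, hs⟩ := fin_main (auxLevel ℓ N) hℓ A hA m hm
    (fun K0 hK0 => fin_H (auxLevel ℓ N) hℓ (lvl_not_dvd_auxLevel hℓ hℓN) (lvl_auxM0_dvd ℓ N) A hA
      K0 hK0)
    Y Y' (lvl_incl hdvd y) (lvl_incl hdvd y') (lvl_incl_coe hdvd y) (lvl_incl_coe hdvd y')
    hres hne hordM
  exact lvl_descend hℓ hm (y / y') s (by rw [map_div₀, hs])

end Fermat.Agent.S18Lib
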