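import Mathlib

set_option autoImplicit false

/-!
# S18 [Dict] : the valuation subring attached to a nonzero prime of a Dedekind domain
-/

open IsDedekindDomain

namespace Fermat.Agent.S18Lib

theorem dict_exists_valuationSubring {B F0 : Type*} [CommRing B] [IsDedekindDomain B] [Field F0]
    [Algebra B F0] [IsFractionRing B F0] (P : Ideal B) (hP : P.IsPrime) (hP0 : P ≠ ⊥) :
    ∃ V : ValuationSubring F0, (∀ b : B, algebraMap B F0 b ∈ V) ∧ V ≠ ⊤ ∧
      (∀ y ∈ V, ∃ b s : B, s ∉ P ∧ y * algebraMap B F0 s = algebraMap B F0 b) ∧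
      (∀ b ∈ P, (algebraMap B F0 b)⁻¹ ∉ V ∨ b = 0) := by
  let w : HeightOneSpectrum B := ⟨P, hP, hP0⟩
  have hinjB : Function.Injective (algebraMap B F0) := IsFractionRing.injective B F0
  have hinv : ∀ b : B, b ∈ P → b ≠ 0 →
      (algebraMap B F0 b)⁻¹ ∉ (w.valuation F0).valuationSubring := by
    intro b hb hb0 hmem
    have h1 : w.valuation F0 (algebraMap B F0 b) < 1 := (w.valuation_lt_one_iff_mem b).mpr hb
    have h2 : w.valuation F0 (algebraMap B F0 b)⁻¹ ≤ 1 := hmem
    have h3 : w.valuation F0 (algebraMap B F0 b) ≠ 0 := by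
      rw [Valuation.ne_zero_iff]
      exact fun h => hb0 (hinjB (by rw [h, map_zero]))
    rw [map_inv₀] at h2
    have h4 : 1 ≤ w.valuation F0 (algebraMap B F0 b) := by
      rwa [inv_le_one₀ (zero_lt_iff.mpr h3)] at h2
    exact absurd h1 (not_lt.mpr h4)
  refine ⟨(w.valuation F0).valuationSubring, fun b => w.valuation_le_one b, ?_, ?_, ?_⟩
  · intro h
    obtain ⟨b, hb, hb0⟩ := Submodule.exists_mem_ne_zero_of_ne_bot hP0
    exact hinv b hb hb0 (by rw [h]; trivial)
  · intro y hy
    rw [← HeightOneSpectrum.valuationSubringAtPrime_eq_valuationSubring] at hy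
    obtain ⟨a, s, hs, rfl⟩ := hy
    refine ⟨a, s, hs, ?_⟩
    have hs0 : algebraMap B F0 s ≠ 0 := by
      intro h
      apply hs
      rw [hinjB (h.trans (map_zero _).symm)]
      exact P.zero_mem
    rw [mul_assoc, inv_mul_cancel₀ hs0, mul_one]
  · intro b hb
    by_cases hb0 : b = 0
    · exact Or.inr hb0
    · exact Or.inl (hinv b hb hb0)

end Fermat.Agent.S18Lib
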