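/-
S18 library: the local hypothesis `hloc` of `lg_global` from the divisibility of the orders of `f`
(abstract form).
-/
import Fermat.Agent.S18.Dict

set_option autoImplicit false
set_option linter.unusedSectionVars false
set_option linter.unusedVariables false

namespace Fermat.Agent.S18Lib

section
variable {A0 F0 B : Type*} [CommRing A0] [Field F0] [Algebra A0 F0] (S : Subalgebra A0 F0)
  [CommRing B] [Algebra B F0]

/-- the prime of `B = S[1/ϖ]` attached to a prime `p` of `S` not containing `ϖ`. -/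
def abslocP (ϖ : F0) (hϖS : ϖ ∈ S) (hBS : ∀ b : B, ∃ n : ℕ, ϖ ^ n * algebraMap B F0 b ∈ S)
    (p : Ideal S) : Ideal B where
  carrier := {z | ∃ n : ℕ, ∃ h : ϖ ^ n * algebraMap B F0 z ∈ S, (⟨_, h⟩ : S) ∈ p}
  zero_mem' := ⟨0, by rw [map_zero, mul_zero]; exact S.zero_mem, by
    convert p.zero_mem
    rw [map_zero, mul_zero]
    rfl⟩
  add_mem' := by
    rintro z1 z2 ⟨n1, h1, hp1⟩ ⟨n2, h2, hp2⟩
    have e : ϖ ^ (n1 + n2) * algebraMap B F0 (z1 + z2)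
        = ϖ ^ n2 * (ϖ ^ n1 * algebraMap B F0 z1) + ϖ ^ n1 * (ϖ ^ n2 * algebraMap B F0 z2) := by
      rw [map_add, pow_add]; ring
    refine ⟨n1 + n2, ?_, ?_⟩
    · rw [e]
      exact S.add_mem (S.mul_mem (S.pow_mem hϖS _) h1) (S.mul_mem (S.pow_mem hϖS _) h2)
    · have := p.add_mem (p.mul_mem_left (⟨ϖ ^ n2, S.pow_mem hϖS _⟩ : S) hp1)
        (p.mul_mem_left (⟨ϖ ^ n1, S.pow_mem hϖS _⟩ : S) hp2)
      convert this using 1
      exact Subtype.ext e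
  smul_mem' := by
    rintro c z ⟨n, h, hp⟩
    obtain ⟨k, hk⟩ := hBS c
    have e : ϖ ^ (k + n) * algebraMap B F0 (c • z)
        = (ϖ ^ k * algebraMap B F0 c) * (ϖ ^ n * algebraMap B F0 z) := by
      rw [smul_eq_mul, map_mul, pow_add]; ring
    refine ⟨k + n, ?_, ?_⟩
    · rw [e]; exact S.mul_mem hk h
    · have := p.mul_mem_left (⟨_, hk⟩ : S) hp
      convert this using 1
      exact Subtype.ext e

theorem mem_abslocP {ϖ : F0} {hϖS : ϖ ∈ S} {hBS : ∀ b : B, ∃ n : ℕ, ϖ ^ n * algebraMap B F0 b ∈ S}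
    {p : Ideal S} {z : B} : z ∈ abslocP S ϖ hϖS hBS p ↔
      ∃ n : ℕ, ∃ h : ϖ ^ n * algebraMap B F0 z ∈ S, (⟨_, h⟩ : S) ∈ p := Iff.rfl

theorem absloc_pow_not_mem {ϖ : F0} (hϖS : ϖ ∈ S) {p : Ideal S} (hp : p.IsPrime)
    (hϖp : (⟨ϖ, hϖS⟩ : S) ∉ p) (n : ℕ) : (⟨ϖ ^ n, S.pow_mem hϖS n⟩ : S) ∉ p := by
  intro h
  have : (⟨ϖ ^ n, S.pow_mem hϖS n⟩ : S) = (⟨ϖ, hϖS⟩ : S) ^ n := Subtype.ext rfl
  rw [this] at h
  exact hϖp (hp.mem_of_pow_mem n h)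

/-- membership does not depend on the exponent. -/
theorem absloc_mem_of_mem {ϖ : F0} (hϖS : ϖ ∈ S)
    (hBS : ∀ b : B, ∃ n : ℕ, ϖ ^ n * algebraMap B F0 b ∈ S)
    {p : Ideal S} (hp : p.IsPrime) (hϖp : (⟨ϖ, hϖS⟩ : S) ∉ p) {z : B}
    (hz : z ∈ abslocP S ϖ hϖS hBS p) (k : ℕ) (hk : ϖ ^ k * algebraMap B F0 z ∈ S) :
    (⟨_, hk⟩ : S) ∈ p := by
  obtain ⟨n, h, hpn⟩ := hz
  have h1 : (⟨ϖ ^ n, S.pow_mem hϖS n⟩ : S) * (⟨_, hk⟩ : S) ∈ p := by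
    have := p.mul_mem_left (⟨ϖ ^ k, S.pow_mem hϖS k⟩ : S) hpn
    convert this using 1
    apply Subtype.ext
    show ϖ ^ n * (ϖ ^ k * algebraMap B F0 z) = ϖ ^ k * (ϖ ^ n * algebraMap B F0 z)
    ring
  exact (hp.mem_or_mem h1).resolve_left (absloc_pow_not_mem S hϖS hp hϖp n)

theorem abslocP_isPrime {ϖ : F0} (hϖS : ϖ ∈ S)
    (hBS : ∀ b : B, ∃ n : ℕ, ϖ ^ n * algebraMap B F0 b ∈ S)
    {p : Ideal S} (hp : p.IsPrime) (hϖp : (⟨ϖ, hϖS⟩ : S) ∉ p) :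
    (abslocP S ϖ hϖS hBS p).IsPrime := by
  refine ⟨?_, ?_⟩
  · intro htop
    have h1 : (1 : B) ∈ abslocP S ϖ hϖS hBS p := htop ▸ Submodule.mem_top
    have h2 := absloc_mem_of_mem S hϖS hBS hp hϖp h1 0
      (by rw [pow_zero, one_mul, map_one]; exact S.one_mem)
    apply hp.ne_top
    rw [Ideal.eq_top_iff_one]
    convert h2 using 1
    apply Subtype.ext
    show (1 : F0) = ϖ ^ 0 * algebraMap B F0 1
    rw [pow_zero, one_mul, map_one]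
  · intro z1 z2 h12
    obtain ⟨k1, hk1⟩ := hBS z1
    obtain ⟨k2, hk2⟩ := hBS z2
    have e : ϖ ^ (k1 + k2) * algebraMap B F0 (z1 * z2)
        = (ϖ ^ k1 * algebraMap B F0 z1) * (ϖ ^ k2 * algebraMap B F0 z2) := by
      rw [map_mul, pow_add]; ring
    have h3 := absloc_mem_of_mem S hϖS hBS hp hϖp h12 (k1 + k2)
      (by rw [e]; exact S.mul_mem hk1 hk2)
    have h4 : (⟨_, hk1⟩ : S) * (⟨_, hk2⟩ : S) ∈ p := by
      convert h3 using 1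
      exact Subtype.ext e.symm
    rcases hp.mem_or_mem h4 with h | h
    · exact Or.inl ⟨k1, hk1, h⟩
    · exact Or.inr ⟨k2, hk2, h⟩

end

/-- **`hloc`, abstract form.** -/
theorem absloc_main {A0 F0 B : Type*} [CommRing A0] [Field F0] [Algebra A0 F0]
    (S : Subalgebra A0 F0) [CommRing B] [IsDedekindDomain B] [Algebra B F0] [IsFractionRing B F0]
    (ϖ : F0) (hϖS : ϖ ∈ S)
    (hSB : ∀ s ∈ S, ∃ b : B, algebraMap B F0 b = s)
    (hBS : ∀ b : B, ∃ n : ℕ, ϖ ^ n * algebraMap B F0 b ∈ S)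
    (hfr : ∀ z : F0, ∃ a ∈ S, ∃ b ∈ S, b ≠ 0 ∧ z = a / b)
    (m : ℕ) (hm0 : 0 < m) (f : F0)
    (hV : ∀ V : ValuationSubring F0, (∀ b : B, algebraMap B F0 b ∈ V) → V ≠ ⊤ →
      ∃ (τ : F0) (k : ℤ), τ ≠ 0 ∧ f / τ ^ ((m : ℤ) * k) ∈ V ∧ (f / τ ^ ((m : ℤ) * k))⁻¹ ∈ V)
    (y y' : S) (hy : y ≠ 0) (hy' : y' ≠ 0) (hf : f = (y : F0) / y')
    (p : Ideal S) (hp : p.IsPrime) (hϖp : (⟨ϖ, hϖS⟩ : S) ∉ p) :
    ∃ a b s t : S, b ≠ 0 ∧ s ∉ p ∧ t ∉ p ∧ y * y' ^ (m - 1) * t * b ^ m = a ^ m * s := by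
  have hinjB : Function.Injective (algebraMap B F0) := IsFractionRing.injective B F0
  have hyF : (y : F0) ≠ 0 := fun h => hy (Subtype.ext h)
  have hy'F : (y' : F0) ≠ 0 := fun h => hy' (Subtype.ext h)
  have hf0 : f ≠ 0 := by rw [hf]; exact div_ne_zero hyF hy'F
  by_cases hp0 : p = ⊥
  · refine ⟨1, 1, y * y' ^ (m - 1), 1, one_ne_zero, ?_, ?_, by ring⟩
    · rw [hp0, Ideal.mem_bot]
      exact mul_ne_zero hy (pow_ne_zero _ hy')
    · rw [hp0, Ideal.mem_bot]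
      exact one_ne_zero
  set P := abslocP S ϖ hϖS hBS p with hPdef
  have hPp : P.IsPrime := abslocP_isPrime S hϖS hBS hp hϖp
  have hP0 : P ≠ ⊥ := by
    obtain ⟨s, hs, hs0⟩ := Submodule.exists_mem_ne_zero_of_ne_bot hp0
    obtain ⟨b, hb⟩ := hSB s s.2
    intro hbot
    have hbP : b ∈ P := by
      refine ⟨0, by rw [pow_zero, one_mul, hb]; exact s.2, ?_⟩
      convert hs using 1
      apply Subtype.ext
      show ϖ ^ 0 * algebraMap B F0 b = s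
      rw [pow_zero, one_mul, hb]
    rw [hbot, Ideal.mem_bot] at hbP
    apply hs0
    apply Subtype.ext
    rw [← hb, hbP, map_zero]
    rfl
  obtain ⟨V, hBV, hVtop, hVloc, -⟩ := dict_exists_valuationSubring (F0 := F0) P hPp hP0
  obtain ⟨τ, k, hτ, hg1, hg2⟩ := hV V hBV hVtop
  set g := f / τ ^ ((m : ℤ) * k) with hg
  have hτk : τ ^ ((m : ℤ) * k) ≠ 0 := zpow_ne_zero _ hτ
  have hg0 : g ≠ 0 := div_ne_zero hf0 hτk
  obtain ⟨b1, s1, hs1, e1⟩ := hVloc g hg1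
  obtain ⟨b2, s2, hs2, e2⟩ := hVloc g⁻¹ hg2
  have hb1 : b1 ∉ P := by
    intro hb
    have h12 : b1 * b2 = s1 * s2 := by
      apply hinjB
      rw [map_mul, map_mul, ← e1, ← e2]
      field_simp
    have : s1 * s2 ∈ P := h12 ▸ P.mul_mem_right _ hb
    rcases hPp.mem_or_mem this with h | h
    · exact hs1 h
    · exact hs2 h
  obtain ⟨n1, hn1⟩ := hBS b1
  obtain ⟨n2, hn2⟩ := hBS s1
  have hβ : (⟨_, hn1⟩ : S) ∉ p := fun h => hb1 ⟨n1, hn1, h⟩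
  have hσ : (⟨_, hn2⟩ : S) ∉ p := fun h => hs1 ⟨n2, hn2, h⟩
  obtain ⟨a0, ha0, b0, hb0, hb00, hτab⟩ := hfr (τ ^ k)
  have hϖ0 : ϖ ≠ 0 := by
    rintro rfl
    apply hϖp
    convert p.zero_mem
    rfl
  have hs1F : algebraMap B F0 s1 ≠ 0 := by
    intro h
    apply hs1
    have : s1 = 0 := hinjB (by rw [h, map_zero])
    rw [this]; exact P.zero_mem
  refine ⟨⟨a0, ha0⟩ * y', ⟨b0, hb0⟩,
    (⟨_, hn1⟩ : S) * ⟨ϖ ^ n2, S.pow_mem hϖS n2⟩, (⟨_, hn2⟩ : S) * ⟨ϖ ^ n1, S.pow_mem hϖS n1⟩,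
    fun h => hb00 (congrArg Subtype.val h), ?_, ?_, ?_⟩
  · intro h
    rcases hp.mem_or_mem h with h | h
    · exact hβ h
    · exact absloc_pow_not_mem S hϖS hp hϖp n2 h
  · intro h
    rcases hp.mem_or_mem h with h | h
    · exact hσ h
    · exact absloc_pow_not_mem S hϖS hp hϖp n1 h
  · apply Subtype.ext
    show (y : F0) * (y' : F0) ^ (m - 1) * ((ϖ ^ n2 * algebraMap B F0 s1) * ϖ ^ n1) * b0 ^ m
      = (a0 * (y' : F0)) ^ m * ((ϖ ^ n1 * algebraMap B F0 b1) * ϖ ^ n2)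
    have hyf : (y : F0) = f * y' := by rw [hf]; field_simp
    have hfg : f = g * (τ ^ k) ^ m := by
      rw [hg, ← zpow_natCast (τ ^ k) m, ← zpow_mul, mul_comm k (m : ℤ)]
      field_simp
    obtain ⟨j, rfl⟩ : ∃ j, m = j + 1 := ⟨m - 1, by omega⟩
    rw [Nat.add_sub_cancel, ← e1, hyf, hfg, hτab, div_pow, mul_pow]
    field_simp
    ring

end Fermat.Agent.S18Lib
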