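import Fermat.Agent.S18.ChartDefs2

set_option autoImplicit false
set_option linter.style.haveILetI false

open Polynomial IntermediateField

namespace Fermat.Agent.S18Lib

section
variable {A0 K0 F0 : Type} [CommRing A0] [IsDomain A0] [IsDiscreteValuationRing A0]
    [Field K0] [Algebra A0 K0] [IsFractionRing A0 K0]
    [Field F0] [Algebra K0 F0] [Algebra A0 F0] [IsScalarTower A0 K0 F0]

omit [IsDomain A0] [IsDiscreteValuationRing A0] [IsFractionRing A0 K0] in
theorem abs_mem_up {t y : F0} (hy : y ∈ Algebra.adjoin A0 ({t} : Set F0)) :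
    y ∈ Algebra.adjoin K0 ({t} : Set F0) := by
  induction hy using Algebra.adjoin_induction with
  | mem y hy => exact Algebra.subset_adjoin hy
  | algebraMap a =>
    rw [IsScalarTower.algebraMap_apply A0 K0 F0]
    exact Subalgebra.algebraMap_mem _ _
  | add y z _ _ hy hz => exact add_mem hy hz
  | mul y z _ _ hy hz => exact mul_mem hy hz

/-- the inclusion `R → A`. -/
def absIncl {A0 K0 F0 : Type} [CommRing A0] [Field K0] [Field F0]
    [Algebra K0 F0] [Algebra A0 F0] (R : Subalgebra A0 F0) (A : Subalgebra K0 F0)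
    (h : ∀ y ∈ R, y ∈ A) : R →+* A where
  toFun y := ⟨y, h y y.2⟩
  map_one' := rfl
  map_mul' _ _ := rfl
  map_zero' := rfl
  map_add' _ _ := rfl

omit [IsDomain A0] [IsDiscreteValuationRing A0] [IsFractionRing A0 K0] [Algebra A0 K0]
  [IsScalarTower A0 K0 F0] in
theorem abs_int_up' (R : Subalgebra A0 F0) (A : Subalgebra K0 F0)
    (h : ∀ y ∈ R, y ∈ A) {y : F0} (hy : IsIntegral R y) : IsIntegral A y := by
  have := IsIntegral.map_of_comp_eq (absIncl R A h) (RingHom.id F0) (by ext; rfl) hy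
  simpa using this

omit [IsDomain A0] [IsDiscreteValuationRing A0] [IsFractionRing A0 K0] in
theorem abs_int_up {t y : F0} (hy : IsIntegral (Algebra.adjoin A0 ({t} : Set F0)) y) :
    IsIntegral (Algebra.adjoin K0 ({t} : Set F0)) y :=
  abs_int_up' _ _ (fun _ h => abs_mem_up h) hy

theorem abs_clear {π : A0} (hπ : Irreducible π) {t : F0} (c : F0)
    (hc : c ∈ Algebra.adjoin K0 ({t} : Set F0)) :
    ∃ n : ℕ, ∀ k, n ≤ k → algebraMap A0 F0 π ^ k * c ∈ Algebra.adjoin A0 ({t} : Set F0) := by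
  induction hc using Algebra.adjoin_induction with
  | mem y hy =>
    refine ⟨0, fun k _ => ?_⟩
    exact mul_mem (pow_mem (Subalgebra.algebraMap_mem _ _) _) (Algebra.subset_adjoin hy)
  | algebraMap a =>
    obtain ⟨r, s, hs, rfl⟩ := IsFractionRing.div_surjective (A := A0) a
    have hs0 : s ≠ 0 := nonZeroDivisors.ne_zero hs
    obtain ⟨n, u, hu⟩ := IsDiscreteValuationRing.eq_unit_mul_pow_irreducible hs0 hπ
    refine ⟨n, fun k hk => ?_⟩
    have hinj : Function.Injective (algebraMap A0 F0) := by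
      rw [IsScalarTower.algebraMap_eq A0 K0 F0]
      exact (algebraMap K0 F0).injective.comp (IsFractionRing.injective A0 K0)
    have hπ0 : algebraMap A0 F0 π ≠ 0 := by
      intro h0
      exact hπ.ne_zero (hinj (by rw [h0, map_zero]))
    have hu0 : algebraMap A0 F0 (u : A0) ≠ 0 := by
      intro h0
      exact u.ne_zero (hinj (by rw [h0, map_zero]))
    have : algebraMap A0 F0 π ^ k * algebraMap K0 F0 (algebraMap A0 K0 r / algebraMap A0 K0 s) =
        algebraMap A0 F0 (π ^ (k - n) * r * ((u⁻¹ : A0ˣ) : A0)) := by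
      have h1 : algebraMap A0 F0 ((u⁻¹ : A0ˣ) : A0) = (algebraMap A0 F0 (u : A0))⁻¹ := by
        symm
        apply inv_eq_of_mul_eq_one_left
        rw [← map_mul]; simp
      obtain ⟨j, rfl⟩ := Nat.exists_eq_add_of_le hk
      rw [map_div₀, ← IsScalarTower.algebraMap_apply, ← IsScalarTower.algebraMap_apply, hu,
        map_mul, map_mul, map_mul, map_pow, map_pow, h1, Nat.add_sub_cancel_left, pow_add]
      field_simp
    rw [this]
    exact Subalgebra.algebraMap_mem _ _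
  | add y z _ _ hy hz =>
    obtain ⟨n1, h1⟩ := hy
    obtain ⟨n2, h2⟩ := hz
    refine ⟨max n1 n2, fun k hk => ?_⟩
    rw [mul_add]
    exact add_mem (h1 k (le_trans (le_max_left _ _) hk)) (h2 k (le_trans (le_max_right _ _) hk))
  | mul y z _ _ hy hz =>
    obtain ⟨n1, h1⟩ := hy
    obtain ⟨n2, h2⟩ := hz
    refine ⟨n1 + n2, fun k hk => ?_⟩
    obtain ⟨j, rfl⟩ := Nat.exists_eq_add_of_le hk
    have : algebraMap A0 F0 π ^ (n1 + n2 + j) * (y * z) =
        (algebraMap A0 F0 π ^ (n1 + j) * y) * (algebraMap A0 F0 π ^ n2 * z) := by ring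
    rw [this]
    exact mul_mem (h1 _ (by omega)) (h2 _ le_rfl)

omit [IsDomain A0] [IsDiscreteValuationRing A0] [IsFractionRing A0 K0] [Algebra A0 K0]
  [IsScalarTower A0 K0 F0] in
theorem abs_int_down' (R : Subalgebra A0 F0) (A : Subalgebra K0 F0)
    (h : ∀ y ∈ R, y ∈ A) (ϖ : F0) (hϖ : ϖ ∈ R)
    (hcl : ∀ c ∈ A, ∃ n : ℕ, ∀ k, n ≤ k → ϖ ^ k * c ∈ R) {b : F0} (hb : IsIntegral A b) :
    ∃ n : ℕ, ∀ k, n ≤ k → IsIntegral R (ϖ ^ k * b) := by
  classical
  obtain ⟨p, hp, hpb⟩ := hb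
  choose! nn hnn using hcl
  refine ⟨(Finset.range p.natDegree).sup (fun i => nn (p.coeff i : F0)), fun k hk => ?_⟩
  set s : A := ⟨ϖ ^ k, h _ (pow_mem hϖ k)⟩ with hs
  have h1 : eval₂ (algebraMap A F0) (algebraMap A F0 s * b) (p.scaleRoots s) = 0 :=
    scaleRoots_eval₂_eq_zero _ hpb
  have h2 : (p.scaleRoots s).Monic := (monic_scaleRoots_iff s).2 hp
  have h3 : p.scaleRoots s ∈ lifts (absIncl R A h) := by
    rw [lifts_iff_coeff_lifts]
    intro i
    rw [coeff_scaleRoots]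
    rcases lt_trichotomy i p.natDegree with hi | hi | hi
    · have h4 : nn (p.coeff i : F0) ≤ k * (p.natDegree - i) := by
        have h5 : nn (p.coeff i : F0) ≤ k :=
          le_trans (Finset.le_sup (f := fun i => nn (p.coeff i : F0)) (Finset.mem_range.2 hi)) hk
        have h6 : 1 ≤ p.natDegree - i := by omega
        calc nn (p.coeff i : F0) ≤ k * 1 := by simpa using h5
          _ ≤ k * (p.natDegree - i) := Nat.mul_le_mul_left _ h6
      refine ⟨⟨_, hnn _ (p.coeff i).2 _ h4⟩, ?_⟩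
      apply Subtype.ext
      show ϖ ^ (k * (p.natDegree - i)) * (p.coeff i : F0) = (p.coeff i : F0) * (ϖ ^ k) ^ (p.natDegree - i)
      rw [pow_mul, mul_comm]
    · refine ⟨1, ?_⟩
      rw [hi, map_one, Nat.sub_self, pow_zero, mul_one]
      exact hp.coeff_natDegree.symm
    · refine ⟨0, ?_⟩
      rw [map_zero, coeff_eq_zero_of_natDegree_lt hi, zero_mul]
  obtain ⟨q, hq, -, hqm⟩ := lifts_and_natDegree_eq_and_monic h3 h2
  refine ⟨q, hqm, ?_⟩
  rw [← hq, eval₂_map] at h1
  exact h1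

theorem abs_int_down {π : A0} (hπ : Irreducible π) {t b : F0}
    (hb : IsIntegral (Algebra.adjoin K0 ({t} : Set F0)) b) :
    ∃ n : ℕ, ∀ k, n ≤ k → IsIntegral (Algebra.adjoin A0 ({t} : Set F0)) (algebraMap A0 F0 π ^ k * b) :=
  abs_int_down' _ _ (fun _ h => abs_mem_up h) _ (Subalgebra.algebraMap_mem _ _)
    (fun c hc => abs_clear hπ c hc) hb

theorem abs_K0_mem {π : A0} (hπ : Irreducible π) (V : ValuationSubring F0)
    (hA : ∀ a : A0, algebraMap A0 F0 a ∈ V) (hπV : (algebraMap A0 F0 π)⁻¹ ∈ V) (a : K0) :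
    algebraMap K0 F0 a ∈ V := by
  obtain ⟨r, s, hs, rfl⟩ := IsFractionRing.div_surjective (A := A0) a
  have hs0 : s ≠ 0 := nonZeroDivisors.ne_zero hs
  obtain ⟨n, u, hu⟩ := IsDiscreteValuationRing.eq_unit_mul_pow_irreducible hs0 hπ
  rw [map_div₀, ← IsScalarTower.algebraMap_apply, ← IsScalarTower.algebraMap_apply, hu, map_mul,
    map_pow, div_eq_mul_inv, mul_inv, ← inv_pow]
  refine V.mul_mem _ _ (hA r) (V.mul_mem _ _ ?_ (V.pow_mem hπV n))
  have : (algebraMap A0 F0 (u : A0))⁻¹ = algebraMap A0 F0 ((u⁻¹ : A0ˣ) : A0) := by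
    apply inv_eq_of_mul_eq_one_left
    rw [← map_mul]; simp
  rw [this]
  exact hA _

omit [IsDomain A0] [IsDiscreteValuationRing A0] [Field K0] [Algebra A0 K0] [IsFractionRing A0 K0] [Algebra K0 F0] [IsScalarTower A0 K0 F0] in
/-- `π` is prime in a subalgebra `S ≤ Ov` with `S ∩ π Ov = π S`. -/
theorem abs_prime {π : A0} (S : Subalgebra A0 F0) (Ov : ValuationSubring F0)
    (hπ0 : algebraMap A0 F0 π ≠ 0)
    (hle : ∀ y ∈ S, y ∈ Ov) (hπ1 : (algebraMap A0 F0 π)⁻¹ ∉ Ov)
    (hπ2 : ∀ y ∈ Ov, y⁻¹ ∉ Ov → y / algebraMap A0 F0 π ∈ Ov)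
    (hdiv : ∀ y ∈ S, y / algebraMap A0 F0 π ∈ Ov → y / algebraMap A0 F0 π ∈ S) :
    Prime (algebraMap A0 S π) := by
  have hdvd : ∀ a : S, algebraMap A0 S π ∣ a ↔ (a : F0) / algebraMap A0 F0 π ∈ Ov := by
    intro a
    constructor
    · rintro ⟨c, rfl⟩
      have : ((algebraMap A0 S π * c : S) : F0) / algebraMap A0 F0 π = c := by
        rw [Subalgebra.coe_mul, Subalgebra.coe_algebraMap, mul_div_cancel_left₀ _ hπ0]
      rw [this]
      exact hle _ c.2
    · intro h
      refine ⟨⟨_, hdiv _ a.2 h⟩, ?_⟩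
      apply Subtype.ext
      rw [Subalgebra.coe_mul, Subalgebra.coe_algebraMap, mul_div_cancel₀ _ hπ0]
  refine ⟨?_, ?_, ?_⟩
  · intro h0
    apply hπ0
    have := congrArg (Subtype.val) h0
    simpa using this
  · intro hu
    obtain ⟨c, hc⟩ := hu.exists_right_inv
    apply hπ1
    have h1 : algebraMap A0 F0 π * (c : F0) = 1 := by
      have := congrArg (Subtype.val) hc
      simpa using this
    rw [inv_eq_of_mul_eq_one_right h1]
    exact hle _ c.2
  · intro a b hab
    rw [hdvd] at hab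
    rw [hdvd, hdvd]
    by_contra hcon
    push Not at hcon
    obtain ⟨ha, hb⟩ := hcon
    have ha' : (a : F0)⁻¹ ∈ Ov := by
      by_contra hh
      exact ha (hπ2 _ (hle _ a.2) hh)
    have hb' : (b : F0)⁻¹ ∈ Ov := by
      by_contra hh
      exact hb (hπ2 _ (hle _ b.2) hh)
    have ha0 : (a : F0) ≠ 0 := by
      intro h0
      apply ha
      rw [h0, zero_div]
      exact Ov.zero_mem
    have hb0 : (b : F0) ≠ 0 := by
      intro h0
      apply hb
      rw [h0, zero_div]
      exact Ov.zero_mem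
    apply hπ1
    have : (algebraMap A0 F0 π)⁻¹ = ((a * b : S) : F0) / algebraMap A0 F0 π * ((a : F0)⁻¹ * (b : F0)⁻¹) := by
      rw [Subalgebra.coe_mul]
      field_simp
    rw [this]
    exact Ov.mul_mem _ _ hab (Ov.mul_mem _ _ ha' hb')

end
end Fermat.Agent.S18Lib
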