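import Mathlib

set_option autoImplicit false

/-!
# S18 : common definitions for the abstract layer (charts of an arithmetic surface over a DVR)
-/

open Polynomial IntermediateField

namespace Fermat.Agent.S18Lib

/-- The chart ring: integral closure of `A0[t]` in `F0`, as an `A0`-subalgebra of `F0`. -/
def chartS (A0 : Type) {F0 : Type} [CommRing A0] [Field F0] [Algebra A0 F0] (t : F0) :
    Subalgebra A0 F0 :=
  (integralClosure (Algebra.adjoin A0 ({t} : Set F0)) F0).restrictScalars A0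

theorem mem_chartS {A0 F0 : Type} [CommRing A0] [Field F0] [Algebra A0 F0] {t y : F0} :
    y ∈ chartS A0 t ↔ IsIntegral (Algebra.adjoin A0 ({t} : Set F0)) y := Iff.rfl

/-- The overlap ring: integral closure of `A0[t, t⁻¹]` in `F0`. -/
def chartS12 (A0 : Type) {F0 : Type} [CommRing A0] [Field F0] [Algebra A0 F0] (t : F0) :
    Subalgebra A0 F0 :=
  (integralClosure (Algebra.adjoin A0 ({t, t⁻¹} : Set F0)) F0).restrictScalars A0

theorem mem_chartS12 {A0 F0 : Type} [CommRing A0] [Field F0] [Algebra A0 F0] {t y : F0} :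
    y ∈ chartS12 A0 t ↔ IsIntegral (Algebra.adjoin A0 ({t, t⁻¹} : Set F0)) y := Iff.rfl

/-- (GE1)-(GE3): `Ov` is a DVR of `F0` with uniformizer `π`, inducing the Gauss valuation on
`K0(t)` and integral over `A0[t]_(π)`. -/
structure GEData {A0 F0 : Type} [CommRing A0] [Field F0] [Algebra A0 F0]
    (π : A0) (t : F0) (Ov : ValuationSubring F0) : Prop where
  hA : ∀ a : A0, algebraMap A0 F0 a ∈ Ov
  ht : t ∈ Ov
  hπ1 : (algebraMap A0 F0 π)⁻¹ ∉ Ov
  hπ2 : ∀ y ∈ Ov, y⁻¹ ∉ Ov → y / algebraMap A0 F0 π ∈ Ov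
  hG : ∀ P : A0[X], aeval t P / algebraMap A0 F0 π ∈ Ov → C π ∣ P
  hI : ∀ y ∈ Ov, ∃ Q : A0[X], ¬ C π ∣ Q ∧
      IsIntegral (Algebra.adjoin A0 ({t} : Set F0)) (aeval t Q * y)

/-- (GE4): the trace form of `F0 / E` (`E = K0(t)`) is non degenerate mod `π` on `Ov`. -/
def GETrace {A0 K0 F0 : Type} [CommRing A0] [Field K0] [Field F0] [Algebra K0 F0] [Algebra A0 F0]
    (π : A0) (E : IntermediateField K0 F0) (Ov : ValuationSubring F0) : Prop :=
  ∀ y ∈ Ov, (∀ z ∈ Ov, algebraMap E F0 (Algebra.trace E F0 (y * z)) /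
      algebraMap A0 F0 π ∈ Ov) → y / algebraMap A0 F0 π ∈ Ov

/-- (HU): characteristic zero places of `F0 / K0` with `t` finite and away from the branch
values `Br` are unramified over `K0(t)`: some polynomial in `t` is a uniformizer. -/
def HUnram {A0 : Type} (K0 : Type) {F0 : Type} [CommRing A0] [Field K0] [Field F0] [Algebra K0 F0]
    [Algebra A0 F0] (t : F0) (Br : Finset A0) : Prop :=
  ∀ V : ValuationSubring F0, (∀ a : K0, algebraMap K0 F0 a ∈ V) → V ≠ ⊤ → t ∈ V →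
      (∀ b ∈ Br, (t - algebraMap A0 F0 b)⁻¹ ∈ V) →
      ∃ g : K0[X], aeval t g ∈ V ∧ (aeval t g)⁻¹ ∉ V ∧ ∀ y ∈ V, y⁻¹ ∉ V → y / aeval t g ∈ V

/-- (HV): all orders of `f` at the places of `F0 / K0` are divisible by `m`. -/
def HVal (K0 : Type) {F0 : Type} [Field K0] [Field F0] [Algebra K0 F0] (m : ℕ) (f : F0) : Prop :=
  ∀ V : ValuationSubring F0, (∀ a : K0, algebraMap K0 F0 a ∈ V) → V ≠ ⊤ →
      ∃ (t : F0) (k : ℤ), t ≠ 0 ∧ f / t ^ ((m : ℤ) * k) ∈ V ∧ (f / t ^ ((m : ℤ) * k))⁻¹ ∈ V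

end Fermat.Agent.S18Lib
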