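/-
S18 library: "constants" lemma.  An element of a field `F ⊇ K0` which is integral over `K0[x]` and
over `K0[x⁻¹]` is algebraic over `K0`.
-/
import Mathlib

set_option autoImplicit false

open Polynomial IntermediateField

namespace Fermat.Agent.S18Lib

section ConstField

variable {K0 F : Type*} [Field K0] [Field F] [Algebra K0 F]

/-- `K0[x] ∩ K0[x⁻¹] = K0` for `x` transcendental. -/
theorem const_inter (x : F) (hx : Transcendental K0 x) (c : F)
    (h1 : c ∈ Algebra.adjoin K0 ({x} : Set F)) (h2 : c ∈ Algebra.adjoin K0 ({x⁻¹} : Set F)) :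
    c ∈ Set.range (algebraMap K0 F) := by
  have hx0 : x ≠ 0 := by
    rintro rfl
    exact hx (isAlgebraic_zero)
  obtain ⟨p, rfl⟩ := Algebra.adjoin_mem_exists_aeval _ _ h1
  obtain ⟨q, hq⟩ := Algebra.adjoin_mem_exists_aeval _ _ h2
  set N := q.natDegree with hN
  letI : Invertible (x⁻¹) := invertibleOfNonzero (inv_ne_zero hx0)
  have key := eval₂_reflect_mul_pow (algebraMap K0 F) (x⁻¹) N q le_rfl
  have hinv : ⅟(x⁻¹) = x := by
    rw [invOf_eq_inv, inv_inv]
  rw [hinv] at key
  have h3 : aeval x (p * X ^ N) = aeval x (reflect N q) := by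
    rw [map_mul, map_pow, aeval_X, ← hq, aeval_def, aeval_def, ← key, mul_assoc, ← mul_pow,
      inv_mul_cancel₀ hx0, one_pow, mul_one]
  have h4 : p * X ^ N = reflect N q := (transcendental_iff_injective.mp hx) h3
  by_cases hp : p = 0
  · subst hp
    exact ⟨0, by simp⟩
  have h5 : (p * X ^ N).natDegree = p.natDegree + N := by
    rw [natDegree_mul hp (pow_ne_zero _ X_ne_zero), natDegree_X_pow]
  have h6 : (reflect N q).natDegree ≤ N := by
    have := natDegree_reflect_le (N := N) (p := q)
    rwa [← hN, max_self] at this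
  rw [← h4, h5] at h6
  have h7 : p.natDegree = 0 := by omega
  rw [natDegree_eq_zero] at h7
  obtain ⟨a, rfl⟩ := h7
  exact ⟨a, by simp⟩

theorem const_adjoin_inv (x : F) : K0⟮x⁻¹⟯ = K0⟮x⟯ := by
  apply le_antisymm
  · rw [adjoin_simple_le_iff]
    exact inv_mem (mem_adjoin_simple_self K0 x)
  · rw [adjoin_simple_le_iff]
    have := inv_mem (mem_adjoin_simple_self K0 (x⁻¹))
    rwa [inv_inv] at this

open IntermediateField.algebraAdjoinAdjoin in
/-- coefficients (in `F`) of the minimal polynomial over `K0(x)` lie in `K0[x]`. -/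
theorem const_coeff_mem (x y : F) (hx : Transcendental K0 x)
    (h1 : IsIntegral (Algebra.adjoin K0 ({x} : Set F)) y) (i : ℕ) :
    ((minpoly K0⟮x⟯ y).map (algebraMap K0⟮x⟯ F)).coeff i ∈ Algebra.adjoin K0 ({x} : Set F) := by
  have : IsIntegrallyClosed (Algebra.adjoin K0 ({x} : Set F)) :=
    IsIntegrallyClosed.of_equiv (algEquivOfTranscendental K0 x hx).toRingEquiv
  rw [minpoly.isIntegrallyClosed_eq_field_fractions' K0⟮x⟯ h1, coeff_map, coeff_map]
  exact ((minpoly (Algebra.adjoin K0 ({x} : Set F)) y).coeff i).2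

theorem const_minpoly_congr (y : F) (K K' : IntermediateField K0 F) (h : K = K') :
    (minpoly K y).map (algebraMap K F) = (minpoly K' y).map (algebraMap K' F) := by
  subst h
  rfl

/-- An element integral over `K0[x]` and over `K0[x⁻¹]` is algebraic over `K0`. -/
theorem const_algebraic (x y : F)
    (h1 : IsIntegral (Algebra.adjoin K0 ({x} : Set F)) y)
    (h2 : IsIntegral (Algebra.adjoin K0 ({x⁻¹} : Set F)) y) : IsAlgebraic K0 y := by
  by_cases hx : Transcendental K0 x
  · have hxi : Transcendental K0 x⁻¹ := by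
      intro h
      apply hx
      have := h.inv
      rwa [inv_inv] at this
    have hc : ∀ i, ((minpoly K0⟮x⟯ y).map (algebraMap K0⟮x⟯ F)).coeff i
        ∈ Set.range (algebraMap K0 F) := by
      intro i
      apply const_inter x hx
      · exact const_coeff_mem x y hx h1 i
      · rw [← const_minpoly_congr y _ _ (const_adjoin_inv (K0 := K0) x)]
        exact const_coeff_mem x⁻¹ y hxi h2 i
    rw [← lifts_iff_coeff_lifts] at hc
    obtain ⟨P0, hP0⟩ := hc
    have hint : IsIntegral K0⟮x⟯ y := by
      open IntermediateField.algebraAdjoinAdjoin in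
      exact h1.tower_top
    refine ⟨P0, ?_, ?_⟩
    · rintro rfl
      have h0 : (minpoly K0⟮x⟯ y).map (algebraMap K0⟮x⟯ F) = 0 := by
        rw [← hP0]; simp
      rw [Polynomial.map_eq_zero] at h0
      exact minpoly.ne_zero hint h0
    · have : aeval y P0 = eval y (P0.map (algebraMap K0 F)) := by
        rw [eval_map_algebraMap]
      rw [this]
      have h3 : P0.map (algebraMap K0 F) = (minpoly K0⟮x⟯ y).map (algebraMap K0⟮x⟯ F) := hP0
      rw [h3, eval_map_algebraMap, minpoly.aeval]
  · -- `x` algebraic: everything is algebraic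
    rw [Transcendental, not_not] at hx
    have : Algebra.IsAlgebraic K0 (Algebra.adjoin K0 ({x} : Set F)) := by
      have hi : Algebra.IsIntegral K0 (Algebra.adjoin K0 ({x} : Set F)) := by
        rw [← le_integralClosure_iff_isIntegral]
        apply Algebra.adjoin_le
        rintro _ rfl
        exact hx.isIntegral
      exact hi.isAlgebraic
    exact IsAlgebraic.restrictScalars K0 h1.isAlgebraic

end ConstField

end Fermat.Agent.S18Lib
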