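/-
S18 moonshot, component C6: the abstract Cech/Hensel core.
-/
import Mathlib

set_option autoImplicit false

namespace Fermat.Agent.S18Lib

open Polynomial

section Core

variable {A0 F : Type*} [CommRing A0] [Field F] [Algebra A0 F]

/-- monomials `u^k v^(m-k) / f` lie in `S`. -/
theorem core_mono_mem (S : Subalgebra A0 F) {m : ℕ}
    (hc : ∀ u : F, u ^ m ∈ S → u ∈ S) {f : F} (hf : f ≠ 0) {u v : F}
    (hu : u ^ m / f ∈ S) (hv : v ^ m / f ∈ S) {k : ℕ} (hk : k ≤ m) :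
    u ^ k * v ^ (m - k) / f ∈ S := by
  apply hc
  have h : (u ^ k * v ^ (m - k) / f) ^ m = (u ^ m / f) ^ k * (v ^ m / f) ^ (m - k) := by
    have hfm : f ^ m = f ^ k * f ^ (m - k) := by rw [← pow_add, Nat.add_sub_cancel' hk]
    rw [div_pow, div_pow, div_pow, hfm, mul_pow, ← pow_mul, ← pow_mul, ← pow_mul, ← pow_mul,
      mul_comm k m, mul_comm (m - k) m]
    field_simp
  rw [h]
  exact S.mul_mem (S.pow_mem hu _) (S.pow_mem hv _)

/-- The module `I(S) = {u | u^m / f ∈ S}`. -/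
def rootSub (S : Subalgebra A0 F) (m : ℕ) (hm : 0 < m)
    (hc : ∀ u : F, u ^ m ∈ S → u ∈ S) (f : F) (hf : f ≠ 0) : Submodule A0 F where
  carrier := {u | u ^ m / f ∈ S}
  zero_mem' := by
    show (0 : F) ^ m / f ∈ S
    rw [zero_pow hm.ne', zero_div]; exact S.zero_mem
  add_mem' := by
    intro u v hu hv
    show (u + v) ^ m / f ∈ S
    rw [add_pow, Finset.sum_div]
    refine S.sum_mem fun k hk => ?_
    have hk' : k ≤ m := Nat.lt_succ_iff.mp (Finset.mem_range.mp hk)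
    have : u ^ k * v ^ (m - k) * (m.choose k : F) / f
        = (u ^ k * v ^ (m - k) / f) * (m.choose k : F) := by ring
    rw [this]
    exact S.mul_mem (core_mono_mem S hc hf hu hv hk') (natCast_mem S _)
  smul_mem' := by
    intro c u hu
    show (c • u) ^ m / f ∈ S
    rw [Algebra.smul_def, mul_pow, mul_div_assoc]
    exact S.mul_mem (S.pow_mem (S.algebraMap_mem c) _) hu

theorem mem_rootSub {S : Subalgebra A0 F} {m : ℕ} {hm : 0 < m}
    {hc : ∀ u : F, u ^ m ∈ S → u ∈ S} {f : F} {hf : f ≠ 0} {u : F} :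
    u ∈ rootSub S m hm hc f hf ↔ u ^ m / f ∈ S := Iff.rfl

theorem mul_mem_rootSub {S : Subalgebra A0 F} {m : ℕ} {hm : 0 < m}
    {hc : ∀ u : F, u ^ m ∈ S → u ∈ S} {f : F} {hf : f ≠ 0} {s u : F} (hs : s ∈ S)
    (hu : u ∈ rootSub S m hm hc f hf) : s * u ∈ rootSub S m hm hc f hf := by
  show (s * u) ^ m / f ∈ S
  rw [mul_pow, mul_div_assoc]
  exact S.mul_mem (S.pow_mem hs _) hu



theorem core_one_sub_pow {R : Type*} [CommRing R] (δ : R) (m : ℕ) :
    ∃ r : R, (1 - δ) ^ m = 1 - m * δ + δ ^ 2 * r := by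
  induction m with
  | zero => exact ⟨0, by simp⟩
  | succ n ih =>
    obtain ⟨r, hr⟩ := ih
    exact ⟨n + r - δ * r, by rw [pow_succ, hr]; push_cast; ring⟩

theorem core_one_sub_pow_mem (S : Subalgebra A0 F) {δ : F} (hδ : δ ∈ S) (m : ℕ) :
    ∃ r ∈ S, (1 - δ) ^ m = 1 - m * δ + δ ^ 2 * r := by
  obtain ⟨r, hr⟩ := core_one_sub_pow (⟨δ, hδ⟩ : S) m
  refine ⟨r, r.2, ?_⟩
  have := congrArg (Subtype.val) hr
  simpa using this

/-- (2a) Hensel. -/
theorem core_hensel (S : Subalgebra A0 F) {m : ℕ} (minv : A0) (hminv : (m : A0) * minv = 1)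
    (p : F) (hp : p ∈ S) {f : F} {a1 : F}
    (h1 : ∃ w ∈ S, a1 ^ m / f = 1 + p * w) (i : ℕ) :
    ∃ s ∈ S, (∃ w ∈ S, s = 1 + p * w) ∧ ∃ w ∈ S, (a1 * s) ^ m / f = 1 + p ^ (i + 1) * w := by
  induction i with
  | zero =>
    obtain ⟨w, hw, h⟩ := h1
    exact ⟨1, S.one_mem, ⟨0, S.zero_mem, by simp⟩, w, hw, by simpa using h⟩
  | succ i ih =>
    obtain ⟨s, hs, ⟨w0, hw0, hs0⟩, w, hw, h⟩ := ih
    set μ : F := algebraMap A0 F minv with hμ
    have hμS : μ ∈ S := S.algebraMap_mem _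
    have hmμ : (m : F) * μ = 1 := by
      have := congrArg (algebraMap A0 F) hminv
      simpa using this
    set ε : F := p ^ (i + 1) * w with hε
    have hεS : ε ∈ S := S.mul_mem (S.pow_mem hp _) hw
    obtain ⟨r, hr, hexp⟩ := core_one_sub_pow_mem S (S.mul_mem hμS hεS) m
    refine ⟨s * (1 - μ * ε), S.mul_mem hs (S.sub_mem S.one_mem (S.mul_mem hμS hεS)), ?_, ?_⟩
    · refine ⟨w0 - μ * p ^ i * w - w0 * μ * ε, ?_, ?_⟩
      · exact S.sub_mem (S.sub_mem hw0 (S.mul_mem (S.mul_mem hμS (S.pow_mem hp _)) hw))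
          (S.mul_mem (S.mul_mem hw0 hμS) hεS)
      · rw [hs0, hε]; ring
    · refine ⟨p ^ i * w ^ 2 * (-1 + (1 + ε) * μ ^ 2 * r), ?_, ?_⟩
      · exact S.mul_mem (S.mul_mem (S.pow_mem hp _) (S.pow_mem hw _))
          (S.add_mem (S.neg_mem S.one_mem)
            (S.mul_mem (S.mul_mem (S.add_mem S.one_mem hεS) (S.pow_mem hμS _)) hr))
      · have e1 : (a1 * (s * (1 - μ * ε))) ^ m / f = ((a1 * s) ^ m / f) * (1 - μ * ε) ^ m := by
          rw [← mul_assoc, mul_pow]; ring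
        have e2 : (m : F) * (μ * ε) = ε := by rw [← mul_assoc, hmμ, one_mul]
        rw [e1, h, hexp, e2]
        rw [hε]; ring



/-- (2b) -/
theorem core_diff (S : Subalgebra A0 F) {m : ℕ} (hm : 0 < m)
    (hc : ∀ u : F, u ^ m ∈ S → u ∈ S) (minv : A0) (hminv : (m : A0) * minv = 1)
    (P : S) (hP : Prime P) {f : F} (hf : f ≠ 0) {a b : F} (n : ℕ)
    (ha : ∃ w ∈ S, a ^ m / f = 1 + (P : F) ^ (n + 1) * w)
    (hb : ∃ w ∈ S, b ^ m / f = 1 + (P : F) ^ (n + 1) * w)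
    (hab : ∃ w ∈ S, a * b ^ (m - 1) / f = 1 + (P : F) * w) :
    ∃ y ∈ S, (a - b) ^ m / f = (P : F) ^ ((n + 1) * m) * y := by
  obtain ⟨wa, hwa, ha⟩ := ha
  obtain ⟨wb, hwb, hb⟩ := hb
  obtain ⟨wz, hwz, hab⟩ := hab
  have haS : a ^ m / f ∈ S := by
    rw [ha]; exact S.add_mem S.one_mem (S.mul_mem (S.pow_mem P.2 _) hwa)
  have hbS : b ^ m / f ∈ S := by
    rw [hb]; exact S.add_mem S.one_mem (S.mul_mem (S.pow_mem P.2 _) hwb)
  -- elements of the ring S
  let Z : ℕ → S := fun k => if hk : k ≤ m then ⟨a ^ k * b ^ (m - k) / f, core_mono_mem S hc hf haS hbS hk⟩ else 0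
  have hZ : ∀ k, k ≤ m → ((Z k : S) : F) = a ^ k * b ^ (m - k) / f := by
    intro k hk; simp only [Z, dif_pos hk]
  let Bt : S := ⟨b ^ m / f, hbS⟩
  have hBt : P ∣ Bt - 1 := by
    refine ⟨P ^ n * ⟨wb, hwb⟩, Subtype.ext ?_⟩
    simp only [Bt, Subalgebra.coe_sub, Subalgebra.coe_one, Subalgebra.coe_mul, Subalgebra.coe_pow]
    rw [hb]; ring
  have hZ1 : P ∣ Z 1 - 1 := by
    refine ⟨⟨wz, hwz⟩, Subtype.ext ?_⟩
    simp only [Subalgebra.coe_sub, Subalgebra.coe_one, Subalgebra.coe_mul]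
    rw [hZ 1 hm, pow_one, hab]; ring
  have hrel : ∀ k, k ≤ m → Z (k + 1) * Bt ^ k = Z 1 ^ (k + 1) ∨ m < k + 1 := by
    intro k _
    by_cases hk1 : k + 1 ≤ m
    · left
      apply Subtype.ext
      simp only [Subalgebra.coe_mul, Subalgebra.coe_pow, Bt]
      rw [hZ _ hk1, hZ 1 hm, pow_one]
      have e : b ^ (m - (k + 1)) * (b ^ m) ^ k = (b ^ (m - 1)) ^ (k + 1) := by
        rw [← pow_mul, ← pow_mul, ← pow_add]
        congr 1
        obtain ⟨j, rfl⟩ := Nat.exists_eq_add_of_le hk1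
        have h1 : k + 1 + j - (k + 1) = j := by omega
        have h2 : k + 1 + j - 1 = k + j := by omega
        rw [h1, h2]; ring
      rw [div_pow, div_pow, mul_pow, ← e]
      field_simp
      ring
    · right; omega
  have hZk : ∀ k, k < m → P ∣ Z k - 1 := by
    intro k hk
    rcases k with _ | k
    · have : Z 0 = Bt := by
        apply Subtype.ext
        rw [hZ 0 (Nat.zero_le _)]; simp [Bt]
      rw [this]; exact hBt
    · rcases hrel k (by omega) with h | h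
      · have e : Z (k + 1) - 1 = (Z 1 ^ (k + 1) - 1) - Z (k + 1) * (Bt ^ k - 1) := by
          rw [← h]; ring
        rw [e]
        refine dvd_sub ?_ (Dvd.dvd.mul_left ?_ _)
        · have := sub_dvd_pow_sub_pow (Z 1) 1 (k + 1)
          rw [one_pow] at this
          exact hZ1.trans this
        · have := sub_dvd_pow_sub_pow Bt 1 k
          rw [one_pow] at this
          exact hBt.trans this
      · omega
  let σ : S := ∑ k ∈ Finset.range m, Z k
  have hσ : P ∣ σ - (m : S) := by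
    have : σ - (m : S) = ∑ k ∈ Finset.range m, (Z k - 1) := by
      simp [σ, Finset.sum_sub_distrib]
    rw [this]
    exact Finset.dvd_sum fun k hk => hZk k (Finset.mem_range.mp hk)
  have hσP : ¬ P ∣ σ := by
    intro h
    have h1 : P ∣ (m : S) := by
      have := dvd_sub h hσ
      simpa using this
    have h2 : (m : S) * algebraMap A0 S minv = 1 := by
      have := congrArg (algebraMap A0 S) hminv
      simpa using this
    exact hP.not_isUnit (isUnit_of_dvd_one (h2 ▸ Dvd.dvd.mul_right h1 _))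
  have habS : (a - b) ^ m / f ∈ S :=
    (rootSub S m hm hc f hf).sub_mem (show a ∈ rootSub S m hm hc f hf from haS)
      (show b ∈ rootSub S m hm hc f hf from hbS)
  let Y : S := ⟨(a - b) ^ m / f, habS⟩
  have hσF : ((σ : S) : F) * (a - b) = (a ^ m / f - b ^ m / f) * b := by
    have h1 : ((σ : S) : F) = (∑ k ∈ Finset.range m, a ^ k * b ^ (m - 1 - k)) * (b / f) := by
      simp only [σ, AddSubmonoidClass.coe_finsetSum, Finset.sum_mul]
      refine Finset.sum_congr rfl fun k hk => ?_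
      have hk' : k < m := Finset.mem_range.mp hk
      rw [hZ k hk'.le]
      have : m - k = (m - 1 - k) + 1 := by omega
      rw [this, pow_succ]; ring
    rw [h1, mul_right_comm, geom_sum₂_mul]; ring
  have key : Y * σ ^ m = P ^ ((n + 1) * m) * ((⟨wa, hwa⟩ - ⟨wb, hwb⟩) ^ m * Bt) := by
    apply Subtype.ext
    simp only [Subalgebra.coe_mul, Subalgebra.coe_pow, Subalgebra.coe_sub, Y, Bt]
    have : (a - b) ^ m / f * ((σ : S) : F) ^ m = (((σ : S) : F) * (a - b)) ^ m / f := by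
      rw [mul_pow]; ring
    rw [this, hσF, ha, hb, pow_mul]
    rw [mul_pow, mul_div_assoc, hb, ← mul_assoc, ← mul_pow]
    congr 2
    ring
  have hdvd : P ^ ((n + 1) * m) ∣ Y := by
    refine hP.pow_dvd_of_dvd_mul_right _ (fun h => hσP (hP.dvd_of_dvd_pow h)) ⟨_, key⟩
  obtain ⟨y, hy⟩ := hdvd
  refine ⟨y, y.2, ?_⟩
  have := congrArg Subtype.val hy
  simpa [Y] using this



/-- stabilisation: abstract. -/
theorem core_stab [IsNoetherianRing A0] (ϖ : A0) (N W P : Submodule A0 F) (hW : W.FG)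
    (hP : P ≤ N ⊔ W) :
    ∃ c0 : ℕ, ∀ (i : ℕ) (c : F), c ∈ P → ϖ ^ i • c ∈ N → ϖ ^ c0 • c ∈ N := by
  have : IsNoetherian A0 W := isNoetherian_of_fg_of_noetherian W hW
  let g : ℕ → Submodule A0 W := fun i =>
    Submodule.comap W.subtype (N.comap ((ϖ ^ i) • (LinearMap.id : F →ₗ[A0] F)))
  have hg : ∀ i (w : W), w ∈ g i ↔ ϖ ^ i • (w : F) ∈ N := fun i w => Iff.rfl
  have hmono : Monotone g := by
    refine monotone_nat_of_le_succ fun i w hw => ?_
    rw [hg] at hw ⊢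
    rw [pow_succ', mul_smul]
    exact N.smul_mem _ hw
  obtain ⟨c0, hc0⟩ := monotone_stabilizes_iff_noetherian.mpr ‹IsNoetherian A0 W› ⟨g, hmono⟩
  refine ⟨c0, fun i c hc hi => ?_⟩
  obtain ⟨n, hn, w, hw, rfl⟩ := Submodule.mem_sup.mp (hP hc)
  have hwi : ϖ ^ i • w ∈ N := by
    have : ϖ ^ i • w = ϖ ^ i • (n + w) - ϖ ^ i • n := by rw [smul_add]; abel
    rw [this]; exact N.sub_mem hi (N.smul_mem _ hn)
  have hw0 : ϖ ^ c0 • w ∈ N := by
    have h1 : (⟨w, hw⟩ : W) ∈ g i := (hg i _).mpr hwi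
    rcases le_total c0 i with h | h
    · have := hc0 i h
      have h2 : (⟨w, hw⟩ : W) ∈ g c0 := by
        have e : g c0 = g i := this
        rw [e]; exact h1
      exact (hg c0 _).mp h2
    · exact (hg c0 _).mp (hmono h h1)
  rw [smul_add]
  exact N.add_mem (N.smul_mem _ hn) hw0



/-- `I(S1)` is generated over `A0[x]` by a finite set. -/
theorem core_fg [IsNoetherianRing A0] (S1 : Subalgebra A0 F) {m : ℕ} (hm : 0 < m)
    (hc1 : ∀ u : F, u ^ m ∈ S1 → u ∈ S1) {f : F} (hf : f ≠ 0) (x : F) (hx1 : x ∈ S1)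
    (hfin : ∃ s : Finset F, ∀ y ∈ S1, y ∈ Submodule.span (Algebra.adjoin A0 ({x} : Set F)) (s : Set F))
    (hf1 : ∃ b : F, b ≠ 0 ∧ b ^ m * f ∈ S1) :
    ∃ G : Finset F, (∀ σ ∈ G, σ ^ m / f ∈ S1) ∧
      ∀ u : F, u ^ m / f ∈ S1 → ∃ q : F → A0[X], u = ∑ σ ∈ G, aeval x (q σ) * σ := by
  classical
  set B := Algebra.adjoin A0 ({x} : Set F) with hB
  have hBS : B ≤ S1 := Algebra.adjoin_le (by simpa using hx1)
  have : IsNoetherianRing B :=
    isNoetherianRing_of_fg ⟨{x}, by simp [hB]⟩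
  let I1B : Submodule B F :=
    { carrier := {u | u ^ m / f ∈ S1}
      zero_mem' := (rootSub S1 m hm hc1 f hf).zero_mem
      add_mem' := fun {u v} hu hv => (rootSub S1 m hm hc1 f hf).add_mem hu hv
      smul_mem' := fun b u hu => by
        have := mul_mem_rootSub (hm := hm) (hc := hc1) (hf := hf) (hBS b.2) hu
        exact this }
  obtain ⟨s, hs⟩ := hfin
  obtain ⟨b0, hb0, hb0f⟩ := hf1
  have hle : I1B.map (LinearMap.mulLeft B b0) ≤ Submodule.span B (s : Set F) := by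
    rintro _ ⟨u, hu, rfl⟩
    apply hs
    apply hc1
    have : (LinearMap.mulLeft B b0 u) ^ m = (b0 ^ m * f) * (u ^ m / f) := by
      simp only [LinearMap.mulLeft_apply, mul_pow]
      field_simp
    rw [this]
    exact S1.mul_mem hb0f hu
  have hN : IsNoetherian B (Submodule.span B (s : Set F)) :=
    isNoetherian_span_of_finite B s.finite_toSet
  have hN2 : IsNoetherian B (I1B.map (LinearMap.mulLeft B b0)) := isNoetherian_of_le hle
  have hfg : (I1B.map (LinearMap.mulLeft B b0)).FG :=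
    (Submodule.fg_top _).mp (IsNoetherian.noetherian ⊤)
  have hfg1 : I1B.FG :=
    Submodule.fg_of_fg_map_injective _ (fun u v h => mul_left_cancel₀ hb0 h) hfg
  obtain ⟨G, hG⟩ := hfg1
  refine ⟨G, fun σ hσ => ?_, fun u hu => ?_⟩
  · have : σ ∈ I1B := hG ▸ Submodule.subset_span hσ
    exact this
  · have hu' : u ∈ Submodule.span B (G : Set F) := by rw [hG]; exact hu
    obtain ⟨c, -, hc⟩ := Submodule.mem_span_finset.mp hu'
    have hq : ∀ σ : F, ∃ q : A0[X], aeval x q = ((c σ : B) : F) := by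
      intro σ
      have h1 : ((c σ : B) : F) ∈ Algebra.adjoin A0 ({x} : Set F) := (c σ).2
      rw [Algebra.adjoin_singleton_eq_range_aeval] at h1
      exact h1
    choose q hq using hq
    refine ⟨q, ?_⟩
    rw [← hc]
    refine Finset.sum_congr rfl fun σ _ => ?_
    rw [hq]; rfl



theorem core_cover (S1 S2 S12 : Subalgebra A0 F) (h1 : S1 ≤ S12) {m : ℕ} (hm : 0 < m)
    (hc1 : ∀ u : F, u ^ m ∈ S1 → u ∈ S1) (hc2 : ∀ u : F, u ^ m ∈ S2 → u ∈ S2)
    (hc12 : ∀ u : F, u ^ m ∈ S12 → u ∈ S12) {f : F} (hf : f ≠ 0)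
    (x : F) (hx0 : x ≠ 0) (hx1 : x ∈ S1) (hx2 : x⁻¹ ∈ S2)
    (h121 : ∀ y ∈ S12, ∃ n : ℕ, x ^ n * y ∈ S1) (h122 : ∀ y ∈ S12, ∃ n : ℕ, x⁻¹ ^ n * y ∈ S2)
    (G : Finset F) (hG1 : ∀ σ ∈ G, σ ^ m / f ∈ S1)
    (hG2 : ∀ u : F, u ^ m / f ∈ S1 → ∃ q : F → A0[X], u = ∑ σ ∈ G, aeval x (q σ) * σ) :
    ∃ W : Submodule A0 F, W.FG ∧
      rootSub S12 m hm hc12 f hf ≤
        (rootSub S1 m hm hc1 f hf ⊔ rootSub S2 m hm hc2 f hf) ⊔ W := by
  classical
  set I1 := rootSub S1 m hm hc1 f hf with hI1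
  set I2 := rootSub S2 m hm hc2 f hf with hI2
  have hn : ∀ σ : F, ∃ n : ℕ, σ ∈ G → ∀ k, n ≤ k → x⁻¹ ^ k * σ ∈ I2 := by
    intro σ
    by_cases hσ : σ ∈ G
    · obtain ⟨n0, hn0⟩ := h122 _ (h1 (hG1 σ hσ))
      refine ⟨n0, fun _ k hk => ?_⟩
      show (x⁻¹ ^ k * σ) ^ m / f ∈ S2
      have hkm : n0 ≤ k * m := hk.trans (Nat.le_mul_of_pos_right k hm)
      have : (x⁻¹ ^ k * σ) ^ m / f = x⁻¹ ^ (k * m - n0) * (x⁻¹ ^ n0 * (σ ^ m / f)) := by
        rw [← mul_assoc, ← pow_add, Nat.sub_add_cancel hkm, mul_pow, ← pow_mul, mul_div_assoc]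
      rw [this]
      exact S2.mul_mem (S2.pow_mem hx2 _) hn0
    · exact ⟨0, fun h => absurd h hσ⟩
  choose n hn using hn
  set c := G.sup n with hc
  let Ws : Finset F := (G ×ˢ Finset.range c).image (fun t => x⁻¹ ^ t.2 * t.1)
  refine ⟨Submodule.span A0 (Ws : Set F), ⟨Ws, rfl⟩, ?_⟩
  set T := (I1 ⊔ I2) ⊔ Submodule.span A0 (Ws : Set F) with hT
  have hI1T : I1 ≤ T := le_sup_left.trans le_sup_left
  have hI2T : I2 ≤ T := le_sup_right.trans le_sup_left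
  have hterm : ∀ σ ∈ G, ∀ k l : ℕ, x ^ k * x⁻¹ ^ l * σ ∈ T := by
    intro σ hσ k l
    rcases le_total l k with h | h
    · apply hI1T
      have : x ^ k * x⁻¹ ^ l * σ = x ^ (k - l) * σ := by
        obtain ⟨j, rfl⟩ := Nat.exists_eq_add_of_le h
        rw [Nat.add_sub_cancel_left, pow_add, inv_pow]
        field_simp
      rw [this]
      exact mul_mem_rootSub (S1.pow_mem hx1 _) (hG1 σ hσ)
    · have e : x ^ k * x⁻¹ ^ l * σ = x⁻¹ ^ (l - k) * σ := by
        obtain ⟨j, rfl⟩ := Nat.exists_eq_add_of_le h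
        rw [Nat.add_sub_cancel_left, pow_add, inv_pow, inv_pow]
        field_simp
      rw [e]
      by_cases hlk : c ≤ l - k
      · apply hI2T
        exact hn σ hσ _ ((Finset.le_sup hσ).trans hlk)
      · apply le_sup_right (a := I1 ⊔ I2)
        apply Submodule.subset_span
        simp only [Ws, Finset.coe_image, Set.mem_image, Finset.mem_coe, Finset.mem_product,
          Finset.mem_range]
        exact ⟨(σ, l - k), ⟨hσ, not_le.mp hlk⟩, rfl⟩
  intro u hu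
  obtain ⟨l, hl⟩ := h121 _ hu
  have hu1 : (x ^ l * u) ^ m / f ∈ S1 := by
    have hlm : l ≤ l * m := Nat.le_mul_of_pos_right l hm
    have : (x ^ l * u) ^ m / f = x ^ (l * m - l) * (x ^ l * (u ^ m / f)) := by
      rw [← mul_assoc, ← pow_add, Nat.sub_add_cancel hlm, mul_pow, ← pow_mul, mul_div_assoc]
    rw [this]
    exact S1.mul_mem (S1.pow_mem hx1 _) hl
  obtain ⟨q, hq⟩ := hG2 _ hu1
  have hu2 : u = ∑ σ ∈ G, x⁻¹ ^ l * (aeval x (q σ) * σ) := by
    rw [← Finset.mul_sum, ← hq, ← mul_assoc, inv_pow, inv_mul_cancel₀ (pow_ne_zero _ hx0), one_mul]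
  rw [hu2]
  refine T.sum_mem fun σ hσ => ?_
  rw [aeval_eq_sum_range, Finset.sum_mul, Finset.mul_sum]
  refine T.sum_mem fun k _ => ?_
  have : x⁻¹ ^ l * ((q σ).coeff k • x ^ k * σ) = (q σ).coeff k • (x ^ k * x⁻¹ ^ l * σ) := by
    rw [Algebra.smul_def, Algebra.smul_def]; ring
  rw [this]
  exact T.smul_mem _ (hterm σ hσ k l)



theorem core_one_add_pow_mem (S : Subalgebra A0 F) {p w : F} (hp : p ∈ S) (hw : w ∈ S) (k : ℕ) :
    ∃ r ∈ S, (1 + p * w) ^ k = 1 + p * r := by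
  induction k with
  | zero => exact ⟨0, S.zero_mem, by simp⟩
  | succ k ih =>
    obtain ⟨r, hr, h⟩ := ih
    exact ⟨r + w + p * r * w, S.add_mem (S.add_mem hr hw) (S.mul_mem (S.mul_mem hp hr) hw), by
      rw [pow_succ, h]; ring⟩

/-- The abstract Cech/Hensel core (2a)+(2b)+(2c). -/
theorem cech_core [IsNoetherianRing A0] (S1 S2 S12 : Subalgebra A0 F) (h1 : S1 ≤ S12)
    (h2 : S2 ≤ S12) {m : ℕ} (hm : 0 < m)
    (hc1 : ∀ u : F, u ^ m ∈ S1 → u ∈ S1) (hc2 : ∀ u : F, u ^ m ∈ S2 → u ∈ S2)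
    (hc12 : ∀ u : F, u ^ m ∈ S12 → u ∈ S12)
    (minv : A0) (hminv : (m : A0) * minv = 1)
    (ϖ : A0) (hP : Prime (algebraMap A0 S12 ϖ)) {f : F} (hf : f ≠ 0)
    (x : F) (hx0 : x ≠ 0) (hx1 : x ∈ S1) (hx2 : x⁻¹ ∈ S2)
    (h121 : ∀ y ∈ S12, ∃ n : ℕ, x ^ n * y ∈ S1) (h122 : ∀ y ∈ S12, ∃ n : ℕ, x⁻¹ ^ n * y ∈ S2)
    (hfin : ∃ s : Finset F, ∀ y ∈ S1,
      y ∈ Submodule.span (Algebra.adjoin A0 ({x} : Set F)) (s : Set F))
    (hf1 : ∃ b : F, b ≠ 0 ∧ b ^ m * f ∈ S1)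
    (a1 b1 : F) (ha1 : ∃ w ∈ S1, a1 ^ m / f = 1 + algebraMap A0 F ϖ * w)
    (hb1 : ∃ w ∈ S2, b1 ^ m / f = 1 + algebraMap A0 F ϖ * w)
    (hab : ∃ w ∈ S12, a1 * b1 ^ (m - 1) / f = 1 + algebraMap A0 F ϖ * w) :
    ∃ u : F, u ≠ 0 ∧ u ^ m / f ∈ S1 ∧ u ^ m / f ∈ S2 := by
  set p : F := algebraMap A0 F ϖ with hp
  have hp0 : p ≠ 0 := by
    intro h
    apply hP.ne_zero
    apply Subtype.ext
    exact h
  obtain ⟨G, hG1, hG2⟩ := core_fg S1 hm hc1 hf x hx1 hfin hf1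
  obtain ⟨W, hW, hcov⟩ := core_cover S1 S2 S12 h1 hm hc1 hc2 hc12 hf x hx0 hx1 hx2 h121 h122 G hG1 hG2
  obtain ⟨c0, hc0⟩ := core_stab ϖ _ W _ hW hcov
  obtain ⟨s, hs, ⟨ws, hws, hs1⟩, wa, hwa, ha⟩ :=
    core_hensel S1 minv hminv p (S1.algebraMap_mem ϖ) ha1 c0
  obtain ⟨t, ht, ⟨wt, hwt, ht1⟩, wb, hwb, hb⟩ :=
    core_hensel S2 minv hminv p (S2.algebraMap_mem ϖ) hb1 c0
  set a := a1 * s with ha_def
  set b := b1 * t with hb_def
  have hpS12 : p ∈ S12 := S12.algebraMap_mem ϖ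
  have hab' : ∃ w ∈ S12, a * b ^ (m - 1) / f = 1 + p * w := by
    obtain ⟨w0, hw0, h0⟩ := hab
    obtain ⟨r, hr, hr1⟩ := core_one_add_pow_mem S12 hpS12 (h2 hwt) (m - 1)
    have e : a * b ^ (m - 1) / f = (a1 * b1 ^ (m - 1) / f) * s * t ^ (m - 1) := by
      rw [ha_def, hb_def, mul_pow]; ring
    refine ⟨w0 + ws + r + p * (w0 * ws + w0 * r + ws * r) + p ^ 2 * (w0 * ws * r), ?_, ?_⟩
    · have hws' := h1 hws
      exact S12.add_mem (S12.add_mem (S12.add_mem (S12.add_mem hw0 hws') hr)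
        (S12.mul_mem hpS12 (S12.add_mem (S12.add_mem (S12.mul_mem hw0 hws') (S12.mul_mem hw0 hr))
          (S12.mul_mem hws' hr)))) (S12.mul_mem (S12.pow_mem hpS12 _)
            (S12.mul_mem (S12.mul_mem hw0 hws') hr))
    · rw [e, h0, hs1, ht1, hr1]; ring
  obtain ⟨y, hy, hdiff⟩ := core_diff S12 hm hc12 minv hminv (algebraMap A0 S12 ϖ) hP hf c0
    ⟨wa, h1 hwa, ha⟩ ⟨wb, h2 hwb, hb⟩ hab'
  have hdiff' : (a - b) ^ m / f = p ^ ((c0 + 1) * m) * y := hdiff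
  have haI : a ∈ rootSub S1 m hm hc1 f hf := by
    show a ^ m / f ∈ S1
    rw [ha]; exact S1.add_mem S1.one_mem (S1.mul_mem (S1.pow_mem (S1.algebraMap_mem ϖ) _) hwa)
  have hbI : b ∈ rootSub S2 m hm hc2 f hf := by
    show b ^ m / f ∈ S2
    rw [hb]; exact S2.add_mem S2.one_mem (S2.mul_mem (S2.pow_mem (S2.algebraMap_mem ϖ) _) hwb)
  set c : F := (a - b) / p ^ (c0 + 1) with hc_def
  have hcI : c ∈ rootSub S12 m hm hc12 f hf := by
    show c ^ m / f ∈ S12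
    have : c ^ m / f = y := by
      rw [hc_def, div_pow, div_div, mul_comm, ← div_div, hdiff', ← pow_mul]
      field_simp
    rw [this]; exact hy
  have hpc : ϖ ^ (c0 + 1) • c ∈ rootSub S1 m hm hc1 f hf ⊔ rootSub S2 m hm hc2 f hf := by
    have : ϖ ^ (c0 + 1) • c = a + (-b) := by
      rw [Algebra.smul_def, map_pow, hc_def]
      field_simp
      ring
    rw [this]
    exact Submodule.add_mem_sup haI (Submodule.neg_mem _ hbI)
  have := hc0 (c0 + 1) c hcI hpc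
  obtain ⟨a', ha', b', hb', hsum⟩ := Submodule.mem_sup.mp this
  have hrel : a - b = p * (a' + b') := by
    rw [hsum, Algebra.smul_def, map_pow, hc_def]
    field_simp
    ring
  refine ⟨a - p * a', ?_, ?_, ?_⟩
  · intro h0
    have ha0 : a = p * a' := sub_eq_zero.mp h0
    have e1 : a ^ m / f = p * (p ^ (m - 1) * (a' ^ m / f)) := by
      rw [ha0, mul_pow, ← mul_assoc, ← pow_succ', Nat.sub_add_cancel hm, mul_div_assoc]
    have e2 : (1 : F) = p * (p ^ (m - 1) * (a' ^ m / f) - p ^ c0 * wa) := by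
      have := e1.symm.trans ha
      rw [pow_succ'] at this
      linear_combination -this
    have hmem : p ^ (m - 1) * (a' ^ m / f) - p ^ c0 * wa ∈ S12 :=
      S12.sub_mem (S12.mul_mem (S12.pow_mem hpS12 _) (h1 ha')) (S12.mul_mem (S12.pow_mem hpS12 _) (h1 hwa))
    apply hP.not_isUnit
    refine isUnit_of_dvd_one ⟨⟨_, hmem⟩, Subtype.ext ?_⟩
    exact e2
  · exact (rootSub S1 m hm hc1 f hf).sub_mem haI (mul_mem_rootSub (S1.algebraMap_mem ϖ) ha')
  · have : a - p * a' = b + p * b' := by linear_combination hrel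
    rw [this]
    exact (rootSub S2 m hm hc2 f hf).add_mem hbI (mul_mem_rootSub (S2.algebraMap_mem ϖ) hb')


end Core

end Fermat.Agent.S18Lib
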