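import Mathlib

/-!
# S18, step (2d): local-to-global construction of the approximate `m`-th root

Everything is phrased inside a noetherian integrally closed domain, with `f = y / y'`,
`D = y * y' ^ (m - 1) = f * y' ^ m`; `a₀ = a / y'` satisfies `a₀ ^ m / f = a ^ m / D`.
-/

set_option autoImplicit false

namespace Fermat.Agent.S18Lib

open Ideal

section LocalPart

variable {R : Type*} [CommRing R] [IsDomain R]

/-- the ideal `{a | D ∣ a ^ m}` of an integrally closed domain -/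
def lgRootIdeal [IsIntegrallyClosed R] (D : R) (m : ℕ) (hm : m ≠ 0) : Ideal R where
  carrier := {a | D ∣ a ^ m}
  zero_mem' := by
    show D ∣ (0 : R) ^ m
    rw [zero_pow hm]
    exact dvd_zero D
  add_mem' := by
    intro a b ha hb
    show D ∣ (a + b) ^ m
    have ha' : D ∣ a ^ m := ha
    have hb' : D ∣ b ^ m := hb
    rw [add_pow]
    refine Finset.dvd_sum fun i hi => ?_
    have hi' : i ≤ m := by
      have := Finset.mem_range.1 hi
      omega
    refine Dvd.dvd.mul_right ?_ _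
    rw [← IsIntegrallyClosed.pow_dvd_pow_iff hm]
    have h1 : (a ^ i * b ^ (m - i)) ^ m = (a ^ m) ^ i * (b ^ m) ^ (m - i) := by
      rw [mul_pow, ← pow_mul, ← pow_mul, ← pow_mul, ← pow_mul, mul_comm i m, mul_comm (m - i) m]
    have h2 : D ^ m = D ^ i * D ^ (m - i) := by
      rw [← pow_add, Nat.add_sub_cancel' hi']
    rw [h1, h2]
    exact mul_dvd_mul (pow_dvd_pow_of_dvd ha' _) (pow_dvd_pow_of_dvd hb' _)
  smul_mem' := by
    intro c a ha
    show D ∣ (c • a) ^ m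
    have ha' : D ∣ a ^ m := ha
    rw [smul_eq_mul, mul_pow]
    exact Dvd.dvd.mul_left ha' _

theorem mem_lgRootIdeal [IsIntegrallyClosed R] {D : R} {m : ℕ} {hm : m ≠ 0} {a : R} :
    a ∈ lgRootIdeal D m hm ↔ D ∣ a ^ m := Iff.rfl

omit [IsDomain R] in
/-- Nakayama step: an ideal `I` of a noetherian local ring which is saturated with respect to `π`
and whose image modulo `π` is principal is principal. -/
theorem lg_principal_of_saturated [IsLocalRing R] [IsNoetherianRing R] {π : R}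
    (hπ : ¬ IsUnit π) [IsPrincipalIdealRing (R ⧸ span {π})] (I : Ideal R)
    (hsat : ∀ ν : R, π * ν ∈ I → ν ∈ I) : ∃ g ∈ I, I = span {g} := by
  obtain ⟨x, hx⟩ := (IsPrincipalIdealRing.principal (I.map (Ideal.Quotient.mk (span {π})))).principal
  have hxmem : x ∈ I.map (Ideal.Quotient.mk (span {π})) := by
    rw [hx]; exact Submodule.mem_span_singleton_self x
  obtain ⟨g, hgI, hgx⟩ :=
    (Ideal.mem_map_iff_of_surjective _ Ideal.Quotient.mk_surjective).1 hxmem
  refine ⟨g, hgI, le_antisymm ?_ ((span_singleton_le_iff_mem I).2 hgI)⟩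
  have hjac : span {π} ≤ jacobson (⊥ : Ideal R) := by
    rw [IsLocalRing.jacobson_eq_maximalIdeal ⊥ bot_ne_top, span_singleton_le_iff_mem]
    exact (IsLocalRing.mem_maximalIdeal π).2 hπ
  refine Submodule.le_of_le_smul_of_le_jacobson_bot (IsNoetherian.noetherian I) hjac ?_
  intro a ha
  have h1 : Ideal.Quotient.mk (span {π}) a ∈ I.map (Ideal.Quotient.mk (span {π})) :=
    Ideal.mem_map_of_mem _ ha
  rw [hx] at h1
  obtain ⟨μ', hμ'⟩ := Submodule.mem_span_singleton.1 h1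
  obtain ⟨μ, rfl⟩ := Ideal.Quotient.mk_surjective μ'
  rw [smul_eq_mul, ← hgx, ← map_mul, Ideal.Quotient.eq, mem_span_singleton] at hμ'
  obtain ⟨ν, hν⟩ := hμ'
  have hνI : -ν ∈ I := by
    apply hsat
    have : π * -ν = a - μ * g := by rw [mul_neg, ← hν]; ring
    rw [this]
    exact I.sub_mem ha (I.mul_mem_left _ hgI)
  have : a = μ * g + π * -ν := by rw [mul_neg, ← hν]; ring
  rw [this]
  refine Submodule.add_mem_sup (mem_span_singleton.2 (Dvd.intro_left _ rfl)) ?_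
  rw [smul_eq_mul]
  exact Ideal.mul_mem_mul (mem_span_singleton_self π) hνI


theorem lg_pow_dvd_of_eq [IsNoetherianRing R] {g X Y s t w : R} (hg : Prime g) {m : ℕ} (hm : m ≠ 0)
    (hs : ¬ g ∣ s) (ht : ¬ g ∣ t) (hX : X ≠ 0) (h : X ^ m * t = Y ^ m * s * w) (hw : g ∣ w) :
    g ^ m ∣ w := by
  have ht0 : t ≠ 0 := fun h0 => ht (h0 ▸ dvd_zero g)
  have hL : X ^ m * t ≠ 0 := mul_ne_zero (pow_ne_zero _ hX) ht0
  have hw0 : w ≠ 0 := by
    rintro rfl
    rw [mul_zero] at h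
    exact hL h
  have hY0 : Y ≠ 0 := by
    rintro rfl
    rw [zero_pow hm, zero_mul, zero_mul] at h
    exact hL h
  have fX : FiniteMultiplicity g X := FiniteMultiplicity.of_not_isUnit hg.not_isUnit hX
  have fY : FiniteMultiplicity g Y := FiniteMultiplicity.of_not_isUnit hg.not_isUnit hY0
  have fw : FiniteMultiplicity g w := FiniteMultiplicity.of_not_isUnit hg.not_isUnit hw0
  have e := congrArg (emultiplicity g) h
  rw [emultiplicity_mul hg, emultiplicity_mul hg, emultiplicity_mul hg, emultiplicity_pow hg,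
    emultiplicity_pow hg, emultiplicity_eq_zero.2 hs, emultiplicity_eq_zero.2 ht,
    fX.emultiplicity_eq_multiplicity, fY.emultiplicity_eq_multiplicity,
    fw.emultiplicity_eq_multiplicity] at e
  have e' : m * multiplicity g X = m * multiplicity g Y + multiplicity g w := by
    have : ((m * multiplicity g X : ℕ) : ℕ∞) = ((m * multiplicity g Y + multiplicity g w : ℕ) : ℕ∞) := by
      push_cast
      simpa using e
    exact_mod_cast this
  have hpos : 0 < multiplicity g w := dvd_iff_multiplicity_pos.2 hw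
  have hdvd : m ∣ multiplicity g w := by
    have h1 : m ∣ m * multiplicity g Y + multiplicity g w := e' ▸ Dvd.intro _ rfl
    exact (Nat.dvd_add_right (Dvd.intro _ rfl)).1 h1
  exact pow_dvd_of_le_multiplicity (Nat.le_of_dvd hpos hdvd)

/-- **Local theorem.**  `R` a noetherian integrally closed local domain, `π` a prime element with
`R/π` a principal ideal domain which is integrally closed; `f = y / y' ≡ 1`, and `f` is locally an
`m`-th power up to units at every prime not containing `π`.  Then `{a | D ∣ a ^ m}` contains an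
element congruent to `y' * unit`. -/
theorem lg_local [IsLocalRing R] [IsNoetherianRing R] [IsIntegrallyClosed R] {π : R} (hπ : Prime π)
    [IsPrincipalIdealRing (R ⧸ span {π})] [IsIntegrallyClosed (R ⧸ span {π})]
    (y y' : R) (hy' : ¬ π ∣ y') (hyy' : π ∣ y - y') (m : ℕ) (hm : m ≠ 0)
    (hloc : ∀ p : Ideal R, p.IsPrime → π ∉ p → ∃ a b s t : R, b ≠ 0 ∧ s ∉ p ∧ t ∉ p ∧
      y * y' ^ (m - 1) * t * b ^ m = a ^ m * s) :
    ∃ φ ρ : R, y * y' ^ (m - 1) ∣ φ ^ m ∧ IsUnit ρ ∧ π ∣ φ - y' * ρ := by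
  have hprime : (span {π} : Ideal R).IsPrime := (span_singleton_prime hπ.ne_zero).2 hπ
  set D : R := y * y' ^ (m - 1) with hD
  have hπy : ¬ π ∣ y := by
    intro h
    apply hy'
    have : y' = y - (y - y') := by ring
    rw [this]
    exact dvd_sub h hyy'
  have hπD : ¬ π ∣ D := by
    intro h
    rcases hπ.dvd_or_dvd h with h | h
    · exact hπy h
    · exact hy' (hπ.dvd_of_dvd_pow h)
  have hD0 : D ≠ 0 := fun h => hπD (h ▸ dvd_zero π)
  -- saturation
  have hsat : ∀ ν : R, π * ν ∈ lgRootIdeal D m hm → ν ∈ lgRootIdeal D m hm := by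
    intro ν hν
    rw [mem_lgRootIdeal] at hν ⊢
    obtain ⟨c, hc⟩ := hν
    have h1 : π ^ m ∣ D * c := ⟨ν ^ m, by rw [← hc, mul_pow]⟩
    obtain ⟨c', rfl⟩ := hπ.pow_dvd_of_dvd_mul_left m hπD h1
    refine ⟨c', ?_⟩
    have h2 : π ^ m * ν ^ m = π ^ m * (D * c') := by rw [← mul_pow, hc]; ring
    exact mul_left_cancel₀ (pow_ne_zero _ hπ.ne_zero) h2
  obtain ⟨φ, hφI, hI⟩ := lg_principal_of_saturated hπ.not_isUnit (lgRootIdeal D m hm) hsat
  obtain ⟨w, hw⟩ := (mem_lgRootIdeal.1 hφI)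
  have hDI : D ∈ lgRootIdeal D m hm := mem_lgRootIdeal.2 (dvd_pow_self D hm)
  have hφD : φ ∣ D := by
    rw [hI] at hDI
    exact mem_span_singleton.1 hDI
  have hπφ : ¬ π ∣ φ := fun h => hπD (h.trans hφD)
  have hφ0 : φ ≠ 0 := fun h => hπφ (h ▸ dvd_zero π)
  have hπw : ¬ π ∣ w := by
    intro h
    apply hπφ
    apply hπ.dvd_of_dvd_pow (n := m)
    rw [hw]
    exact Dvd.dvd.mul_left h D
  have hw0 : w ≠ 0 := fun h => hπw (h ▸ dvd_zero π)
  -- `w` is a unit
  have hwu : IsUnit w := by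
    by_contra hwu
    have hdisj : Disjoint ((span {w} : Ideal R) : Set R) (Submonoid.powers π : Set R) := by
      rw [Set.disjoint_left]
      rintro x hx ⟨n, rfl⟩
      have hx' : w ∣ π ^ n := mem_span_singleton.1 hx
      obtain ⟨i, -, hi⟩ := (dvd_prime_pow hπ n).1 hx'
      rcases Nat.eq_zero_or_pos i with rfl | hipos
      · rw [pow_zero] at hi
        exact hwu (hi.symm.isUnit isUnit_one)
      · exact hπw ((dvd_pow_self π hipos.ne').trans hi.symm.dvd)
    obtain ⟨p, hp, hwp, hpdisj⟩ := Ideal.exists_le_prime_disjoint _ _ hdisj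
    have hπp : π ∉ p := fun h =>
      (Set.disjoint_left.1 hpdisj) h (Submonoid.mem_powers π)
    have hwp' : w ∈ p := hwp (mem_span_singleton_self w)
    obtain ⟨g, hgp, hpg⟩ := lg_principal_of_saturated hπ.not_isUnit p
      (fun ν hν => (hp.mem_or_mem hν).resolve_left hπp)
    have hg0 : g ≠ 0 := by
      rintro rfl
      rw [hpg] at hwp'
      exact hw0 (by simpa using hwp')
    have hgprime : Prime g := (span_singleton_prime hg0).1 (hpg ▸ hp)
    have hmem : ∀ z : R, z ∈ p ↔ g ∣ z := fun z => by rw [hpg, mem_span_singleton]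
    obtain ⟨a, b, s, t, hb, hs, ht, hab⟩ := hloc p hp hπp
    have heq : (φ * b) ^ m * t = a ^ m * s * w := by
      rw [mul_pow, hw, ← hab]; ring
    have hgw : g ^ m ∣ w := lg_pow_dvd_of_eq hgprime hm (fun h => hs ((hmem s).2 h))
      (fun h => ht ((hmem t).2 h)) (mul_ne_zero hφ0 hb) heq ((hmem w).1 hwp')
    obtain ⟨w', rfl⟩ := hgw
    have hgφ : g ∣ φ := by
      rw [← IsIntegrallyClosed.pow_dvd_pow_iff hm, hw]
      exact ⟨D * w', by ring⟩
    obtain ⟨u, rfl⟩ := hgφ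
    have hu : u ∈ lgRootIdeal D m hm := by
      rw [mem_lgRootIdeal]
      refine ⟨w', ?_⟩
      have : g ^ m * u ^ m = g ^ m * (D * w') := by rw [← mul_pow, hw]; ring
      exact mul_left_cancel₀ (pow_ne_zero _ hg0) this
    rw [hI, mem_span_singleton] at hu
    obtain ⟨c, hc⟩ := hu
    have hu0 : u ≠ 0 := right_ne_zero_of_mul hφ0
    have : u * 1 = u * (g * c) := by rw [mul_one]; nth_rewrite 1 [hc]; ring
    have h1 : 1 = g * c := mul_left_cancel₀ hu0 this
    exact hgprime.not_isUnit (IsUnit.of_mul_eq_one c h1.symm)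
  -- reduction modulo `π`
  have hq : ∀ z : R, Ideal.Quotient.mk (span {π}) z = 0 ↔ π ∣ z := fun z => by
    rw [Ideal.Quotient.eq_zero_iff_mem, mem_span_singleton]
  have hyq : Ideal.Quotient.mk (span {π}) y = Ideal.Quotient.mk (span {π}) y' := by
    rw [← sub_eq_zero, ← map_sub, hq]; exact hyy'
  have hy'q : Ideal.Quotient.mk (span {π}) y' ≠ 0 := fun h => hy' ((hq y').1 h)
  have hDq : Ideal.Quotient.mk (span {π}) D = (Ideal.Quotient.mk (span {π}) y') ^ m := by
    rw [hD, map_mul, map_pow, hyq, ← pow_succ', Nat.sub_add_cancel (Nat.pos_of_ne_zero hm)]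
  have hdvd : Ideal.Quotient.mk (span {π}) y' ∣ Ideal.Quotient.mk (span {π}) φ := by
    rw [← IsIntegrallyClosed.pow_dvd_pow_iff hm, ← hDq, ← map_pow, hw]
    exact ⟨Ideal.Quotient.mk (span {π}) w, map_mul _ _ _⟩
  obtain ⟨ρ', hρ'⟩ := hdvd
  obtain ⟨ρ, rfl⟩ := Ideal.Quotient.mk_surjective ρ'
  refine ⟨φ, ρ, ⟨w, hw⟩, ?_, ?_⟩
  · -- `ρ` is a unit
    by_contra hρ
    have hρm : ρ ∈ IsLocalRing.maximalIdeal R := (IsLocalRing.mem_maximalIdeal ρ).2 hρ
    have h1 : (Ideal.Quotient.mk (span {π}) y') ^ m * (Ideal.Quotient.mk (span {π}) ρ) ^ m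
        = (Ideal.Quotient.mk (span {π}) y') ^ m * Ideal.Quotient.mk (span {π}) w := by
      rw [← mul_pow, ← hρ', ← map_pow, hw, map_mul, hDq]
    have h2 := mul_left_cancel₀ (pow_ne_zero _ hy'q) h1
    rw [← map_pow, ← sub_eq_zero, ← map_sub, hq] at h2
    have hπm : π ∈ IsLocalRing.maximalIdeal R := (IsLocalRing.mem_maximalIdeal π).2 hπ.not_isUnit
    have h3 : ρ ^ m - w ∈ IsLocalRing.maximalIdeal R := Ideal.mem_of_dvd _ h2 hπm
    have h4 : w ∈ IsLocalRing.maximalIdeal R := by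
      have : w = ρ ^ m - (ρ ^ m - w) := by ring
      rw [this]
      exact Ideal.sub_mem _ (Ideal.pow_mem_of_mem _ hρm m (Nat.pos_of_ne_zero hm)) h3
    exact (IsLocalRing.mem_maximalIdeal w).1 h4 hwu
  · rw [← hq, map_sub, map_mul, hρ', sub_self]

end LocalPart

section GlobalPart

variable {S : Type*} [CommRing S] [IsDomain S] [IsNoetherianRing S]

theorem lg_quot_inst {π : S} (hπ : Prime π) [IsDedekindDomain (S ⧸ span {π})]
    (𝔫 : Ideal S) [h𝔫 : 𝔫.IsPrime] (hπ𝔫 : π ∈ 𝔫)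
    (R : Type*) [CommRing R] [IsDomain R] [Algebra S R] [IsLocalization.AtPrime R 𝔫] :
    Prime (algebraMap S R π) ∧ IsPrincipalIdealRing (R ⧸ span {algebraMap S R π}) ∧
      IsIntegrallyClosed (R ⧸ span {algebraMap S R π}) := by
  have hinj : Function.Injective (algebraMap S R) :=
    IsLocalization.injective R 𝔫.primeCompl_le_nonZeroDivisors
  have hmap : (span {π} : Ideal S).map (algebraMap S R) = span {algebraMap S R π} := by
    rw [Ideal.map_span, Set.image_singleton]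
  have hprimeS : (span {π} : Ideal S).IsPrime := (span_singleton_prime hπ.ne_zero).2 hπ
  have hdisj : Disjoint (𝔫.primeCompl : Set S) ((span {π} : Ideal S) : Set S) := by
    rw [Set.disjoint_left]
    intro x hx hx'
    exact hx ((span_singleton_le_iff_mem 𝔫).2 hπ𝔫 hx')
  have hprimeR : ((span {π} : Ideal S).map (algebraMap S R)).IsPrime :=
    IsLocalization.isPrime_of_isPrime_disjoint 𝔫.primeCompl R _ hprimeS hdisj
  have hπ0 : algebraMap S R π ≠ 0 := fun h => hπ.ne_zero (hinj (by rw [h, map_zero]))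
  have hP : Prime (algebraMap S R π) := (span_singleton_prime hπ0).1 (hmap ▸ hprimeR)
  refine ⟨hP, ?_⟩
  rw [← hmap]
  have : IsLocalRing R := IsLocalization.AtPrime.isLocalRing R 𝔫
  have : IsNoetherianRing R := IsLocalization.isNoetherianRing 𝔫.primeCompl R inferInstance
  have hM : Algebra.algebraMapSubmonoid (S ⧸ span {π}) 𝔫.primeCompl ≤ nonZeroDivisors (S ⧸ span {π}) := by
    rintro _ ⟨x, hx, rfl⟩
    apply mem_nonZeroDivisors_of_ne_zero
    intro h0
    have : x ∈ span {π} := Ideal.Quotient.eq_zero_iff_mem.1 h0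
    exact hx ((span_singleton_le_iff_mem 𝔫).2 hπ𝔫 this)
  have hD : IsDedekindDomain (R ⧸ (span {π} : Ideal S).map (algebraMap S R)) :=
    IsLocalization.isDedekindDomain (S ⧸ span {π}) hM _
  have : IsLocalRing (R ⧸ (span {π} : Ideal S).map (algebraMap S R)) :=
    IsLocalRing.of_surjective' (Ideal.Quotient.mk _) Ideal.Quotient.mk_surjective
  exact ⟨((tfae_of_isNoetherianRing_of_isLocalRing_of_isDomain _).out 0 2).2 hD, inferInstance⟩

/-- **Local to global** (step (2d)).  `S` a noetherian integrally closed domain, `π` a prime element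
with `S/π` Dedekind, `f = y / y' ≡ 1 mod π`, and `f` locally an `m`-th power up to units at every
prime not containing `π`.  Then there is `a` with `a ^ m = D * w`, `w ≡ 1 mod π`, where
`D = y * y' ^ (m - 1)`; i.e. `a₀ = a / y'` satisfies `a₀ ^ m / f = w`. -/
theorem lg_global_strong [IsIntegrallyClosed S] {π : S} (hπ : Prime π)
    [IsDedekindDomain (S ⧸ span {π})]
    (y y' : S) (hy' : ¬ π ∣ y') (hyy' : π ∣ y - y') (m : ℕ) (hm : m ≠ 0)
    (hloc : ∀ p : Ideal S, p.IsPrime → π ∉ p → ∃ a b s t : S, b ≠ 0 ∧ s ∉ p ∧ t ∉ p ∧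
      y * y' ^ (m - 1) * t * b ^ m = a ^ m * s) :
    ∃ a w : S, a ^ m = y * y' ^ (m - 1) * w ∧ π ∣ w - 1 ∧ π ∣ a - y' := by
  set D : S := y * y' ^ (m - 1) with hD
  -- the ideal `𝔟`
  let 𝔟 : Ideal S :=
    { carrier := {s | ∃ a, D ∣ a ^ m ∧ π ∣ a - y' * s}
      zero_mem' := ⟨0, by rw [zero_pow hm]; exact dvd_zero D, by simp⟩
      add_mem' := by
        rintro s₁ s₂ ⟨a₁, h₁, h₁'⟩ ⟨a₂, h₂, h₂'⟩
        refine ⟨a₁ + a₂, ?_, ?_⟩
        · exact mem_lgRootIdeal.1 ((lgRootIdeal D m hm).add_mem (mem_lgRootIdeal.2 h₁)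
            (mem_lgRootIdeal.2 h₂))
        · have : a₁ + a₂ - y' * (s₁ + s₂) = (a₁ - y' * s₁) + (a₂ - y' * s₂) := by ring
          rw [this]
          exact dvd_add h₁' h₂'
      smul_mem' := by
        rintro c s ⟨a, h, h'⟩
        refine ⟨c * a, ?_, ?_⟩
        · rw [mul_pow]; exact Dvd.dvd.mul_left h _
        · have : c * a - y' * (c • s) = c * (a - y' * s) := by rw [smul_eq_mul]; ring
          rw [this]
          exact Dvd.dvd.mul_left h' _ }
  have hmem𝔟 : ∀ s, s ∈ 𝔟 ↔ ∃ a, D ∣ a ^ m ∧ π ∣ a - y' * s := fun s => Iff.rfl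
  have htop : 𝔟 = ⊤ := by
    by_contra hne
    obtain ⟨𝔫, h𝔫, hle⟩ := Ideal.exists_le_maximal 𝔟 hne
    have hπ𝔫 : π ∈ 𝔫 := hle ((hmem𝔟 π).2 ⟨0, by rw [zero_pow hm]; exact dvd_zero D,
      ⟨-y', by ring⟩⟩)
    have h𝔫p : 𝔫.IsPrime := h𝔫.isPrime
    let R := Localization.AtPrime 𝔫
    have hinj : Function.Injective (algebraMap S R) :=
      IsLocalization.injective R 𝔫.primeCompl_le_nonZeroDivisors
    have : IsDomain R := IsLocalization.isDomain_localization 𝔫.primeCompl_le_nonZeroDivisors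
    have : IsNoetherianRing R := IsLocalization.isNoetherianRing 𝔫.primeCompl R inferInstance
    have : IsIntegrallyClosed R :=
      isIntegrallyClosed_of_isLocalization R 𝔫.primeCompl 𝔫.primeCompl_le_nonZeroDivisors
    obtain ⟨hπR, hPIR, hIC⟩ := lg_quot_inst hπ 𝔫 hπ𝔫 R
    have hdvd : ∀ z : S, algebraMap S R π ∣ algebraMap S R z → π ∣ z := by
      intro z hz
      obtain ⟨c, hc⟩ := hz
      obtain ⟨⟨c₀, σ⟩, hcσ⟩ := IsLocalization.surj 𝔫.primeCompl c
      have h1 : algebraMap S R (z * σ) = algebraMap S R (π * c₀) := by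
        rw [map_mul, map_mul, hc, ← hcσ]; ring
      have h2 : z * σ = π * c₀ := hinj h1
      have h3 : π ∣ z * σ := ⟨c₀, h2⟩
      rcases hπ.dvd_or_dvd h3 with h | h
      · exact h
      · exact absurd (Ideal.mem_of_dvd 𝔫 h hπ𝔫) σ.2
    obtain ⟨φ, ρ, hφ, hρ, hφρ⟩ := lg_local hπR (algebraMap S R y) (algebraMap S R y')
      (fun h => hy' (hdvd _ h)) (by rw [← map_sub]; exact map_dvd _ hyy') m hm (by
        intro p hp hπp
        have hp' : (p.comap (algebraMap S R)).IsPrime := Ideal.comap_isPrime _ _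
        obtain ⟨a, b, s, t, hb, hs, ht, hab⟩ := hloc (p.comap (algebraMap S R)) hp' hπp
        refine ⟨algebraMap S R a, algebraMap S R b, algebraMap S R s, algebraMap S R t,
          fun h => hb (hinj (by rw [h, map_zero])), hs, ht, ?_⟩
        rw [← map_pow, ← map_pow, ← map_pow, ← map_mul, ← map_mul, ← map_mul, ← map_mul, hab])
    obtain ⟨c, hc⟩ := hφ
    obtain ⟨e, he⟩ := hφρ
    obtain ⟨⟨φ₀, σ₁⟩, hφ₀⟩ := IsLocalization.surj 𝔫.primeCompl φ
    obtain ⟨⟨ρ₀, σ₂⟩, hρ₀⟩ := IsLocalization.surj 𝔫.primeCompl ρ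
    obtain ⟨⟨c₀, σ₃⟩, hc₀⟩ := IsLocalization.surj 𝔫.primeCompl c
    obtain ⟨⟨e₀, σ₄⟩, he₀⟩ := IsLocalization.surj 𝔫.primeCompl e
    simp only at hφ₀ hρ₀ hc₀ he₀
    -- `ρ₀ ∉ 𝔫`
    have hρ₀𝔫 : ρ₀ ∉ 𝔫 := by
      intro h
      have h1 : algebraMap S R ρ₀ ∈ IsLocalRing.maximalIdeal R :=
        (IsLocalization.AtPrime.to_map_mem_maximal_iff R 𝔫 ρ₀).2 h
      have h2 : IsUnit (algebraMap S R ρ₀) := by
        rw [← hρ₀]
        exact hρ.mul (IsLocalization.map_units R σ₂)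
      exact (IsLocalRing.mem_maximalIdeal _).1 h1 h2
    -- `D ∣ (φ₀ σ₃) ^ m`
    have h1 : φ₀ ^ m * σ₃ = D * c₀ * (σ₁ : S) ^ m := by
      apply hinj
      rw [map_mul, map_pow, ← hφ₀, mul_pow, hc, map_mul, map_mul, ← hc₀, hD, map_mul, map_pow,
        map_pow]
      ring
    have h2 : D ∣ (φ₀ * σ₃) ^ m := by
      obtain ⟨k, rfl⟩ : ∃ k, m = k + 1 := ⟨m - 1, by omega⟩
      refine ⟨c₀ * (σ₁ : S) ^ (k + 1) * (σ₃ : S) ^ k, ?_⟩
      rw [mul_pow, pow_succ (σ₃ : S) k, ← mul_assoc, mul_comm _ (σ₃ : S), ← mul_assoc,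
        mul_comm (σ₃ : S), h1]
      ring
    have h3 : φ₀ * σ₂ * σ₄ - y' * (ρ₀ * σ₁ * σ₄) = π * (e₀ * σ₁ * σ₂) := by
      apply hinj
      have hφe : φ = algebraMap S R y' * ρ + algebraMap S R π * e := by rw [← he]; ring
      simp only [map_sub, map_mul]
      rw [← hφ₀, ← hρ₀, ← he₀, hφe]
      ring
    have hs𝔟 : ρ₀ * σ₁ * σ₄ * σ₃ ∈ 𝔟 := by
      refine (hmem𝔟 _).2 ⟨φ₀ * σ₃ * (σ₂ * σ₄), ?_, ?_⟩
      · rw [mul_pow]; exact Dvd.dvd.mul_right h2 _
      · refine ⟨e₀ * σ₁ * σ₂ * σ₃, ?_⟩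
        have : φ₀ * σ₃ * (σ₂ * σ₄) - y' * (ρ₀ * σ₁ * σ₄ * σ₃)
            = (φ₀ * σ₂ * σ₄ - y' * (ρ₀ * σ₁ * σ₄)) * σ₃ := by ring
        rw [this, h3]; ring
    have := hle hs𝔟
    rcases h𝔫p.mem_or_mem this with h | h
    · rcases h𝔫p.mem_or_mem h with h | h
      · rcases h𝔫p.mem_or_mem h with h | h
        · exact hρ₀𝔫 h
        · exact σ₁.2 h
      · exact σ₄.2 h
    · exact σ₃.2 h
  have h1 : (1 : S) ∈ 𝔟 := htop ▸ Submodule.mem_top
  obtain ⟨a, ⟨w, hw⟩, ha⟩ := (hmem𝔟 1).1 h1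
  rw [mul_one] at ha
  refine ⟨a, w, hw, ?_, ha⟩
  -- reduce modulo `π`
  have hprime : (span {π} : Ideal S).IsPrime := (span_singleton_prime hπ.ne_zero).2 hπ
  have hq : ∀ z : S, Ideal.Quotient.mk (span {π}) z = 0 ↔ π ∣ z := fun z => by
    rw [Ideal.Quotient.eq_zero_iff_mem, mem_span_singleton]
  have hyq : Ideal.Quotient.mk (span {π}) y = Ideal.Quotient.mk (span {π}) y' := by
    rw [← sub_eq_zero, ← map_sub, hq]; exact hyy'
  have haq : Ideal.Quotient.mk (span {π}) a = Ideal.Quotient.mk (span {π}) y' := by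
    rw [← sub_eq_zero, ← map_sub, hq]; exact ha
  have hy'q : Ideal.Quotient.mk (span {π}) y' ≠ 0 := fun h => hy' ((hq y').1 h)
  have hDq : Ideal.Quotient.mk (span {π}) D = (Ideal.Quotient.mk (span {π}) y') ^ m := by
    rw [hD, map_mul, map_pow, hyq, ← pow_succ', Nat.sub_add_cancel (Nat.pos_of_ne_zero hm)]
  have h2 := congrArg (Ideal.Quotient.mk (span {π})) hw
  rw [map_pow, haq, map_mul, hDq] at h2
  have h3 : (Ideal.Quotient.mk (span {π}) y') ^ m * 1
      = (Ideal.Quotient.mk (span {π}) y') ^ m * Ideal.Quotient.mk (span {π}) w := by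
    rw [mul_one]; exact h2
  have h4 := mul_left_cancel₀ (pow_ne_zero _ hy'q) h3
  rw [← hq, map_sub, map_one, ← h4, sub_self]

/-- `lg_global_strong` without the last clause. -/
theorem lg_global [IsIntegrallyClosed S] {π : S} (hπ : Prime π) [IsDedekindDomain (S ⧸ span {π})]
    (y y' : S) (hy' : ¬ π ∣ y') (hyy' : π ∣ y - y') (m : ℕ) (hm : m ≠ 0)
    (hloc : ∀ p : Ideal S, p.IsPrime → π ∉ p → ∃ a b s t : S, b ≠ 0 ∧ s ∉ p ∧ t ∉ p ∧
      y * y' ^ (m - 1) * t * b ^ m = a ^ m * s) :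
    ∃ a w : S, a ^ m = y * y' ^ (m - 1) * w ∧ π ∣ w - 1 := by
  obtain ⟨a, w, h1, h2, -⟩ := lg_global_strong hπ y y' hy' hyy' m hm hloc
  exact ⟨a, w, h1, h2⟩

/-- Field form of `lg_global`: the hypothesis `(H)` of the Cech/Hensel core. -/
theorem lg_global_field [IsIntegrallyClosed S] {F : Type*} [Field F] [Algebra S F]
    (hinj : Function.Injective (algebraMap S F))
    {π : S} (hπ : Prime π) [IsDedekindDomain (S ⧸ span {π})]
    (y y' : S) (hy' : ¬ π ∣ y') (hyy' : π ∣ y - y') (m : ℕ) (hm : m ≠ 0)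
    (hloc : ∀ p : Ideal S, p.IsPrime → π ∉ p → ∃ a b s t : S, b ≠ 0 ∧ s ∉ p ∧ t ∉ p ∧
      y * y' ^ (m - 1) * t * b ^ m = a ^ m * s) :
    ∃ (a₀ : F) (w : S), a₀ ^ m / (algebraMap S F y / algebraMap S F y') = algebraMap S F w ∧
      π ∣ w - 1 := by
  obtain ⟨a, w, haw, hw⟩ := lg_global hπ y y' hy' hyy' m hm hloc
  refine ⟨algebraMap S F a / algebraMap S F y', w, ?_, hw⟩
  have hy'0 : algebraMap S F y' ≠ 0 := by
    intro h
    apply hy'
    have : y' = 0 := hinj (by rw [h, map_zero])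
    rw [this]; exact dvd_zero π
  have hy0 : algebraMap S F y ≠ 0 := by
    intro h
    have h0 : y = 0 := hinj (by rw [h, map_zero])
    apply hy'
    have : y' = y - (y - y') := by ring
    rw [this, h0]
    exact dvd_sub (dvd_zero π) (h0 ▸ hyy')
  have h1 := congrArg (algebraMap S F) haw
  rw [map_pow, map_mul, map_mul, map_pow] at h1
  obtain ⟨k, rfl⟩ : ∃ k, m = k + 1 := ⟨m - 1, by omega⟩
  rw [Nat.add_sub_cancel] at h1
  rw [div_pow, h1]
  field_simp
  ring

end GlobalPart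

end Fermat.Agent.S18Lib
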