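/-
S18 library: packaging of the Cech core (`cech_core`), of the local-to-global step (`lg_global_strong`)
and of the constants lemma (`const_algebraic`).
-/
import Fermat.Agent.S18.Core
import Fermat.Agent.S18.Const
import Fermat.Agent.S18.LocalGlobal

set_option autoImplicit false

open Polynomial

namespace Fermat.Agent.S18Lib

variable {A0 F : Type*} [CommRing A0] [Field F] [Algebra A0 F]

theorem core2_isIntegrallyClosed (S : Subalgebra A0 F) (hic : ∀ u : F, IsIntegral S u → u ∈ S) :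
    IsIntegrallyClosed S := by
  have : IsIntegrallyClosedIn S F := Subring.isIntegrallyClosedIn_iff.mpr (fun u hu => hic u hu)
  exact IsIntegrallyClosed.of_isIntegrallyClosedIn S F

theorem core2_root_closed (S : Subalgebra A0 F) (hic : ∀ u : F, IsIntegral S u → u ∈ S)
    {m : ℕ} (hm : 0 < m) (u : F) (hu : u ^ m ∈ S) : u ∈ S := by
  apply hic
  refine IsIntegral.of_pow hm ?_
  exact isIntegral_algebraMap (R := S) (x := ⟨u ^ m, hu⟩)

theorem core2_noeth [IsNoetherianRing A0] (S : Subalgebra A0 F) (x : F) (hx : x ∈ S)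
    (hfin : ∃ s : Finset F, ∀ y ∈ S, y ∈ Submodule.span (Algebra.adjoin A0 ({x} : Set F)) (s : Set F)) :
    IsNoetherianRing S := by
  classical
  set B := Algebra.adjoin A0 ({x} : Set F) with hB
  have hBS : B ≤ S := Algebra.adjoin_le (by simpa using hx)
  have : IsNoetherianRing B := isNoetherianRing_of_fg ⟨{x}, by simp [hB]⟩
  obtain ⟨s, hs⟩ := hfin
  let _ : Algebra B S := (Subalgebra.inclusion hBS).toAlgebra
  have hN : IsNoetherian B (Submodule.span B (s : Set F)) :=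
    isNoetherian_span_of_finite B s.finite_toSet
  let g : S →ₗ[B] F :=
    { toFun := fun y => (y : F)
      map_add' := fun _ _ => rfl
      map_smul' := fun _ _ => rfl }
  let g' : S →ₗ[B] (Submodule.span B (s : Set F)) := g.codRestrict _ (fun y => hs y y.2)
  have hg' : Function.Injective g' := by
    intro a b hab
    have := congrArg Subtype.val hab
    exact Subtype.ext this
  have hNS : IsNoetherian B S := isNoetherian_of_injective g' hg'
  exact isNoetherian_of_tower B hNS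

/-- compatibility of the two approximate roots on the overlap. -/
theorem core2_glue {R : Type*} [CommRing R] {P : R} (hP : Prime P) (m : ℕ)
    (Z Y1 Y1' Y2' A B : R) (hY1' : ¬ P ∣ Y1') (hY2' : ¬ P ∣ Y2') (hYY : P ∣ Y1 - Y1')
    (hA : P ∣ A - Y1') (hB : P ∣ B - Y2')
    (hZ : Z * (Y1 * Y2' ^ (m - 1)) = A * B ^ (m - 1)) : P ∣ Z - 1 := by
  have h1 : P ∣ A * B ^ (m - 1) - Y1 * Y2' ^ (m - 1) := by
    have e : A * B ^ (m - 1) - Y1 * Y2' ^ (m - 1)
        = ((A - Y1') - (Y1 - Y1')) * B ^ (m - 1) + Y1 * (B ^ (m - 1) - Y2' ^ (m - 1)) := by ring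
    rw [e]
    refine dvd_add (Dvd.dvd.mul_right (dvd_sub hA hYY) _) (Dvd.dvd.mul_left ?_ _)
    exact hB.trans (sub_dvd_pow_sub_pow _ _ _)
  have h2 : P ∣ (Z - 1) * (Y1 * Y2' ^ (m - 1)) := by
    have e : (Z - 1) * (Y1 * Y2' ^ (m - 1)) = A * B ^ (m - 1) - Y1 * Y2' ^ (m - 1) := by
      rw [← hZ]; ring
    rw [e]; exact h1
  rcases hP.dvd_or_dvd h2 with h | h
  · exact h
  · exfalso
    rcases hP.dvd_or_dvd h with h | h
    · apply hY1'
      have e : Y1' = Y1 - (Y1 - Y1') := by ring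
      rw [e]; exact dvd_sub h hYY
    · exact hY2' (hP.dvd_of_dvd_pow h)

theorem core2_pow_id (a b f : F) (hf : f ≠ 0) (k : ℕ) :
    (a * b ^ k / f) ^ (k + 1) = a ^ (k + 1) / f * (b ^ (k + 1) / f) ^ k := by
  rw [div_pow, mul_pow, div_pow, ← pow_mul, ← pow_mul, pow_succ f k, mul_comm k (k + 1)]
  field_simp

/-- **Packaged core.**  `lg_global_strong` on both charts + `cech_core`. -/
theorem cech_main [IsNoetherianRing A0] (S1 S2 S12 : Subalgebra A0 F) (h1 : S1 ≤ S12)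
    (h2 : S2 ≤ S12) {m : ℕ} (hm : 0 < m)
    (hic1 : ∀ u : F, IsIntegral S1 u → u ∈ S1) (hic2 : ∀ u : F, IsIntegral S2 u → u ∈ S2)
    (hic12 : ∀ u : F, IsIntegral S12 u → u ∈ S12)
    (minv : A0) (hminv : (m : A0) * minv = 1) (ϖ : A0)
    (hP1 : Prime (algebraMap A0 S1 ϖ)) (hP2 : Prime (algebraMap A0 S2 ϖ))
    (hP12 : Prime (algebraMap A0 S12 ϖ))
    (hD1 : IsDedekindDomain (S1 ⧸ Ideal.span {algebraMap A0 S1 ϖ}))
    (hD2 : IsDedekindDomain (S2 ⧸ Ideal.span {algebraMap A0 S2 ϖ}))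
    (x : F) (hx0 : x ≠ 0) (hx1 : x ∈ S1) (hx2 : x⁻¹ ∈ S2)
    (h121 : ∀ y ∈ S12, ∃ n : ℕ, x ^ n * y ∈ S1) (h122 : ∀ y ∈ S12, ∃ n : ℕ, x⁻¹ ^ n * y ∈ S2)
    (hfin1 : ∃ s : Finset F, ∀ y ∈ S1,
      y ∈ Submodule.span (Algebra.adjoin A0 ({x} : Set F)) (s : Set F))
    (hfin2 : ∃ s : Finset F, ∀ y ∈ S2,
      y ∈ Submodule.span (Algebra.adjoin A0 ({x⁻¹} : Set F)) (s : Set F))
    (y1 y1' : S1) (y2 y2' : S2)
    (hy1' : ¬ algebraMap A0 S12 ϖ ∣ Subalgebra.inclusion h1 y1')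
    (hy2' : ¬ algebraMap A0 S12 ϖ ∣ Subalgebra.inclusion h2 y2')
    (hyy1 : algebraMap A0 S1 ϖ ∣ y1 - y1') (hyy2 : algebraMap A0 S2 ϖ ∣ y2 - y2')
    (hf12 : (y1 : F) / y1' = y2 / y2')
    (hloc1 : ∀ p : Ideal S1, p.IsPrime → algebraMap A0 S1 ϖ ∉ p →
      ∃ a b s t : S1, b ≠ 0 ∧ s ∉ p ∧ t ∉ p ∧ y1 * y1' ^ (m - 1) * t * b ^ m = a ^ m * s)
    (hloc2 : ∀ p : Ideal S2, p.IsPrime → algebraMap A0 S2 ϖ ∉ p →
      ∃ a b s t : S2, b ≠ 0 ∧ s ∉ p ∧ t ∉ p ∧ y2 * y2' ^ (m - 1) * t * b ^ m = a ^ m * s) :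
    ∃ u : F, u ≠ 0 ∧ u ^ m / ((y1 : F) / y1') ∈ S1 ∧ u ^ m / ((y1 : F) / y1') ∈ S2 := by
  have hm0 : m ≠ 0 := hm.ne'
  have hN1 : IsNoetherianRing S1 := core2_noeth S1 x hx1 hfin1
  have hN2 : IsNoetherianRing S2 := core2_noeth S2 x⁻¹ hx2 hfin2
  have hI1 : IsIntegrallyClosed S1 := core2_isIntegrallyClosed S1 hic1
  have hI2 : IsIntegrallyClosed S2 := core2_isIntegrallyClosed S2 hic2
  -- transfer of divisibility
  have hd1 : ∀ z : S1, algebraMap A0 S1 ϖ ∣ z → algebraMap A0 S12 ϖ ∣ Subalgebra.inclusion h1 z := by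
    rintro z ⟨c, rfl⟩
    exact ⟨Subalgebra.inclusion h1 c, by rw [map_mul]; rfl⟩
  have hd2 : ∀ z : S2, algebraMap A0 S2 ϖ ∣ z → algebraMap A0 S12 ϖ ∣ Subalgebra.inclusion h2 z := by
    rintro z ⟨c, rfl⟩
    exact ⟨Subalgebra.inclusion h2 c, by rw [map_mul]; rfl⟩
  obtain ⟨α, w1, hα, hw1, hα1⟩ := lg_global_strong hP1 y1 y1' (fun h => hy1' (hd1 _ h)) hyy1 m hm0 hloc1
  obtain ⟨β, w2, hβ, hw2, hβ1⟩ := lg_global_strong hP2 y2 y2' (fun h => hy2' (hd2 _ h)) hyy2 m hm0 hloc2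
  -- non-vanishing
  have hy1'0 : (y1' : F) ≠ 0 := by
    intro h
    apply hy1'
    have : y1' = 0 := Subtype.ext h
    rw [this, map_zero]; exact dvd_zero _
  have hy2'0 : (y2' : F) ≠ 0 := by
    intro h
    apply hy2'
    have : y2' = 0 := Subtype.ext h
    rw [this, map_zero]; exact dvd_zero _
  have hy10 : (y1 : F) ≠ 0 := by
    intro h
    have h0 : y1 = 0 := Subtype.ext h
    apply hy1'
    have e : y1' = y1 - (y1 - y1') := by ring
    rw [e, h0]
    exact hd1 _ (dvd_sub (dvd_zero _) (h0 ▸ hyy1))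
  have hy20 : (y2 : F) ≠ 0 := by
    intro h
    have h0 : y2 = 0 := Subtype.ext h
    apply hy2'
    have e : y2' = y2 - (y2 - y2') := by ring
    rw [e, h0]
    exact hd2 _ (dvd_sub (dvd_zero _) (h0 ▸ hyy2))
  set f : F := (y1 : F) / y1' with hf
  have hf0 : f ≠ 0 := div_ne_zero hy10 hy1'0
  obtain ⟨k, rfl⟩ : ∃ k, m = k + 1 := ⟨m - 1, by omega⟩
  simp only [Nat.add_sub_cancel] at *
  have hαF : (α : F) ^ (k + 1) = y1 * (y1' : F) ^ k * w1 := by
    have := congrArg (Subtype.val) hα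
    simpa using this
  have hβF : (β : F) ^ (k + 1) = y2 * (y2' : F) ^ k * w2 := by
    have := congrArg (Subtype.val) hβ
    simpa using this
  have ea : ((α : F) / y1') ^ (k + 1) / f = w1 := by
    rw [div_pow, hαF, hf]
    field_simp
    ring
  have eb : ((β : F) / y2') ^ (k + 1) / f = w2 := by
    rw [div_pow, hβF, hf12]
    field_simp
    ring
  have hc12 := core2_root_closed S12 hic12 (m := k + 1) hm
  -- the overlap element
  set z : F := (α : F) / y1' * ((β : F) / y2') ^ k / f with hz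
  have hzpow : z ^ (k + 1) = w1 * (w2 : F) ^ k := by
    rw [← ea, ← eb, hz]
    exact core2_pow_id _ _ _ hf0 k
  have hz12 : z ∈ S12 := by
    apply hc12
    rw [hzpow]
    exact S12.mul_mem (h1 w1.2) (S12.pow_mem (h2 w2.2) _)
  have hZ : (⟨z, hz12⟩ : S12) * (Subalgebra.inclusion h1 y1 * (Subalgebra.inclusion h2 y2') ^ k)
      = Subalgebra.inclusion h1 α * (Subalgebra.inclusion h2 β) ^ k := by
    apply Subtype.ext
    show z * ((y1 : F) * (y2' : F) ^ k) = (α : F) * (β : F) ^ k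
    rw [hz, hf, div_pow]
    field_simp
  have hglue := core2_glue hP12 (k + 1) (⟨z, hz12⟩ : S12) (Subalgebra.inclusion h1 y1)
    (Subalgebra.inclusion h1 y1') (Subalgebra.inclusion h2 y2') (Subalgebra.inclusion h1 α)
    (Subalgebra.inclusion h2 β) hy1' hy2'
    (by rw [← map_sub]; exact hd1 _ hyy1) (by rw [← map_sub]; exact hd1 _ hα1)
    (by rw [← map_sub]; exact hd2 _ hβ1) (by simpa using hZ)
  refine cech_core S1 S2 S12 h1 h2 hm (core2_root_closed S1 hic1 hm) (core2_root_closed S2 hic2 hm)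
    hc12 minv hminv ϖ hP12 hf0 x hx0 hx1 hx2 h121 h122 hfin1 ?_ ((α : F) / y1') ((β : F) / y2')
    ?_ ?_ ?_
  · refine ⟨y1', hy1'0, ?_⟩
    have : (y1' : F) ^ (k + 1) * f = (y1' : F) ^ k * y1 := by
      rw [hf]; field_simp; ring
    rw [this]
    exact S1.mul_mem (S1.pow_mem y1'.2 _) y1.2
  · obtain ⟨c, hc⟩ := hw1
    refine ⟨c, c.2, ?_⟩
    rw [ea]
    have := congrArg Subtype.val hc
    have e : (w1 : F) - 1 = algebraMap A0 F ϖ * c := by simpa using this
    rw [← e]; ring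
  · obtain ⟨c, hc⟩ := hw2
    refine ⟨c, c.2, ?_⟩
    rw [eb]
    have := congrArg Subtype.val hc
    have e : (w2 : F) - 1 = algebraMap A0 F ϖ * c := by simpa using this
    rw [← e]; ring
  · obtain ⟨c, hc⟩ := hglue
    refine ⟨c, c.2, ?_⟩
    have := congrArg Subtype.val hc
    have e : z - 1 = algebraMap A0 F ϖ * c := by simpa using this
    simp only [Nat.add_sub_cancel]
    rw [← hz, ← e]; ring

theorem core2_int_mono {K0 : Type*} [Field K0] [Algebra A0 K0] [Algebra K0 F]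
    [IsScalarTower A0 K0 F]
    (t y : F) (ht : IsIntegral (Algebra.adjoin A0 ({t} : Set F)) y) :
    IsIntegral (Algebra.adjoin K0 ({t} : Set F)) y := by
  have hle : Algebra.adjoin A0 ({t} : Set F) ≤ (Algebra.adjoin K0 ({t} : Set F)).restrictScalars A0 :=
    Algebra.adjoin_le (by
      rintro _ rfl
      exact Algebra.self_mem_adjoin_singleton K0 _)
  obtain ⟨p, hp, hpe⟩ := ht
  let φ : Algebra.adjoin A0 ({t} : Set F) →+* Algebra.adjoin K0 ({t} : Set F) :=
    { toFun := fun a => ⟨a.1, hle a.2⟩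
      map_one' := Subtype.ext rfl
      map_mul' := fun _ _ => Subtype.ext rfl
      map_zero' := Subtype.ext rfl
      map_add' := fun _ _ => Subtype.ext rfl }
  refine ⟨p.map φ, hp.map φ, ?_⟩
  rw [eval₂_map]
  have : (algebraMap (Algebra.adjoin K0 ({t} : Set F)) F).comp φ
      = algebraMap (Algebra.adjoin A0 ({t} : Set F)) F := by
    ext a
    rfl
  rw [this]
  exact hpe

/-- the constants lemma over a base ring `A0 ⊆ K0`. -/
theorem cech_main_alg {K0 : Type*} [Field K0] [Algebra A0 K0] [Algebra K0 F] [IsScalarTower A0 K0 F]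
    (x y : F)
    (h1 : IsIntegral (Algebra.adjoin A0 ({x} : Set F)) y)
    (h2 : IsIntegral (Algebra.adjoin A0 ({x⁻¹} : Set F)) y) : IsAlgebraic K0 y :=
  const_algebraic x y (core2_int_mono x y h1) (core2_int_mono x⁻¹ y h2)

end Fermat.Agent.S18Lib
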