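/-
S18 library: basic properties of the chart rings `chartS A0 t`, `chartS12 A0 t`.
-/
import Fermat.Agent.S18.ChartDefs
import Fermat.Agent.S18.Core2

set_option autoImplicit false
set_option linter.unusedSectionVars false
set_option linter.unusedVariables false

open Polynomial IntermediateField

namespace Fermat.Agent.S18Lib

/-! ### abstract lemmas -/

/-- integrality is monotone in the base subalgebra. -/
theorem chart_int_mono {A0 F0 : Type*} [CommRing A0] [Field F0] [Algebra A0 F0]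
    {B B' : Subalgebra A0 F0} (hle : B ≤ B') {y : F0} (hy : IsIntegral B y) : IsIntegral B' y := by
  obtain ⟨p, hp, hpe⟩ := hy
  refine ⟨p.map (Subalgebra.inclusion hle).toRingHom, hp.map _, ?_⟩
  rw [eval₂_map]
  have : (algebraMap B' F0).comp (Subalgebra.inclusion hle).toRingHom = algebraMap B F0 := by
    ext a
    rfl
  rw [this]
  exact hpe

/-- if `p` is monic with root `π w` and `π ^ (n - i) ∣ p_i`, then `w` is integral. -/
theorem chart_scale_integral {R L : Type*} [CommRing R] [Field L] [Algebra R L]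
    (π : R) (hπ0 : algebraMap R L π ≠ 0) (p : R[X]) (hp : p.Monic) (w : L)
    (hw : aeval (algebraMap R L π * w) p = 0)
    (hdiv : ∀ i, π ^ (p.natDegree - i) ∣ p.coeff i) : IsIntegral R w := by
  classical
  choose c hc using hdiv
  set n := p.natDegree with hn
  let r : R[X] := ∑ i ∈ Finset.range (n + 1), C (c i) * X ^ i
  have hcoeff : ∀ i, i ≤ n → r.coeff i = c i := by
    intro i hi
    simp only [r, finsetSum_coeff, coeff_C_mul_X_pow]
    rw [Finset.sum_eq_single i]
    · simp
    · intro j _ hj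
      rw [if_neg (fun h => hj h.symm)]
    · intro h
      exact absurd (Finset.mem_range.mpr (Nat.lt_succ_of_le hi)) h
  have hdeg : r.natDegree ≤ n := by
    apply natDegree_sum_le_of_forall_le
    intro i hi
    exact (natDegree_C_mul_X_pow_le _ _).trans (Nat.lt_succ_iff.mp (Finset.mem_range.mp hi))
  have hcn : c n = 1 := by
    have := hc n
    rw [Nat.sub_self, pow_zero, one_mul] at this
    rw [← this]
    exact hp.coeff_natDegree
  have hmonic : r.Monic := monic_of_natDegree_le_of_coeff_eq_one n hdeg (by rw [hcoeff n le_rfl, hcn])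
  refine ⟨r, hmonic, ?_⟩
  have h1 : algebraMap R L π ^ n * eval₂ (algebraMap R L) w r = aeval (algebraMap R L π * w) p := by
    rw [aeval_eq_sum_range, ← hn]
    simp only [r, eval₂_finsetSum, eval₂_mul, eval₂_C, eval₂_pow, eval₂_X, Finset.mul_sum]
    refine Finset.sum_congr rfl fun i hi => ?_
    have hi' : i ≤ n := Nat.lt_succ_iff.mp (Finset.mem_range.mp hi)
    rw [hc i, Algebra.smul_def, map_mul, map_pow, mul_pow]
    have : algebraMap R L π ^ n = algebraMap R L π ^ (n - i) * algebraMap R L π ^ i := by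
      rw [← pow_add, Nat.sub_add_cancel hi']
    rw [this]; ring
  rw [hw] at h1
  exact (mul_eq_zero.mp h1).resolve_left (pow_ne_zero _ hπ0)

/-- **Key lemma** for (V3): `π w` and `Q w` integral, `π` prime, `π ∤ Q` ⇒ `w` integral. -/
theorem chart_key {R L : Type*} [CommRing R] [IsDomain R] [IsIntegrallyClosed R] [Field L]
    [Algebra R L] [FaithfulSMul R L]
    (π Q : R) (hπ : Prime π) (hQ : ¬ π ∣ Q) (w : L) (h1 : IsIntegral R (π • w))
    (h2 : IsIntegral R (Q • w)) : IsIntegral R w := by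
  have hQ0 : Q ≠ 0 := fun h => hQ (h ▸ dvd_zero π)
  have e1 := IsIntegrallyClosed.minpoly_smul hQ0 h1
  have e2 := IsIntegrallyClosed.minpoly_smul hπ.ne_zero h2
  have e3 : Q • π • w = π • Q • w := smul_comm _ _ _
  rw [e3, e2] at e1
  set p := minpoly R (π • w) with hp
  set q := minpoly R (Q • w) with hq
  have hdeg : q.natDegree = p.natDegree := by
    have := congrArg natDegree e1
    rwa [natDegree_scaleRoots, natDegree_scaleRoots] at this
  refine chart_scale_integral π ?_ p (minpoly.monic h1) w ?_ ?_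
  · intro h
    apply hπ.ne_zero
    exact (FaithfulSMul.algebraMap_injective R L) (by rw [h, map_zero])
  · rw [← Algebra.smul_def]
    exact minpoly.aeval _ _
  · intro i
    have := congrArg (fun f => coeff f i) e1
    simp only [coeff_scaleRoots, hdeg] at this
    apply hπ.pow_dvd_of_dvd_mul_right _ (fun h => hQ (hπ.dvd_of_dvd_pow h))
      (b := Q ^ (p.natDegree - i))
    rw [← this]
    exact Dvd.intro_left _ rfl

/-- transfer of integrality along a ring hom compatible with the maps to `F0`. -/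
theorem chart_int_of_hom {R1 R2 F0 : Type*} [CommRing R1] [CommRing R2] [Field F0] [Algebra R1 F0]
    [Algebra R2 F0] (φ : R1 →+* R2) (hφ : ∀ a, algebraMap R2 F0 (φ a) = algebraMap R1 F0 a)
    {y : F0} (hy : IsIntegral R1 y) : IsIntegral R2 y := by
  obtain ⟨p, hp, hpe⟩ := hy
  refine ⟨p.map φ, hp.map _, ?_⟩
  rw [eval₂_map]
  have : (algebraMap R2 F0).comp φ = algebraMap R1 F0 := by
    ext a
    exact hφ a
  rw [this]
  exact hpe

theorem chart_mem_valuationSubring {A0 F0 : Type*} [CommRing A0] [Field F0] [Algebra A0 F0]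
    (B : Subalgebra A0 F0) (Ov : ValuationSubring F0) (hle : ∀ a ∈ B, a ∈ Ov) {y : F0}
    (hy : IsIntegral B y) : y ∈ Ov := by
  let φ : B →+* Ov :=
    { toFun := fun a => ⟨a.1, hle a.1 a.2⟩
      map_one' := Subtype.ext rfl
      map_mul' := fun _ _ => Subtype.ext rfl
      map_zero' := Subtype.ext rfl
      map_add' := fun _ _ => Subtype.ext rfl }
  have h1 : IsIntegral Ov y := chart_int_of_hom φ (fun _ => rfl) hy
  obtain ⟨z, hz⟩ := (IsIntegrallyClosed.isIntegral_iff (R := Ov) (K := F0)).mp h1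
  rw [← hz]
  exact z.2

theorem chart_adjoin_le_valuationSubring {A0 F0 : Type*} [CommRing A0] [Field F0] [Algebra A0 F0]
    (Ov : ValuationSubring F0) (hA : ∀ a : A0, algebraMap A0 F0 a ∈ Ov) (s : Set F0)
    (hs : ∀ x ∈ s, x ∈ Ov) : ∀ a ∈ Algebra.adjoin A0 s, a ∈ Ov := by
  let OvA : Subalgebra A0 F0 := { Ov.toSubring with algebraMap_mem' := hA }
  have : Algebra.adjoin A0 s ≤ OvA := Algebra.adjoin_le hs
  exact fun a ha => this ha

/-- clearing the powers of `t⁻¹`. -/
theorem chart_clear {A0 F0 : Type*} [CommRing A0] [Field F0] [Algebra A0 F0] {t : F0} (ht0 : t ≠ 0)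
    (c : F0) (hc : c ∈ Algebra.adjoin A0 ({t, t⁻¹} : Set F0)) :
    ∃ n : ℕ, t ^ n * c ∈ Algebra.adjoin A0 ({t} : Set F0) := by
  have htm : t ∈ Algebra.adjoin A0 ({t} : Set F0) := Algebra.self_mem_adjoin_singleton A0 t
  induction hc using Algebra.adjoin_induction with
  | mem x hx =>
    rcases hx with rfl | hx
    · exact ⟨0, by rw [pow_zero, one_mul]; exact htm⟩
    · rw [Set.mem_singleton_iff] at hx
      subst hx
      exact ⟨1, by rw [pow_one, mul_inv_cancel₀ ht0]; exact one_mem _⟩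
  | algebraMap a => exact ⟨0, by rw [pow_zero, one_mul]; exact Subalgebra.algebraMap_mem _ a⟩
  | add x y _ _ hx hy =>
    obtain ⟨n1, h1⟩ := hx
    obtain ⟨n2, h2⟩ := hy
    refine ⟨n1 + n2, ?_⟩
    have : t ^ (n1 + n2) * (x + y) = t ^ n2 * (t ^ n1 * x) + t ^ n1 * (t ^ n2 * y) := by
      rw [pow_add]; ring
    rw [this]
    exact add_mem (mul_mem (pow_mem htm _) h1) (mul_mem (pow_mem htm _) h2)
  | mul x y _ _ hx hy =>
    obtain ⟨n1, h1⟩ := hx
    obtain ⟨n2, h2⟩ := hy
    refine ⟨n1 + n2, ?_⟩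
    have : t ^ (n1 + n2) * (x * y) = (t ^ n1 * x) * (t ^ n2 * y) := by
      rw [pow_add]; ring
    rw [this]
    exact mul_mem h1 h2

theorem chart_clear_integral {A0 F0 : Type*} [CommRing A0] [Field F0] [Algebra A0 F0] {t : F0}
    (ht0 : t ≠ 0) (y : F0) (hy : IsIntegral (Algebra.adjoin A0 ({t, t⁻¹} : Set F0)) y) :
    ∃ n : ℕ, IsIntegral (Algebra.adjoin A0 ({t} : Set F0)) (t ^ n * y) := by
  classical
  set B1 := Algebra.adjoin A0 ({t} : Set F0) with hB1
  set B12 := Algebra.adjoin A0 ({t, t⁻¹} : Set F0) with hB12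
  have hle : B1 ≤ B12 := Algebra.adjoin_mono (Set.singleton_subset_iff.mpr (Set.mem_insert _ _))
  have htm : t ∈ B1 := Algebra.self_mem_adjoin_singleton A0 t
  obtain ⟨p, hp, hpe⟩ := hy
  have hcl : ∀ c : B12, ∃ n : ℕ, t ^ n * (c : F0) ∈ B1 := fun c => chart_clear ht0 c c.2
  choose ν hν using hcl
  set N := p.support.sup (fun i => ν (p.coeff i)) with hN
  have hN' : ∀ i, t ^ N * (p.coeff i : F0) ∈ B1 := by
    intro i
    by_cases hi : i ∈ p.support
    · have hle' : ν (p.coeff i) ≤ N := Finset.le_sup (f := fun i => ν (p.coeff i)) hi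
      have : t ^ N * (p.coeff i : F0) = t ^ (N - ν (p.coeff i)) * (t ^ ν (p.coeff i) * p.coeff i) := by
        rw [← mul_assoc, ← pow_add, Nat.sub_add_cancel hle']
      rw [this]
      exact mul_mem (pow_mem htm _) (hν _)
    · rw [notMem_support_iff.mp hi]
      simp
  let T : B12 := ⟨t, hle htm⟩
  let f : B1 →+* B12 := (Subalgebra.inclusion hle).toRingHom
  have hlift : scaleRoots p (T ^ N) ∈ lifts f := by
    rw [lifts_iff_coeff_lifts]
    intro i
    rw [coeff_scaleRoots]
    rcases Nat.lt_or_ge i p.natDegree with hi | hi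
    · obtain ⟨k, hk⟩ : ∃ k, p.natDegree - i = k + 1 := ⟨p.natDegree - i - 1, by omega⟩
      have hmem : (p.coeff i : F0) * (t ^ N) ^ (k + 1) ∈ B1 := by
        have : (p.coeff i : F0) * (t ^ N) ^ (k + 1) = (t ^ N) ^ k * (t ^ N * p.coeff i) := by ring
        rw [this]
        exact mul_mem (pow_mem (pow_mem htm _) _) (hN' i)
      refine ⟨⟨_, hmem⟩, ?_⟩
      rw [hk]
      apply Subtype.ext
      rfl
    · rcases hi.eq_or_lt with hi | hi
      · refine ⟨1, ?_⟩
        rw [← hi, Nat.sub_self, pow_zero, mul_one, hp.coeff_natDegree, map_one]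
      · refine ⟨0, ?_⟩
        rw [coeff_eq_zero_of_natDegree_lt hi, zero_mul, map_zero]
  obtain ⟨q, hq, -, hqm⟩ := lifts_and_natDegree_eq_and_monic hlift ((monic_scaleRoots_iff _).mpr hp)
  refine ⟨N, q, hqm, ?_⟩
  have hcomp : (algebraMap B12 F0).comp f = algebraMap B1 F0 := by
    ext a
    rfl
  rw [← hcomp, ← eval₂_map, hq]
  have := scaleRoots_eval₂_eq_zero (algebraMap B12 F0) (s := T ^ N) hpe
  exact this

/-! ### the stubs of the abstract layer -/

section
variable {A0 K0 F0 : Type} [CommRing A0] [IsDomain A0] [IsDiscreteValuationRing A0]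
    [Field K0] [CharZero K0] [Algebra A0 K0] [IsFractionRing A0 K0]
    [Field F0] [Algebra K0 F0] [Algebra A0 F0] [IsScalarTower A0 K0 F0]

theorem chart_le_Ov {π : A0} {t : F0} {Ov : ValuationSubring F0} (h : GEData π t Ov) :
    ∀ y ∈ chartS A0 t, y ∈ Ov := by
  intro y hy
  rw [mem_chartS] at hy
  refine chart_mem_valuationSubring _ Ov ?_ hy
  apply chart_adjoin_le_valuationSubring Ov h.hA
  rintro _ rfl
  exact h.ht

theorem chart_aeval_mem {t : F0} (Q : A0[X]) : aeval t Q ∈ chartS A0 t := by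
  rw [mem_chartS]
  exact isIntegral_algebraMap (R := Algebra.adjoin A0 ({t} : Set F0))
    (x := ⟨aeval t Q, aeval_mem_adjoin_singleton _ _⟩)

theorem chart_loc {π : A0} {t : F0} {Ov : ValuationSubring F0} (h : GEData π t Ov) :
    ∀ y ∈ Ov, ∃ s ∈ chartS A0 t, s / algebraMap A0 F0 π ∉ Ov ∧ s * y ∈ chartS A0 t := by
  intro y hy
  obtain ⟨Q, hQ, hint⟩ := h.hI y hy
  exact ⟨aeval t Q, chart_aeval_mem Q, fun hc => hQ (h.hG Q hc), hint⟩

theorem chart_closed {t : F0} : ∀ y : F0, IsIntegral (chartS A0 t) y → y ∈ chartS A0 t := by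
  intro y hy
  rw [mem_chartS]
  let φ : chartS A0 t →+* integralClosure (Algebra.adjoin A0 ({t} : Set F0)) F0 :=
    { toFun := fun a => ⟨a.1, a.2⟩
      map_one' := Subtype.ext rfl
      map_mul' := fun _ _ => Subtype.ext rfl
      map_zero' := Subtype.ext rfl
      map_add' := fun _ _ => Subtype.ext rfl }
  have h1 : IsIntegral (integralClosure (Algebra.adjoin A0 ({t} : Set F0)) F0) y :=
    chart_int_of_hom φ (fun _ => rfl) hy
  exact isIntegral_trans y h1

theorem chart12_closed {t : F0} : ∀ y : F0, IsIntegral (chartS12 A0 t) y → y ∈ chartS12 A0 t := by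
  intro y hy
  rw [mem_chartS12]
  let φ : chartS12 A0 t →+* integralClosure (Algebra.adjoin A0 ({t, t⁻¹} : Set F0)) F0 :=
    { toFun := fun a => ⟨a.1, a.2⟩
      map_one' := Subtype.ext rfl
      map_mul' := fun _ _ => Subtype.ext rfl
      map_zero' := Subtype.ext rfl
      map_add' := fun _ _ => Subtype.ext rfl }
  have h1 : IsIntegral (integralClosure (Algebra.adjoin A0 ({t, t⁻¹} : Set F0)) F0) y :=
    chart_int_of_hom φ (fun _ => rfl) hy
  exact isIntegral_trans y h1

theorem chart_le_12 {t : F0} : chartS A0 t ≤ chartS12 A0 t := by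
  intro y hy
  rw [mem_chartS] at hy
  rw [mem_chartS12]
  exact chart_int_mono (Algebra.adjoin_mono (Set.singleton_subset_iff.mpr (Set.mem_insert _ _))) hy

theorem chart_inv_le_12 {t : F0} : chartS A0 t⁻¹ ≤ chartS12 A0 t := by
  intro y hy
  rw [mem_chartS] at hy
  rw [mem_chartS12]
  exact chart_int_mono (Algebra.adjoin_mono (Set.singleton_subset_iff.mpr
    (Set.mem_insert_of_mem _ (Set.mem_singleton _)))) hy

theorem chart12_left {t : F0} (ht0 : t ≠ 0) :
    ∀ y ∈ chartS12 A0 t, ∃ n : ℕ, t ^ n * y ∈ chartS A0 t := by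
  intro y hy
  rw [mem_chartS12] at hy
  exact chart_clear_integral ht0 y hy

theorem chart12_right {t : F0} (ht0 : t ≠ 0) :
    ∀ y ∈ chartS12 A0 t, ∃ n : ℕ, t⁻¹ ^ n * y ∈ chartS A0 t⁻¹ := by
  intro y hy
  rw [mem_chartS12] at hy
  have e : ({t, t⁻¹} : Set F0) = {t⁻¹, t⁻¹⁻¹} := by rw [inv_inv, Set.pair_comm]
  rw [e] at hy
  exact chart_clear_integral (inv_ne_zero ht0) y hy

theorem chart_transc {t : F0} (ht : Transcendental K0 t) : Transcendental A0 t :=
  ht.restrictScalars (IsFractionRing.injective A0 K0)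

theorem chart_div_pi {π : A0} (hπ : Irreducible π) {t : F0} (ht : Transcendental K0 t)
    {Ov : ValuationSubring F0} (h : GEData π t Ov) :
    ∀ y ∈ chartS A0 t, y / algebraMap A0 F0 π ∈ Ov → y / algebraMap A0 F0 π ∈ chartS A0 t := by
  intro y hy hyπ
  rw [mem_chartS] at hy ⊢
  obtain ⟨Q, hQ, hint⟩ := h.hI _ hyπ
  have htA : Transcendental A0 t := chart_transc ht
  set B := Algebra.adjoin A0 ({t} : Set F0) with hB
  let e : A0[X] ≃ₐ[A0] B := algEquivOfTranscendental A0 t htA
  have hIC : IsIntegrallyClosed B := IsIntegrallyClosed.of_equiv e.toRingEquiv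
  have hπ0 : algebraMap A0 F0 π ≠ 0 := by
    intro h0
    apply h.hπ1
    rw [h0, inv_zero]
    exact Ov.zero_mem
  have hPC : Prime (C π : A0[X]) := prime_C_iff.mpr hπ.prime
  have hP : Prime (e (C π)) := (MulEquiv.prime_iff e.toMulEquiv).mpr hPC
  have hnd : ¬ e (C π) ∣ e Q := by
    intro hd
    apply hQ
    have := map_dvd e.symm hd
    simpa using this
  have e1 : ((e (C π) : B) : F0) = algebraMap A0 F0 π := by
    have : e (C π) = algebraMap A0 B π := e.commutes π
    rw [this]; rfl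
  have e2 : ((e Q : B) : F0) = aeval t Q := by
    have : e Q = aeval (⟨t, Algebra.self_mem_adjoin_singleton A0 t⟩ : B) Q := rfl
    rw [this]
    have h3 := (aeval_algHom_apply B.val (⟨t, Algebra.self_mem_adjoin_singleton A0 t⟩ : B) Q).symm
    exact h3
  refine chart_key (e (C π)) (e Q) hP hnd _ ?_ ?_
  · have : (e (C π)) • (y / algebraMap A0 F0 π) = y := by
      rw [Algebra.smul_def]
      show ((e (C π) : B) : F0) * _ = y
      rw [e1]
      field_simp
    rw [this]
    exact hy
  · have : (e Q) • (y / algebraMap A0 F0 π) = aeval t Q * (y / algebraMap A0 F0 π) := by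
      rw [Algebra.smul_def]
      show ((e Q : B) : F0) * _ = _
      rw [e2]
    rw [this]
    exact hint

theorem chart_C_dvd_reflect {π : A0} (N : ℕ) (P : A0[X]) (h : C π ∣ reflect N P) : C π ∣ P := by
  rw [C_dvd_iff_dvd_coeff] at h ⊢
  intro j
  have := h (revAt N j)
  rwa [coeff_reflect, revAt_invol] at this

theorem chart_aeval_reflect {t : F0} (ht0 : t ≠ 0) (N : ℕ) (P : A0[X]) (hN : P.natDegree ≤ N) :
    aeval t⁻¹ (reflect N P) = aeval t P * t⁻¹ ^ N := by
  let _ : Invertible t := invertibleOfNonzero ht0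
  have key := eval₂_reflect_mul_pow (algebraMap A0 F0) t N P hN
  rw [invOf_eq_inv] at key
  rw [aeval_def, aeval_def, ← key, mul_assoc, ← mul_pow, mul_inv_cancel₀ ht0, one_pow, mul_one]

theorem chart_inv {π : A0} (hπ : Irreducible π) {t : F0} (ht : Transcendental K0 t)
    {Ov : ValuationSubring F0} (h : GEData π t Ov) : GEData π t⁻¹ Ov := by
  have ht0 : t ≠ 0 := by
    rintro rfl
    exact ht isAlgebraic_zero
  have htinv : t⁻¹ ∈ Ov := by
    by_contra hn
    have h1 := h.hπ2 t h.ht hn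
    have h2 : C π ∣ (X : A0[X]) := h.hG X (by rwa [aeval_X])
    rw [C_dvd_iff_dvd_coeff] at h2
    have h3 := h2 1
    rw [coeff_X_one] at h3
    exact hπ.not_isUnit (isUnit_of_dvd_one h3)
  refine ⟨h.hA, htinv, h.hπ1, h.hπ2, ?_, ?_⟩
  · intro P hP
    apply chart_C_dvd_reflect P.natDegree
    apply h.hG
    have e := chart_aeval_reflect (A0 := A0) (inv_ne_zero ht0) P.natDegree P le_rfl
    rw [inv_inv] at e
    rw [e]
    have : aeval t⁻¹ P * t ^ P.natDegree / algebraMap A0 F0 π
        = aeval t⁻¹ P / algebraMap A0 F0 π * t ^ P.natDegree := by ring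
    rw [this]
    exact Ov.mul_mem _ _ hP (Ov.pow_mem h.ht _)
  · intro y hy
    obtain ⟨Q, hQ, hint⟩ := h.hI y hy
    have hz : aeval t Q * y ∈ chartS12 A0 t := chart_le_12 hint
    obtain ⟨n, hn⟩ := chart12_right ht0 _ hz
    refine ⟨reflect (n + Q.natDegree) Q, fun hd => hQ (chart_C_dvd_reflect _ _ hd), ?_⟩
    rw [chart_aeval_reflect ht0 _ Q (Nat.le_add_left _ _)]
    have e : aeval t Q * t⁻¹ ^ (n + Q.natDegree) * y
        = t⁻¹ ^ Q.natDegree * (t⁻¹ ^ n * (aeval t Q * y)) := by
      rw [pow_add]; ring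
    rw [e]
    have htm : t⁻¹ ∈ chartS A0 t⁻¹ := by
      have := chart_aeval_mem (A0 := A0) (t := t⁻¹) X
      rwa [aeval_X] at this
    exact (chartS A0 t⁻¹).mul_mem ((chartS A0 t⁻¹).pow_mem htm _) hn

theorem chart_const {t : F0} (ht : Transcendental K0 t) (hfin : FiniteDimensional K0⟮t⟯ F0)
    (y : F0) (h1 : y ∈ chartS A0 t) (h2 : y ∈ chartS A0 t⁻¹) : IsAlgebraic K0 y :=
  cech_main_alg t y h1 h2

end

end Fermat.Agent.S18Lib
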