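/-
S18 library: comparison of the chart ring `chartS A0 t` with the characteristic zero ring
`B_t = integralClosure K0[t] F0`: `B_t = chartS A0 t [1/π]`.
-/
import Fermat.Agent.S18.Chart

set_option autoImplicit false
set_option linter.unusedSectionVars false
set_option linter.unusedVariables false

open Polynomial IntermediateField

namespace Fermat.Agent.S18Lib

/-- abstract denominator clearing for integral elements. -/
theorem chartB_clear_abs {R1 R2 F0 : Type*} [CommRing R1] [CommRing R2] [Field F0] [Algebra R1 F0]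
    [Algebra R2 F0] (f : R1 →+* R2) (hf : ∀ a, algebraMap R2 F0 (f a) = algebraMap R1 F0 a)
    (T : R1) (hcl : ∀ c : R2, ∃ n : ℕ, f T ^ n * c ∈ f.range) (y : F0) (hy : IsIntegral R2 y) :
    ∃ n : ℕ, IsIntegral R1 (algebraMap R1 F0 T ^ n * y) := by
  classical
  obtain ⟨p, hp, hpe⟩ := hy
  choose ν hν using hcl
  set N := p.support.sup (fun i => ν (p.coeff i)) with hN
  have hN' : ∀ i, f T ^ N * p.coeff i ∈ f.range := by
    intro i
    by_cases hi : i ∈ p.support
    · have hle' : ν (p.coeff i) ≤ N := Finset.le_sup (f := fun i => ν (p.coeff i)) hi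
      have : f T ^ N * p.coeff i = f (T ^ (N - ν (p.coeff i))) * (f T ^ ν (p.coeff i) * p.coeff i) := by
        rw [map_pow, ← mul_assoc, ← pow_add, Nat.sub_add_cancel hle']
      rw [this]
      exact mul_mem ⟨_, rfl⟩ (hν _)
    · rw [notMem_support_iff.mp hi, mul_zero]
      exact zero_mem _
  have hlift : scaleRoots p (f T ^ N) ∈ lifts f := by
    rw [lifts_iff_coeff_lifts]
    intro i
    rw [coeff_scaleRoots]
    rcases Nat.lt_or_ge i p.natDegree with hi | hi
    · obtain ⟨k, hk⟩ : ∃ k, p.natDegree - i = k + 1 := ⟨p.natDegree - i - 1, by omega⟩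
      have hmem : p.coeff i * (f T ^ N) ^ (k + 1) ∈ f.range := by
        have : p.coeff i * (f T ^ N) ^ (k + 1) = f ((T ^ N) ^ k) * (f T ^ N * p.coeff i) := by
          rw [map_pow, map_pow]; ring
        rw [this]
        exact mul_mem ⟨_, rfl⟩ (hN' i)
      rw [hk]
      exact hmem
    · rcases hi.eq_or_lt with hi | hi
      · refine ⟨1, ?_⟩
        rw [← hi, Nat.sub_self, pow_zero, mul_one, hp.coeff_natDegree, map_one]
      · refine ⟨0, ?_⟩
        rw [coeff_eq_zero_of_natDegree_lt hi, zero_mul, map_zero]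
  obtain ⟨q, hq, -, hqm⟩ := lifts_and_natDegree_eq_and_monic hlift ((monic_scaleRoots_iff _).mpr hp)
  refine ⟨N, q, hqm, ?_⟩
  have hcomp : (algebraMap R2 F0).comp f = algebraMap R1 F0 := by
    ext a
    exact hf a
  rw [← hcomp, ← eval₂_map, hq]
  have := scaleRoots_eval₂_eq_zero (algebraMap R2 F0) (s := f T ^ N) hpe
  rw [map_pow] at this
  exact this

section
variable {A0 K0 F0 : Type} [CommRing A0] [IsDomain A0] [IsDiscreteValuationRing A0]
    [Field K0] [CharZero K0] [Algebra A0 K0] [IsFractionRing A0 K0]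
    [Field F0] [Algebra K0 F0] [Algebra A0 F0] [IsScalarTower A0 K0 F0]

/-- `K0 = A0[1/π]`. -/
theorem chartB_const {π : A0} (hπ : Irreducible π) (a : K0) :
    ∃ (n : ℕ) (a0 : A0), algebraMap A0 K0 π ^ n * a = algebraMap A0 K0 a0 := by
  obtain ⟨r, s, hs, rfl⟩ := IsFractionRing.div_surjective (A := A0) a
  have hs0 : s ≠ 0 := nonZeroDivisors.ne_zero hs
  obtain ⟨n, hn⟩ := IsDiscreteValuationRing.associated_pow_irreducible hs0 hπ
  obtain ⟨u, hu⟩ := hn
  -- `s * u = π ^ n`
  refine ⟨n, r * u, ?_⟩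
  have hs0' : algebraMap A0 K0 s ≠ 0 := by
    intro h
    exact hs0 ((IsFractionRing.injective A0 K0) (by rw [h, map_zero]))
  rw [← map_pow, ← hu, map_mul, map_mul]
  field_simp

theorem chartB_clear_coeff {π : A0} (hπ : Irreducible π) {t : F0} (c : F0)
    (hc : c ∈ Algebra.adjoin K0 ({t} : Set F0)) :
    ∃ n : ℕ, algebraMap A0 F0 π ^ n * c ∈ Algebra.adjoin A0 ({t} : Set F0) := by
  have hπm : algebraMap A0 F0 π ∈ Algebra.adjoin A0 ({t} : Set F0) := Subalgebra.algebraMap_mem _ π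
  induction hc using Algebra.adjoin_induction with
  | mem x hx =>
    rw [Set.mem_singleton_iff] at hx
    subst hx
    exact ⟨0, by rw [pow_zero, one_mul]; exact Algebra.self_mem_adjoin_singleton A0 _⟩
  | algebraMap a =>
    obtain ⟨n, a0, h⟩ := chartB_const hπ a
    refine ⟨n, ?_⟩
    have : algebraMap A0 F0 π ^ n * algebraMap K0 F0 a = algebraMap A0 F0 a0 := by
      rw [IsScalarTower.algebraMap_apply A0 K0 F0, IsScalarTower.algebraMap_apply A0 K0 F0,
        ← map_pow, ← map_mul, h]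
    rw [this]
    exact Subalgebra.algebraMap_mem _ a0
  | add x y _ _ hx hy =>
    obtain ⟨n1, h1⟩ := hx
    obtain ⟨n2, h2⟩ := hy
    refine ⟨n1 + n2, ?_⟩
    have : algebraMap A0 F0 π ^ (n1 + n2) * (x + y)
        = algebraMap A0 F0 π ^ n2 * (algebraMap A0 F0 π ^ n1 * x)
          + algebraMap A0 F0 π ^ n1 * (algebraMap A0 F0 π ^ n2 * y) := by
      rw [pow_add]; ring
    rw [this]
    exact add_mem (mul_mem (pow_mem hπm _) h1) (mul_mem (pow_mem hπm _) h2)
  | mul x y _ _ hx hy =>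
    obtain ⟨n1, h1⟩ := hx
    obtain ⟨n2, h2⟩ := hy
    refine ⟨n1 + n2, ?_⟩
    have : algebraMap A0 F0 π ^ (n1 + n2) * (x * y)
        = (algebraMap A0 F0 π ^ n1 * x) * (algebraMap A0 F0 π ^ n2 * y) := by
      rw [pow_add]; ring
    rw [this]
    exact mul_mem h1 h2

theorem chartB_adjoin_le (t : F0) :
    Algebra.adjoin A0 ({t} : Set F0) ≤ (Algebra.adjoin K0 ({t} : Set F0)).restrictScalars A0 :=
  Algebra.adjoin_le (by
    rintro _ rfl
    exact Algebra.self_mem_adjoin_singleton K0 _)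

theorem chartB_clear_gen (B1 : Subalgebra A0 F0) (B2 : Subalgebra K0 F0) (hle : ∀ a ∈ B1, a ∈ B2)
    (π : A0) (hcl : ∀ c ∈ B2, ∃ n : ℕ, algebraMap A0 F0 π ^ n * c ∈ B1) (y : F0)
    (hy : IsIntegral B2 y) : ∃ n : ℕ, IsIntegral B1 (algebraMap A0 F0 π ^ n * y) := by
  let φ : B1 →+* B2 :=
    { toFun := fun a => ⟨a.1, hle a.1 a.2⟩
      map_one' := Subtype.ext rfl
      map_mul' := fun _ _ => Subtype.ext rfl
      map_zero' := Subtype.ext rfl
      map_add' := fun _ _ => Subtype.ext rfl }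
  have hφ : ∀ a, algebraMap B2 F0 (φ a) = algebraMap B1 F0 a := fun _ => rfl
  have hT : ((φ (algebraMap A0 B1 π) : B2) : F0) = algebraMap A0 F0 π := rfl
  have hcl' : ∀ c : B2, ∃ n : ℕ, φ (algebraMap A0 B1 π) ^ n * c ∈ φ.range := by
    intro c
    obtain ⟨n, hn⟩ := hcl (c : F0) c.2
    refine ⟨n, ⟨⟨_, hn⟩, Subtype.ext ?_⟩⟩
    rw [Subalgebra.coe_mul, Subalgebra.coe_pow, hT]
    rfl
  obtain ⟨n, hn⟩ := chartB_clear_abs φ hφ (algebraMap A0 B1 π) hcl' y hy
  refine ⟨n, ?_⟩
  have e : algebraMap B1 F0 (algebraMap A0 B1 π) = algebraMap A0 F0 π := rfl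
  rw [e] at hn
  exact hn

/-- **`B_t = S_t[1/π]`**: every element integral over `K0[t]` becomes integral over `A0[t]` after
multiplication by a power of `π`. -/
theorem chartB_clear {π : A0} (hπ : Irreducible π) {t : F0} (y : F0)
    (hy : IsIntegral (Algebra.adjoin K0 ({t} : Set F0)) y) :
    ∃ n : ℕ, algebraMap A0 F0 π ^ n * y ∈ chartS A0 t :=
  chartB_clear_gen _ _ (fun a ha => chartB_adjoin_le (A0 := A0) (K0 := K0) t ha) π
    (fun c hc => chartB_clear_coeff hπ c hc) y hy

/-- `S_t ⊆ B_t`. -/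
theorem chartB_le {t : F0} (y : F0) (hy : y ∈ chartS A0 t) :
    IsIntegral (Algebra.adjoin K0 ({t} : Set F0)) y :=
  core2_int_mono t y hy

end

end Fermat.Agent.S18Lib
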