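import Fermat.Agent.S18.ChartDefs

/-!
# S18 : fraction field / PID facts for the models used in the abstract layer (F1)-(F4)
-/

set_option autoImplicit false
set_option linter.style.haveILetI false
set_option linter.unusedSectionVars false

open Polynomial IntermediateField

namespace Fermat.Agent.S18Lib

section

variable {A0 K0 F0 : Type} [CommRing A0] [IsDomain A0] [Field K0] [Algebra A0 K0]
  [IsFractionRing A0 K0] [Field F0] [Algebra K0 F0] [Algebra A0 F0] [IsScalarTower A0 K0 F0]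

/-- every element of `K0(t)` is a quotient of two polynomials in `t` with coefficients in `A0` -/
theorem frac_exists (t : F0) {z : F0} (hz : z ∈ K0⟮t⟯) :
    ∃ P Q : A0[X], z = aeval t P / aeval t Q := by
  obtain ⟨r, s, rfl⟩ := (mem_adjoin_simple_iff K0 z).1 hz
  obtain ⟨b, hbm, hb⟩ := IsLocalization.integerNormalization_spec (nonZeroDivisors A0) r
  obtain ⟨c, hcm, hc⟩ := IsLocalization.integerNormalization_spec (nonZeroDivisors A0) s
  set R' := IsLocalization.integerNormalization (nonZeroDivisors A0) r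
  set S' := IsLocalization.integerNormalization (nonZeroDivisors A0) s
  have hb0 : algebraMap A0 F0 (b : A0) ≠ 0 := by
    rw [IsScalarTower.algebraMap_apply A0 K0 F0]
    exact (_root_.map_ne_zero _).2 (IsFractionRing.to_map_ne_zero_of_mem_nonZeroDivisors hbm)
  have hc0 : algebraMap A0 F0 (c : A0) ≠ 0 := by
    rw [IsScalarTower.algebraMap_apply A0 K0 F0]
    exact (_root_.map_ne_zero _).2 (IsFractionRing.to_map_ne_zero_of_mem_nonZeroDivisors hcm)
  have h1 : aeval t R' = algebraMap A0 F0 b * aeval t r := by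
    rw [← aeval_map_algebraMap K0 t R', hb, ← algebraMap_smul K0 b r, map_smul, Algebra.smul_def,
      ← IsScalarTower.algebraMap_apply]
  have h2 : aeval t S' = algebraMap A0 F0 c * aeval t s := by
    rw [← aeval_map_algebraMap K0 t S', hc, ← algebraMap_smul K0 c s, map_smul, Algebra.smul_def,
      ← IsScalarTower.algebraMap_apply]
  refine ⟨C (c : A0) * R', C (b : A0) * S', ?_⟩
  rw [map_mul, map_mul, aeval_C, aeval_C, h1, h2]
  by_cases hs : aeval t s = 0
  · simp [hs]
  · field_simp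

theorem frac_coe_aeval (t : F0) (P : A0[X]) :
    ((aeval (⟨t, mem_adjoin_simple_self K0 t⟩ : K0⟮t⟯) P : K0⟮t⟯) : F0) = aeval t P := by
  haveI : IsScalarTower A0 K0⟮t⟯ F0 := IsScalarTower.of_algebraMap_eq fun x => rfl
  have := Polynomial.aeval_algHom_apply (IsScalarTower.toAlgHom A0 K0⟮t⟯ F0)
    (⟨t, mem_adjoin_simple_self K0 t⟩ : K0⟮t⟯) P
  exact this.symm

theorem frac_aeval_injective {t : F0} (ht : Transcendental K0 t) :
    Function.Injective (aeval t : A0[X] →ₐ[A0] F0) := by
  rw [injective_iff_map_eq_zero]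
  intro P hP
  rw [← aeval_map_algebraMap K0 t P] at hP
  have h1 := (transcendental_iff.1 ht) _ hP
  exact (Polynomial.map_eq_zero_iff (IsFractionRing.injective A0 K0)).1 h1

/-- **(F1)** `K0(t)` is the fraction field of `A0[X]` (`X ↦ t`) -/
theorem frac_F1 {t : F0} (ht : Transcendental K0 t) :
    letI := ((aeval (⟨t, mem_adjoin_simple_self K0 t⟩ : K0⟮t⟯) :
      A0[X] →ₐ[A0] K0⟮t⟯).toRingHom.toAlgebra)
    IsFractionRing A0[X] K0⟮t⟯ := by
  letI := ((aeval (⟨t, mem_adjoin_simple_self K0 t⟩ : K0⟮t⟯) :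
      A0[X] →ₐ[A0] K0⟮t⟯).toRingHom.toAlgebra)
  have hmap : ∀ P : A0[X], ((algebraMap A0[X] K0⟮t⟯ P : K0⟮t⟯) : F0) = aeval t P :=
    fun P => frac_coe_aeval t P
  have hinj : Function.Injective (algebraMap A0[X] K0⟮t⟯) := by
    intro P Q h
    apply frac_aeval_injective (A0 := A0) ht
    rw [← hmap, ← hmap, h]
  haveI : FaithfulSMul A0[X] K0⟮t⟯ := (faithfulSMul_iff_algebraMap_injective _ _).2 hinj
  refine IsFractionRing.of_field _ _ fun z => ?_
  obtain ⟨P, Q, h⟩ := frac_exists (A0 := A0) t z.2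
  refine ⟨P, Q, Subtype.ext ?_⟩
  rw [h]
  push_cast
  rw [hmap, hmap]

/-- **(F2)** `K0[t]` is a PID -/
theorem frac_F2 (t : F0) : IsPrincipalIdealRing (Algebra.adjoin K0 ({t} : Set F0)) := by
  have h : Algebra.adjoin K0 ({t} : Set F0) = (aeval t : K0[X] →ₐ[K0] F0).range :=
    Algebra.adjoin_singleton_eq_range_aeval K0 t
  rw [h]
  exact IsPrincipalIdealRing.of_surjective (aeval t : K0[X] →ₐ[K0] F0).rangeRestrict.toRingHom
    (aeval t : K0[X] →ₐ[K0] F0).rangeRestrict_surjective

open scoped IntermediateField.algebraAdjoinAdjoin in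
/-- **(F2')** (a scoped instance of Mathlib) -/
theorem frac_F2' (t : F0) : IsFractionRing (Algebra.adjoin K0 ({t} : Set F0)) K0⟮t⟯ :=
  inferInstance

open scoped IntermediateField.algebraAdjoinAdjoin in
/-- **(F4b)** -/
theorem frac_F4b (t : F0) [FiniteDimensional K0⟮t⟯ F0] :
    IsFractionRing (integralClosure (Algebra.adjoin K0 ({t} : Set F0)) F0) F0 :=
  integralClosure.isFractionRing_of_finite_extension K0⟮t⟯ F0

theorem frac_adjoin_le (t : F0) :
    Algebra.adjoin A0 ({t} : Set F0) ≤ K0⟮t⟯.toSubalgebra.restrictScalars A0 := by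
  refine Algebra.adjoin_le fun x hx => ?_
  rw [Set.mem_singleton_iff.1 hx]
  exact mem_adjoin_simple_self K0 t

/-- **(F4a)** -/
theorem frac_F4a (t : F0) [FiniteDimensional K0⟮t⟯ F0] : IsFractionRing (chartS A0 t) F0 := by
  letI alg : Algebra (Algebra.adjoin A0 ({t} : Set F0)) K0⟮t⟯ :=
    (Subalgebra.inclusion (frac_adjoin_le (A0 := A0) (K0 := K0) t)).toRingHom.toAlgebra
  haveI : IsScalarTower (Algebra.adjoin A0 ({t} : Set F0)) K0⟮t⟯ F0 :=
    IsScalarTower.of_algebraMap_eq fun x => rfl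
  have hinj : Function.Injective (algebraMap (Algebra.adjoin A0 ({t} : Set F0)) K0⟮t⟯) :=
    Subalgebra.inclusion_injective _
  haveI : FaithfulSMul (Algebra.adjoin A0 ({t} : Set F0)) K0⟮t⟯ :=
    (faithfulSMul_iff_algebraMap_injective _ _).2 hinj
  haveI : IsFractionRing (Algebra.adjoin A0 ({t} : Set F0)) K0⟮t⟯ := by
    refine IsFractionRing.of_field _ _ fun z => ?_
    obtain ⟨P, Q, h⟩ := frac_exists (A0 := A0) t z.2
    have hm : ∀ P : A0[X], aeval t P ∈ Algebra.adjoin A0 ({t} : Set F0) := fun P => by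
      rw [Algebra.adjoin_singleton_eq_range_aeval]
      exact ⟨P, rfl⟩
    refine ⟨⟨_, hm P⟩, ⟨_, hm Q⟩, Subtype.ext ?_⟩
    rw [h]
    rfl
  exact integralClosure.isFractionRing_of_finite_extension
    (A := Algebra.adjoin A0 ({t} : Set F0)) K0⟮t⟯ F0

end

section F3

variable {A0 : Type*} [CommRing A0] [IsDomain A0] [IsPrincipalIdealRing A0]

theorem frac_map_C_span (π : A0) :
    Ideal.map (C : A0 →+* A0[X]) (Ideal.span {π}) = Ideal.span {(C π : A0[X])} := by
  rw [Ideal.map_span, Set.image_singleton]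

/-- the isomorphism `(A0/π)[X] ≃ A0[X]/(π)` -/
noncomputable def fracEquiv (π : A0) :
    (A0 ⧸ Ideal.span {π})[X] ≃+* A0[X] ⧸ Ideal.span {(C π : A0[X])} :=
  (Ideal.polynomialQuotientEquivQuotientPolynomial (Ideal.span {π})).trans
    (Ideal.quotEquivOfEq (frac_map_C_span π))

theorem fracEquiv_map (π : A0) (D : A0[X]) :
    fracEquiv π (D.map (Ideal.Quotient.mk (Ideal.span {π}))) =
      Ideal.Quotient.mk (Ideal.span {(C π : A0[X])}) D := by
  rw [fracEquiv, RingEquiv.trans_apply, Ideal.polynomialQuotientEquivQuotientPolynomial_map_mk]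
  rfl

/-- **(F3a)** -/
theorem frac_F3a {π : A0} (hπ : Irreducible π) :
    IsPrincipalIdealRing (A0[X] ⧸ Ideal.span {(C π : A0[X])}) := by
  haveI : (Ideal.span {π}).IsMaximal := PrincipalIdealRing.isMaximal_of_irreducible hπ
  letI : Field (A0 ⧸ Ideal.span {π}) := Ideal.Quotient.field _
  exact IsPrincipalIdealRing.of_surjective (fracEquiv π).toRingHom (fracEquiv π).surjective

/-- **(F3b)** -/
theorem frac_F3b {π : A0} (hπ : Irreducible π) (D : A0[X])
    (hD : Squarefree (D.map (Ideal.Quotient.mk (Ideal.span {π})))) :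
    (Ideal.span {Ideal.Quotient.mk (Ideal.span {(C π : A0[X])}) D}).IsRadical := by
  haveI : (Ideal.span {π}).IsMaximal := PrincipalIdealRing.isMaximal_of_irreducible hπ
  letI : Field (A0 ⧸ Ideal.span {π}) := Ideal.Quotient.field _
  have h1 : (Ideal.span {D.map (Ideal.Quotient.mk (Ideal.span {π}))}).IsRadical :=
    isRadical_iff_span_singleton.1 hD.isRadical
  have h2 : Ideal.span {Ideal.Quotient.mk (Ideal.span {(C π : A0[X])}) D} =
      Ideal.comap (fracEquiv π).symm.toRingHom
        (Ideal.span {D.map (Ideal.Quotient.mk (Ideal.span {π}))}) := by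
    rw [← fracEquiv_map]
    ext x
    rw [Ideal.mem_comap, Ideal.mem_span_singleton, Ideal.mem_span_singleton]
    constructor
    · rintro ⟨y, rfl⟩
      exact ⟨(fracEquiv π).symm y, by simp⟩
    · rintro ⟨y, hy⟩
      refine ⟨fracEquiv π y, ?_⟩
      rw [← map_mul, ← hy]
      simp
  rw [h2]
  exact h1.comap _

end F3

end Fermat.Agent.S18Lib
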