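import Fermat.Agent.S18.ChartDefs
import Fermat.Agent.S18.Core2
import Fermat.Agent.S18.FracModels

/-!
# S18 : finiteness of the chart rings (`chart_finite`, `chart_noeth`, `chart_frac`)
-/

set_option autoImplicit false
set_option linter.style.haveILetI false
set_option linter.unusedSectionVars false

open Polynomial IntermediateField

namespace Fermat.Agent.S18Lib

section
variable {A0 K0 F0 : Type} [CommRing A0] [IsDomain A0] [IsDiscreteValuationRing A0]
    [Field K0] [CharZero K0] [Algebra A0 K0] [IsFractionRing A0 K0]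
    [Field F0] [Algebra K0 F0] [Algebra A0 F0] [IsScalarTower A0 K0 F0]

theorem chartfin_isIntegrallyClosed {t : F0} (ht : Transcendental K0 t) :
    IsIntegrallyClosed (Algebra.adjoin A0 ({t} : Set F0)) := by
  have hinj := frac_aeval_injective (A0 := A0) ht
  have ht' : Transcendental A0 t := transcendental_iff_injective.2 hinj
  exact IsIntegrallyClosed.of_equiv (Polynomial.algEquivOfTranscendental A0 t ht').toRingEquiv

theorem chart_finite {t : F0} (ht : Transcendental K0 t) (hfin : FiniteDimensional K0⟮t⟯ F0) :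
    ∃ s : Finset F0, ∀ y ∈ chartS A0 t,
      y ∈ Submodule.span (Algebra.adjoin A0 ({t} : Set F0)) (s : Set F0) := by
  classical
  letI alg : Algebra (Algebra.adjoin A0 ({t} : Set F0)) K0⟮t⟯ :=
    (Subalgebra.inclusion (frac_adjoin_le (A0 := A0) (K0 := K0) t)).toRingHom.toAlgebra
  haveI : IsScalarTower (Algebra.adjoin A0 ({t} : Set F0)) K0⟮t⟯ F0 :=
    IsScalarTower.of_algebraMap_eq fun x => rfl
  have hinj : Function.Injective (algebraMap (Algebra.adjoin A0 ({t} : Set F0)) K0⟮t⟯) :=
    Subalgebra.inclusion_injective _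
  haveI : FaithfulSMul (Algebra.adjoin A0 ({t} : Set F0)) K0⟮t⟯ :=
    (faithfulSMul_iff_algebraMap_injective _ _).2 hinj
  haveI : IsFractionRing (Algebra.adjoin A0 ({t} : Set F0)) K0⟮t⟯ := by
    refine IsFractionRing.of_field _ _ fun z => ?_
    obtain ⟨P, Q, h⟩ := frac_exists (A0 := A0) t z.2
    have hm : ∀ P : A0[X], aeval t P ∈ Algebra.adjoin A0 ({t} : Set F0) := fun P => by
      rw [Algebra.adjoin_singleton_eq_range_aeval]
      exact ⟨P, rfl⟩
    refine ⟨⟨_, hm P⟩, ⟨_, hm Q⟩, Subtype.ext ?_⟩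
    rw [h]
    rfl
  haveI : IsIntegrallyClosed (Algebra.adjoin A0 ({t} : Set F0)) := chartfin_isIntegrallyClosed ht
  haveI : IsNoetherianRing (Algebra.adjoin A0 ({t} : Set F0)) :=
    isNoetherianRing_of_fg ⟨{t}, by simp⟩
  haveI : CharZero K0⟮t⟯ := charZero_of_injective_algebraMap (algebraMap K0 K0⟮t⟯).injective
  have hF : Module.Finite (Algebra.adjoin A0 ({t} : Set F0))
      (integralClosure (Algebra.adjoin A0 ({t} : Set F0)) F0) :=
    IsIntegralClosure.finite (Algebra.adjoin A0 ({t} : Set F0)) K0⟮t⟯ F0 _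
  obtain ⟨s', hs'⟩ := hF.fg_top
  refine ⟨s'.image (fun y => (y : F0)), fun y hy => ?_⟩
  have h1 : (⟨y, hy⟩ : integralClosure (Algebra.adjoin A0 ({t} : Set F0)) F0) ∈
      Submodule.span (Algebra.adjoin A0 ({t} : Set F0)) (s' : Set _) := by
    rw [hs']; trivial
  have h2 := Submodule.mem_map_of_mem
    (f := (integralClosure (Algebra.adjoin A0 ({t} : Set F0)) F0).val.toLinearMap) h1
  rw [Submodule.map_span] at h2
  simpa using h2

theorem chartfin_self_mem (t : F0) : t ∈ chartS A0 t := by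
  rw [mem_chartS]
  exact isIntegral_algebraMap (R := Algebra.adjoin A0 ({t} : Set F0))
    (x := ⟨t, Algebra.self_mem_adjoin_singleton A0 t⟩)

theorem chart_noeth {t : F0} (ht : Transcendental K0 t) (hfin : FiniteDimensional K0⟮t⟯ F0) :
    IsNoetherianRing (chartS A0 t) :=
  core2_noeth (chartS A0 t) t (chartfin_self_mem t) (chart_finite ht hfin)

theorem chart_frac {t : F0} (_ht : Transcendental K0 t) (hfin : FiniteDimensional K0⟮t⟯ F0) :
    ∀ y : F0, ∃ a ∈ chartS A0 t, ∃ b ∈ chartS A0 t, b ≠ 0 ∧ y = a / b := by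
  intro y
  haveI := frac_F4a (A0 := A0) (K0 := K0) t
  obtain ⟨a, b, hb, h⟩ := IsFractionRing.div_surjective (A := chartS A0 t) y
  refine ⟨a, a.2, b, b.2, ?_, h.symm⟩
  intro h0
  exact nonZeroDivisors.ne_zero hb (Subtype.ext h0)

end

end Fermat.Agent.S18Lib
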