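/-
S18 library: `abs_core`: the abstract core of S18, given that the special fibres of both charts are
Dedekind.
-/
import Fermat.Agent.S18.Chart
import Fermat.Agent.S18.ChartFin
import Fermat.Agent.S18.ChartB
import Fermat.Agent.S18.AbsSB
import Fermat.Agent.S18.AbsLoc
import Fermat.Agent.S18.FracModels

set_option autoImplicit false
set_option linter.unusedSectionVars false
set_option linter.unusedVariables false
set_option linter.style.haveILetI false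

open Polynomial IntermediateField

namespace Fermat.Agent.S18Lib

/-- writing `f ≡ 1` as a quotient of elements of a chart (abstract form). -/
theorem absc_yy {A0 F0 : Type*} [CommRing A0] [Field F0] [Algebra A0 F0]
    (S : Subalgebra A0 F0) (Ov : ValuationSubring F0) (π : A0)
    (hπ0 : algebraMap A0 F0 π ≠ 0) (hπOv : algebraMap A0 F0 π ∈ Ov)
    (hle : ∀ y ∈ S, y ∈ Ov)
    (hdiv : ∀ y ∈ S, y / algebraMap A0 F0 π ∈ Ov → y / algebraMap A0 F0 π ∈ S)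
    (hloc : ∀ y ∈ Ov, ∃ s ∈ S, s / algebraMap A0 F0 π ∉ Ov ∧ s * y ∈ S)
    (f : F0) (hf0 : f ≠ 0) (hf1 : (f - 1) / algebraMap A0 F0 π ∈ Ov) :
    ∃ y y' : S, (y' : F0) / algebraMap A0 F0 π ∉ Ov ∧
      algebraMap A0 S π ∣ y - y' ∧ f = (y : F0) / y' ∧ y ≠ 0 ∧ y' ≠ 0 := by
  have hfOv : f ∈ Ov := by
    have : f = 1 + algebraMap A0 F0 π * ((f - 1) / algebraMap A0 F0 π) := by field_simp; ring
    rw [this]
    exact Ov.add_mem _ _ Ov.one_mem (Ov.mul_mem _ _ hπOv hf1)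
  obtain ⟨s, hs, hsπ, hsf⟩ := hloc f hfOv
  have hs0 : s ≠ 0 := by
    rintro rfl
    apply hsπ
    rw [zero_div]
    exact Ov.zero_mem
  have hdiv' : (s * f - s) / algebraMap A0 F0 π ∈ S := by
    apply hdiv _ (S.sub_mem hsf hs)
    have : (s * f - s) / algebraMap A0 F0 π = s * ((f - 1) / algebraMap A0 F0 π) := by ring
    rw [this]
    exact Ov.mul_mem _ _ (hle s hs) hf1
  refine ⟨⟨s * f, hsf⟩, ⟨s, hs⟩, hsπ, ⟨⟨_, hdiv'⟩, ?_⟩, ?_, ?_, ?_⟩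
  · apply Subtype.ext
    show s * f - s = algebraMap A0 F0 π * ((s * f - s) / algebraMap A0 F0 π)
    field_simp
  · show f = s * f / s
    field_simp
  · intro h0
    exact (mul_ne_zero hs0 hf0) (congrArg Subtype.val h0)
  · intro h0
    exact hs0 (congrArg Subtype.val h0)

/-- the abstract core, for abstract subalgebras. -/
theorem absc_abs {A0 F0 : Type} [CommRing A0] [IsDomain A0] [IsDiscreteValuationRing A0]
    [Field F0] [Algebra A0 F0]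
    (S1 S2 S12 : Subalgebra A0 F0) (Ov : ValuationSubring F0) (π : A0)
    (h1 : S1 ≤ S12) (h2 : S2 ≤ S12) {m : ℕ} (hm0 : 0 < m) (hm : IsUnit (m : A0))
    (hic1 : ∀ u : F0, IsIntegral S1 u → u ∈ S1) (hic2 : ∀ u : F0, IsIntegral S2 u → u ∈ S2)
    (hic12 : ∀ u : F0, IsIntegral S12 u → u ∈ S12)
    (hπ0 : algebraMap A0 F0 π ≠ 0) (hπOv : algebraMap A0 F0 π ∈ Ov)
    (hπ1 : (algebraMap A0 F0 π)⁻¹ ∉ Ov)
    (hπ2 : ∀ y ∈ Ov, y⁻¹ ∉ Ov → y / algebraMap A0 F0 π ∈ Ov)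
    (hle12 : ∀ y ∈ S12, y ∈ Ov)
    (hdiv1 : ∀ y ∈ S1, y / algebraMap A0 F0 π ∈ Ov → y / algebraMap A0 F0 π ∈ S1)
    (hdiv2 : ∀ y ∈ S2, y / algebraMap A0 F0 π ∈ Ov → y / algebraMap A0 F0 π ∈ S2)
    (hdiv12 : ∀ y ∈ S12, y / algebraMap A0 F0 π ∈ Ov → y / algebraMap A0 F0 π ∈ S12)
    (hloc1 : ∀ y ∈ Ov, ∃ s ∈ S1, s / algebraMap A0 F0 π ∉ Ov ∧ s * y ∈ S1)
    (hloc2 : ∀ y ∈ Ov, ∃ s ∈ S2, s / algebraMap A0 F0 π ∉ Ov ∧ s * y ∈ S2)
    (hD1 : IsDedekindDomain (S1 ⧸ Ideal.span {algebraMap A0 S1 π}))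
    (hD2 : IsDedekindDomain (S2 ⧸ Ideal.span {algebraMap A0 S2 π}))
    (x : F0) (hx0 : x ≠ 0) (hx1 : x ∈ S1) (hx2 : x⁻¹ ∈ S2)
    (h121 : ∀ y ∈ S12, ∃ n : ℕ, x ^ n * y ∈ S1) (h122 : ∀ y ∈ S12, ∃ n : ℕ, x⁻¹ ^ n * y ∈ S2)
    (hfin1 : ∃ s : Finset F0, ∀ y ∈ S1,
      y ∈ Submodule.span (Algebra.adjoin A0 ({x} : Set F0)) (s : Set F0))
    (hfin2 : ∃ s : Finset F0, ∀ y ∈ S2,
      y ∈ Submodule.span (Algebra.adjoin A0 ({x⁻¹} : Set F0)) (s : Set F0))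
    (f : F0) (hf0 : f ≠ 0) (hf1 : (f - 1) / algebraMap A0 F0 π ∈ Ov)
    (hl1 : ∀ y y' : S1, y ≠ 0 → y' ≠ 0 → f = (y : F0) / y' →
      ∀ p : Ideal S1, p.IsPrime → algebraMap A0 S1 π ∉ p →
      ∃ a b s t' : S1, b ≠ 0 ∧ s ∉ p ∧ t' ∉ p ∧ y * y' ^ (m - 1) * t' * b ^ m = a ^ m * s)
    (hl2 : ∀ y y' : S2, y ≠ 0 → y' ≠ 0 → f = (y : F0) / y' →
      ∀ p : Ideal S2, p.IsPrime → algebraMap A0 S2 π ∉ p →
      ∃ a b s t' : S2, b ≠ 0 ∧ s ∉ p ∧ t' ∉ p ∧ y * y' ^ (m - 1) * t' * b ^ m = a ^ m * s) :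
    ∃ u : F0, u ≠ 0 ∧ u ^ m / f ∈ S1 ∧ u ^ m / f ∈ S2 := by
  have hle1 : ∀ y ∈ S1, y ∈ Ov := fun y hy => hle12 y (h1 hy)
  have hle2 : ∀ y ∈ S2, y ∈ Ov := fun y hy => hle12 y (h2 hy)
  have hP1 : Prime (algebraMap A0 S1 π) := abs_prime S1 Ov hπ0 hle1 hπ1 hπ2 hdiv1
  have hP2 : Prime (algebraMap A0 S2 π) := abs_prime S2 Ov hπ0 hle2 hπ1 hπ2 hdiv2
  have hP12 : Prime (algebraMap A0 S12 π) := abs_prime S12 Ov hπ0 hle12 hπ1 hπ2 hdiv12
  obtain ⟨y1, y1', hy1', hyy1, hf1', hy10, hy1'0⟩ :=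
    absc_yy S1 Ov π hπ0 hπOv hle1 hdiv1 hloc1 f hf0 hf1
  obtain ⟨y2, y2', hy2', hyy2, hf2', hy20, hy2'0⟩ :=
    absc_yy S2 Ov π hπ0 hπOv hle2 hdiv2 hloc2 f hf0 hf1
  obtain ⟨u, hu⟩ := hm
  have hnd : ∀ z : S12, (z : F0) / algebraMap A0 F0 π ∉ Ov → ¬ algebraMap A0 S12 π ∣ z := by
    rintro z hz ⟨c, hc⟩
    apply hz
    have : (z : F0) = algebraMap A0 F0 π * c := congrArg Subtype.val hc
    rw [this, mul_div_cancel_left₀ _ hπ0]
    exact hle12 c c.2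
  obtain ⟨w, hw0, hw1, hw2⟩ := cech_main S1 S2 S12 h1 h2 hm0 hic1 hic2 hic12
    (↑u⁻¹ : A0) (by rw [← hu]; exact u.mul_inv) π hP1 hP2 hP12 hD1 hD2 x hx0 hx1 hx2
    h121 h122 hfin1 hfin2
    y1 y1' y2 y2' (hnd _ hy1') (hnd _ hy2') hyy1 hyy2 (by rw [← hf1', ← hf2'])
    (hl1 y1 y1' hy10 hy1'0 hf1') (hl2 y2 y2' hy20 hy2'0 hf2')
  rw [← hf1'] at hw1 hw2
  exact ⟨w, hw0, hw1, hw2⟩

section
variable {A0 K0 F0 : Type} [CommRing A0] [IsDomain A0] [IsDiscreteValuationRing A0]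
    [Field K0] [CharZero K0] [Algebra A0 K0] [IsFractionRing A0 K0]
    [Field F0] [Algebra K0 F0] [Algebra A0 F0] [IsScalarTower A0 K0 F0]

theorem absc_pi_ne_zero {π : A0} {t : F0} {Ov : ValuationSubring F0} (h : GEData π t Ov) :
    algebraMap A0 F0 π ≠ 0 := by
  intro h0
  apply h.hπ1
  rw [h0, inv_zero]
  exact Ov.zero_mem

open scoped IntermediateField.algebraAdjoinAdjoin in
/-- `hloc` for a chart. -/
theorem absc_hloc {π : A0} (hπ : Irreducible π) {t : F0} (ht : Transcendental K0 t)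
    (hfin : FiniteDimensional K0⟮t⟯ F0) (m : ℕ) (hm0 : 0 < m) (f : F0) (hV : HVal K0 m f)
    (y y' : chartS A0 t) (hy : y ≠ 0) (hy' : y' ≠ 0) (hf : f = (y : F0) / y') :
    ∀ p : Ideal (chartS A0 t), p.IsPrime → algebraMap A0 (chartS A0 t) π ∉ p →
      ∃ a b s t' : chartS A0 t, b ≠ 0 ∧ s ∉ p ∧ t' ∉ p ∧
        y * y' ^ (m - 1) * t' * b ^ m = a ^ m * s := by
  intro p hp hπp
  haveI : IsPrincipalIdealRing (Algebra.adjoin K0 ({t} : Set F0)) := frac_F2 t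
  haveI : IsDedekindDomain (Algebra.adjoin K0 ({t} : Set F0)) := inferInstance
  haveI : CharZero K0⟮t⟯ := charZero_of_injective_algebraMap (algebraMap K0 K0⟮t⟯).injective
  haveI : Algebra.IsSeparable K0⟮t⟯ F0 := inferInstance
  haveI : IsDedekindDomain (integralClosure (Algebra.adjoin K0 ({t} : Set F0)) F0) :=
    integralClosure.isDedekindDomain (Algebra.adjoin K0 ({t} : Set F0)) K0⟮t⟯ F0
  haveI : IsFractionRing (integralClosure (Algebra.adjoin K0 ({t} : Set F0)) F0) F0 := frac_F4b t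
  refine absloc_main (B := integralClosure (Algebra.adjoin K0 ({t} : Set F0)) F0) (chartS A0 t)
    (algebraMap A0 F0 π) (Subalgebra.algebraMap_mem _ π) ?_ ?_ (chart_frac ht hfin) m hm0 f ?_
    y y' hy hy' hf p hp hπp
  · intro s hs
    exact ⟨⟨s, chartB_le s hs⟩, rfl⟩
  · intro b
    exact chartB_clear hπ (b : F0) b.2
  · intro V hBV hVtop
    refine hV V (fun a => ?_) hVtop
    have hint : IsIntegral (Algebra.adjoin K0 ({t} : Set F0)) (algebraMap K0 F0 a) :=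
      isIntegral_algebraMap (R := Algebra.adjoin K0 ({t} : Set F0))
        (x := (⟨algebraMap K0 F0 a, Subalgebra.algebraMap_mem _ a⟩ :
          Algebra.adjoin K0 ({t} : Set F0)))
    exact hBV ⟨_, hint⟩

theorem absc_12_le_Ov {π : A0} (hπ : Irreducible π) {x : F0} (hx : Transcendental K0 x)
    {Ov : ValuationSubring F0} (h : GEData π x Ov) : ∀ y ∈ chartS12 A0 x, y ∈ Ov := by
  intro y hy
  rw [mem_chartS12] at hy
  refine chart_mem_valuationSubring _ Ov ?_ hy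
  apply chart_adjoin_le_valuationSubring Ov h.hA
  rintro z (rfl | hz)
  · exact h.ht
  · rw [Set.mem_singleton_iff] at hz
    subst hz
    exact (chart_inv hπ hx h).ht

theorem absc_12_div {π : A0} (hπ : Irreducible π) {x : F0} (hx : Transcendental K0 x)
    {Ov : ValuationSubring F0} (h : GEData π x Ov) :
    ∀ y ∈ chartS12 A0 x, y / algebraMap A0 F0 π ∈ Ov → y / algebraMap A0 F0 π ∈ chartS12 A0 x := by
  intro y hy hyπ
  have hx0 : x ≠ 0 := by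
    rintro rfl
    exact hx isAlgebraic_zero
  obtain ⟨n, hn⟩ := chart12_left hx0 y hy
  have h1 : x ^ n * y / algebraMap A0 F0 π ∈ chartS A0 x := by
    apply chart_div_pi hπ hx h _ hn
    rw [mul_div_assoc]
    exact Ov.mul_mem _ _ (Ov.pow_mem h.ht _) hyπ
  have hxinv : x⁻¹ ∈ chartS12 A0 x := by
    apply chart_inv_le_12
    have := chart_aeval_mem (A0 := A0) (t := x⁻¹) X
    rwa [aeval_X] at this
  have e : y / algebraMap A0 F0 π = x⁻¹ ^ n * (x ^ n * y / algebraMap A0 F0 π) := by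
    rw [inv_pow, ← mul_div_assoc, ← mul_assoc, inv_mul_cancel₀ (pow_ne_zero _ hx0), one_mul]
  rw [e]
  exact (chartS12 A0 x).mul_mem ((chartS12 A0 x).pow_mem hxinv _) (chart_le_12 h1)

/-- **The abstract core of S18.** -/
theorem abs_core {π : A0} (hπ : Irreducible π) {x : F0} (hx : Transcendental K0 x)
    (hfin : FiniteDimensional K0⟮x⟯ F0) {Ov : ValuationSubring F0} (h : GEData π x Ov)
    (hD1 : IsDedekindDomain (chartS A0 x ⧸ Ideal.span {algebraMap A0 (chartS A0 x) π}))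
    (hD2 : IsDedekindDomain (chartS A0 x⁻¹ ⧸ Ideal.span {algebraMap A0 (chartS A0 x⁻¹) π}))
    (m : ℕ) (hm0 : 0 < m) (hm : IsUnit (m : A0)) (f : F0) (hf0 : f ≠ 0)
    (hf1 : (f - 1) / algebraMap A0 F0 π ∈ Ov) (hV : HVal K0 m f) :
    ∃ u : F0, u ≠ 0 ∧ IsAlgebraic K0 (u ^ m / f) := by
  have hx0 : x ≠ 0 := by
    rintro rfl
    exact hx isAlgebraic_zero
  have hxi : Transcendental K0 x⁻¹ := by
    intro hh
    apply hx
    have := hh.inv
    rwa [inv_inv] at this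
  have hfin' : FiniteDimensional K0⟮x⁻¹⟯ F0 := (const_adjoin_inv (K0 := K0) x).symm ▸ hfin
  have h' : GEData π x⁻¹ Ov := chart_inv hπ hx h
  have hπ0 := absc_pi_ne_zero h
  obtain ⟨w, hw0, hw1, hw2⟩ := absc_abs (chartS A0 x) (chartS A0 x⁻¹) (chartS12 A0 x) Ov π
    chart_le_12 chart_inv_le_12 hm0 hm chart_closed chart_closed chart12_closed
    hπ0 (h.hA π) h.hπ1 h.hπ2 (absc_12_le_Ov hπ hx h)
    (chart_div_pi hπ hx h) (chart_div_pi hπ hxi h') (absc_12_div hπ hx h)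
    (chart_loc h) (chart_loc h') hD1 hD2 x hx0 (chartfin_self_mem x) (chartfin_self_mem x⁻¹)
    (chart12_left hx0) (chart12_right hx0) (chart_finite hx hfin) (chart_finite hxi hfin')
    f hf0 hf1
    (fun y y' hy hy' hf => absc_hloc hπ hx hfin m hm0 f hV y y' hy hy' hf)
    (fun y y' hy hy' hf => absc_hloc hπ hxi hfin' m hm0 f hV y y' hy hy' hf)
  exact ⟨w, hw0, chart_const hx hfin _ hw1 hw2⟩

end

end Fermat.Agent.S18Lib
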