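import Fermat.Agent.S18.AbsDed
import Fermat.Agent.S18.AbsCore

set_option autoImplicit false

open Polynomial IntermediateField

namespace Fermat.Agent.S18Lib

/-- ABSTRACT MAIN THEOREM (interface between the abstract layer and the modular layer). -/
theorem abs_main
    {A0 K0 F0 : Type} [CommRing A0] [IsDomain A0] [IsDiscreteValuationRing A0]
    [Field K0] [CharZero K0] [Algebra A0 K0] [IsFractionRing A0 K0]
    [Field F0] [Algebra K0 F0] [Algebra A0 F0] [IsScalarTower A0 K0 F0]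
    (π : A0) (hπ : Irreducible π)
    (x : F0) (hx : Transcendental K0 x) (hfin : FiniteDimensional K0⟮x⟯ F0)
    (Ov : ValuationSubring F0) (hGE : GEData π x Ov)
    (hsep : ∃ s ∈ Ov, algebraMap K0⟮x⟯ F0 (Algebra.trace K0⟮x⟯ F0 s) / algebraMap A0 F0 π ∉ Ov)
    (D1 D2 : A0[X])
    (hD1 : Squarefree (D1.map (Ideal.Quotient.mk (Ideal.span {π}))))
    (hD2 : Squarefree (D2.map (Ideal.Quotient.mk (Ideal.span {π}))))
    (hram1 : RamOutside K0 x (aeval x D1)) (hram2 : RamOutside K0 x⁻¹ (aeval x⁻¹ D2))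
    (m : ℕ) (hm : IsUnit (m : A0))
    (f : F0) (hf0 : f ≠ 0) (hf1 : (f - 1) / algebraMap A0 F0 π ∈ Ov)
    (hV : HVal K0 m f) :
    ∃ u : F0, u ≠ 0 ∧ IsAlgebraic K0 (u ^ m / f) := by
  have hm0 : 0 < m := by
    rcases Nat.eq_zero_or_pos m with h0 | h0
    · exfalso
      rw [h0, Nat.cast_zero] at hm
      exact not_isUnit_zero hm
    · exact h0
  obtain ⟨hfin2, hsep2⟩ := abs_transport (π := π) (Ov := Ov) _ _ (abs_adjoin_inv (K0 := K0) x) hfin hsep
  have hDed1 := abs_dedekind hπ hx hfin hGE hsep D1 hD1 hram1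
  have hDed2 := abs_dedekind hπ (abs_transc_inv hx) hfin2 (chart_inv hπ hx hGE) hsep2 D2 hD2 hram2
  exact abs_core hπ hx hfin hGE hDed1 hDed2 m hm0 hm f hf0 hf1 hV

end Fermat.Agent.S18Lib
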