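import Mathlib

set_option autoImplicit false
set_option linter.style.haveILetI false

namespace Fermat.Agent.S18Lib

open scoped nonZeroDivisors

/-- Trace of an integral element `ρ` with `ρ ^ N ∈ D * (integral elements)` lies in `√(D)`. -/
theorem nrmA_trace_mem_radical {Rb K L : Type*} [CommRing Rb] [IsDomain Rb] [IsIntegrallyClosed Rb]
    [Field K] [Field L] [Algebra Rb K] [IsFractionRing Rb K] [Algebra K L] [Algebra Rb L]
    [IsScalarTower Rb K L] [FiniteDimensional K L] [Algebra.IsSeparable K L]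
    (D : Rb) (hD0 : D ≠ 0) (ρ η : L) (hρ : IsIntegral Rb ρ) (hη : IsIntegral Rb η) (N : ℕ)
    (h : ρ ^ N = algebraMap Rb L D * η) :
    ∃ τ : Rb, algebraMap Rb K τ = Algebra.trace K L ρ ∧ τ ∈ (Ideal.span {D}).radical := by
  classical
  obtain ⟨τ, hτ⟩ := IsIntegrallyClosed.isIntegral_iff.mp (Algebra.isIntegral_trace (L := K) hρ)
  refine ⟨τ, hτ, ?_⟩
  let Ω := AlgebraicClosure K
  let C := integralClosure Rb Ω
  have hint : ∀ (σ : L →ₐ[K] Ω) (x : L), IsIntegral Rb x → σ x ∈ C := by
    intro σ x hx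
    exact hx.map (σ.restrictScalars Rb)
  let J : Ideal C := Ideal.span {algebraMap Rb C D}
  have hmem : ∀ σ : L →ₐ[K] Ω, (⟨σ ρ, hint σ ρ hρ⟩ : C) ∈ J.radical := by
    intro σ
    refine ⟨N, ?_⟩
    rw [Ideal.mem_span_singleton']
    refine ⟨⟨σ η, hint σ η hη⟩, ?_⟩
    apply Subtype.ext
    simp only [MulMemClass.coe_mul, SubmonoidClass.coe_pow]
    rw [← map_pow, h, map_mul, mul_comm]
    congr 1
    rw [IsScalarTower.algebraMap_apply Rb K L, AlgHom.commutes]
    rw [← IsScalarTower.algebraMap_apply Rb K Ω]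
    rfl
  have hsum : (∑ σ : L →ₐ[K] Ω, (⟨σ ρ, hint σ ρ hρ⟩ : C)) ∈ J.radical :=
    Ideal.sum_mem _ fun σ _ => hmem σ
  obtain ⟨n, hn⟩ := hsum
  rw [Ideal.mem_span_singleton'] at hn
  obtain ⟨c, hc⟩ := hn
  have hc' : (c : Ω) * algebraMap Rb Ω D = (algebraMap K Ω (algebraMap Rb K τ)) ^ n := by
    have := congrArg (Subtype.val) hc
    simp only [MulMemClass.coe_mul, SubmonoidClass.coe_pow, AddSubmonoidClass.coe_finsetSum] at this
    rw [hτ, trace_eq_sum_embeddings Ω, ← this]
    rfl
  have hDK : algebraMap Rb K D ≠ 0 := by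
    simpa using (IsFractionRing.injective Rb K).ne hD0
  -- c comes from K
  have hcK : (c : Ω) = algebraMap K Ω ((algebraMap Rb K τ) ^ n / algebraMap Rb K D) := by
    rw [map_div₀, map_pow, ← hc', IsScalarTower.algebraMap_apply Rb K Ω, mul_div_assoc, div_self,
      mul_one]
    simpa using hDK
  have hcint : IsIntegral Rb ((algebraMap Rb K τ) ^ n / algebraMap Rb K D) := by
    have : IsIntegral Rb (algebraMap K Ω ((algebraMap Rb K τ) ^ n / algebraMap Rb K D)) := by
      rw [← hcK]; exact c.2
    exact (isIntegral_algebraMap_iff (algebraMap K Ω).injective).mp this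
  obtain ⟨c0, hc0⟩ := IsIntegrallyClosed.isIntegral_iff.mp hcint
  refine ⟨n, ?_⟩
  rw [Ideal.mem_span_singleton']
  refine ⟨c0, ?_⟩
  apply IsFractionRing.injective Rb K
  rw [map_mul, hc0, map_pow, div_mul_cancel₀ _ hDK]

/-- **Normality criterion (special fibre).**  `Λ` a domain, free over the integrally closed domain
`Rb` with basis `b`; `z j ∈ Λ` with `Tr (z j * b i) = D δ_ij`, `z j` nilpotent modulo `D`, and `(D)` a
radical ideal.  Then `Λ` is integrally closed. -/
theorem nrmA_isIntegrallyClosed {Rb Λ : Type*} [CommRing Rb] [IsDomain Rb] [IsIntegrallyClosed Rb]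
    [CommRing Λ] [IsDomain Λ] [Algebra Rb Λ]
    {ι : Type*} [Fintype ι] [DecidableEq ι] (b : Module.Basis ι Rb Λ)
    (D : Rb) (hD0 : D ≠ 0) (hD : (Ideal.span {D}).IsRadical)
    (z : ι → Λ)
    (hz : ∀ i j, Algebra.trace Rb Λ (z j * b i) = if i = j then D else 0)
    (hnil : ∀ j, ∃ N : ℕ, algebraMap Rb Λ D ∣ z j ^ N) :
    IsIntegrallyClosed Λ := by
  classical
  haveI : Module.Free Rb Λ := Module.Free.of_basis b
  haveI : Module.Finite Rb Λ := Module.Finite.of_basis b
  haveI : Algebra.IsIntegral Rb Λ := inferInstance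
  let K := FractionRing Rb
  let L := FractionRing Λ
  haveI : FaithfulSMul Rb Λ := inferInstance
  haveI : IsScalarTower Rb Λ L := inferInstance
  haveI : FaithfulSMul Rb L := by
    rw [faithfulSMul_iff_algebraMap_injective, IsScalarTower.algebraMap_eq Rb Λ L]
    exact (IsFractionRing.injective Λ L).comp (FaithfulSMul.algebraMap_injective Rb Λ)
  letI : Algebra K L := FractionRing.liftAlgebra Rb L
  haveI : IsScalarTower Rb K L := FractionRing.isScalarTower_liftAlgebra Rb L
  haveI : IsLocalization (Algebra.algebraMapSubmonoid Λ Rb⁰) L := inferInstance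
  let bL : Module.Basis ι K L := b.localizationLocalization K Rb⁰ L
  have hbL : ∀ i, bL i = algebraMap Λ L (b i) := fun i =>
    Module.Basis.localizationLocalization_apply K Rb⁰ L b i
  haveI : FiniteDimensional K L := Module.Finite.of_basis bL
  have htr : ∀ a : Λ, Algebra.trace K L (algebraMap Λ L a) = algebraMap Rb K (Algebra.trace Rb Λ a) :=
    fun a => Algebra.trace_localization Rb Rb⁰ a
  have hDK : algebraMap Rb K D ≠ 0 := by
    simpa using (IsFractionRing.injective Rb K).ne hD0
  haveI : Nonempty ι := by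
    by_contra hne
    rw [not_nonempty_iff] at hne
    haveI := hne
    have : Subsingleton Λ := by
      refine ⟨fun x y => ?_⟩
      apply b.repr.injective
      ext i
      exact (IsEmpty.false i).elim
    exact false_of_nontrivial_of_subsingleton Λ
  haveI : Algebra.IsSeparable K L := by
    by_contra hsep
    have h0 := Algebra.trace_eq_zero_of_not_isSeparable hsep
    obtain ⟨j⟩ := ‹Nonempty ι›
    have h1 := htr (z j * b j)
    rw [h0, hz j j, if_pos rfl] at h1
    exact hDK h1.symm
  rw [isIntegrallyClosed_iff L]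
  intro lam hlam
  have hlamR : IsIntegral Rb lam := isIntegral_trans lam hlam
  -- coordinates
  have hcoord : ∀ j, algebraMap Rb K D * bL.repr lam j
      = Algebra.trace K L (lam * algebraMap Λ L (z j)) := by
    intro j
    conv_rhs => rw [← bL.sum_repr lam]
    rw [Finset.sum_mul, map_sum]
    have : ∀ i, Algebra.trace K L (bL.repr lam i • bL i * algebraMap Λ L (z j))
        = bL.repr lam i * algebraMap Rb K (if i = j then D else 0) := by
      intro i
      rw [smul_mul_assoc, map_smul, smul_eq_mul, hbL, ← map_mul, htr, mul_comm (b i), hz]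
    simp only [this]
    rw [Finset.sum_eq_single j]
    · rw [if_pos rfl, mul_comm]
    · intro i _ hij
      rw [if_neg hij, map_zero, mul_zero]
    · intro h; exact absurd (Finset.mem_univ j) h
  have hex : ∀ j, ∃ e : Rb, algebraMap Rb K e = bL.repr lam j := by
    intro j
    obtain ⟨N, w, hw⟩ := hnil j
    have hzint : IsIntegral Rb (algebraMap Λ L (z j)) :=
      (Algebra.IsIntegral.isIntegral (R := Rb) (z j)).algebraMap
    have hwint : IsIntegral Rb (algebraMap Λ L w) :=
      (Algebra.IsIntegral.isIntegral (R := Rb) w).algebraMap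
    obtain ⟨τ, hτ, hτrad⟩ := nrmA_trace_mem_radical (K := K) (L := L) D hD0
      (lam * algebraMap Λ L (z j)) (lam ^ N * algebraMap Λ L w) (hlamR.mul hzint)
      ((hlamR.pow N).mul hwint) N (by
        rw [mul_pow, ← map_pow, hw, map_mul, ← IsScalarTower.algebraMap_apply Rb Λ L]
        ring)
    rw [hD.radical, Ideal.mem_span_singleton'] at hτrad
    obtain ⟨e, he⟩ := hτrad
    refine ⟨e, ?_⟩
    have h2 := hcoord j
    rw [← hτ, ← he, map_mul, mul_comm] at h2
    exact (mul_right_cancel₀ hDK h2).symm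
  choose e he using hex
  refine ⟨∑ j, e j • b j, ?_⟩
  rw [map_sum]
  conv_rhs => rw [← bL.sum_repr lam]
  refine Finset.sum_congr rfl fun j _ => ?_
  rw [← he j, hbL, Algebra.smul_def, map_mul, ← IsScalarTower.algebraMap_apply Rb Λ L,
    Algebra.smul_def, ← IsScalarTower.algebraMap_apply Rb K L]

end Fermat.Agent.S18Lib
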