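import Mathlib
import Fermat.Agent.S18.NormalA

set_option autoImplicit false
set_option linter.style.haveILetI false

namespace Fermat.Agent.S18Lib

open scoped nonZeroDivisors

/-- nonvanishing of the discriminant from one nonzero trace. -/
theorem nrmB_discr_ne_zero {Rb Λ : Type*} [CommRing Rb] [IsDomain Rb]
    [CommRing Λ] [IsDomain Λ] [Algebra Rb Λ]
    {ι : Type*} [Fintype ι] [DecidableEq ι] (b : Module.Basis ι Rb Λ)
    (a : Λ) (ha : Algebra.trace Rb Λ a ≠ 0) : Algebra.discr Rb b ≠ 0 := by
  classical
  haveI : Module.Free Rb Λ := Module.Free.of_basis b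
  haveI : Module.Finite Rb Λ := Module.Finite.of_basis b
  haveI : Algebra.IsIntegral Rb Λ := inferInstance
  let K := FractionRing Rb
  let L := FractionRing Λ
  haveI : FaithfulSMul Rb Λ := inferInstance
  haveI : IsScalarTower Rb Λ L := inferInstance
  haveI : FaithfulSMul Rb L := by
    rw [faithfulSMul_iff_algebraMap_injective, IsScalarTower.algebraMap_eq Rb Λ L]
    exact (IsFractionRing.injective Λ L).comp (FaithfulSMul.algebraMap_injective Rb Λ)
  letI : Algebra K L := FractionRing.liftAlgebra Rb L
  haveI : IsScalarTower Rb K L := FractionRing.isScalarTower_liftAlgebra Rb L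
  haveI : IsLocalization (Algebra.algebraMapSubmonoid Λ Rb⁰) L := inferInstance
  let bL : Module.Basis ι K L := b.localizationLocalization K Rb⁰ L
  haveI : FiniteDimensional K L := Module.Finite.of_basis bL
  have htr : ∀ a : Λ, Algebra.trace K L (algebraMap Λ L a) = algebraMap Rb K (Algebra.trace Rb Λ a) :=
    fun a => Algebra.trace_localization Rb Rb⁰ a
  haveI : Algebra.IsSeparable K L := by
    by_contra hsep
    have h0 := Algebra.trace_eq_zero_of_not_isSeparable hsep
    have h1 := htr a
    rw [h0] at h1
    exact ha ((IsFractionRing.injective Rb K) (by rw [map_zero]; exact h1.symm))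
  have h1 := Algebra.discr_not_zero_of_basis K bL
  have h2 : Algebra.discr K bL = algebraMap Rb K (Algebra.discr Rb b) :=
    Algebra.discr_localizationLocalization Rb Rb⁰ L b
  intro h0
  rw [h2, h0, map_zero] at h1
  exact h1 rfl

/-- contraction: `π S ∩ R = π R`. -/
theorem nrmB_dvd_of_dvd
    {R S E F : Type*} [CommRing R] [IsDomain R] [IsIntegrallyClosed R]
    [CommRing S] [IsDomain S] [Algebra R S] [Algebra.IsIntegral R S]
    [Field E] [Field F] [Algebra R E] [IsFractionRing R E] [Algebra S F]
    [Algebra E F] [Algebra R F] [IsScalarTower R E F] [IsScalarTower R S F]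
    (π r : R) (hπ : π ≠ 0) (h : algebraMap R S π ∣ algebraMap R S r) : π ∣ r := by
  obtain ⟨s, hs⟩ := h
  have hπE : algebraMap R E π ≠ 0 := by
    simpa using (IsFractionRing.injective R E).ne hπ
  have h1 : algebraMap S F s = algebraMap E F (algebraMap R E r / algebraMap R E π) := by
    have h2 := congrArg (algebraMap S F) hs
    rw [map_mul, ← IsScalarTower.algebraMap_apply R S F, ← IsScalarTower.algebraMap_apply R S F,
      IsScalarTower.algebraMap_apply R E F, IsScalarTower.algebraMap_apply R E F] at h2
    rw [map_div₀, h2, mul_div_cancel_left₀]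
    simpa using hπE
  have hint : IsIntegral R (algebraMap R E r / algebraMap R E π) := by
    have : IsIntegral R (algebraMap E F (algebraMap R E r / algebraMap R E π)) := by
      rw [← h1]; exact (Algebra.IsIntegral.isIntegral (R := R) s).algebraMap
    exact (isIntegral_algebraMap_iff (algebraMap E F).injective).mp this
  obtain ⟨r', hr'⟩ := IsIntegrallyClosed.isIntegral_iff.mp hint
  refine ⟨r', ?_⟩
  apply IsFractionRing.injective R E
  rw [map_mul, hr', mul_div_cancel₀ _ hπE]

/-- Nakayama: lifts of generators of `S/π` generate `S` up to a factor `g ≡ 1 mod π`. -/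
theorem nrmB_nakayama
    {R S : Type*} [CommRing R] [CommRing S] [Algebra R S] [Module.Finite R S]
    (π : R) {ι : Type*} [Fintype ι] (ω : ι → S)
    (hgen : ∀ s : S, ∃ (c : ι → R) (s' : S), s = ∑ i, c i • ω i + π • s') :
    ∃ g : R, π ∣ g - 1 ∧ ∀ s : S, ∃ c : ι → R, ∑ i, c i • ω i = g • s := by
  classical
  let S' : Submodule R S := Submodule.span R (Set.range ω)
  have hfg : (⊤ : Submodule R (S ⧸ S')).FG := Module.Finite.fg_top
  have hle : (⊤ : Submodule R (S ⧸ S')) ≤ Ideal.span {π} • (⊤ : Submodule R (S ⧸ S')) := by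
    intro x _
    obtain ⟨s, rfl⟩ := Submodule.Quotient.mk_surjective S' x
    obtain ⟨c, s', hs⟩ := hgen s
    have h1 : (Submodule.Quotient.mk s : S ⧸ S') = π • Submodule.Quotient.mk s' := by
      rw [← Submodule.Quotient.mk_smul, Submodule.Quotient.eq, hs, add_sub_cancel_right]
      exact Submodule.sum_mem _ fun i _ =>
        Submodule.smul_mem _ _ (Submodule.subset_span ⟨i, rfl⟩)
    rw [h1]
    exact Submodule.smul_mem_smul (Ideal.mem_span_singleton_self π) trivial
  obtain ⟨g, hg1, hg2⟩ :=
    Submodule.exists_sub_one_mem_and_smul_eq_zero_of_fg_of_le_smul _ _ hfg hle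
  refine ⟨g, Ideal.mem_span_singleton.mp hg1, fun s => ?_⟩
  have h := hg2 (Submodule.Quotient.mk s) trivial
  rw [← Submodule.Quotient.mk_smul, Submodule.Quotient.mk_eq_zero] at h
  exact (Submodule.mem_span_range_iff_exists_fun R).mp h

/-- linear independence of lifts of a linearly independent family mod `π`. -/
theorem nrmB_linearIndependent
    {R S : Type*} [CommRing R] [IsDomain R] [IsNoetherianRing R] [CommRing S] [IsDomain S]
    [Algebra R S] [FaithfulSMul R S]
    (π : R) (hπ : Prime π) {ι : Type*} [Fintype ι] (ω : ι → S)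
    (hind : ∀ c : ι → R, algebraMap R S π ∣ ∑ i, c i • ω i → ∀ i, π ∣ c i) :
    LinearIndependent R ω := by
  classical
  rw [Fintype.linearIndependent_iff]
  have key : ∀ n : ℕ, ∀ c : ι → R, ∑ i, c i • ω i = 0 → ∀ i, π ^ n ∣ c i := by
    intro n
    induction n with
    | zero => intro c _ i; simp
    | succ n ih =>
      intro c hc i
      have h1 : ∀ i, π ∣ c i := hind c (by rw [hc]; exact dvd_zero _)
      choose c' hc' using h1
      have h2 : ∑ i, c' i • ω i = 0 := by
        have h3 : π • ∑ i, c' i • ω i = 0 := by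
          rw [Finset.smul_sum, ← hc]
          refine Finset.sum_congr rfl fun i _ => ?_
          rw [smul_smul, ← hc' i]
        rcases smul_eq_zero.mp h3 with h | h
        · exact absurd h hπ.ne_zero
        · exact h
      rw [hc' i, pow_succ']
      exact mul_dvd_mul_left π (ih c' h2 i)
  intro c hc i
  by_contra hne
  obtain ⟨n, hn⟩ := FiniteMultiplicity.of_not_isUnit hπ.not_isUnit hne
  exact hn (key _ c hc i)

end Fermat.Agent.S18Lib
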