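import Mathlib

set_option autoImplicit false
set_option linter.style.haveILetI false

namespace Fermat.Agent.S18Lib

open scoped nonZeroDivisors
open IsDedekindDomain

attribute [local instance] FractionRing.liftAlgebra FractionRing.isScalarTower_liftAlgebra

/-- Tameness in residue characteristic zero: if `p B = P' * Q` with `P'`, `Q` coprime, `P' ≠ ⊤`,
then `P'` does not divide the different. -/
theorem nrmT_not_dvd_different {A B : Type*} [CommRing A] [CommRing B] [Algebra A B]
    [IsDedekindDomain A] [IsDedekindDomain B] [Module.IsTorsionFree A B] [Module.Finite A B]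
    [Algebra.IsSeparable (FractionRing A) (FractionRing B)]
    {p : Ideal A} [p.IsMaximal] [CharZero (A ⧸ p)] (P' Q : Ideal B) (hP' : P' ≠ ⊤)
    (hPQ : IsCoprime P' Q) (hP : P' * Q = Ideal.map (algebraMap A B) p) :
    ¬ P' ∣ differentIdeal A B := by
  letI : Field (A ⧸ p) := Ideal.Quotient.field p
  letI : Algebra (A ⧸ p) (B ⧸ Q) := Ideal.Quotient.algebraQuotientOfLEComap (by
      rw [← Ideal.map_le_iff_le_comap, ← hP]
      exact Ideal.mul_le_right (I := P') (J := Q) )
  letI : Algebra (A ⧸ p) (B ⧸ P') := Ideal.Quotient.algebraQuotientOfLEComap (by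
      rw [← Ideal.map_le_iff_le_comap, ← hP]
      exact Ideal.mul_le_left (I := P') (J := Q))
  haveI : IsScalarTower A (A ⧸ p) (B ⧸ Q) := .of_algebraMap_eq' rfl
  haveI : IsScalarTower A (A ⧸ p) (B ⧸ P') := .of_algebraMap_eq' rfl
  haveI : Module.Finite (A ⧸ p) (B ⧸ Q) :=
    Module.Finite.of_restrictScalars_finite A (A ⧸ p) (B ⧸ Q)
  haveI : Module.Finite (A ⧸ p) (B ⧸ P') :=
    Module.Finite.of_restrictScalars_finite A (A ⧸ p) (B ⧸ P')
  haveI : Nontrivial (B ⧸ P') := Ideal.Quotient.nontrivial_iff.mpr hP'
  let e : (B ⧸ p.map (algebraMap A B)) ≃ₐ[A ⧸ p] ((B ⧸ P') × B ⧸ Q) :=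
    { __ := (Ideal.quotEquivOfEq hP.symm).trans (Ideal.quotientMulEquivQuotientProd P' Q hPQ),
      commutes' := Quotient.ind fun _ ↦ rfl }
  have hx : Algebra.trace (A ⧸ p) (B ⧸ P') 1 ≠ 0 := by
    have h1 : Algebra.trace (A ⧸ p) (B ⧸ P') 1 = (Module.finrank (A ⧸ p) (B ⧸ P') : A ⧸ p) := by
      have := Algebra.trace_algebraMap (R := A ⧸ p) (S := B ⧸ P') (1 : A ⧸ p)
      rw [map_one] at this
      rw [this]; simp
    rw [h1]
    exact Nat.cast_ne_zero.mpr (Module.finrank_pos).ne'
  obtain ⟨y, hy⟩ := Ideal.Quotient.mk_surjective (e.symm (1, 0))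
  refine not_dvd_differentIdeal_of_intTrace_not_mem A P' Q hP y ?_ ?_
  · have := congr((e $hy).2)
    simp at this
    simpa [e, Ideal.Quotient.eq_zero_iff_mem] using this
  · rw [← Ideal.Quotient.eq_zero_iff_mem, ← Algebra.trace_quotient_eq_of_isDedekindDomain,
      hy, Algebra.trace_eq_of_algEquiv, Algebra.trace_prod_apply]
    simpa using hx

/-- local statement: for a height one prime `v` of `B` over `p`, every `a ∈ p` satisfies
`v (a z) < 1` for `z` in the dual of `B`; and `v z ≤ 1` if `v` is unramified. -/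
theorem nrmT_val {A B K F : Type*} [CommRing A] [IsDedekindDomain A] [CommRing B]
    [IsDedekindDomain B]
    [Field K] [Field F] [Algebra A K] [IsFractionRing A K] [Algebra B F] [IsFractionRing B F]
    [Algebra A B] [Algebra K F] [Algebra A F] [IsScalarTower A K F] [IsScalarTower A B F]
    [FiniteDimensional K F] [Algebra.IsSeparable K F] [IsIntegralClosure B A F]
    (hchar : ∀ p : Ideal A, p.IsMaximal → CharZero (A ⧸ p))
    (z : F) (hz : ∀ b : B, Algebra.trace K F (z * algebraMap B F b) ∈ (algebraMap A K).range)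
    (v : HeightOneSpectrum B) :
    (∀ a : A, algebraMap A B a ∈ v.asIdeal → v.valuation F (algebraMap A F a * z) < 1) ∧
    (¬ v.asIdeal ^ 2 ∣ (v.asIdeal.under A).map (algebraMap A B) → v.valuation F z ≤ 1) := by
  classical
  haveI : Module.Finite A B := IsIntegralClosure.finite A K F B
  haveI : Algebra.IsIntegral A B := IsIntegralClosure.isIntegral_algebra A F
  have hinjAB : Function.Injective (algebraMap A B) := by
    have h1 : Function.Injective (algebraMap A F) := by
      rw [IsScalarTower.algebraMap_eq A K F]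
      exact (algebraMap K F).injective.comp (IsFractionRing.injective A K)
    rw [IsScalarTower.algebraMap_eq A B F] at h1
    exact Function.Injective.of_comp h1
  haveI : FaithfulSMul A B := (faithfulSMul_iff_algebraMap_injective A B).mpr hinjAB
  haveI : Module.IsTorsionFree A B := inferInstance
  haveI : Algebra.IsSeparable (FractionRing A) (FractionRing B) := by
    have H : RingHom.comp (algebraMap (FractionRing A) (FractionRing B))
        ↑(FractionRing.algEquiv A K).symm.toRingEquiv =
          RingHom.comp ↑(FractionRing.algEquiv B F).symm.toRingEquiv (algebraMap K F) := by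
      apply IsLocalization.ringHom_ext A⁰
      ext
      simp only [RingHom.coe_comp, RingHom.coe_coe,
        AlgEquiv.coe_ringEquiv, Function.comp_apply, AlgEquiv.commutes,
        ← IsScalarTower.algebraMap_apply]
      rw [IsScalarTower.algebraMap_apply A B F, AlgEquiv.commutes,
        ← IsScalarTower.algebraMap_apply]
    exact Algebra.IsSeparable.of_equiv_equiv _ _ H
  set P := v.asIdeal with hPdef
  haveI hPprime : P.IsPrime := v.isPrime
  set p := P.under A with hpdef
  have hpbot : p ≠ ⊥ := Ideal.under_ne_bot A v.ne_bot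
  haveI hpprime : p.IsPrime := Ideal.IsPrime.under A P
  haveI hpmax : p.IsMaximal := hpprime.isMaximal hpbot
  haveI := hchar p hpmax
  have hmapne : p.map (algebraMap A B) ≠ ⊥ := by
    rw [Ne, Ideal.map_eq_bot_iff_of_injective hinjAB]; exact hpbot
  have hmaple : p.map (algebraMap A B) ≤ P := Ideal.map_comap_le
  -- factor p B = P ^ e * Q
  have hfin : FiniteMultiplicity P (p.map (algebraMap A B)) :=
    FiniteMultiplicity.of_prime_left v.prime hmapne
  obtain ⟨Q, hQ, hPQ⟩ := hfin.exists_eq_pow_mul_and_not_dvd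
  set e := multiplicity P (p.map (algebraMap A B)) with hedef
  have he1 : 1 ≤ e := by
    by_contra hlt
    have he0 : e = 0 := by omega
    rw [he0, pow_zero, one_mul] at hQ
    exact hPQ (hQ ▸ Ideal.dvd_iff_le.mpr hmaple)
  have hPmax : P.IsMaximal := hPprime.isMaximal v.ne_bot
  have hcop : IsCoprime (P ^ e) Q := by
    apply IsCoprime.pow_left
    rw [Ideal.isCoprime_iff_sup_eq]
    by_contra hne
    have h1 := hPmax.eq_of_le hne le_sup_left
    exact hPQ (Ideal.dvd_iff_le.mpr (h1 ▸ le_sup_right))
  have hPe : P ^ e ≠ ⊤ := by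
    intro h
    have : P ^ e ≤ P := Ideal.pow_le_self (by omega)
    exact hPprime.ne_top (top_le_iff.mp (h ▸ this))
  have hnd : ¬ P ^ e ∣ differentIdeal A B :=
    nrmT_not_dvd_different (p := p) (P ^ e) Q hPe hcop hQ.symm
  obtain ⟨δ, hδ, hδP⟩ : ∃ δ ∈ differentIdeal A B, δ ∉ P ^ e := by
    by_contra hcon
    push Not at hcon
    exact hnd (Ideal.dvd_iff_le.mpr hcon)
  -- z δ ∈ B
  have hzdual : z ∈ FractionalIdeal.dual A K (1 : FractionalIdeal B⁰ F) := by
    rw [FractionalIdeal.mem_dual (one_ne_zero' (FractionalIdeal B⁰ F))]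
    intro a ha
    obtain ⟨b, rfl⟩ := (FractionalIdeal.mem_one_iff _).mp ha
    exact hz b
  have hzδ : z * algebraMap B F δ ∈ (1 : FractionalIdeal B⁰ F) := by
    have h1 : FractionalIdeal.dual A K (1 : FractionalIdeal B⁰ F) *
        (differentIdeal A B : FractionalIdeal B⁰ F) = 1 := by
      rw [coeIdeal_differentIdeal A K]
      exact mul_inv_cancel₀ (FractionalIdeal.dual_ne_zero A K (one_ne_zero' (FractionalIdeal B⁰ F)))
    rw [← h1]
    exact FractionalIdeal.mul_mem_mul hzdual
      ((FractionalIdeal.mem_coeIdeal _).mpr ⟨δ, hδ, rfl⟩)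
  obtain ⟨y, hy⟩ := (FractionalIdeal.mem_one_iff _).mp hzδ
  have hvy : v.valuation F z * v.valuation F (algebraMap B F δ) ≤ 1 := by
    rw [← map_mul, ← hy]; exact v.valuation_le_one y
  have hvδ : WithZero.exp (-(e : ℤ)) < v.valuation F (algebraMap B F δ) := by
    rw [v.valuation_of_algebraMap, ← not_le, v.intValuation_le_pow_iff_mem]
    exact hδP
  refine ⟨fun a ha => ?_, fun hunr => ?_⟩
  · by_cases hz0 : z = 0
    · simp [hz0]
    have hap : a ∈ p := ha
    have haPe : algebraMap A B a ∈ P ^ e := by
      have h1 : algebraMap A B a ∈ p.map (algebraMap A B) := Ideal.mem_map_of_mem _ hap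
      rw [hQ] at h1
      exact (Ideal.mul_le_inf.trans inf_le_left) h1
    have hva : v.valuation F (algebraMap A F a) ≤ WithZero.exp (-(e : ℤ)) := by
      rw [IsScalarTower.algebraMap_apply A B F, v.valuation_of_algebraMap,
        v.intValuation_le_pow_iff_mem]
      exact haPe
    have hvz : 0 < v.valuation F z := by
      rw [zero_lt_iff]; exact (Valuation.ne_zero_iff _).mpr hz0
    rw [map_mul, mul_comm]
    calc v.valuation F z * v.valuation F (algebraMap A F a)
        ≤ v.valuation F z * WithZero.exp (-(e : ℤ)) := by gcongr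
      _ < v.valuation F z * v.valuation F (algebraMap B F δ) := by
          exact mul_lt_mul_of_pos_left hvδ hvz
      _ ≤ 1 := hvy
  · have he : e = 1 := by
      by_contra hne
      have h2 : 2 ≤ e := by omega
      apply hunr
      rw [hQ]
      exact Dvd.dvd.mul_right (pow_dvd_pow P h2) Q
    have hδ1 : v.valuation F (algebraMap B F δ) = 1 := by
      rw [v.valuation_eq_one_iff_notMem]
      rw [he, pow_one] at hδP
      exact hδP
    rw [hδ1, mul_one] at hvy
    exact hvy

/-- **Lemma (T), tame different in residue characteristic zero.**  `B/A` Dedekind, all residue fields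
of `A` of characteristic zero, every prime of `B` not containing `D` unramified.  If `Tr (z B) ⊆ A`
then `D z ∈ B` and `D z` is nilpotent modulo `D`. -/
theorem nrmT_tame {A B K F : Type*} [CommRing A] [IsDedekindDomain A] [CommRing B]
    [IsDedekindDomain B]
    [Field K] [Field F] [Algebra A K] [IsFractionRing A K] [Algebra B F] [IsFractionRing B F]
    [Algebra A B] [Algebra K F] [Algebra A F] [IsScalarTower A K F] [IsScalarTower A B F]
    [FiniteDimensional K F] [Algebra.IsSeparable K F] [IsIntegralClosure B A F]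
    (hchar : ∀ p : Ideal A, p.IsMaximal → CharZero (A ⧸ p))
    (D : A)
    (hram : ∀ P : Ideal B, P.IsPrime → P ≠ ⊥ → algebraMap A B D ∉ P →
        ¬ P ^ 2 ∣ (P.under A).map (algebraMap A B))
    (z : F) (hz : ∀ b : B, Algebra.trace K F (z * algebraMap B F b) ∈ (algebraMap A K).range) :
    ∃ y : B, algebraMap B F y = algebraMap A F D * z ∧ ∃ N : ℕ, algebraMap A B D ∣ y ^ N := by
  classical
  have hval : ∀ v : HeightOneSpectrum B, v.valuation F (algebraMap A F D * z) ≤ 1 ∧
      (algebraMap A B D ∈ v.asIdeal → v.valuation F (algebraMap A F D * z) < 1) := by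
    intro v
    obtain ⟨h1, h2⟩ := nrmT_val (A := A) (B := B) (K := K) (F := F) hchar z hz v
    by_cases hD : algebraMap A B D ∈ v.asIdeal
    · exact ⟨(h1 D hD).le, fun _ => h1 D hD⟩
    · refine ⟨?_, fun h => absurd h hD⟩
      have h3 := h2 (hram v.asIdeal v.isPrime v.ne_bot hD)
      rw [map_mul, IsScalarTower.algebraMap_apply A B F]
      exact mul_le_one' (v.valuation_le_one _) h3
  obtain ⟨y, hy⟩ := HeightOneSpectrum.mem_integers_of_valuation_le_one F _ fun v => (hval v).1
  refine ⟨y, hy, ?_⟩
  have hrad : y ∈ (Ideal.span {algebraMap A B D}).radical := by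
    rw [Ideal.radical_eq_sInf, Ideal.mem_sInf]
    rintro P ⟨hDP, hP⟩
    have hDmem : algebraMap A B D ∈ P := hDP (Ideal.mem_span_singleton_self _)
    by_cases hbot : P = ⊥
    · subst hbot
      have hD0 : algebraMap A B D = 0 := by simpa using hDmem
      have : algebraMap B F y = 0 := by
        rw [hy, IsScalarTower.algebraMap_apply A B F, hD0, map_zero, zero_mul]
      have hy0 : y = 0 := (IsFractionRing.injective B F) (by rw [this, map_zero])
      simp [hy0]
    · let v : HeightOneSpectrum B := ⟨P, hP, hbot⟩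
      have := (hval v).2 hDmem
      rw [← hy] at this
      exact (v.valuation_lt_one_iff_mem (K := F) y).mp this
  obtain ⟨N, hN⟩ := hrad
  exact ⟨N, Ideal.mem_span_singleton.mp hN⟩

end Fermat.Agent.S18Lib
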