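import Mathlib
import Fermat.Agent.S18.NormalA
import Fermat.Agent.S18.NormalB
import Fermat.Agent.S18.NormalT

set_option autoImplicit false
set_option linter.style.haveILetI false

namespace Fermat.Agent.S18Lib

open scoped nonZeroDivisors

set_option maxHeartbeats 1000000 in
/-- **Theorem N (abstract reduction form).** -/
theorem nrm_abs
    {R S E F Rb Λ : Type*} [CommRing R] [IsDomain R] [IsNoetherianRing R] [IsIntegrallyClosed R]
    [CommRing S] [IsDomain S] [Algebra R S] [Module.Finite R S] [FaithfulSMul R S]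
    [Field E] [Field F] [Algebra R E] [IsFractionRing R E] [Algebra S F] [IsFractionRing S F]
    [Algebra E F] [Algebra R F] [IsScalarTower R E F] [IsScalarTower R S F]
    [CommRing Rb] [IsDomain Rb] [IsPrincipalIdealRing Rb] [CommRing Λ] [IsDomain Λ] [Algebra Rb Λ]
    (ρR : R →+* Rb) (ρS : S →+* Λ) (hρR : Function.Surjective ρR) (hρS : Function.Surjective ρS)
    (hcomm : ∀ r, ρS (algebraMap R S r) = algebraMap Rb Λ (ρR r))
    (π D : R) (hπ : Prime π)
    (hkR : ∀ r, ρR r = 0 ↔ π ∣ r) (hkS : ∀ s, ρS s = 0 ↔ algebraMap R S π ∣ s)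
    (hD : (Ideal.span {ρR D}).IsRadical) (hD0 : ρR D ≠ 0)
    (hsep : ∃ (s : S) (r : R), algebraMap R E r = Algebra.trace E F (algebraMap S F s) ∧ ¬ π ∣ r)
    (hT : ∀ z : F, (∀ s : S, Algebra.trace E F (z * algebraMap S F s) ∈ (algebraMap R E).range) →
      ∃ (n N : ℕ) (y w : S),
        algebraMap R F π ^ n * (algebraMap R F D * z) = algebraMap S F y ∧
        algebraMap R F π ^ n * (algebraMap R F D * z) ^ N = algebraMap R F D * algebraMap S F w) :
    IsIntegrallyClosed Λ := by
  classical
  haveI : Algebra.IsIntegral R S := inferInstance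
  have hinjRS : Function.Injective (algebraMap R S) := FaithfulSMul.algebraMap_injective R S
  have hinjSF : Function.Injective (algebraMap S F) := IsFractionRing.injective S F
  have hinjRE : Function.Injective (algebraMap R E) := IsFractionRing.injective R E
  have hcontr : ∀ r : R, algebraMap R S π ∣ algebraMap R S r → π ∣ r := fun r h =>
    nrmB_dvd_of_dvd (E := E) (F := F) π r hπ.ne_zero h
  -- Rb → Λ injective
  have hinjb : Function.Injective (algebraMap Rb Λ) := by
    rw [injective_iff_map_eq_zero]
    intro x hx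
    obtain ⟨r, rfl⟩ := hρR x
    rw [← hcomm, hkS] at hx
    exact (hkR r).mpr (hcontr r hx)
  haveI : FaithfulSMul Rb Λ := (faithfulSMul_iff_algebraMap_injective Rb Λ).mpr hinjb
  -- semilinear map
  haveI : RingHomSurjective ρR := ⟨hρR⟩
  let ρl : S →ₛₗ[ρR] Λ :=
    { toFun := ρS
      map_add' := map_add ρS
      map_smul' := fun r s => by
        rw [Algebra.smul_def, map_mul, hcomm, ← Algebra.smul_def] }
  haveI : Module.Finite Rb Λ := Module.Finite.of_surjective ρl hρS
  haveI : Module.IsTorsionFree Rb Λ := inferInstance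
  haveI : Module.Free Rb Λ := Module.free_of_finite_type_torsion_free'
  let ι := Module.Free.ChooseBasisIndex Rb Λ
  let b : Module.Basis ι Rb Λ := Module.Free.chooseBasis Rb Λ
  have hπS : Prime (algebraMap R S π) := by
    refine ⟨fun h => hπ.ne_zero (hinjRS (by rw [h, map_zero])), fun hu => ?_, fun a c hac => ?_⟩
    · have : ρS 1 = 0 := (hkS 1).mpr hu.dvd
      rw [map_one] at this
      exact one_ne_zero this
    · rw [← hkS, map_mul, mul_eq_zero, hkS, hkS] at hac
      exact hac
  choose ω hω using fun i => hρS (b i)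
  have hsmul : ∀ (r : R) (s : S), ρS (r • s) = ρR r • ρS s := fun r s => ρl.map_smulₛₗ r s
  have hsum : ∀ c : ι → R, ρS (∑ i, c i • ω i) = ∑ i, ρR (c i) • b i := by
    intro c
    rw [map_sum]
    exact Finset.sum_congr rfl fun i _ => by rw [hsmul, hω]
  -- Nakayama
  have hgen : ∀ s : S, ∃ (c : ι → R) (s' : S), s = ∑ i, c i • ω i + π • s' := by
    intro s
    choose c hc using fun i => hρR (b.repr (ρS s) i)
    have h1 : ρS (s - ∑ i, c i • ω i) = 0 := by
      rw [map_sub, hsum, sub_eq_zero]
      conv_lhs => rw [← b.sum_repr (ρS s)]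
      exact Finset.sum_congr rfl fun i _ => by rw [hc]
    obtain ⟨s', hs'⟩ := (hkS _).mp h1
    refine ⟨c, s', ?_⟩
    rw [Algebra.smul_def, ← hs']; ring
  obtain ⟨g, hg1, hg⟩ := nrmB_nakayama π ω hgen
  have hρg : ρR g = 1 := by
    have := (hkR _).mpr hg1
    rwa [map_sub, map_one, sub_eq_zero] at this
  have hg0 : g ≠ 0 := by
    rintro rfl
    rw [map_zero] at hρg
    exact zero_ne_one hρg
  have hind : ∀ c : ι → R, algebraMap R S π ∣ ∑ i, c i • ω i → ∀ i, π ∣ c i := by
    intro c hc i
    have h1 := (hkS _).mpr hc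
    rw [hsum] at h1
    have h2 := (Fintype.linearIndependent_iff.mp b.linearIndependent) _ h1 i
    exact (hkR _).mp h2
  have hli : LinearIndependent R ω := nrmB_linearIndependent π hπ ω hind
  -- basis of F over E
  let ωF : ι → F := fun i => algebraMap S F (ω i)
  have hliF : LinearIndependent E ωF := by
    rw [← LinearIndependent.iff_fractionRing R E]
    exact hli.map' (IsScalarTower.toAlgHom R S F).toLinearMap
      (LinearMap.ker_eq_bot.mpr hinjSF)
  have hgE : algebraMap R E g ≠ 0 := by
    simpa using hinjRE.ne hg0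
  have hS_span : ∀ s : S, ∀ c : ι → R, ∑ i, c i • ω i = g • s →
      algebraMap S F s = ∑ i, (algebraMap R E (c i) / algebraMap R E g) • ωF i := by
    intro s c hc
    have h1 := congrArg (algebraMap S F) hc
    rw [map_sum, Algebra.smul_def, map_mul, ← IsScalarTower.algebraMap_apply R S F,
      IsScalarTower.algebraMap_apply R E F] at h1
    have hgF : algebraMap E F (algebraMap R E g) ≠ 0 := by simpa using hgE
    apply mul_left_cancel₀ hgF
    rw [← h1, Finset.mul_sum]
    refine Finset.sum_congr rfl fun i _ => ?_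
    rw [Algebra.smul_def, map_mul, ← IsScalarTower.algebraMap_apply R S F,
      IsScalarTower.algebraMap_apply R E F, Algebra.smul_def, map_div₀]
    field_simp
    rfl
  have hspan : ⊤ ≤ Submodule.span E (Set.range ωF) := by
    intro x _
    obtain ⟨⟨s, ⟨t, r, hr, rfl⟩⟩, hx⟩ := IsLocalization.surj (Algebra.algebraMapSubmonoid S R⁰) x
    have hr0 : r ≠ 0 := nonZeroDivisors.ne_zero hr
    have hrE : algebraMap R E r ≠ 0 := by simpa using hinjRE.ne hr0
    have hs : algebraMap S F s ∈ Submodule.span E (Set.range ωF) := by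
      obtain ⟨c, hc⟩ := hg s
      rw [hS_span s c hc]
      exact Submodule.sum_mem _ fun i _ =>
        Submodule.smul_mem _ _ (Submodule.subset_span ⟨i, rfl⟩)
    have hx' : x = (algebraMap R E r)⁻¹ • algebraMap S F s := by
      simp only at hx
      rw [← hx, ← IsScalarTower.algebraMap_apply R S F, IsScalarTower.algebraMap_apply R E F,
        Algebra.smul_def, map_inv₀]
      have : algebraMap E F (algebraMap R E r) ≠ 0 := by simpa using hrE
      field_simp
    rw [hx']
    exact Submodule.smul_mem _ _ hs
  let bE : Module.Basis ι E F := Module.Basis.mk hliF hspan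
  have hbE : ∀ i, bE i = algebraMap S F (ω i) := fun i => Module.Basis.mk_apply hliF hspan i
  haveI : FiniteDimensional E F := Module.Finite.of_basis bE
  -- traces of elements of S
  have hTr : ∀ s : S, ∃ r : R, algebraMap R E r = Algebra.trace E F (algebraMap S F s) := by
    intro s
    have : IsIntegral R (algebraMap S F s) := (Algebra.IsIntegral.isIntegral (R := R) s).algebraMap
    exact IsIntegrallyClosed.isIntegral_iff.mp (Algebra.isIntegral_trace (L := E) this)
  -- trace compatibility
  have hcompat : ∀ (s : S) (r : R), algebraMap R E r = Algebra.trace E F (algebraMap S F s) →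
      ρR r = Algebra.trace Rb Λ (ρS s) := by
    intro s r hr
    choose m hm using fun k => hg (s * ω k)
    have h1 : ∀ i k, Algebra.leftMulMatrix bE (algebraMap S F s) i k
        = algebraMap R E (m k i) / algebraMap R E g := by
      intro i k
      rw [Algebra.leftMulMatrix_eq_repr_mul, hbE, ← map_mul, hS_span _ _ (hm k)]
      have : ∑ i, (algebraMap R E (m k i) / algebraMap R E g) • ωF i
          = ∑ i, (algebraMap R E (m k i) / algebraMap R E g) • bE i :=
        Finset.sum_congr rfl fun i _ => by rw [hbE]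
      rw [this, Module.Basis.repr_sum_self]
    have h2 : ∀ i k, Algebra.leftMulMatrix b (ρS s) i k = ρR (m k i) := by
      intro i k
      rw [Algebra.leftMulMatrix_eq_repr_mul, ← hω k, ← map_mul]
      have h3 : ρS (s * ω k) = ∑ i, ρR (m k i) • b i := by
        rw [← hsum, hm k, hsmul, hρg, one_smul]
      rw [h3, Module.Basis.repr_sum_self]
    rw [Algebra.trace_eq_matrix_trace b, Matrix.trace]
    simp only [Matrix.diag_apply, h2]
    rw [Algebra.trace_eq_matrix_trace bE, Matrix.trace] at hr
    simp only [Matrix.diag_apply, h1] at hr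
    rw [← Finset.sum_div, eq_div_iff hgE, ← map_mul, ← map_sum] at hr
    have h4 := hinjRE hr
    have h5 := congrArg ρR h4
    rw [map_mul, hρg, mul_one, map_sum] at h5
    exact h5
  choose T hT' using hTr
  -- Gram matrix
  let G : Matrix ι ι R := fun i k => T (ω i * ω k)
  have hGmap : G.map ρR = Algebra.traceMatrix Rb b := by
    ext i k
    rw [Matrix.map_apply, Algebra.traceMatrix_apply, Algebra.traceForm_apply,
      hcompat _ _ (hT' (ω i * ω k)), map_mul, hω, hω]
  have hdetG : ¬ π ∣ G.det := by
    intro hdvd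
    have h1 := (hkR _).mpr hdvd
    rw [RingHom.map_det, RingHom.mapMatrix_apply, hGmap, ← Algebra.discr_def] at h1
    obtain ⟨s, r, hr, hπr⟩ := hsep
    refine nrmB_discr_ne_zero b (ρS s) ?_ h1
    rw [← hcompat s r hr]
    exact fun h => hπr ((hkR r).mp h)
  have hdet0 : G.det ≠ 0 := fun h => hdetG (h ▸ dvd_zero π)
  have hdetE : algebraMap R E G.det ≠ 0 := by simpa using hinjRE.ne hdet0
  have hdetF : algebraMap R F G.det ≠ 0 := by
    rw [IsScalarTower.algebraMap_apply R E F]; simpa using hdetE
  let s0 : ι → S := fun j => ∑ k, (g * G.adjugate j k) • ω k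
  let zF : ι → F := fun j => algebraMap S F (s0 j) / algebraMap R F G.det
  have hzω : ∀ i j, Algebra.trace E F (zF j * algebraMap S F (ω i))
      = algebraMap R E (if i = j then g else 0) := by
    intro i j
    have h1 : zF j * algebraMap S F (ω i)
        = (algebraMap R E G.det)⁻¹ • algebraMap S F (s0 j * ω i) := by
      simp only [zF]
      rw [Algebra.smul_def, map_inv₀, ← IsScalarTower.algebraMap_apply R E F, map_mul]
      field_simp
    rw [h1, map_smul, smul_eq_mul]
    have h2 : Algebra.trace E F (algebraMap S F (s0 j * ω i))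
        = algebraMap R E (g * ∑ k, G.adjugate j k * G k i) := by
      simp only [s0]
      rw [Finset.sum_mul, map_sum, map_sum, Finset.mul_sum, map_sum]
      refine Finset.sum_congr rfl fun k _ => ?_
      rw [smul_mul_assoc, Algebra.smul_def, map_mul, ← IsScalarTower.algebraMap_apply R S F,
        IsScalarTower.algebraMap_apply R E F, ← Algebra.smul_def, map_smul, smul_eq_mul,
        ← hT' (ω k * ω i), ← map_mul, mul_assoc]
    have h3 : ∑ k, G.adjugate j k * G k i = if i = j then G.det else 0 := by
      have := congrFun (congrFun (Matrix.adjugate_mul G) j) i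
      rw [Matrix.mul_apply] at this
      rw [this, Matrix.smul_apply, Matrix.one_apply, smul_eq_mul]
      by_cases hij : i = j
      · subst hij; simp
      · rw [if_neg hij, if_neg (Ne.symm hij), mul_zero]
    rw [h2, h3]
    by_cases hij : i = j
    · rw [if_pos hij, if_pos hij, map_mul]; field_simp
    · rw [if_neg hij, if_neg hij, mul_zero, map_zero, mul_zero]
  have hzS : ∀ j (s : S), Algebra.trace E F (zF j * algebraMap S F s) ∈ (algebraMap R E).range := by
    intro j s
    obtain ⟨c, hc⟩ := hg s
    refine ⟨c j, ?_⟩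
    rw [hS_span s c hc, Finset.mul_sum, map_sum]
    have : ∀ i, Algebra.trace E F (zF j * (algebraMap R E (c i) / algebraMap R E g) • ωF i)
        = (algebraMap R E (c i) / algebraMap R E g) * algebraMap R E (if i = j then g else 0) := by
      intro i
      rw [mul_smul_comm, map_smul, smul_eq_mul, hzω]
    simp only [this]
    rw [Finset.sum_eq_single j]
    · rw [if_pos rfl]; field_simp
    · intro i _ hij
      rw [if_neg hij, map_zero, mul_zero]
    · intro h; exact absurd (Finset.mem_univ j) h
  have hπF : algebraMap R F π ≠ 0 := by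
    rw [IsScalarTower.algebraMap_apply R S F]
    exact fun h => hπS.ne_zero (hinjSF (by rw [h, map_zero]))
  have hDπ : ¬ π ∣ D := fun h => hD0 ((hkR D).mpr h)
  have hkey : ∀ j, ∃ (y' w' : S) (N : ℕ), algebraMap S F y' = algebraMap R F D * zF j ∧
      y' ^ N = algebraMap R S D * w' := by
    intro j
    obtain ⟨n, N, y, w, h1, h2⟩ := hT (zF j) (hzS j)
    -- y is divisible by π ^ n
    have h3 : algebraMap R S (π ^ n * D) * s0 j = algebraMap R S G.det * y := by
      apply hinjSF
      simp only [map_mul, map_pow, ← IsScalarTower.algebraMap_apply R S F]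
      rw [← h1]
      simp only [zF]
      field_simp
    have h4 : algebraMap R S π ^ n ∣ y := by
      refine hπS.pow_dvd_of_dvd_mul_left n (fun h => hdetG (hcontr _ h)) ?_
      rw [← h3, map_mul, map_pow, mul_assoc]
      exact dvd_mul_right _ _
    obtain ⟨y', rfl⟩ := h4
    have h5 : algebraMap S F y' = algebraMap R F D * zF j := by
      have : algebraMap R F π ^ n ≠ 0 := pow_ne_zero _ hπF
      apply mul_left_cancel₀ this
      rw [h1, map_mul, map_pow, ← IsScalarTower.algebraMap_apply R S F]
    have h6 : algebraMap R S π ^ n * y' ^ N = algebraMap R S D * w := by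
      apply hinjSF
      simp only [map_mul, map_pow, ← IsScalarTower.algebraMap_apply R S F]
      rw [h5, h2]
    have h7 : algebraMap R S π ^ n ∣ w := by
      refine hπS.pow_dvd_of_dvd_mul_left n (fun h => hDπ (hcontr _ h)) ?_
      rw [← h6]
      exact dvd_mul_right _ _
    obtain ⟨w', rfl⟩ := h7
    refine ⟨y', w', N, h5, ?_⟩
    have : algebraMap R S π ^ n ≠ 0 := pow_ne_zero _ hπS.ne_zero
    apply mul_left_cancel₀ this
    rw [h6]; ring
  choose y' w' N hy' hN using hkey
  refine nrmA_isIntegrallyClosed b (ρR D) hD0 hD (fun j => ρS (y' j)) ?_ ?_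
  · intro i j
    have h1 : algebraMap R E (if i = j then D * g else 0)
        = Algebra.trace E F (algebraMap S F (y' j * ω i)) := by
      rw [map_mul, hy', IsScalarTower.algebraMap_apply R E F, mul_assoc, ← Algebra.smul_def,
        map_smul, hzω, smul_eq_mul, ← map_mul]
      by_cases hij : i = j
      · rw [if_pos hij, if_pos hij]
      · rw [if_neg hij, if_neg hij, mul_zero]
    have h2 := hcompat _ _ h1
    rw [map_mul, hω] at h2
    rw [← h2]
    by_cases hij : i = j
    · rw [if_pos hij, if_pos hij, map_mul, hρg, mul_one]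
    · rw [if_neg hij, if_neg hij, map_zero]
  · intro j
    refine ⟨N j, ρS (w' j), ?_⟩
    rw [← map_pow, hN, map_mul, hcomm]

/-- **Theorem N.**  `R` (think `A0[x]`) noetherian normal domain, `π` prime, `R/π` a PID; `S` a domain,
finite over `R` (think: integral closure of `A0[x]` in `F0`), `π` prime in `S`; the trace is not
identically zero mod `π`; `D ∈ R` squarefree mod `π`; `hT` = conclusion of Lemma (T) (`nrmT_tame`)
for `S[1/π]` over `R[1/π]`.  Then `S/π` is integrally closed. -/
theorem nrm_main
    {R S E F : Type*} [CommRing R] [IsDomain R] [IsNoetherianRing R] [IsIntegrallyClosed R]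
    [CommRing S] [IsDomain S] [Algebra R S] [Module.Finite R S] [FaithfulSMul R S]
    [Field E] [Field F] [Algebra R E] [IsFractionRing R E] [Algebra S F] [IsFractionRing S F]
    [Algebra E F] [Algebra R F] [IsScalarTower R E F] [IsScalarTower R S F]
    (π D : R) (hπ : Prime π) (hπS : Prime (algebraMap R S π))
    [IsPrincipalIdealRing (R ⧸ Ideal.span {π})]
    (hD : (Ideal.span {Ideal.Quotient.mk (Ideal.span {π}) D}).IsRadical) (hD0 : ¬ π ∣ D)
    (hsep : ∃ (s : S) (r : R), algebraMap R E r = Algebra.trace E F (algebraMap S F s) ∧ ¬ π ∣ r)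
    (hT : ∀ z : F, (∀ s : S, Algebra.trace E F (z * algebraMap S F s) ∈ (algebraMap R E).range) →
      ∃ (n N : ℕ) (y w : S),
        algebraMap R F π ^ n * (algebraMap R F D * z) = algebraMap S F y ∧
        algebraMap R F π ^ n * (algebraMap R F D * z) ^ N = algebraMap R F D * algebraMap S F w) :
    IsIntegrallyClosed (S ⧸ Ideal.span {algebraMap R S π}) := by
  haveI : (Ideal.span {π}).IsPrime := (Ideal.span_singleton_prime hπ.ne_zero).mpr hπ
  haveI : (Ideal.span {algebraMap R S π}).IsPrime :=
    (Ideal.span_singleton_prime hπS.ne_zero).mpr hπS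
  letI : Algebra (R ⧸ Ideal.span {π}) (S ⧸ Ideal.span {algebraMap R S π}) :=
    Ideal.Quotient.algebraQuotientOfLEComap (by
      rw [Ideal.span_le]
      intro x hx
      rw [Set.mem_singleton_iff.mp hx]
      exact Ideal.mem_span_singleton_self _)
  refine nrm_abs (E := E) (F := F) (Ideal.Quotient.mk (Ideal.span {π}))
    (Ideal.Quotient.mk (Ideal.span {algebraMap R S π})) Ideal.Quotient.mk_surjective
    Ideal.Quotient.mk_surjective (fun r => rfl) π D hπ ?_ ?_ hD ?_ hsep hT
  · intro r
    rw [Ideal.Quotient.eq_zero_iff_mem, Ideal.mem_span_singleton]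
  · intro s
    rw [Ideal.Quotient.eq_zero_iff_mem, Ideal.mem_span_singleton]
  · rw [Ne, Ideal.Quotient.eq_zero_iff_mem, Ideal.mem_span_singleton]
    exact hD0

theorem nrm_dedekind
    {R S E F : Type*} [CommRing R] [IsDomain R] [IsNoetherianRing R] [IsIntegrallyClosed R]
    [CommRing S] [IsDomain S] [Algebra R S] [Module.Finite R S] [FaithfulSMul R S]
    [Field E] [Field F] [Algebra R E] [IsFractionRing R E] [Algebra S F] [IsFractionRing S F]
    [Algebra E F] [Algebra R F] [IsScalarTower R E F] [IsScalarTower R S F]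
    (π D : R) (hπ : Prime π) (hπS : Prime (algebraMap R S π))
    [IsPrincipalIdealRing (R ⧸ Ideal.span {π})]
    (hD : (Ideal.span {Ideal.Quotient.mk (Ideal.span {π}) D}).IsRadical) (hD0 : ¬ π ∣ D)
    (hsep : ∃ (s : S) (r : R), algebraMap R E r = Algebra.trace E F (algebraMap S F s) ∧ ¬ π ∣ r)
    (hT : ∀ z : F, (∀ s : S, Algebra.trace E F (z * algebraMap S F s) ∈ (algebraMap R E).range) →
      ∃ (n N : ℕ) (y w : S),
        algebraMap R F π ^ n * (algebraMap R F D * z) = algebraMap S F y ∧
        algebraMap R F π ^ n * (algebraMap R F D * z) ^ N = algebraMap R F D * algebraMap S F w) :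
    IsDedekindDomain (S ⧸ Ideal.span {algebraMap R S π}) := by
  haveI hic := nrm_main (E := E) (F := F) π D hπ hπS hD hD0 hsep hT
  haveI : (Ideal.span {π}).IsPrime := (Ideal.span_singleton_prime hπ.ne_zero).mpr hπ
  haveI : (Ideal.span {algebraMap R S π}).IsPrime :=
    (Ideal.span_singleton_prime hπS.ne_zero).mpr hπS
  letI : Algebra (R ⧸ Ideal.span {π}) (S ⧸ Ideal.span {algebraMap R S π}) :=
    Ideal.Quotient.algebraQuotientOfLEComap (by
      rw [Ideal.span_le]
      intro x hx
      rw [Set.mem_singleton_iff.mp hx]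
      exact Ideal.mem_span_singleton_self _)
  haveI : IsNoetherianRing S := IsNoetherianRing.of_finite R S
  haveI : IsNoetherianRing (S ⧸ Ideal.span {algebraMap R S π}) := inferInstance
  haveI : IsScalarTower R (R ⧸ Ideal.span {π}) (S ⧸ Ideal.span {algebraMap R S π}) :=
    IsScalarTower.of_algebraMap_eq fun _ => rfl
  haveI : Algebra.IsIntegral R (S ⧸ Ideal.span {algebraMap R S π}) := inferInstance
  haveI : Algebra.IsIntegral (R ⧸ Ideal.span {π}) (S ⧸ Ideal.span {algebraMap R S π}) :=
    Algebra.IsIntegral.tower_top R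
  haveI : Ring.DimensionLEOne (S ⧸ Ideal.span {algebraMap R S π}) :=
    Ring.DimensionLEOne.of_isIntegral (R ⧸ Ideal.span {π}) _
  exact { }

end Fermat.Agent.S18Lib
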