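import Fermat.Agent.S18.Normal
import Fermat.Agent.S18.NormalT

set_option autoImplicit false

/-!
# S18 : bridge from Lemma (T) (`nrmT_tame`, characteristic zero Dedekind side `A ⊆ B`)
to the hypothesis `hT` of Theorem (N) (`nrm_main`, `nrm_dedekind`, integral side `R ⊆ S`)

Model independent: the only relations between `R, S` and `A, B` are element-wise statements in
the fields `E ⊆ F`:  `R ⊆ A`, `π⁻¹ ∈ A`, and every `b ∈ B` is `s / π ^ n` with `s ∈ S`.
-/

namespace Fermat.Agent.S18Lib

theorem nrmH_hT {R S E F A B : Type*} [CommRing R] [CommRing S]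
    [Field E] [Field F] [Algebra R E] [Algebra S F] [Algebra E F] [Algebra R F]
    [IsScalarTower R E F]
    [CommRing A] [IsDedekindDomain A] [CommRing B] [IsDedekindDomain B]
    [Algebra A E] [IsFractionRing A E] [Algebra B F] [IsFractionRing B F] [Algebra A B]
    [Algebra A F] [IsScalarTower A E F] [IsScalarTower A B F]
    [FiniteDimensional E F] [Algebra.IsSeparable E F] [IsIntegralClosure B A F]
    (π D : R) (hπ0 : algebraMap R E π ≠ 0)
    (hRA : ∀ r : R, ∃ a : A, algebraMap A E a = algebraMap R E r)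
    (hπA : ∃ a : A, algebraMap A E a = (algebraMap R E π)⁻¹)
    (hBS : ∀ b : B, ∃ (n : ℕ) (s : S),
      algebraMap R F π ^ n * algebraMap B F b = algebraMap S F s)
    (hSmul : ∀ (r : R) (s : S), ∃ s' : S, algebraMap S F s' = algebraMap R F r * algebraMap S F s)
    (hchar : ∀ p : Ideal A, p.IsMaximal → CharZero (A ⧸ p))
    (hram : ∀ DA : A, algebraMap A E DA = algebraMap R E D →
      ∀ P : Ideal B, P.IsPrime → P ≠ ⊥ → algebraMap A B DA ∉ P →
      ¬ P ^ 2 ∣ (P.under A).map (algebraMap A B)) :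
    ∀ z : F, (∀ s : S, Algebra.trace E F (z * algebraMap S F s) ∈ (algebraMap R E).range) →
      ∃ (n N : ℕ) (y w : S),
        algebraMap R F π ^ n * (algebraMap R F D * z) = algebraMap S F y ∧
        algebraMap R F π ^ n * (algebraMap R F D * z) ^ N
          = algebraMap R F D * algebraMap S F w := by
  intro z hz
  obtain ⟨DA, hDA⟩ := hRA D
  obtain ⟨πi, hπi⟩ := hπA
  have hπF : algebraMap R F π = algebraMap E F (algebraMap R E π) :=
    IsScalarTower.algebraMap_apply R E F π
  have hπF0 : algebraMap R F π ≠ 0 := by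
    rw [hπF]
    exact (map_ne_zero _).2 hπ0
  have hDAF : algebraMap A F DA = algebraMap R F D := by
    rw [IsScalarTower.algebraMap_apply A E F, hDA, ← IsScalarTower.algebraMap_apply R E F]
  have hzB : ∀ b : B, Algebra.trace E F (z * algebraMap B F b) ∈ (algebraMap A E).range := by
    intro b
    obtain ⟨n, s, hs⟩ := hBS b
    obtain ⟨r, hr⟩ := hz s
    obtain ⟨a, ha⟩ := hRA r
    refine ⟨πi ^ n * a, ?_⟩
    rw [map_mul, map_pow, hπi, ha, hr, ← hs]
    have : z * (algebraMap R F π ^ n * algebraMap B F b)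
        = (algebraMap R E π ^ n) • (z * algebraMap B F b) := by
      rw [Algebra.smul_def, map_pow, ← hπF]
      ring
    rw [this, map_smul, smul_eq_mul, ← mul_assoc, ← mul_pow, inv_mul_cancel₀ hπ0, one_pow,
      one_mul]
  obtain ⟨y, hy, N, c, hc⟩ := nrmT_tame hchar DA (hram DA hDA) z hzB
  obtain ⟨n1, s1, hs1⟩ := hBS y
  obtain ⟨n2, s2, hs2⟩ := hBS c
  obtain ⟨y', hy'⟩ := hSmul (π ^ n2) s1
  obtain ⟨w', hw'⟩ := hSmul (π ^ n1) s2
  refine ⟨n1 + n2, N, y', w', ?_, ?_⟩
  · rw [hy', ← hs1, hy, hDAF, map_pow]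
    ring
  · have h1 : (algebraMap R F D * z) ^ N = algebraMap R F D * algebraMap B F c := by
      rw [← hDAF, ← hy, ← map_pow, hc, map_mul, ← IsScalarTower.algebraMap_apply A B F]
    rw [h1, hw', ← hs2, map_pow]
    ring

end Fermat.Agent.S18Lib
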