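import Fermat.Agent.S18.AbsSB
import Fermat.Agent.S18.Chart
import Fermat.Agent.S18.ChartFin
import Fermat.Agent.S18.FracModels
import Fermat.Agent.S18.Normal
import Fermat.Agent.S18.NormalH

set_option autoImplicit false
set_option linter.style.haveILetI false

open Polynomial IntermediateField
open scoped IntermediateField.algebraAdjoinAdjoin

namespace Fermat.Agent.S18Lib

section
variable {A0 K0 F0 : Type} [CommRing A0] [IsDomain A0] [IsDiscreteValuationRing A0]
    [Field K0] [CharZero K0] [Algebra A0 K0] [IsFractionRing A0 K0]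
    [Field F0] [Algebra K0 F0] [Algebra A0 F0] [IsScalarTower A0 K0 F0]

/-- `A0[X] → S_t`. -/
noncomputable def absToS (A0 : Type) {F0 : Type} [CommRing A0] [IsDomain A0]
    [IsDiscreteValuationRing A0] [Field F0] [Algebra A0 F0] (t : F0) :
    A0[X] →+* chartS A0 t :=
  ((aeval t : A0[X] →ₐ[A0] F0).codRestrict (chartS A0 t) (fun Q => chart_aeval_mem Q)).toRingHom

theorem abs_dedekind {π : A0} (hπ : Irreducible π) {t : F0} (ht : Transcendental K0 t)
    (hfin : FiniteDimensional K0⟮t⟯ F0) {Ov : ValuationSubring F0} (h : GEData π t Ov)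
    (hsep : ∃ s ∈ Ov, algebraMap K0⟮t⟯ F0 (Algebra.trace K0⟮t⟯ F0 s) / algebraMap A0 F0 π ∉ Ov)
    (D : A0[X]) (hD : Squarefree (D.map (Ideal.Quotient.mk (Ideal.span {π}))))
    (hram : RamOutside K0 t (aeval t D)) :
    IsDedekindDomain (chartS A0 t ⧸ Ideal.span {algebraMap A0 (chartS A0 t) π}) := by
  letI algRF : Algebra A0[X] F0 := (aeval t : A0[X] →ₐ[A0] F0).toRingHom.toAlgebra
  letI algRS : Algebra A0[X] (chartS A0 t) := (absToS A0 t).toAlgebra
  letI algRE : Algebra A0[X] K0⟮t⟯ :=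
    (aeval (⟨t, mem_adjoin_simple_self K0 t⟩ : K0⟮t⟯) : A0[X] →ₐ[A0] K0⟮t⟯).toRingHom.toAlgebra
  haveI : IsFractionRing A0[X] K0⟮t⟯ := frac_F1 ht
  haveI : IsFractionRing (chartS A0 t) F0 := frac_F4a (K0 := K0) t
  have hRF : ∀ P : A0[X], algebraMap A0[X] F0 P = aeval t P := fun P => rfl
  have hRE : ∀ P : A0[X], ((algebraMap A0[X] K0⟮t⟯ P : K0⟮t⟯) : F0) = aeval t P :=
    fun P => frac_coe_aeval t P
  have hRS : ∀ P : A0[X], ((algebraMap A0[X] (chartS A0 t) P : chartS A0 t) : F0) = aeval t P :=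
    fun P => rfl
  haveI : IsScalarTower A0[X] K0⟮t⟯ F0 :=
    IsScalarTower.of_algebraMap_eq (fun P => (hRE P).symm)
  haveI : IsScalarTower A0[X] (chartS A0 t) F0 :=
    IsScalarTower.of_algebraMap_eq (fun P => (hRS P).symm)
  have htA : Transcendental A0 t := chart_transc ht
  have hequiv : ∀ a : A0[X], algebraMap (Algebra.adjoin A0 ({t} : Set F0)) F0
      (algEquivOfTranscendental A0 t htA a) = aeval t a := by
    intro a
    rw [algEquivOfTranscendental_apply]
    have := (aeval_algHom_apply (Algebra.adjoin A0 ({t} : Set F0)).val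
      (⟨t, Algebra.self_mem_adjoin_singleton A0 t⟩ : Algebra.adjoin A0 ({t} : Set F0)) a).symm
    exact this
  have hint1 : ∀ y : F0, IsIntegral A0[X] y → IsIntegral (Algebra.adjoin A0 ({t} : Set F0)) y := by
    intro y hy
    exact chart_int_of_hom (algEquivOfTranscendental A0 t htA).toRingEquiv.toRingHom
      (fun a => hequiv a) hy
  have hint2 : ∀ y : F0, IsIntegral (Algebra.adjoin A0 ({t} : Set F0)) y → IsIntegral A0[X] y := by
    intro y hy
    exact chart_int_of_hom (algEquivOfTranscendental A0 t htA).symm.toRingEquiv.toRingHom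
      (fun a => by
        have := hequiv ((algEquivOfTranscendental A0 t htA).symm a)
        rw [AlgEquiv.apply_symm_apply] at this
        exact this.symm) hy
  haveI : IsIntegralClosure (chartS A0 t) A0[X] F0 :=
    ⟨Subtype.val_injective, fun {y} => ⟨fun hy => ⟨⟨y, hint1 y hy⟩, rfl⟩,
      fun ⟨s, hs⟩ => hs ▸ hint2 _ s.2⟩⟩
  haveI : CharZero K0⟮t⟯ := charZero_of_injective_algebraMap (algebraMap K0 K0⟮t⟯).injective
  haveI : Algebra.IsSeparable K0⟮t⟯ F0 := inferInstance
  haveI : Module.Finite A0[X] (chartS A0 t) :=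
    IsIntegralClosure.finite A0[X] K0⟮t⟯ F0 (chartS A0 t)
  haveI : FaithfulSMul A0[X] (chartS A0 t) := by
    rw [faithfulSMul_iff_algebraMap_injective]
    intro P Q hPQ
    apply frac_aeval_injective (A0 := A0) ht
    rw [← hRS, ← hRS, hPQ]
  haveI := frac_F3a hπ
  have hinj : Function.Injective (algebraMap A0 F0) := by
    rw [IsScalarTower.algebraMap_eq A0 K0 F0]
    exact (algebraMap K0 F0).injective.comp (IsFractionRing.injective A0 K0)
  have hπ0 : algebraMap A0 F0 π ≠ 0 := by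
    intro h0
    exact hπ.ne_zero (hinj (by rw [h0, map_zero]))
  have hCπ : algebraMap A0[X] (chartS A0 t) (C π) = algebraMap A0 (chartS A0 t) π := by
    apply Subtype.ext
    rw [hRS, aeval_C]
    rfl
  have key := nrm_dedekind (R := A0[X]) (S := chartS A0 t) (E := K0⟮t⟯) (F := F0) (C π) D
    ?_ ?_ (frac_F3b hπ D hD) ?_ ?_ ?_
  · rw [hCπ] at key
    exact key
  · exact Polynomial.prime_C_iff.mpr hπ.prime
  · rw [hCπ]
    exact abs_prime (chartS A0 t) Ov hπ0 (chart_le_Ov h) h.hπ1 h.hπ2 (chart_div_pi hπ ht h)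
  · rintro ⟨D', rfl⟩
    rw [Polynomial.map_mul, Polynomial.map_C] at hD
    have h0 : Ideal.Quotient.mk (Ideal.span {π}) π = 0 :=
      Ideal.Quotient.eq_zero_iff_mem.2 (Ideal.mem_span_singleton_self π)
    rw [h0, C_0, zero_mul] at hD
    haveI : Nontrivial (A0 ⧸ Ideal.span {π}) :=
      Ideal.Quotient.nontrivial_iff.mpr (by
        rw [Ne, Ideal.span_singleton_eq_top]
        exact hπ.not_isUnit)
    exact not_squarefree_zero hD
  · obtain ⟨s0, hs0, hs0tr⟩ := hsep
    obtain ⟨Q, hQ, hQint⟩ := h.hI s0 hs0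
    have htr : Algebra.trace K0⟮t⟯ F0 (aeval t Q * s0) =
        algebraMap A0[X] K0⟮t⟯ Q * Algebra.trace K0⟮t⟯ F0 s0 := by
      have : aeval t Q * s0 = (algebraMap A0[X] K0⟮t⟯ Q) • s0 := by
        rw [Algebra.smul_def, ← hRE]
        rfl
      rw [this, map_smul, smul_eq_mul]
    have hI : IsIntegral A0[X] (Algebra.trace K0⟮t⟯ F0 (aeval t Q * s0)) :=
      Algebra.isIntegral_trace (hint2 _ hQint)
    obtain ⟨r, hr⟩ := IsIntegrallyClosed.isIntegral_iff.mp hI
    refine ⟨⟨_, hQint⟩, r, hr, ?_⟩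
    rintro ⟨r', rfl⟩
    apply hs0tr
    have hQu : (aeval t Q)⁻¹ ∈ Ov := by
      by_contra hcon
      have hQO : aeval t Q ∈ Ov := chart_le_Ov h _ (chart_aeval_mem Q)
      exact hQ (h.hG Q (h.hπ2 _ hQO hcon))
    have hQ0 : aeval t Q ≠ 0 := by
      intro h0
      apply hQ
      have : Q = 0 := frac_aeval_injective (A0 := A0) ht (by rw [h0, map_zero])
      rw [this]
      exact dvd_zero _
    have h1 : aeval t (C π * r') = aeval t Q * algebraMap K0⟮t⟯ F0 (Algebra.trace K0⟮t⟯ F0 s0) := by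
      rw [← hRE, hr, htr]
      show algebraMap K0⟮t⟯ F0 (algebraMap A0[X] K0⟮t⟯ Q * Algebra.trace K0⟮t⟯ F0 s0) = _
      rw [map_mul]
      congr 1
      exact hRE Q
    have h2 : algebraMap K0⟮t⟯ F0 (Algebra.trace K0⟮t⟯ F0 s0) / algebraMap A0 F0 π =
        (aeval t Q)⁻¹ * aeval t r' := by
      rw [map_mul, aeval_C] at h1
      field_simp
      rw [h1, mul_comm]
    rw [h2]
    exact Ov.mul_mem _ _ hQu (chart_le_Ov h _ (chart_aeval_mem r'))
  · haveI := frac_F2 (K0 := K0) t
    haveI := frac_F4b (K0 := K0) t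
    haveI : IsDedekindDomain (integralClosure (Algebra.adjoin K0 ({t} : Set F0)) F0) :=
      integralClosure.isDedekindDomain (Algebra.adjoin K0 ({t} : Set F0)) K0⟮t⟯ F0
    refine nrmH_hT (R := A0[X]) (S := chartS A0 t) (E := K0⟮t⟯) (F := F0)
      (A := Algebra.adjoin K0 ({t} : Set F0))
      (B := integralClosure (Algebra.adjoin K0 ({t} : Set F0)) F0) (C π) D ?_ ?_ ?_ ?_ ?_ ?_ ?_
    · intro h0
      apply hπ0
      have := hRE (C π)
      rw [h0, aeval_C] at this
      exact this.symm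
    · intro r
      have hmem : aeval t r ∈ Algebra.adjoin K0 ({t} : Set F0) := by
        apply abs_mem_up (A0 := A0)
        rw [Algebra.adjoin_singleton_eq_range_aeval]
        exact ⟨r, rfl⟩
      refine ⟨⟨_, hmem⟩, ?_⟩
      apply Subtype.ext
      rw [hRE]
      rfl
    · refine ⟨⟨algebraMap K0 F0 ((algebraMap A0 K0 π)⁻¹), Subalgebra.algebraMap_mem _ _⟩, ?_⟩
      apply Subtype.ext
      have h1 : (((algebraMap A0[X] K0⟮t⟯ (C π))⁻¹ : K0⟮t⟯) : F0) = (algebraMap A0 F0 π)⁻¹ := by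
        rw [IntermediateField.coe_inv, hRE, aeval_C]
      rw [h1, IsScalarTower.algebraMap_apply A0 K0 F0]
      exact map_inv₀ (algebraMap K0 F0) _
    · intro b
      obtain ⟨n, hn⟩ := abs_int_down hπ b.2
      refine ⟨n, ⟨_, hn n le_rfl⟩, ?_⟩
      rw [hRF, aeval_C]
      rfl
    · intro r s
      refine ⟨algebraMap A0[X] (chartS A0 t) r * s, ?_⟩
      rw [map_mul, ← IsScalarTower.algebraMap_apply]
    · intro p hp
      haveI : Nontrivial (Algebra.adjoin K0 ({t} : Set F0) ⧸ p) :=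
        Ideal.Quotient.nontrivial_iff.mpr hp.ne_top
      exact charZero_of_injective_algebraMap
        (algebraMap K0 (Algebra.adjoin K0 ({t} : Set F0) ⧸ p)).injective
    · intro DA hDA P hP hP0 hd
      refine hram P hP hP0 ?_
      intro y hy hyd
      apply hd
      have : algebraMap (Algebra.adjoin K0 ({t} : Set F0))
          (integralClosure (Algebra.adjoin K0 ({t} : Set F0)) F0) DA = y := by
        apply Subtype.ext
        rw [hyd, ← hRE, ← hDA]
        rfl
      rw [this]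
      exact hy

omit [IsDomain A0] [IsDiscreteValuationRing A0] [CharZero K0] [Algebra A0 K0]
  [IsFractionRing A0 K0] [IsScalarTower A0 K0 F0] [CommRing A0] [Algebra A0 F0] in
theorem abs_adjoin_inv (x : F0) : K0⟮x⟯ = K0⟮x⁻¹⟯ := by
  apply le_antisymm
  · rw [adjoin_simple_le_iff]
    have := inv_mem (mem_adjoin_simple_self K0 x⁻¹)
    rwa [inv_inv] at this
  · rw [adjoin_simple_le_iff]
    exact inv_mem (mem_adjoin_simple_self K0 x)

omit [IsDomain A0] [IsDiscreteValuationRing A0] [CharZero K0] [Algebra A0 K0]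
  [IsFractionRing A0 K0] [IsScalarTower A0 K0 F0] in
theorem abs_transport {π : A0} {Ov : ValuationSubring F0} (E E' : IntermediateField K0 F0)
    (hE : E = E') (hfin : FiniteDimensional E F0)
    (hsep : ∃ s ∈ Ov, algebraMap E F0 (Algebra.trace E F0 s) / algebraMap A0 F0 π ∉ Ov) :
    FiniteDimensional E' F0 ∧
      ∃ s ∈ Ov, algebraMap E' F0 (Algebra.trace E' F0 s) / algebraMap A0 F0 π ∉ Ov := by
  subst hE
  exact ⟨hfin, hsep⟩

omit [IsDomain A0] [IsDiscreteValuationRing A0] [CharZero K0] [Algebra A0 K0]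
  [IsFractionRing A0 K0] [IsScalarTower A0 K0 F0] [CommRing A0] [Algebra A0 F0] in
theorem abs_transc_inv {x : F0} (hx : Transcendental K0 x) : Transcendental K0 x⁻¹ := by
  intro h
  apply hx
  have := h.inv
  rwa [inv_inv] at this

end
end Fermat.Agent.S18Lib
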