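import Fermat.Agent.S18.ChartDefs

set_option autoImplicit false

namespace Fermat.Agent.S18Lib

/-- (HU'): primes of `B_t` (integral closure of `K0[t]` in `F0`) not containing `d` are
unramified over `K0[t]`. -/
def RamOutside (K0 : Type) {F0 : Type} [Field K0] [Field F0] [Algebra K0 F0] (t d : F0) : Prop :=
  ∀ P : Ideal (integralClosure (Algebra.adjoin K0 ({t} : Set F0)) F0), P.IsPrime → P ≠ ⊥ →
    (∀ y ∈ P, (y : F0) ≠ d) →
    ¬ P ^ 2 ∣ (P.under (Algebra.adjoin K0 ({t} : Set F0))).map
      (algebraMap (Algebra.adjoin K0 ({t} : Set F0))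
        (integralClosure (Algebra.adjoin K0 ({t} : Set F0)) F0))

end Fermat.Agent.S18Lib
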