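import Fermat.Agent.S18.DescCoeff

set_option autoImplicit false

namespace Fermat.Agent.S18Lib

open ModularCurve AlgebraicCurve IntermediateField IsLocalRing
open Fermat.Agent.S24Lib (Kb FN IsFF)

/-! ### (D2) the discrete valuation ring `A0 = A ∩ K0` -/

/-- `A0 = A ∩ K0` -/
noncomputable def descA0 (A : ValuationSubring Kb) (K0 : IntermediateField ℚ Kb) :
    ValuationSubring K0 := A.comap (algebraMap K0 Kb)

theorem mem_descA0 (A : ValuationSubring Kb) (K0 : IntermediateField ℚ Kb) (x : K0) :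
    x ∈ descA0 A K0 ↔ (x : Kb) ∈ A := Iff.rfl

theorem desc_inv_natCast_not_mem (A : ValuationSubring Kb) {ℓ : ℕ} (hℓ : ℓ ≠ 0)
    (hA : A.LiesOverPrime ℓ) : ((ℓ : Kb))⁻¹ ∉ A := by
  intro h
  have h1 : (ℓ : Kb) ∈ A.nonunits := hA
  rw [ValuationSubring.mem_nonunits_iff] at h1
  have h2 : A.valuation ((ℓ : Kb))⁻¹ ≤ 1 := (A.valuation_le_one_iff _).2 h
  have h0 : (ℓ : Kb) ≠ 0 := by exact_mod_cast hℓ
  have h3 : A.valuation (ℓ : Kb) * A.valuation ((ℓ : Kb))⁻¹ = 1 := by
    rw [← map_mul, mul_inv_cancel₀ h0, map_one]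
  have h4 : A.valuation (ℓ : Kb) * A.valuation ((ℓ : Kb))⁻¹ < 1 :=
    mul_lt_one_of_lt_of_le h1 h2
  exact absurd h3 h4.ne

theorem descA0_ne_top (A : ValuationSubring Kb) {ℓ : ℕ} (hℓ : ℓ ≠ 0) (hA : A.LiesOverPrime ℓ)
    (K0 : IntermediateField ℚ Kb) : descA0 A K0 ≠ ⊤ := by
  intro h
  apply desc_inv_natCast_not_mem A hℓ hA
  have : ((ℓ : K0))⁻¹ ∈ descA0 A K0 := by rw [h]; trivial
  rw [mem_descA0] at this
  simpa using this

theorem descA0_isDVR (A : ValuationSubring Kb) {ℓ : ℕ} (hℓ : ℓ ≠ 0) (hA : A.LiesOverPrime ℓ)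
    (K0 : IntermediateField ℚ Kb) [FiniteDimensional ℚ K0] :
    IsDiscreteValuationRing (descA0 A K0) := by
  have : NumberField K0 := { to_charZero := inferInstance, to_finiteDimensional := inferInstance }
  exact descDVR_isDVR _ (descA0_ne_top A hℓ hA K0)

/-- the inclusion `A0 → A` -/
noncomputable def descA0Incl (A : ValuationSubring Kb) (K0 : IntermediateField ℚ Kb) :
    descA0 A K0 →+* A where
  toFun x := ⟨((x : K0) : Kb), x.2⟩
  map_one' := rfl
  map_mul' _ _ := rfl
  map_zero' := rfl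
  map_add' _ _ := rfl

theorem descA0Incl_coe (A : ValuationSubring Kb) (K0 : IntermediateField ℚ Kb) (x : descA0 A K0) :
    ((descA0Incl A K0 x : A) : Kb) = ((x : K0) : Kb) := rfl

theorem descA0Incl_injective (A : ValuationSubring Kb) (K0 : IntermediateField ℚ Kb) :
    Function.Injective (descA0Incl A K0) := by
  intro x y h
  have := congrArg (fun z : A => (z : Kb)) h
  exact Subtype.ext (Subtype.ext this)

theorem descA0Incl_isLocalHom (A : ValuationSubring Kb) (K0 : IntermediateField ℚ Kb) :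
    IsLocalHom (descA0Incl A K0) := by
  constructor
  intro x hx
  obtain ⟨u, hu⟩ := hx
  have hx0 : (x : K0) ≠ 0 := by
    intro h0
    have : (descA0Incl A K0 x : A) = 0 := by
      apply Subtype.ext
      rw [descA0Incl_coe, h0]
      rfl
    rw [← hu] at this
    exact u.ne_zero this
  have h1 : (((u⁻¹ : Aˣ) : A) : Kb) * ((x : K0) : Kb) = 1 := by
    have h2 : ((u⁻¹ : Aˣ) : A) * descA0Incl A K0 x = 1 := by rw [← hu]; simp
    exact congrArg (fun z : A => (z : Kb)) h2
  have hx0' : ((x : K0) : Kb) ≠ 0 := by simpa using hx0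
  have h3 : (((x : K0)⁻¹ : K0) : Kb) = (((u⁻¹ : Aˣ) : A) : Kb) := by
    push_cast
    field_simp
    rw [mul_comm] at h1
    exact h1.symm
  have hinv : ((x : K0))⁻¹ ∈ descA0 A K0 := by
    rw [mem_descA0, h3]
    exact ((u⁻¹ : Aˣ) : A).2
  exact IsUnit.of_mul_eq_one ⟨_, hinv⟩ (Subtype.ext (mul_inv_cancel₀ hx0))

theorem descA0_natCast_mem (A : ValuationSubring Kb) {ℓ : ℕ} (hA : A.LiesOverPrime ℓ)
    (K0 : IntermediateField ℚ Kb) : (ℓ : descA0 A K0) ∈ maximalIdeal (descA0 A K0) := by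
  rw [IsLocalRing.mem_maximalIdeal, mem_nonunits_iff]
  intro hu
  have h1 : IsUnit (descA0Incl A K0 (ℓ : descA0 A K0)) := hu.map _
  rw [map_natCast] at h1
  have h2 : (ℓ : Kb) ∈ A.nonunits := hA
  rw [ValuationSubring.mem_nonunits_iff_exists_mem_maximalIdeal] at h2
  obtain ⟨ha, hm⟩ := h2
  rw [IsLocalRing.mem_maximalIdeal, mem_nonunits_iff] at hm
  apply hm
  convert h1 using 1
  apply Subtype.ext
  simp

/-- an `A`-integral series which is defined over `K0` is `A0`-integral -/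
theorem desc_exists_integral (A : ValuationSubring Kb) (K0 : IntermediateField ℚ Kb)
    (y : LaurentSeries A) (y0 : LaurentSeries K0)
    (h : coeffMap (algebraMap K0 Kb) y0 = coeffMap A.subtype y) :
    ∃ z : LaurentSeries (descA0 A K0), coeffMap (descA0 A K0).subtype z = y0 ∧
      coeffMap (descA0Incl A K0) z = y := by
  have hc : ∀ n : ℤ, ((y0.coeff n : K0) : Kb) = ((y.coeff n : A) : Kb) := by
    intro n
    have := congrArg (fun s : LaurentSeries Kb => s.coeff n) h
    simpa using this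
  have hmem : ∀ n : ℤ, y0.coeff n ∈ descA0 A K0 := by
    intro n
    rw [mem_descA0, hc n]
    exact (y.coeff n).2
  let z : LaurentSeries (descA0 A K0) :=
    { coeff := fun n => ⟨y0.coeff n, hmem n⟩
      isPWO_support' := by
        apply y0.isPWO_support.mono
        intro n hn
        simp only [Function.mem_support, ne_eq] at hn ⊢
        intro h0
        exact hn (Subtype.ext h0) }
  refine ⟨z, ?_, ?_⟩
  · ext n
    rfl
  · ext n
    rw [coeffMap_coeff]
    rw [descA0Incl_coe]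
    exact hc n

end Fermat.Agent.S18Lib
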