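import Mathlib

set_option autoImplicit false

namespace Fermat.Agent.S18Lib

open IsLocalRing NumberField

section Dedekind

variable {R K : Type*} [CommRing R] [IsDedekindDomain R] [Field K] [Algebra R K] [IsFractionRing R K]

/-- A valuation subring `B ≠ ⊤` of the fraction field of a Dedekind domain `R` containing `R`
is a discrete valuation ring. -/
theorem descDVR_of_dedekind (B : ValuationSubring K) (hR : ∀ r : R, algebraMap R K r ∈ B)
    (hB : B ≠ ⊤) : IsDiscreteValuationRing B := by
  classical
  let φ : R →+* B := (algebraMap R K).codRestrict B.toSubring hR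
  have hφc : ∀ r : R, ((φ r : B) : K) = algebraMap R K r := fun r => rfl
  set P : Ideal R := (maximalIdeal B).comap φ with hP
  have hPprime : P.IsPrime := Ideal.comap_isPrime φ _
  have hinjK : Function.Injective (algebraMap R K) := IsFractionRing.injective R K
  -- P ≠ ⊥
  have hPne : P ≠ ⊥ := by
    obtain ⟨y, hy⟩ : ∃ y : K, y ∉ B := by
      by_contra hcon
      push Not at hcon
      exact hB (eq_top_iff.2 fun y _ => hcon y)
    have hy0 : y ≠ 0 := fun h => hy (h ▸ B.zero_mem)
    have hyinv : y⁻¹ ∈ B := (B.mem_or_inv_mem y).resolve_left hy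
    obtain ⟨⟨a, s⟩, has⟩ := IsLocalization.surj (nonZeroDivisors R) (S := K) y⁻¹
    -- y⁻¹ * s = a
    have hs0 : (s : R) ≠ 0 := nonZeroDivisors.ne_zero s.2
    have ha : a ∈ P := by
      rw [hP, Ideal.mem_comap, IsLocalRing.mem_maximalIdeal, mem_nonunits_iff]
      intro hu
      have h1 : ((φ a : B) : K) = y⁻¹ * ((φ s : B) : K) := has.symm
      have h2 : (φ a : B) = ⟨y⁻¹, hyinv⟩ * φ s := Subtype.ext h1
      rw [h2] at hu
      have h3 : IsUnit (⟨y⁻¹, hyinv⟩ : B) := isUnit_of_mul_isUnit_left hu
      obtain ⟨u, hu'⟩ := h3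
      have h4 : ((u⁻¹ : Bˣ) : B) * ⟨y⁻¹, hyinv⟩ = 1 := by rw [← hu']; simp
      have h5 : (((u⁻¹ : Bˣ) : B) : K) * y⁻¹ = 1 := by
        have := congrArg (fun z : B => (z : K)) h4
        simpa using this
      have h6 : (((u⁻¹ : Bˣ) : B) : K) = y := by
        field_simp at h5
        exact h5
      exact hy (h6 ▸ ((u⁻¹ : Bˣ) : B).2)
    intro hbot
    rw [hbot, Ideal.mem_bot] at ha
    rw [ha] at has
    have : y⁻¹ * algebraMap R K s = 0 := by simpa using has
    rcases mul_eq_zero.1 this with h | h
    · exact hy0 (inv_eq_zero.1 h)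
    · exact hs0 ((map_eq_zero_iff _ hinjK).1 h)
  have : IsDiscreteValuationRing (Localization.AtPrime P) :=
    IsLocalization.AtPrime.isDiscreteValuationRing_of_dedekind_domain R hPne _
  -- the map from the localisation
  have hunits : ∀ s : P.primeCompl, IsUnit (φ s) := by
    intro s
    have : φ s ∉ maximalIdeal B := fun h => s.2 h
    rwa [IsLocalRing.mem_maximalIdeal, mem_nonunits_iff, not_not] at this
  let ψ : Localization.AtPrime P →+* B := IsLocalization.lift (M := P.primeCompl) hunits
  have hψ : ∀ x : R, ψ (algebraMap _ _ x) = φ x := fun x => IsLocalization.lift_eq hunits x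
  have hφinj : Function.Injective φ := by
    intro a b hab
    have := congrArg (fun z : B => (z : K)) hab
    exact hinjK this
  have hψinj : Function.Injective ψ := by
    rw [injective_iff_map_eq_zero]
    intro z hz
    obtain ⟨a, s, rfl⟩ := IsLocalization.exists_mk'_eq P.primeCompl z
    rw [IsLocalization.lift_mk'_spec] at hz
    have : φ a = 0 := by simpa using hz
    have ha : a = 0 := hφinj (by simpa using this)
    simp [ha]
  have hψsurj : Function.Surjective ψ := by
    intro b
    by_cases hb0 : b = 0
    · exact ⟨0, by simp [hb0]⟩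
    obtain ⟨⟨a, s⟩, has⟩ := IsLocalization.surj (nonZeroDivisors R) (S := K) (b : K)
    have hs0 : (s : R) ≠ 0 := nonZeroDivisors.ne_zero s.2
    have hrel : b * φ s = φ a := Subtype.ext has
    have ha0 : a ≠ 0 := by
      rintro rfl
      have h0 : b * φ s = 0 := by simpa using hrel
      rcases mul_eq_zero.1 h0 with h | h
      · exact hb0 h
      · exact hs0 (hφinj (by simpa using h))
    set a' : Localization.AtPrime P := algebraMap _ _ a with ha'
    set s' : Localization.AtPrime P := algebraMap _ _ (s : R) with hs'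
    have hinjloc : Function.Injective (algebraMap R (Localization.AtPrime P)) :=
      IsLocalization.injective _ P.primeCompl_le_nonZeroDivisors
    have hs'0 : s' ≠ 0 := fun h => hs0 (hinjloc (by rw [map_zero]; exact h))
    have ha'0 : a' ≠ 0 := fun h => ha0 (hinjloc (by rw [map_zero]; exact h))
    rcases ValuationRing.dvd_total a' s' with h | h
    · obtain ⟨c, hc⟩ := h
      have h1 : φ s = φ a * ψ c := by rw [← hψ, ← hψ, ← map_mul]; exact congrArg ψ hc
      have h2 : φ a * (b * ψ c) = φ a * 1 := by
        calc φ a * (b * ψ c) = b * (φ a * ψ c) := by ring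
          _ = b * φ s := by rw [h1]
          _ = φ a := hrel
          _ = φ a * 1 := (mul_one _).symm
      have hφa0 : φ a ≠ 0 := fun h => ha0 (hφinj (by simpa using h))
      have h3 : b * ψ c = 1 := mul_left_cancel₀ hφa0 h2
      have hcu : IsUnit c := by
        by_contra hcn
        have hcm : c ∈ maximalIdeal (Localization.AtPrime P) := by
          rwa [IsLocalRing.mem_maximalIdeal, mem_nonunits_iff]
        rw [← Localization.AtPrime.map_eq_maximalIdeal] at hcm
        have : ψ c ∈ maximalIdeal B := by
          have hle : Ideal.map (algebraMap R (Localization.AtPrime P)) P ≤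
              (maximalIdeal B).comap ψ := by
            rw [Ideal.map_le_iff_le_comap]
            intro p hp
            rw [Ideal.mem_comap, Ideal.mem_comap, hψ]
            exact hp
          exact hle hcm
        rw [IsLocalRing.mem_maximalIdeal, mem_nonunits_iff] at this
        exact this (IsUnit.of_mul_eq_one _ (by rw [mul_comm]; exact h3))
      obtain ⟨u, rfl⟩ := hcu
      refine ⟨((u⁻¹ : (Localization.AtPrime P)ˣ) : Localization.AtPrime P), ?_⟩
      have h4 : ψ ((u⁻¹ : (Localization.AtPrime P)ˣ) : Localization.AtPrime P) * ψ u = 1 := by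
        rw [← map_mul]; simp
      calc ψ ((u⁻¹ : (Localization.AtPrime P)ˣ) : Localization.AtPrime P)
          = ψ ((u⁻¹ : (Localization.AtPrime P)ˣ) : Localization.AtPrime P) * (b * ψ u) := by
            rw [h3, mul_one]
        _ = b * (ψ ((u⁻¹ : (Localization.AtPrime P)ˣ) : Localization.AtPrime P) * ψ u) := by ring
        _ = b := by rw [h4, mul_one]
    · obtain ⟨c, hc⟩ := h
      refine ⟨c, ?_⟩
      have h1 : φ a = φ s * ψ c := by rw [← hψ, ← hψ, ← map_mul]; exact congrArg ψ hc
      have hφs0 : φ s ≠ 0 := fun h => hs0 (hφinj (by simpa using h))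
      have h2 : φ s * ψ c = φ s * b := by rw [← h1, ← hrel]; ring
      exact mul_left_cancel₀ hφs0 h2
  exact IsDiscreteValuationRing.RingEquivClass.isDiscreteValuationRing
    (RingEquiv.ofBijective ψ ⟨hψinj, hψsurj⟩)

end Dedekind

section DVR

variable {K : Type*} [Field K] [NumberField K]

omit [NumberField K] in
theorem descDVR_ringOfIntegers_mem (B : ValuationSubring K) (x : 𝓞 K) : (x : K) ∈ B := by
  have h1 : IsIntegral ℤ (x : K) := x.2
  have h2 : IsIntegral B (x : K) := h1.tower_top
  obtain ⟨y, hy⟩ := (IsIntegrallyClosed.isIntegral_iff (R := B) (K := K)).1 h2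
  rw [← hy]
  exact y.2

theorem descDVR_isDVR (B : ValuationSubring K) (hB : B ≠ ⊤) : IsDiscreteValuationRing B :=
  descDVR_of_dedekind (R := 𝓞 K) B (fun r => descDVR_ringOfIntegers_mem B r) hB

end DVR

end Fermat.Agent.S18Lib
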