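import Mathlib
import Fermat.Statements.S18
import Fermat.Agent.S24.Degree
import Fermat.Agent.S24.Principal
import Fermat.Agent.S18.DescDVR

set_option autoImplicit false

namespace Fermat.Agent.S18Lib

open ModularCurve AlgebraicCurve IntermediateField IsLocalRing
open Fermat.Agent.S24Lib (Kb FN IsFF)

/-! ### the coefficient extension maps -/

theorem desc_coeffMap_algebraMap {K K' : Type*} [Field K] [Field K'] (φ : K →+* K') (a : K) :
    coeffMap φ (algebraMap K (LaurentSeries K) a) = algebraMap K' (LaurentSeries K') (φ a) := by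
  rw [algebraMap_laurentSeries_eq_single, algebraMap_laurentSeries_eq_single, coeffMap_single]

/-- `coeffMap φ` maps the full modular function field over `K` into the one over `K'`. -/
theorem desc_coeffMap_mem {K K' : Type*} [Field K] [Field K'] (φ : K →+* K') (M : ℕ)
    {y : LaurentSeries K} (hy : y ∈ modularFunctionFieldFullC K M) :
    coeffMap φ y ∈ modularFunctionFieldFullC K' M := by
  unfold modularFunctionFieldFullC at hy
  induction hy using IntermediateField.adjoin_induction with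
  | mem y hy =>
    obtain ⟨d, hd0, hd, rfl⟩ := hy
    rw [coeffMap_qExpand, coeffMap_jqModC]
    exact jqModCd_mem_full K' M hd
  | algebraMap r =>
    rw [desc_coeffMap_algebraMap]
    exact IntermediateField.algebraMap_mem _ _
  | add y z _ _ hy hz => rw [map_add]; exact add_mem hy hz
  | inv y _ hy => rw [map_inv₀]; exact inv_mem hy
  | mul y z _ _ hy hz => rw [map_mul]; exact mul_mem hy hz

/-- coefficient extension `F_{M,K} → F_{M,K'}` -/
noncomputable def descMap {K K' : Type*} [Field K] [Field K'] (φ : K →+* K') (M : ℕ) :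
    modularFunctionFieldFullC K M →+* modularFunctionFieldFullC K' M where
  toFun y := ⟨coeffMap φ (y : LaurentSeries K), desc_coeffMap_mem φ M y.2⟩
  map_one' := by ext1; simp
  map_mul' x y := by ext1; simp
  map_zero' := by ext1; simp
  map_add' x y := by ext1; simp

theorem desc_bar_eq (M : ℕ) : modularFunctionFieldBar M = modularFunctionFieldFullC Kb M := by
  apply le_antisymm
  · unfold modularFunctionFieldBar laurentBaseChange
    rw [IntermediateField.adjoin_le_iff]
    rintro _ ⟨x, hx, rfl⟩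
    exact desc_coeffMap_mem (algebraMap ℚ Kb) M (K := ℚ) hx
  · unfold modularFunctionFieldFullC
    rw [IntermediateField.adjoin_le_iff]
    rintro _ ⟨d, hd0, hd, rfl⟩
    have h1 : qExpand Kb d (jqModC Kb) = coeffEmb Kb (qExpand ℚ d (jqModC ℚ)) := by
      rw [coeffEmb, coeffMap_qExpand, coeffMap_jqModC]
    rw [h1]
    exact coeffEmb_mem_laurentBaseChange Kb (jqModCd_mem_full ℚ M hd)

theorem desc_coeffMap_mem_bar (K0 : IntermediateField ℚ Kb) (M : ℕ)
    {y : LaurentSeries K0} (hy : y ∈ modularFunctionFieldFullC K0 M) :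
    coeffMap (algebraMap K0 Kb) y ∈ modularFunctionFieldBar M := by
  rw [desc_bar_eq]
  exact desc_coeffMap_mem _ M hy

/-- coefficient extension `F0 = F_{M,K0} → F_{M,ℚ̄} = FN M` -/
noncomputable def descBar (K0 : IntermediateField ℚ Kb) (M : ℕ) :
    modularFunctionFieldFullC K0 M →+* FN M where
  toFun y := ⟨coeffMap (algebraMap K0 Kb) (y : LaurentSeries K0), desc_coeffMap_mem_bar K0 M y.2⟩
  map_one' := by ext1; simp
  map_mul' x y := by ext1; simp
  map_zero' := by ext1; simp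
  map_add' x y := by ext1; simp

theorem descBar_coe (K0 : IntermediateField ℚ Kb) (M : ℕ) (y : modularFunctionFieldFullC K0 M) :
    ((descBar K0 M y : FN M) : LaurentSeries Kb) = coeffMap (algebraMap K0 Kb) (y : LaurentSeries K0) :=
  rfl

theorem descBar_algebraMap (K0 : IntermediateField ℚ Kb) (M : ℕ) (a : K0) :
    descBar K0 M (algebraMap K0 (modularFunctionFieldFullC K0 M) a) = algebraMap Kb (FN M) (a : Kb) := by
  ext1
  rw [descBar_coe]
  exact desc_coeffMap_algebraMap (algebraMap K0 Kb) a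

/-! ### (D1) every finite set of elements is defined over a number field -/

theorem desc_isIntegral (a : Kb) : IsIntegral ℚ a :=
  (AlgebraicClosure.isAlgebraic ℚ).isAlgebraic a |>.isIntegral

/-- `t` is defined over `K0` -/
def DescAt (K0 : IntermediateField ℚ Kb) (M : ℕ) (t : LaurentSeries Kb) : Prop :=
  ∃ t0 ∈ modularFunctionFieldFullC K0 M, coeffMap (algebraMap K0 Kb) t0 = t

theorem DescAt.mono {K0 K1 : IntermediateField ℚ Kb} (h : K0 ≤ K1) {M : ℕ} {t : LaurentSeries Kb}
    (ht : DescAt K0 M t) : DescAt K1 M t := by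
  obtain ⟨t0, ht0, rfl⟩ := ht
  refine ⟨coeffMap (IntermediateField.inclusion h).toRingHom t0, desc_coeffMap_mem _ M ht0, ?_⟩
  rw [coeffMap_coeffMap]
  exact coeffMap_congr (RingHom.ext fun x => rfl) t0

theorem desc_exists_K0_aux (M : ℕ) (t : LaurentSeries Kb)
    (ht : t ∈ Subfield.closure
        (Set.range (algebraMap Kb (LaurentSeries Kb)) ∪
          (⇑(coeffEmb Kb) '' (modularFunctionFieldFull M : Set (LaurentSeries ℚ))))) :
    ∃ K0 : IntermediateField ℚ Kb, FiniteDimensional ℚ K0 ∧ DescAt K0 M t := by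
  induction ht using Subfield.closure_induction with
  | mem y hy =>
    rcases hy with ⟨a, rfl⟩ | ⟨z, hz, rfl⟩
    · refine ⟨ℚ⟮a⟯, IntermediateField.adjoin.finiteDimensional (desc_isIntegral a),
        algebraMap _ _ (⟨a, mem_adjoin_simple_self ℚ a⟩ : ℚ⟮a⟯),
        IntermediateField.algebraMap_mem _ _, ?_⟩
      rw [desc_coeffMap_algebraMap]
      rfl
    · refine ⟨⊥, inferInstance, coeffMap (algebraMap ℚ (⊥ : IntermediateField ℚ Kb)) z,
        desc_coeffMap_mem _ M (K := ℚ) hz, ?_⟩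
      rw [coeffMap_coeffMap]
      exact coeffMap_congr (RingHom.ext fun x => rfl) z
  | one => exact ⟨⊥, inferInstance, 1, one_mem _, map_one _⟩
  | add x y _ _ hx hy =>
    obtain ⟨K1, h1, hx⟩ := hx
    obtain ⟨K2, h2, hy⟩ := hy
    obtain ⟨x0, hx0, rfl⟩ := hx.mono (le_sup_left : K1 ≤ K1 ⊔ K2)
    obtain ⟨y0, hy0, rfl⟩ := hy.mono (le_sup_right : K2 ≤ K1 ⊔ K2)
    exact ⟨K1 ⊔ K2, IntermediateField.finiteDimensional_sup K1 K2, x0 + y0, add_mem hx0 hy0,
      map_add _ _ _⟩
  | neg x _ hx =>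
    obtain ⟨K1, h1, x0, hx0, rfl⟩ := hx
    exact ⟨K1, h1, -x0, neg_mem hx0, map_neg _ _⟩
  | inv x _ hx =>
    obtain ⟨K1, h1, x0, hx0, rfl⟩ := hx
    exact ⟨K1, h1, x0⁻¹, inv_mem hx0, map_inv₀ _ _⟩
  | mul x y _ _ hx hy =>
    obtain ⟨K1, h1, hx⟩ := hx
    obtain ⟨K2, h2, hy⟩ := hy
    obtain ⟨x0, hx0, rfl⟩ := hx.mono (le_sup_left : K1 ≤ K1 ⊔ K2)
    obtain ⟨y0, hy0, rfl⟩ := hy.mono (le_sup_right : K2 ≤ K1 ⊔ K2)
    exact ⟨K1 ⊔ K2, IntermediateField.finiteDimensional_sup K1 K2, x0 * y0, mul_mem hx0 hy0,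
      map_mul _ _ _⟩

theorem desc_exists_K0 (M : ℕ) (T : Finset (FN M)) (C : Finset Kb) :
    ∃ K0 : IntermediateField ℚ Kb, FiniteDimensional ℚ K0 ∧ (∀ c ∈ C, c ∈ K0) ∧
      ∀ t ∈ T, ∃ t0 : modularFunctionFieldFullC K0 M, descBar K0 M t0 = t := by
  classical
  induction T using Finset.induction_on with
  | empty =>
    refine ⟨IntermediateField.adjoin ℚ (C : Set Kb), ?_, fun c hc => subset_adjoin _ _ hc, by simp⟩
    exact IntermediateField.finiteDimensional_adjoin (fun x _ => desc_isIntegral x)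
  | insert a T _ ih =>
    obtain ⟨K1, h1, hC, hT⟩ := ih
    obtain ⟨K2, h2, ha⟩ := desc_exists_K0_aux M (a : LaurentSeries Kb) a.2
    refine ⟨K1 ⊔ K2, IntermediateField.finiteDimensional_sup K1 K2,
      fun c hc => (le_sup_left : K1 ≤ K1 ⊔ K2) (hC c hc), ?_⟩
    intro t ht
    rcases Finset.mem_insert.1 ht with rfl | ht
    · obtain ⟨x0, hx0, hx⟩ := ha.mono (le_sup_right : K2 ≤ K1 ⊔ K2)
      exact ⟨⟨x0, hx0⟩, Subtype.ext hx⟩
    · obtain ⟨t0, rfl⟩ := hT t ht
      obtain ⟨x0, hx0, hx⟩ := DescAt.mono (le_sup_left : K1 ≤ K1 ⊔ K2) (M := M)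
        ⟨(t0 : LaurentSeries K1), t0.2, rfl⟩
      exact ⟨⟨x0, hx0⟩, Subtype.ext hx⟩

end Fermat.Agent.S18Lib
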