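import Fermat.Agent.S18.DescMod

set_option autoImplicit false

namespace Fermat.Agent.S18Lib

open ModularCurve AlgebraicCurve IntermediateField IsLocalRing Polynomial
open Fermat.Agent.S24Lib (Kb FN IsFF)
open Fermat.Agent.S20Lib (X0)

/-- a linear dependence between the monomials `j^a y^k` gives algebraicity of `y` over `K(j)` -/
theorem desc_isAlgebraic_of_not_li {K F : Type*} [Field K] [Field F] [Algebra K F] (j y : F)
    (hj : Transcendental K j) {μ : ℕ}
    (h : ¬ LinearIndependent K (fun i : ℕ × Fin (μ + 1) => j ^ i.1 * y ^ (i.2 : ℕ))) :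
    IsAlgebraic K⟮j⟯ y := by
  classical
  obtain ⟨s, g, hsum, i0, hi0, hg0⟩ := not_linearIndependent_iff.1 h
  set jE : K⟮j⟯ := AdjoinSimple.gen K j with hjE
  have hjE' : algebraMap K⟮j⟯ F jE = j := AdjoinSimple.algebraMap_gen K j
  have htr : Transcendental K jE := by
    intro h
    apply hj
    rw [← hjE']
    exact h.algebraMap
  set φ : K[X] →+* K⟮j⟯ := (aeval jE : K[X] →ₐ[K] K⟮j⟯).toRingHom with hφ
  have hφinj : Function.Injective φ := transcendental_iff_injective.1 htr
  set R0 : K[X][X] := ∑ i ∈ s, monomial (i.2 : ℕ) (monomial i.1 (g i)) with hR0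
  have hR0ne : R0 ≠ 0 := by
    intro h
    apply hg0
    have h1 : (R0.coeff (i0.2 : ℕ)).coeff i0.1 = g i0 := by
      rw [hR0, finsetSum_coeff, finsetSum_coeff]
      rw [Finset.sum_eq_single i0]
      · simp
      · intro b _ hb
        rw [coeff_monomial]
        split_ifs with h2
        · rw [coeff_monomial, if_neg]
          intro h3
          exact hb (Prod.ext h3 (Fin.ext h2))
        · simp
      · intro h; exact absurd hi0 h
    rw [← h1, h]
    simp
  refine ⟨R0.map φ, (Polynomial.map_ne_zero_iff hφinj).2 hR0ne, ?_⟩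
  rw [aeval_def, eval₂_map, hR0, eval₂_finsetSum, ← hsum]
  refine Finset.sum_congr rfl fun i _ => ?_
  rw [eval₂_monomial, RingHom.comp_apply, hφ]
  simp only [AlgHom.toRingHom_eq_coe, RingHom.coe_coe, aeval_monomial, map_mul, map_pow, hjE']
  rw [Algebra.smul_def, ← IsScalarTower.algebraMap_apply, mul_assoc]

section Abstract

variable {K : Type} [Field K] (φ : K →+* Kb) (M : ℕ)

/-- `j` -/
noncomputable def dffJ (K : Type) [Field K] (M : ℕ) : modularFunctionFieldFullC K M :=
  ⟨jqModC K, jqModC_mem_full K M⟩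

/-- the generators of `F0` -/
noncomputable def dffGen (K : Type) [Field K] (M : ℕ) (d : {d : ℕ // d ∈ M.divisors}) :
    modularFunctionFieldFullC K M :=
  haveI : NeZero d.1 := ⟨(Nat.pos_of_mem_divisors d.2).ne'⟩
  ⟨qExpand K d.1 (jqModC K), jqModCd_mem_full K M (Nat.dvd_of_mem_divisors d.2)⟩

theorem dff_coeffMap_J :
    coeffMap φ (dffJ K M : LaurentSeries K) = (Fermat.Agent.S24Lib.jj M : LaurentSeries Kb) := by
  show coeffMap φ (jqModC K) = coeffEmb Kb (qExpand ℚ 1 jq)
  rw [coeffMap_jqModC, qExpand_one_apply]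
  exact (coeffMap_jqModC (algebraMap ℚ Kb)).symm

theorem dff_coeffMap_gen (d : {d : ℕ // d ∈ M.divisors}) :
    coeffMap φ (dffGen K M d : LaurentSeries K) =
      (Fermat.Agent.S24Lib.gen M d : LaurentSeries Kb) := by
  have : NeZero d.1 := ⟨(Nat.pos_of_mem_divisors d.2).ne'⟩
  rw [Fermat.Agent.S24Lib.coe_gen]
  show coeffMap φ (qExpand K d.1 (jqModC K)) = coeffEmb Kb (qExpand ℚ d.1 jq)
  rw [coeffMap_qExpand, coeffMap_jqModC, coeffEmb, coeffMap_qExpand]
  congr 1
  exact (coeffMap_jqModC (algebraMap ℚ Kb)).symm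

theorem dff_coe_smul (c : K) (x : modularFunctionFieldFullC K M) :
    ((c • x : modularFunctionFieldFullC K M) : LaurentSeries K) = c • (x : LaurentSeries K) := by
  rw [Algebra.smul_def]
  show (algebraMap K (LaurentSeries K) c) * (x : LaurentSeries K) = c • (x : LaurentSeries K)
  rw [ModularCurve.algebraMap_laurentSeries_eq_single, HahnSeries.single_zero_mul_eq_smul]

include φ in
theorem dff_transcendental_J : Transcendental K (dffJ K M) := by
  have h : Transcendental K ((dffJ K M : modularFunctionFieldFullC K M) : LaurentSeries K) := by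
    apply Fermat.Agent.S24Lib.transcendental_of_coeff_neg _ (n := -1) (by norm_num)
    show (jqModC K).coeff (-1) ≠ 0
    rw [coeff_jqModC_neg_one]
    exact one_ne_zero
  intro halg
  exact h (halg.algebraMap (A := LaurentSeries K))

include φ in
theorem dff_not_li [NeZero M] (d : {d : ℕ // d ∈ M.divisors}) :
    ¬ LinearIndependent K (fun i : ℕ × Fin (Fintype.card (X0 M) + 1) =>
      dffJ K M ^ i.1 * dffGen K M d ^ (i.2 : ℕ)) := by
  intro hli
  apply Fermat.Agent.S24Lib.not_linearIndependent_monomials M (MvPolynomial.X d)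
  have h1 : LinearIndependent K
      (fun i : ℕ × Fin (Fintype.card (X0 M) + 1) =>
        ((dffJ K M ^ i.1 * dffGen K M d ^ (i.2 : ℕ) : modularFunctionFieldFullC K M) :
          LaurentSeries K)) := by
    rw [linearIndependent_iff'] at hli ⊢
    intro s g hg i hi
    refine hli s g ?_ i hi
    apply Subtype.val_injective
    rw [ZeroMemClass.coe_zero, ← hg, AddSubmonoidClass.coe_finset_sum]
    exact Finset.sum_congr rfl fun i _ => dff_coe_smul M _ _
  have h2 := Fermat.Agent.S24Lib.linearIndependent_map_coeff φ _ h1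
  rw [linearIndependent_iff'] at h2 ⊢
  intro s g hg i hi
  refine h2 s g ?_ i hi
  have h3 := congrArg (fun z : FN M => (z : LaurentSeries Kb)) hg
  simp only [ZeroMemClass.coe_zero, AddSubmonoidClass.coe_finset_sum] at h3
  rw [← h3]
  refine Finset.sum_congr rfl fun i _ => ?_
  rw [Fermat.Agent.S24Lib.coe_smul_FN]
  congr 1
  rw [map_mul, map_pow, map_pow, Fermat.Agent.S24Lib.evq_X1, Fermat.Agent.S24Lib.evq_X]
  push_cast
  rw [map_mul, map_pow, map_pow, dff_coeffMap_J, dff_coeffMap_gen]

include φ in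
theorem dff_isAlgebraic_gen [NeZero M] (d : {d : ℕ // d ∈ M.divisors}) :
    IsAlgebraic K⟮dffJ K M⟯ (dffGen K M d) :=
  desc_isAlgebraic_of_not_li _ _ (dff_transcendental_J φ M) (dff_not_li φ M d)

set_option synthInstance.maxHeartbeats 400000 in
set_option maxHeartbeats 1000000 in
theorem dff_adjoin_gen_eq_top [NeZero M] :
    IntermediateField.adjoin K⟮dffJ K M⟯ (Set.range (dffGen K M)) = ⊤ := by
  rw [eq_top_iff]
  rintro f _
  have hle : IntermediateField.adjoin K (divisorExpansionsC K M) ≤
      ((IntermediateField.adjoin K⟮dffJ K M⟯ (Set.range (dffGen K M))).restrictScalars K).map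
        (modularFunctionFieldFullC K M).val := by
    rw [IntermediateField.adjoin_le_iff]
    rintro _ ⟨d, hd0, hd, rfl⟩
    refine ⟨dffGen K M ⟨d, Nat.mem_divisors.mpr ⟨hd, NeZero.ne M⟩⟩, ?_, rfl⟩
    exact IntermediateField.subset_adjoin _ _ ⟨_, rfl⟩
  obtain ⟨t, ht, hft⟩ := hle f.2
  have : t = f := Subtype.ext hft
  rw [← this]
  exact ht

include φ in
theorem dff_finiteDimensional_J [NeZero M] :
    FiniteDimensional K⟮dffJ K M⟯ (modularFunctionFieldFullC K M) := by
  have h : FiniteDimensional K⟮dffJ K M⟯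
      (IntermediateField.adjoin K⟮dffJ K M⟯ (Set.range (dffGen K M))) := by
    apply IntermediateField.finiteDimensional_adjoin
    rintro _ ⟨i, rfl⟩
    exact (dff_isAlgebraic_gen φ M i).isIntegral
  rw [dff_adjoin_gen_eq_top] at h
  exact (IntermediateField.topEquiv (F := K⟮dffJ K M⟯)
    (E := modularFunctionFieldFullC K M)).toLinearEquiv.finiteDimensional

include φ in
theorem dff_isFF [NeZero M] : IsFF K (modularFunctionFieldFullC K M) :=
  ⟨dffJ K M, dff_transcendental_J φ M, dff_finiteDimensional_J φ M⟩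

end Abstract

/-- M3 -/
theorem desc_isFF (K0 : IntermediateField ℚ Kb) (M : ℕ) [NeZero M] :
    IsFF K0 (modularFunctionFieldFullC K0 M) :=
  dff_isFF (algebraMap K0 Kb) M

theorem desc_finiteDimensional (K0 : IntermediateField ℚ Kb) (M : ℕ) [NeZero M]
    (x : modularFunctionFieldFullC K0 M) (hx : Transcendental K0 x) :
    FiniteDimensional K0⟮x⟯ (modularFunctionFieldFullC K0 M) :=
  Fermat.Agent.S24Lib.finiteDimensional_adjoin (desc_isFF K0 M) hx

end Fermat.Agent.S18Lib
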