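import Fermat.Agent.S18.DescPlace

set_option autoImplicit false

namespace Fermat.Agent.S18Lib

open ModularCurve IntermediateField
open Fermat.Agent.S24Lib (Kb)

set_option synthInstance.maxHeartbeats 400000 in
/-- shortcut instance (it is the one found by instance search, which is very slow) -/
noncomputable instance descAlgInst (K0 : IntermediateField ℚ Kb) (M : ℕ) :
    Algebra K0 (modularFunctionFieldFullC K0 M) := inferInstance

end Fermat.Agent.S18Lib
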