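import Fermat.Agent.S24.Final

set_option autoImplicit false

/-!
# S18 [Ram] : characteristic-zero ramification of `X₀(M)` over the coordinate `x`

`x = j`, or `x = h₂` (`j x² = (x+256)³`), or `x = h₃` (`j x³ = (x+27)(x+243)³`).
-/

open UpperHalfPlane hiding I
open Filter Topology ModularForm AlgebraicCurve IntermediateField CongruenceSubgroup
open scoped MatrixGroups Manifold

namespace Fermat.Agent.S18Lib

open Fermat.Agent.S20Lib Fermat.Agent.S24Lib

section Abs

variable {K F : Type} [Field K] [IsAlgClosed K] [CharZero K] [Field F] [Algebra K F]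

/-- every zero of `s` is induced by one of the embeddings, hence its multiplicity divides `e₀`. -/
theorem ram_abs (hFF : IsFF K F) {s : F} (hs : Transcendental K s)
    {X : Type} [Fintype X]
    (hX : Fintype.card X = Module.finrank K⟮s⟯ F) (e₀ : ℕ) (he₀ : 0 < e₀)
    (ι : X → F →+* LaurentSeries ℂ) (hinj : Function.Injective ι)
    (hbase : ∀ (x y : X) (a : K), ι x (algebraMap K F a) = ι y (algebraMap K F a))
    (hbase' : ∀ x y : X, ι x s = ι y s)
    (hord : ∀ x, (ι x s).order = e₀)
    (v₀ : Place K F) (hv₀ : 0 < v₀.ord s) : v₀.ord s ∣ (e₀ : ℤ) := by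
  classical
  have := finiteDimensional_adjoin hFF hs
  have hXpos : 0 < Fintype.card X := by rw [hX]; exact Module.finrank_pos
  obtain ⟨x₀⟩ : Nonempty X := Fintype.card_pos_iff.mp hXpos
  have he₀' : (0 : ℤ) < e₀ := by exact_mod_cast he₀
  have hs0 : s ≠ 0 := by
    rintro rfl
    have := hord x₀
    rw [map_zero, HahnSeries.order_zero] at this
    omega
  have hpl : ∀ x, ∃ (v : Place K F) (m : ℕ), 0 < m ∧
      ∀ f : F, f ≠ 0 → (ι x f).order = m * v.ord f :=
    fun x => exists_place_of_ringHom' (ι x) (s := s) (by rw [hord]; exact he₀')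
  choose V m hm hV using hpl
  have hm' : ∀ x, (0 : ℤ) < m x := fun x => by exact_mod_cast hm x
  have hes : ∀ x, (e₀ : ℤ) = m x * (V x).ord s := fun x => by rw [← hV x s hs0, hord]
  have hVpos : ∀ x, 0 < (V x).ord s := by
    intro x
    have h1 := hes x
    rw [h1] at he₀'
    exact (pos_iff_pos_of_mul_pos he₀').mp (hm' x)
  by_cases hex : ∃ x, V x = v₀
  · obtain ⟨x, rfl⟩ := hex
    exact ⟨m x, by rw [hes x]; ring⟩
  · exfalso
    have hne : ∀ x, V x ≠ v₀ := fun x hx => hex ⟨x, hx⟩
    obtain ⟨g, hg0, hgi, hgv, hg⟩ := exists_isIntegral_ord hFF hs v₀ hv₀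
    obtain ⟨P, hP⟩ := norm_eq_aeval_of_isIntegral hFF hs hgi v₀ hv₀ hgv
    have h1 := map_norm_eq_prod hX ι hinj hbase hbase' x₀ g
    have hN0 : ((Algebra.norm K⟮s⟯ g : K⟮s⟯) : F) ≠ 0 := by
      intro h
      have h' : (Algebra.norm K⟮s⟯ g : K⟮s⟯) = 0 := by exact_mod_cast h
      exact hg0 (Algebra.norm_eq_zero_iff.mp h')
    have hP0 : Polynomial.aeval s P ≠ 0 := by
      intro h
      rw [hP, h, mul_zero] at hN0
      exact hN0 rfl
    have h2 : (∏ x, ι x g).order = 0 := by
      rw [order_prod _ _ fun x _ => (map_ne_zero (ι x)).mpr hg0]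
      refine Finset.sum_eq_zero fun x _ => ?_
      rw [hV x g hg0, hg (V x) (hVpos x) (hne x), mul_zero]
    rw [← h1, hP, map_mul, HahnSeries.order_mul ((map_ne_zero _).mpr hs0)
      ((map_ne_zero _).mpr hP0), hord, hV x₀ _ hP0] at h2
    have h3 : 0 ≤ (m x₀ : ℤ) * (V x₀).ord (Polynomial.aeval s P) :=
      mul_nonneg (hm' _).le (aeval_ord_nonneg _ (hVpos x₀).le P)
    omega

end Abs

/-- the general statement for a good chart. -/
theorem ram_chart (N : ℕ) [NeZero N] {l : Filter ℍ} {π : ℍ → ℂ} (hG : GoodChart N l π)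
    (e : ℕ) (he : 0 < e)
    (s : FN N) (hs : Transcendental Kb s) (hadj : Kb⟮s⟯ = Kb⟮jj N⟯) (sf : ℍ → ℂ)
    (hexp : ∀ ι : FN N →+* LaurentSeries ℂ,
      (∀ a, ι (algebraMap Kb (FN N) a) = HahnSeries.C (phiK a)) →
        HasExp l π jF (ι (jj N)) → HasExp l π sf (ι s))
    (hlead : ∃ c : ℂ, c ≠ 0 ∧ Lead l π sf e c)
    (v : Place Kb (FN N)) (hv : 0 < v.ord s) : v.ord s ∣ (e : ℤ) := by
  obtain ⟨ι, hinj, hι⟩ := exists_embeddings N hG
  have hc := hG.chart
  have : l.NeBot := hc.neBot
  have hconst : ∀ x a, ι x (algebraMap Kb (FN N) a) = HahnSeries.C (phiK a) := by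
    intro x a
    have h1 := hι x (MvPolynomial.C a)
    have h2 : evq N (MvPolynomial.C a) = algebraMap Kb (FN N) a := by
      simp [evq]
    rw [h2] at h1
    refine HasExp.unique hc h1 ((HasExp.const l π (phiK a)).congr ?_)
    exact Eventually.of_forall fun τ => by
      show phiK a = vec N 0 (evan N (MvPolynomial.C a)) τ x
      rw [vec_zero_apply]; simp [evan]
  have hjj : ∀ x, HasExp l π jF (ι x (jj N)) := by
    intro x
    have h1 := hι x (MvPolynomial.X ⟨1, by simp [NeZero.ne N]⟩)
    have h2 : evq N (MvPolynomial.X ⟨1, by simp [NeZero.ne N]⟩) = jj N := by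
      simp [evq, gen, jj]
    rw [h2] at h1
    refine h1.congr (Eventually.of_forall fun τ => ?_)
    show vec N 0 (evan N (MvPolynomial.X ⟨1, by simp [NeZero.ne N]⟩)) τ x = jF τ
    rw [vec_zero_apply]
    have h3 : evan N (MvPolynomial.X ⟨1, by simp [NeZero.ne N]⟩) = jD 1 := by simp [evan]
    rw [h3, cn_jD_one, jF_inv]
  have hsx : ∀ x, HasExp l π sf (ι x s) := fun x => hexp _ (hconst x) (hjj x)
  obtain ⟨c, hc0, hlead⟩ := hlead
  refine ram_abs (isFF N) hs ?_ e he ι hinj ?_ ?_ ?_ v hv
  · rw [hadj, finrank_jj, Nat.card_eq_fintype_card]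
  · intro x y a
    rw [hconst, hconst]
  · intro x y
    exact (hsx x).unique hc (hsx y)
  · intro x
    exact ((hsx x).order_eq_of_lead hc hlead hc0).2

/-- pointwise ramification over the `j`-line at a finite point. -/
theorem ram_ord_dvd (N : ℕ) [NeZero N] {τ0 : ℍ} {σ : SL(2, ℤ)} {e : ℕ} {ε : ℂ}
    (hE : EllData τ0 σ e ε) (c : Kb) (hc : phiK c = jF τ0) (v : Place Kb (FN N))
    (hv : 0 < v.ord (jj N - algebraMap Kb (FN N) c)) :
    v.ord (jj N - algebraMap Kb (FN N) c) ∣ (e : ℤ) := by
  have he : 0 < e := Nat.pos_of_dvd_of_pos hE.dvd (by norm_num)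
  refine ram_chart N (goodChart_at N τ0) e he _
    (cn_transcendental_sub_const (transcendental_jj N) c) (cn_adjoin_sub_const _ _)
    (fun τ => jF τ - jF τ0) ?_ hE.jord v hv
  intro ι hι hj
  rw [map_sub, hι, hc]
  exact hj.sub (HasExp.const _ _ _)

theorem ram_j_zero (N : ℕ) [NeZero N] (v : Place Kb (FN N)) (hv : 0 < v.ord (jj N)) :
    v.ord (jj N) ∣ 3 := by
  obtain ⟨ε, hε⟩ := ellData_rho
  have h := ram_ord_dvd N hε 0 (by rw [map_zero, jF_rho]) v (by rwa [map_zero, sub_zero])
  rw [map_zero, sub_zero] at h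
  exact_mod_cast h

theorem ram_j_1728 (N : ℕ) [NeZero N] (v : Place Kb (FN N))
    (hv : 0 < v.ord (jj N - algebraMap Kb (FN N) 1728)) :
    v.ord (jj N - algebraMap Kb (FN N) 1728) ∣ 2 := by
  have h := ram_ord_dvd N ellData_I 1728 (by rw [map_ofNat, jF_I]) v hv
  exact_mod_cast h

theorem ram_j (N : ℕ) [NeZero N] (c : Kb) (h0 : c ≠ 0) (h1 : c ≠ 1728) (v : Place Kb (FN N))
    (hv : 0 < v.ord (jj N - algebraMap Kb (FN N) c)) :
    v.ord (jj N - algebraMap Kb (FN N) c) = 1 :=
  ord_eq_one_of_card (isFF N) (cn_transcendental_sub_const (transcendental_jj N) c)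
    (by rw [card_zeros_generic N c h0 h1, cn_adjoin_sub_const]) v hv

section Val

set_option linter.unusedSectionVars false

variable {K F : Type} [Field K] [IsAlgClosed K] [CharZero K] [Field F] [Algebra K F]

/-- if `x ≡ c` at `v` and `a ≠ c` then `x - a` is a unit at `v`. -/
theorem ram_sub_unit (v : Place K F) {x : F} {c a : K} (hca : a ≠ c)
    (hv : 0 < v.ord (x - algebraMap K F c)) :
    x - algebraMap K F a ≠ 0 ∧ v.ord (x - algebraMap K F a) = 0 := by
  have e : x - algebraMap K F a = (x - algebraMap K F c) + algebraMap K F (c - a) := by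
    rw [map_sub]; ring
  have h0 : x - algebraMap K F a ≠ 0 := by
    intro h
    have h2 : x - algebraMap K F c = algebraMap K F (a - c) := by
      rw [map_sub]
      linear_combination h
    rw [h2, ord_algebraMap] at hv
    exact lt_irrefl _ hv
  refine ⟨h0, le_antisymm ?_ ?_⟩
  · by_contra hcon
    push Not at hcon
    exact not_zero_zero x hca v hcon hv
  · have h1 := le_ord_add v (f := x - algebraMap K F c) (g := algebraMap K F (c - a))
      (by rw [← e]; exact h0)
    rw [← e, ord_algebraMap] at h1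
    exact (le_min hv.le le_rfl).trans h1

theorem ram_ord_nonneg (v : Place K F) {x : F} {c : K}
    (hv : 0 < v.ord (x - algebraMap K F c)) : 0 ≤ v.ord x := by
  rcases eq_or_ne x 0 with rfl | hx
  · simp
  have e : x = (x - algebraMap K F c) + algebraMap K F c := by ring
  have h1 := le_ord_add v (f := x - algebraMap K F c) (g := algebraMap K F c)
    (by rw [← e]; exact hx)
  rw [← e, ord_algebraMap] at h1
  exact (le_min hv.le le_rfl).trans h1

/-- adding a constant does not change the order of a pole. -/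
theorem ram_ord_pole (v : Place K F) {x : F} (a : K) (hv : v.ord x < 0) :
    x + algebraMap K F a ≠ 0 ∧ v.ord (x + algebraMap K F a) = v.ord x := by
  have h0 : x + algebraMap K F a ≠ 0 := by
    intro h
    have h2 : x = algebraMap K F (-a) := by
      rw [map_neg]
      linear_combination h
    rw [h2, ord_algebraMap] at hv
    exact lt_irrefl _ hv
  have hx0 : x ≠ 0 := by
    rintro rfl
    simp at hv
  refine ⟨h0, le_antisymm ?_ ?_⟩
  · have e : x = (x + algebraMap K F a) - algebraMap K F a := by ring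
    have h1 := le_ord_sub v (f := x + algebraMap K F a) (g := algebraMap K F a)
      (by rw [← e]; exact hx0)
    rw [← e, ord_algebraMap] at h1
    by_contra hcon
    push Not at hcon
    have := lt_min hcon hv
    omega
  · have h1 := le_ord_add v (f := x) (g := algebraMap K F a) h0
    rw [ord_algebraMap] at h1
    rw [min_eq_left hv.le] at h1
    exact h1

open Polynomial in
theorem ram_aeval_unit (v : Place K F) {x : F} {c : K}
    (hv : 0 < v.ord (x - algebraMap K F c)) (D : K[X]) (hD : D.eval c ≠ 0) :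
    aeval x D ≠ 0 ∧ v.ord (aeval x D) = 0 := by
  have hroot : (D - C (D.eval c)).IsRoot c := by simp [IsRoot]
  obtain ⟨Q, hQ⟩ := dvd_iff_isRoot.2 hroot
  have hx := ram_ord_nonneg v hv
  have e : aeval x D = (x - algebraMap K F c) * aeval x Q + algebraMap K F (D.eval c) := by
    have h1 := congrArg (aeval x) hQ
    simp only [map_sub, map_mul, aeval_X, aeval_C] at h1
    rw [← h1]; ring
  have hc0 : algebraMap K F (D.eval c) ≠ 0 := by
    rw [Ne, map_eq_zero]; exact hD
  set t := (x - algebraMap K F c) * aeval x Q with ht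
  rcases eq_or_ne t 0 with h0 | h0
  · rw [e, h0, zero_add]
    exact ⟨hc0, ord_algebraMap v _⟩
  · have hpos : 0 < v.ord t := by
      rw [ht, v.ord_mul (left_ne_zero_of_mul h0) (right_ne_zero_of_mul h0)]
      have := aeval_ord_nonneg v hx Q
      omega
    have hne : aeval x D ≠ 0 := by
      intro h
      have h2 : t = algebraMap K F (-(D.eval c)) := by
        rw [map_neg]
        linear_combination h.symm.trans e |>.symm
      rw [h2, ord_algebraMap] at hpos
      exact lt_irrefl _ hpos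
    refine ⟨hne, le_antisymm ?_ ?_⟩
    · have e2 : algebraMap K F (D.eval c) = aeval x D - t := by rw [e]; ring
      have h1 := le_ord_sub v (f := aeval x D) (g := t) (by rw [← e2]; exact hc0)
      rw [← e2, ord_algebraMap] at h1
      by_contra hcon
      push Not at hcon
      have := lt_min hcon hpos
      omega
    · exact aeval_ord_nonneg v hx D

open Polynomial in
/-- `ord_v (x - c) ≤ ord_v (j - R(c))` when `j = R(x)`, `R = Num / Den`, `Den(c) ≠ 0`. -/
theorem ram_le_of_rel (v : Place K F) {x j : F} {c cj : K} (Num Den : K[X])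
    (hrel : j * aeval x Den = aeval x Num) (hDc : Den.eval c ≠ 0)
    (hcj : cj * Den.eval c = Num.eval c)
    (hv : 0 < v.ord (x - algebraMap K F c)) (hj : j - algebraMap K F cj ≠ 0) :
    v.ord (x - algebraMap K F c) ≤ v.ord (j - algebraMap K F cj) := by
  have hroot : (Num - C cj * Den).IsRoot c := by
    simp [IsRoot, hcj]
  obtain ⟨Q, hQ⟩ := dvd_iff_isRoot.2 hroot
  obtain ⟨hD0, hD1⟩ := ram_aeval_unit v hv Den hDc
  have hx := ram_ord_nonneg v hv
  have e : (j - algebraMap K F cj) * aeval x Den = (x - algebraMap K F c) * aeval x Q := by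
    have h1 := congrArg (aeval x) hQ
    simp only [map_sub, map_mul, aeval_X, aeval_C] at h1
    rw [← h1, ← hrel]; ring
  have hne : (x - algebraMap K F c) * aeval x Q ≠ 0 := by
    rw [← e]; exact mul_ne_zero hj hD0
  have h2 := congrArg v.ord e
  rw [v.ord_mul hj hD0, hD1, v.ord_mul (left_ne_zero_of_mul hne) (right_ne_zero_of_mul hne)] at h2
  have := aeval_ord_nonneg v hx Q
  omega

theorem ram_int_aux {n : ℤ} {k : ℤ} (hk : 0 < k) (hn : 0 < n) (h : k * n ∣ k) : n = 1 := by
  have h1 : k * n ∣ k * 1 := by rwa [mul_one]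
  have h2 : n ∣ 1 := (mul_dvd_mul_iff_left hk.ne').mp h1
  exact Int.eq_one_of_dvd_one hn.le h2


open Polynomial in
theorem ram_le_h2 (v : Place K F) {x j : F} {c : K} (hx : j * x ^ 2 = (x + 256) ^ 3)
    (h0 : c ≠ 0) (hv : 0 < v.ord (x - algebraMap K F c))
    (hj : j - algebraMap K F ((c + 256) ^ 3 / c ^ 2) ≠ 0) :
    v.ord (x - algebraMap K F c) ≤ v.ord (j - algebraMap K F ((c + 256) ^ 3 / c ^ 2)) :=
  ram_le_of_rel v ((X + C 256) ^ 3) (X ^ 2)
    (by simp only [map_pow, map_add, aeval_X, map_ofNat]; exact hx)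
    (by simpa using h0)
    (by simp only [eval_pow, eval_X, eval_add, eval_C]; field_simp)
    hv hj

open Polynomial in
theorem ram_le_h3 (v : Place K F) {x j : F} {c : K}
    (hx : j * x ^ 3 = (x + 27) * (x + 243) ^ 3)
    (h0 : c ≠ 0) (hv : 0 < v.ord (x - algebraMap K F c))
    (hj : j - algebraMap K F ((c + 27) * (c + 243) ^ 3 / c ^ 3) ≠ 0) :
    v.ord (x - algebraMap K F c) ≤
      v.ord (j - algebraMap K F ((c + 27) * (c + 243) ^ 3 / c ^ 3)) :=
  ram_le_of_rel v ((X + C 27) * (X + C 243) ^ 3) (X ^ 3)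
    (by simp only [map_pow, map_add, map_mul, aeval_X, map_ofNat]; exact hx)
    (by simpa using h0)
    (by simp only [eval_pow, eval_X, eval_add, eval_C, eval_mul]; field_simp)
    hv hj

end Val

section Haupt

variable (M : ℕ) [NeZero M]

theorem ram_jj_sub_ne_zero (c : Kb) : jj M - algebraMap Kb (FN M) c ≠ 0 := by
  intro h
  exact cn_transcendental_sub_const (transcendental_jj M) c (by rw [h]; exact isAlgebraic_zero)

theorem ram_jj_ne_zero : jj M ≠ 0 := by
  have := ram_jj_sub_ne_zero M 0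
  rwa [map_zero, sub_zero] at this

open Polynomial in
theorem ram_h2 (x : FN M) (hx : jj M * x ^ 2 = (x + 256) ^ 3)
    (c : Kb) (h0 : c ≠ 0) (h1 : c ≠ -64) (v : Place Kb (FN M))
    (hv : 0 < v.ord (x - algebraMap Kb (FN M) c)) :
    v.ord (x - algebraMap Kb (FN M) c) = 1 := by
  obtain ⟨hx0, hxo⟩ := ram_sub_unit v (a := 0) (Ne.symm h0) hv
  rw [map_zero, sub_zero] at hx0 hxo
  by_cases hc1 : c = -256
  · subst hc1
    have e : x - algebraMap Kb (FN M) (-256) = x + 256 := by
      rw [map_neg, map_ofNat]; ring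
    rw [e] at hv ⊢
    have hne : x + 256 ≠ 0 := by
      intro h; rw [h] at hv; simp at hv
    have h2 := congrArg v.ord hx
    rw [v.ord_mul (ram_jj_ne_zero M) (pow_ne_zero 2 hx0), ord_pow, ord_pow, hxo] at h2
    have h3 : v.ord (jj M) = 3 * v.ord (x + 256) := by push_cast at h2; linarith
    have h4 := ram_j_zero M v (by rw [h3]; omega)
    rw [h3] at h4
    exact ram_int_aux (by norm_num) hv h4
  by_cases hc2 : c = 512
  · subst hc2
    have e : x - algebraMap Kb (FN M) 512 = x - 512 := by rw [map_ofNat]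
    obtain ⟨ha0, hao⟩ := ram_sub_unit v (a := -64) (by norm_num) hv
    have e64 : x - algebraMap Kb (FN M) (-64) = x + 64 := by
      rw [map_neg, map_ofNat]; ring
    rw [e64] at ha0 hao
    rw [e] at hv ⊢
    have hne : x - 512 ≠ 0 := by
      intro h; rw [h] at hv; simp at hv
    have hrel : (jj M - algebraMap Kb (FN M) 1728) * x ^ 2 = (x + 64) * (x - 512) ^ 2 := by
      rw [map_ofNat]
      linear_combination hx
    have h2 := congrArg v.ord hrel
    rw [v.ord_mul (ram_jj_sub_ne_zero M 1728) (pow_ne_zero 2 hx0), ord_pow, hxo,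
      v.ord_mul ha0 (pow_ne_zero 2 hne), ord_pow, hao] at h2
    have h3 : v.ord (jj M - algebraMap Kb (FN M) 1728) = 2 * v.ord (x - 512) := by
      push_cast at h2; linarith
    have h4 := ram_j_1728 M v (by rw [h3]; omega)
    rw [h3] at h4
    exact ram_int_aux (by norm_num) hv h4
  -- generic case
  set cj : Kb := (c + 256) ^ 3 / c ^ 2 with hcj
  have hcj0 : cj ≠ 0 := by
    rw [hcj]
    refine div_ne_zero (pow_ne_zero 3 ?_) (pow_ne_zero 2 h0)
    intro h
    exact hc1 (by linear_combination h)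
  have hcj1 : cj ≠ 1728 := by
    intro h
    rw [hcj, div_eq_iff (pow_ne_zero 2 h0)] at h
    have h2 : (c + 64) * (c - 512) ^ 2 = 0 := by linear_combination h
    rcases mul_eq_zero.mp h2 with h3 | h3
    · exact h1 (by linear_combination h3)
    · exact hc2 (by linear_combination pow_eq_zero_iff (two_ne_zero) |>.mp h3)
  have hle : v.ord (x - algebraMap Kb (FN M) c) ≤ v.ord (jj M - algebraMap Kb (FN M) cj) :=
    ram_le_h2 v hx h0 hv (ram_jj_sub_ne_zero M cj)
  have h5 := ram_j M cj hcj0 hcj1 v (lt_of_lt_of_le hv hle)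
  omega

open Polynomial in
theorem ram_h3 (x : FN M) (hx : jj M * x ^ 3 = (x + 27) * (x + 243) ^ 3)
    (c : Kb) (h0 : c ≠ 0) (h1 : c ≠ -27) (v : Place Kb (FN M))
    (hv : 0 < v.ord (x - algebraMap Kb (FN M) c)) :
    v.ord (x - algebraMap Kb (FN M) c) = 1 := by
  obtain ⟨hx0, hxo⟩ := ram_sub_unit v (a := 0) (Ne.symm h0) hv
  rw [map_zero, sub_zero] at hx0 hxo
  obtain ⟨ha0, hao⟩ := ram_sub_unit v (a := -27) (Ne.symm h1) hv
  have e27 : x - algebraMap Kb (FN M) (-27) = x + 27 := by
    rw [map_neg, map_ofNat]; ring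
  rw [e27] at ha0 hao
  by_cases hc1 : c = -243
  · subst hc1
    have e : x - algebraMap Kb (FN M) (-243) = x + 243 := by
      rw [map_neg, map_ofNat]; ring
    rw [e] at hv ⊢
    have hne : x + 243 ≠ 0 := by
      intro h; rw [h] at hv; simp at hv
    have h2 := congrArg v.ord hx
    rw [v.ord_mul (ram_jj_ne_zero M) (pow_ne_zero 3 hx0), ord_pow, hxo,
      v.ord_mul ha0 (pow_ne_zero 3 hne), ord_pow, hao] at h2
    have h3 : v.ord (jj M) = 3 * v.ord (x + 243) := by push_cast at h2; linarith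
    have h4 := ram_j_zero M v (by rw [h3]; omega)
    rw [h3] at h4
    exact ram_int_aux (by norm_num) hv h4
  by_cases hc2 : c ^ 2 - 486 * c - 19683 = 0
  · have hcc : (486 - c) ≠ c := by
      intro h
      have h2 : c = 243 := by linear_combination (-1 / 2 : Kb) * h
      rw [h2] at hc2
      norm_num at hc2
    obtain ⟨hb0, hbo⟩ := ram_sub_unit v (a := 486 - c) hcc hv
    have hne : x - algebraMap Kb (FN M) c ≠ 0 := by
      intro h; rw [h] at hv; simp at hv
    have hrel : (jj M - algebraMap Kb (FN M) 1728) * x ^ 3 =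
        ((x - algebraMap Kb (FN M) c) * (x - algebraMap Kb (FN M) (486 - c))) ^ 2 := by
      have h3 : (x - algebraMap Kb (FN M) c) * (x - algebraMap Kb (FN M) (486 - c))
          = x ^ 2 - 486 * x - 19683 := by
        have h4 := congrArg (algebraMap Kb (FN M)) hc2
        simp only [map_sub, map_mul, map_pow, map_ofNat, map_zero] at h4
        rw [map_sub, map_ofNat]
        linear_combination -h4
      rw [h3, map_ofNat]
      linear_combination hx
    have h2 := congrArg v.ord hrel
    rw [v.ord_mul (ram_jj_sub_ne_zero M 1728) (pow_ne_zero 3 hx0), ord_pow, hxo, ord_pow,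
      v.ord_mul hne hb0, hbo] at h2
    have h3 : v.ord (jj M - algebraMap Kb (FN M) 1728)
        = 2 * v.ord (x - algebraMap Kb (FN M) c) := by
      push_cast at h2; linarith
    have h4 := ram_j_1728 M v (by rw [h3]; omega)
    rw [h3] at h4
    exact ram_int_aux (by norm_num) hv h4
  -- generic case
  set cj : Kb := (c + 27) * (c + 243) ^ 3 / c ^ 3 with hcj
  have hcj0 : cj ≠ 0 := by
    rw [hcj]
    refine div_ne_zero (mul_ne_zero ?_ (pow_ne_zero 3 ?_)) (pow_ne_zero 3 h0)
    · intro h
      exact h1 (by linear_combination h)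
    · intro h
      exact hc1 (by linear_combination h)
  have hcj1 : cj ≠ 1728 := by
    intro h
    rw [hcj, div_eq_iff (pow_ne_zero 3 h0)] at h
    have h2 : (c ^ 2 - 486 * c - 19683) ^ 2 = 0 := by linear_combination h
    exact hc2 (pow_eq_zero_iff (two_ne_zero) |>.mp h2)
  have hle : v.ord (x - algebraMap Kb (FN M) c) ≤ v.ord (jj M - algebraMap Kb (FN M) cj) :=
    ram_le_h3 v hx h0 hv (ram_jj_sub_ne_zero M cj)
  have h5 := ram_j M cj hcj0 hcj1 v (lt_of_lt_of_le hv hle)
  omega

/-- places over the branch values of `h₂` lie over `j ∈ {1728, ∞}`. -/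
theorem ram_br_h2 (x : FN M) (hx : jj M * x ^ 2 = (x + 256) ^ 3)
    (v : Place Kb (FN M))
    (hv : v.ord x < 0 ∨ 0 < v.ord x ∨ 0 < v.ord (x - algebraMap Kb (FN M) (-64))) :
    v.ord (jj M) < 0 ∨ 0 < v.ord (jj M - algebraMap Kb (FN M) 1728) := by
  have hx0 : x ≠ 0 := by
    rintro rfl
    norm_num at hx
  rcases hv with hv | hv | hv
  · left
    obtain ⟨ha0, hao⟩ := ram_ord_pole v (256 : Kb) hv
    rw [map_ofNat] at ha0 hao
    have h2 := congrArg v.ord hx
    rw [v.ord_mul (ram_jj_ne_zero M) (pow_ne_zero 2 hx0), ord_pow, ord_pow, hao] at h2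
    push_cast at h2
    linarith
  · left
    obtain ⟨ha0, hao⟩ := ram_sub_unit v (x := x) (c := 0) (a := -256) (by norm_num)
      (by rwa [map_zero, sub_zero])
    have e : x - algebraMap Kb (FN M) (-256) = x + 256 := by
      rw [map_neg, map_ofNat]; ring
    rw [e] at ha0 hao
    have h2 := congrArg v.ord hx
    rw [v.ord_mul (ram_jj_ne_zero M) (pow_ne_zero 2 hx0), ord_pow, ord_pow, hao] at h2
    push_cast at h2
    linarith
  · right
    obtain ⟨_, hxo⟩ := ram_sub_unit v (a := 0) (by norm_num) hv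
    rw [map_zero, sub_zero] at hxo
    obtain ⟨hb0, hbo⟩ := ram_sub_unit v (a := 512) (by norm_num) hv
    rw [map_ofNat] at hb0 hbo
    have e64 : x - algebraMap Kb (FN M) (-64) = x + 64 := by
      rw [map_neg, map_ofNat]; ring
    rw [e64] at hv
    have hne : x + 64 ≠ 0 := by
      intro h; rw [h] at hv; simp at hv
    have hrel : (jj M - algebraMap Kb (FN M) 1728) * x ^ 2 = (x + 64) * (x - 512) ^ 2 := by
      rw [map_ofNat]
      linear_combination hx
    have h2 := congrArg v.ord hrel
    rw [v.ord_mul (ram_jj_sub_ne_zero M 1728) (pow_ne_zero 2 hx0), ord_pow, hxo,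
      v.ord_mul hne (pow_ne_zero 2 hb0), ord_pow, hbo] at h2
    push_cast at h2
    linarith

/-- places over the branch values of `h₃` lie over `j ∈ {0, ∞}`. -/
theorem ram_br_h3 (x : FN M) (hx : jj M * x ^ 3 = (x + 27) * (x + 243) ^ 3)
    (v : Place Kb (FN M))
    (hv : v.ord x < 0 ∨ 0 < v.ord x ∨ 0 < v.ord (x - algebraMap Kb (FN M) (-27))) :
    v.ord (jj M) < 0 ∨ 0 < v.ord (jj M) := by
  have hx0 : x ≠ 0 := by
    rintro rfl
    norm_num at hx
  rcases hv with hv | hv | hv
  · left
    obtain ⟨ha0, hao⟩ := ram_ord_pole v (27 : Kb) hv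
    obtain ⟨hb0, hbo⟩ := ram_ord_pole v (243 : Kb) hv
    rw [map_ofNat] at ha0 hao hb0 hbo
    have h2 := congrArg v.ord hx
    rw [v.ord_mul (ram_jj_ne_zero M) (pow_ne_zero 3 hx0), ord_pow,
      v.ord_mul ha0 (pow_ne_zero 3 hb0), ord_pow, hao, hbo] at h2
    push_cast at h2
    linarith
  · left
    obtain ⟨ha0, hao⟩ := ram_sub_unit v (x := x) (c := 0) (a := -27) (by norm_num)
      (by rwa [map_zero, sub_zero])
    obtain ⟨hb0, hbo⟩ := ram_sub_unit v (x := x) (c := 0) (a := -243) (by norm_num)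
      (by rwa [map_zero, sub_zero])
    have e : x - algebraMap Kb (FN M) (-27) = x + 27 := by
      rw [map_neg, map_ofNat]; ring
    have e' : x - algebraMap Kb (FN M) (-243) = x + 243 := by
      rw [map_neg, map_ofNat]; ring
    rw [e] at ha0 hao
    rw [e'] at hb0 hbo
    have h2 := congrArg v.ord hx
    rw [v.ord_mul (ram_jj_ne_zero M) (pow_ne_zero 3 hx0), ord_pow,
      v.ord_mul ha0 (pow_ne_zero 3 hb0), ord_pow, hao, hbo] at h2
    push_cast at h2
    linarith
  · right
    obtain ⟨_, hxo⟩ := ram_sub_unit v (a := 0) (by norm_num) hv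
    rw [map_zero, sub_zero] at hxo
    obtain ⟨hb0, hbo⟩ := ram_sub_unit v (a := -243) (by norm_num) hv
    have e : x - algebraMap Kb (FN M) (-27) = x + 27 := by
      rw [map_neg, map_ofNat]; ring
    have e' : x - algebraMap Kb (FN M) (-243) = x + 243 := by
      rw [map_neg, map_ofNat]; ring
    rw [e] at hv
    rw [e'] at hb0 hbo
    have hne : x + 27 ≠ 0 := by
      intro h; rw [h] at hv; simp at hv
    have h2 := congrArg v.ord hx
    rw [v.ord_mul (ram_jj_ne_zero M) (pow_ne_zero 3 hx0), ord_pow, hxo,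
      v.ord_mul hne (pow_ne_zero 3 hb0), ord_pow, hbo] at h2
    push_cast at h2
    linarith

end Haupt

end Fermat.Agent.S18Lib
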