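import Fermat.Agent.S18.Descent
import Fermat.Agent.S18.DescInst
import Fermat.Agent.S18.ChartDefs
import Fermat.Agent.S18.Ram

set_option autoImplicit false

namespace Fermat.Agent.S18Lib

open ModularCurve AlgebraicCurve IntermediateField IsLocalRing Polynomial
open Fermat.Agent.S24Lib (Kb FN IsFF)

/-! ### (HV) -/

theorem desc_HVal (M : ℕ) [NeZero M] (m : ℕ) (f : FN M) (hf : f ≠ 0)
    (hm : ∀ P : Place Kb (FN M), (m : ℤ) ∣ P.ord f) (T : Finset (FN M)) (C : Finset Kb) :
    ∃ K0 : IntermediateField ℚ Kb, FiniteDimensional ℚ K0 ∧ (∀ c ∈ C, c ∈ K0) ∧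
      (∀ t ∈ T, ∃ t0 : modularFunctionFieldFullC K0 M, descBar K0 M t0 = t) ∧
      ∃ f0 : modularFunctionFieldFullC K0 M, descBar K0 M f0 = f ∧ HVal K0 m f0 := by
  classical
  obtain ⟨D, hD, -⟩ := Fermat.Agent.S24Lib.exists_principal_divisor (Fermat.Agent.S24Lib.isFF M) hf
  have hunif : ∀ P : Place Kb (FN M), ∃ t : FN M, P.ord t = 1 := by
    intro P
    obtain ⟨π, hπ⟩ := IsDiscreteValuationRing.exists_irreducible P.toValuationSubring
    exact ⟨π, P.ord_coe_irreducible hπ⟩
  choose unif hunif using hunif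
  obtain ⟨K0, hfin, hC, hT⟩ := desc_exists_K0 M (insert f (T ∪ D.support.image unif)) C
  refine ⟨K0, hfin, hC, fun t ht => hT t (by simp [ht]), ?_⟩
  obtain ⟨f0, hf0⟩ := hT f (by simp)
  refine ⟨f0, hf0, ?_⟩
  have hf00 : f0 ≠ 0 := by
    rintro rfl
    exact hf (by rw [← hf0, map_zero])
  intro V hK hV
  obtain ⟨P, hP⟩ := desc_exists_place M K0 V hK hV
  by_cases h0 : P.ord f = 0
  · refine ⟨1, 0, one_ne_zero, ?_, ?_⟩
    · rw [hP]
      simp only [mul_zero, zpow_zero, div_one, hf0]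
      exact Fermat.Agent.S24Lib.mem_toValuationSubring_of_ord_nonneg P h0.ge
    · rw [hP]
      simp only [mul_zero, zpow_zero, div_one, map_inv₀, hf0]
      apply Fermat.Agent.S24Lib.mem_toValuationSubring_of_ord_nonneg P
      rw [P.ord_inv, h0]
      simp
  · have hPD : P ∈ D.support := by
      rw [Finsupp.mem_support_iff, hD]
      exact h0
    obtain ⟨g, hg⟩ := hT (unif P) (by
      rw [Finset.mem_insert, Finset.mem_union]
      exact Or.inr (Or.inr (Finset.mem_image_of_mem _ hPD)))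
    obtain ⟨k, hk⟩ := hm P
    have hg1 : P.ord (descBar K0 M g) = 1 := by rw [hg]; exact hunif P
    have hg0 : g ≠ 0 := by
      rintro rfl
      simp at hg1
    obtain ⟨u, hu, hu', hfu⟩ := desc_unit_mul_zpow M K0 V P hP g hg1 f0 hf00
    rw [hf0, hk] at hfu
    have hz : g ^ ((m : ℤ) * k) ≠ 0 := zpow_ne_zero _ hg0
    have : f0 / g ^ ((m : ℤ) * k) = u := by
      rw [hfu]
      field_simp
    refine ⟨g, k, hg0, ?_, ?_⟩
    · rw [this]; exact hu
    · rw [this]; exact hu'

/-! ### (HU) -/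

theorem descBar_aeval (K0 : IntermediateField ℚ Kb) (M : ℕ) (t : modularFunctionFieldFullC K0 M)
    (g : K0[X]) :
    descBar K0 M (aeval t g) = aeval (descBar K0 M t) (g.map (algebraMap K0 Kb)) := by
  rw [aeval_def, aeval_def, eval₂_map, hom_eval₂]
  congr 1
  exact RingHom.ext fun a => descBar_algebraMap K0 M a

theorem descBar_ne_algebraMap (K0 : IntermediateField ℚ Kb) (M : ℕ)
    (t : modularFunctionFieldFullC K0 M) (ht : Transcendental K0 t) (c : Kb) :
    descBar K0 M t ≠ algebraMap Kb (FN M) c := by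
  intro h
  apply ht
  have hc : IsIntegral K0 c := (desc_isIntegral c).tower_top
  refine ⟨minpoly K0 c, minpoly.ne_zero hc, ?_⟩
  apply (descBar K0 M).injective
  rw [descBar_aeval, h, map_zero, aeval_def, eval₂_hom, eval_map_algebraMap, minpoly.aeval,
    map_zero]

/-- at a place where `x - c` is a uniformizer, `g(x)` (`g` the minimal polynomial of `c` over
`K0`) is a uniformizer. -/
theorem desc_ord_minpoly (K0 : IntermediateField ℚ Kb) (M : ℕ) (P : Place Kb (FN M)) (x : FN M)
    (c : Kb) (hc : P.ord (x - algebraMap Kb (FN M) c) = 1) :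
    P.ord (aeval x ((minpoly K0 c).map (algebraMap K0 Kb))) = 1 := by
  have hci : IsIntegral K0 c := (desc_isIntegral c).tower_top
  set gL := (minpoly K0 c).map (algebraMap K0 Kb) with hgL
  have hsep : gL.Separable := ((minpoly.irreducible hci).separable).map
  have hroot : gL.IsRoot c := by
    rw [IsRoot, hgL, eval_map_algebraMap, minpoly.aeval]
  obtain ⟨Q, hQ⟩ := dvd_iff_isRoot.2 hroot
  have hQc : Q.eval c ≠ 0 := by
    have h1 := hsep.aeval_derivative_ne_zero (x := c) (by
      rw [coe_aeval_eq_eval]; exact hroot)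
    rw [coe_aeval_eq_eval, hQ, derivative_mul] at h1
    simpa using h1
  have hpos : 0 < P.ord (x - algebraMap Kb (FN M) c) := by rw [hc]; exact one_pos
  obtain ⟨h1, h2⟩ := ram_aeval_unit P hpos Q hQc
  have hx0 : x - algebraMap Kb (FN M) c ≠ 0 := by
    intro h
    rw [h] at hc
    simp at hc
  rw [hQ, map_mul, P.ord_mul (by simpa using hx0) h1, h2]
  simpa using hc

theorem desc_HUnram {A0 : Type} [CommRing A0] (M : ℕ) [NeZero M] (K0 : IntermediateField ℚ Kb)
    [Algebra A0 (modularFunctionFieldFullC K0 M)] (t : modularFunctionFieldFullC K0 M)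
    (ht : Transcendental K0 t) (Br : Finset A0)
    (hram : ∀ (c : Kb) (v : Place Kb (FN M)),
      0 < v.ord (descBar K0 M t - algebraMap Kb (FN M) c) →
      (∀ b ∈ Br, descBar K0 M (algebraMap A0 (modularFunctionFieldFullC K0 M) b) ≠
        algebraMap Kb (FN M) c) →
      v.ord (descBar K0 M t - algebraMap Kb (FN M) c) = 1) :
    HUnram K0 t Br := by
  intro V hK hV htV hBr
  obtain ⟨P, hP⟩ := desc_exists_place M K0 V hK hV
  set x := descBar K0 M t with hx
  have hx0 : 0 ≤ P.ord x := Fermat.Agent.S24Lib.ord_nonneg_of_mem P ((hP t).1 htV)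
  obtain ⟨c, hc⟩ := Fermat.Agent.S24Lib.exists_sub_algebraMap_ord_pos
    (Fermat.Agent.S24Lib.isFF M) P hx0
  have hc := hc.resolve_left (descBar_ne_algebraMap K0 M t ht c)
  have hc1 : P.ord (x - algebraMap Kb (FN M) c) = 1 := by
    apply hram c P hc
    intro b hb hbc
    have h1 := (hP _).1 (hBr b hb)
    rw [map_inv₀, map_sub, hbc, ← hx] at h1
    have h2 := Fermat.Agent.S24Lib.ord_nonneg_of_mem P h1
    rw [P.ord_inv] at h2
    omega
  have hg := desc_ord_minpoly K0 M P x c hc1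
  rw [hx, ← descBar_aeval] at hg
  set γ := aeval t (minpoly K0 c) with hγ
  have hγ0 : γ ≠ 0 := by
    intro h
    rw [h] at hg
    simp at hg
  refine ⟨minpoly K0 c, ?_, ?_, ?_⟩
  · rw [hP]
    apply Fermat.Agent.S24Lib.mem_toValuationSubring_of_ord_nonneg P
    rw [hg]
    exact zero_le_one
  · rw [hP, map_inv₀]
    intro h
    have h2 := Fermat.Agent.S24Lib.ord_nonneg_of_mem P h
    rw [P.ord_inv, hg] at h2
    omega
  · intro y hy hy'
    have hy0 : y ≠ 0 := by
      rintro rfl
      apply hy'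
      simp [zero_mem]
    have hιy : descBar K0 M y ≠ 0 := (_root_.map_ne_zero _).2 hy0
    have hιγ : descBar K0 M γ ≠ 0 := (_root_.map_ne_zero _).2 hγ0
    have h1 : 0 ≤ P.ord (descBar K0 M y) := Fermat.Agent.S24Lib.ord_nonneg_of_mem P ((hP y).1 hy)
    have h2 : ¬ 0 ≤ P.ord (descBar K0 M y)⁻¹ := by
      intro h
      apply hy'
      rw [hP, map_inv₀]
      exact Fermat.Agent.S24Lib.mem_toValuationSubring_of_ord_nonneg P h
    rw [P.ord_inv] at h2
    rw [hP, map_div₀]
    apply Fermat.Agent.S24Lib.mem_toValuationSubring_of_ord_nonneg P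
    rw [div_eq_mul_inv, P.ord_mul hιy (inv_ne_zero hιγ), P.ord_inv, hg]
    omega

end Fermat.Agent.S18Lib
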