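import Fermat.Agent.S18.Descent
import Fermat.Agent.S18.DescHV

set_option autoImplicit false

namespace Fermat.Agent.S18Lib

open ModularCurve AlgebraicCurve IntermediateField IsLocalRing Polynomial
open Fermat.Agent.S24Lib (Kb FN IsFF)

/-! ### M1 : instances -/

/-- `F0` as an algebra over `A0 = A ∩ K0` -/
noncomputable instance descA0AlgInst (A : ValuationSubring Kb) (K0 : IntermediateField ℚ Kb) (M : ℕ) :
    Algebra (descA0 A K0) (modularFunctionFieldFullC K0 M) :=
  ((algebraMap K0 (modularFunctionFieldFullC K0 M)).comp (descA0 A K0).subtype).toAlgebra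

theorem descA0_algebraMap_apply (A : ValuationSubring Kb) (K0 : IntermediateField ℚ Kb) (M : ℕ)
    (a : descA0 A K0) :
    algebraMap (descA0 A K0) (modularFunctionFieldFullC K0 M) a =
      algebraMap K0 (modularFunctionFieldFullC K0 M) (a : K0) := rfl

instance descA0TowerInst (A : ValuationSubring Kb) (K0 : IntermediateField ℚ Kb) (M : ℕ) :
    IsScalarTower (descA0 A K0) K0 (modularFunctionFieldFullC K0 M) :=
  IsScalarTower.of_algebraMap_eq fun _ => rfl

example (A : ValuationSubring Kb) (K0 : IntermediateField ℚ Kb) :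
    IsFractionRing (descA0 A K0) K0 := inferInstance

example (K0 : IntermediateField ℚ Kb) : CharZero K0 := inferInstance

/-! ### M2 : the coordinate `j` -/

/-- `j` as an element of `F0` -/
noncomputable def descJ (K0 : IntermediateField ℚ Kb) (M : ℕ) : modularFunctionFieldFullC K0 M :=
  ⟨jqModC K0, jqModC_mem_full K0 M⟩

theorem descBar_descJ (K0 : IntermediateField ℚ Kb) (M : ℕ) :
    descBar K0 M (descJ K0 M) = Fermat.Agent.S24Lib.jj M := by
  apply Subtype.ext
  rw [descBar_coe]
  show coeffMap (algebraMap K0 Kb) (jqModC K0) = coeffEmb Kb (qExpand ℚ 1 jq)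
  rw [coeffMap_jqModC, qExpand_one_apply]
  exact (coeffMap_jqModC (algebraMap ℚ Kb)).symm

/-- an element of `F0` whose image in `FN M` is transcendental is transcendental -/
theorem desc_transcendental (K0 : IntermediateField ℚ Kb) (M : ℕ)
    (x : modularFunctionFieldFullC K0 M) (hx : Transcendental Kb (descBar K0 M x)) :
    Transcendental K0 x := by
  rintro ⟨p, hp, hpx⟩
  apply hx
  refine ⟨p.map (algebraMap K0 Kb), (Polynomial.map_ne_zero_iff (algebraMap K0 Kb).injective).2 hp, ?_⟩
  rw [← descBar_aeval, hpx, map_zero]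

theorem desc_transcendental_J (K0 : IntermediateField ℚ Kb) (M : ℕ) [NeZero M] :
    Transcendental K0 (descJ K0 M) := by
  apply desc_transcendental
  rw [descBar_descJ]
  exact Fermat.Agent.S24Lib.transcendental_jj M

/-! ### M4 -/

theorem desc_pow_of_algebraic (K0 : IntermediateField ℚ Kb) (M : ℕ) (m : ℕ) (hm : m ≠ 0)
    (u f0 : modularFunctionFieldFullC K0 M) (hu : u ≠ 0) (hf : f0 ≠ 0)
    (halg : IsAlgebraic K0 (u ^ m / f0)) :
    ∃ w : FN M, descBar K0 M f0 = w ^ m := by
  obtain ⟨p, hp, hpx⟩ := halg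
  have h1 : IsAlgebraic Kb (descBar K0 M (u ^ m / f0)) := by
    refine ⟨p.map (algebraMap K0 Kb),
      (Polynomial.map_ne_zero_iff (algebraMap K0 Kb).injective).2 hp, ?_⟩
    rw [← descBar_aeval, hpx, map_zero]
  obtain ⟨c, hc⟩ : descBar K0 M (u ^ m / f0) ∈ Set.range (algebraMap Kb (FN M)) := by
    by_contra hcon
    exact Fermat.Agent.S24Lib.transcendental_of_not_mem_range hcon h1
  have hιu : descBar K0 M u ≠ 0 := (_root_.map_ne_zero _).2 hu
  have hιf : descBar K0 M f0 ≠ 0 := (_root_.map_ne_zero _).2 hf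
  have hc0 : c ≠ 0 := by
    rintro rfl
    rw [map_zero, map_div₀, map_pow] at hc
    exact (div_ne_zero (pow_ne_zero _ hιu) hιf) hc.symm
  obtain ⟨d, hd⟩ := IsAlgClosed.exists_pow_nat_eq c (Nat.pos_of_ne_zero hm)
  have hd0 : d ≠ 0 := by
    rintro rfl
    rw [zero_pow hm] at hd
    exact hc0 hd.symm
  have hd0' : algebraMap Kb (FN M) d ≠ 0 := (_root_.map_ne_zero _).2 hd0
  refine ⟨descBar K0 M u / algebraMap Kb (FN M) d, ?_⟩
  rw [div_pow, ← map_pow (algebraMap Kb (FN M)), hd, hc, map_div₀, map_pow]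
  field_simp

end Fermat.Agent.S18Lib
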