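import Fermat.Agent.S18.DescA0

set_option autoImplicit false

namespace Fermat.Agent.S18Lib

open ModularCurve AlgebraicCurve IntermediateField IsLocalRing
open Fermat.Agent.S24Lib (Kb FN IsFF)

/-! ### valuation subrings of function fields are discrete -/

section FF

open scoped IntermediateField.algebraAdjoinAdjoin

theorem desc_mem_of_isIntegral {F : Type*} [Field F] (W : ValuationSubring F)
    {A : Type*} [CommRing A] [Algebra A F] (hA : ∀ a : A, algebraMap A F a ∈ W) {b : F}
    (hb : IsIntegral A b) : b ∈ W := by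
  have h2 : IsIntegral W b := by
    obtain ⟨p, hp, hpb⟩ := hb
    let φ : A →+* W := (algebraMap A F).codRestrict W.toSubring hA
    refine ⟨p.map φ, hp.map _, ?_⟩
    rw [Polynomial.eval₂_map]
    have : (algebraMap W F).comp φ = algebraMap A F := RingHom.ext fun a => rfl
    rw [this]
    exact hpb
  obtain ⟨y, hy⟩ := (IsIntegrallyClosed.isIntegral_iff (R := W) (K := F)).1 h2
  rw [← hy]
  exact y.2

theorem desc_isDVR_of_transcendental {K F : Type*} [Field K] [CharZero K] [Field F] [Algebra K F]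
    {s : F} (hs : Transcendental K s) (hfin : FiniteDimensional K⟮s⟯ F)
    (W : ValuationSubring F) (hK : ∀ a : K, algebraMap K F a ∈ W) (hsW : s ∈ W) (hW : W ≠ ⊤) :
    IsDiscreteValuationRing W := by
  have hPID := Fermat.Agent.S24Lib.isPrincipalIdealRing_adjoin hs
  have hchar : CharZero K⟮s⟯ := charZero_of_injective_algebraMap (algebraMap K K⟮s⟯).injective
  have hD : IsDedekindDomain (integralClosure (Algebra.adjoin K {s}) F) :=
    integralClosure.isDedekindDomain (Algebra.adjoin K {s}) K⟮s⟯ F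
  have hFr : IsFractionRing (integralClosure (Algebra.adjoin K {s}) F) F :=
    integralClosure.isFractionRing_of_finite_extension K⟮s⟯ F
  have hle : ∀ a : Algebra.adjoin K {s}, algebraMap (Algebra.adjoin K {s}) F a ∈ W := by
    intro a
    have h1 : Algebra.adjoin K {s} ≤
        ({ W.toSubring with algebraMap_mem' := hK } : Subalgebra K F) := by
      rw [Algebra.adjoin_le_iff]
      intro x hx
      rw [Set.mem_singleton_iff] at hx
      rw [hx]
      exact hsW
    exact h1 a.2
  exact descDVR_of_dedekind (R := integralClosure (Algebra.adjoin K {s}) F) W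
    (fun r => desc_mem_of_isIntegral W hle r.2) hW

theorem desc_isDVR_of_isFF {K F : Type*} [Field K] [CharZero K] [Field F] [Algebra K F]
    (hFF : IsFF K F) (W : ValuationSubring F) (hK : ∀ a : K, algebraMap K F a ∈ W) (hW : W ≠ ⊤) :
    IsDiscreteValuationRing W := by
  obtain ⟨s, hs, hfin⟩ := hFF
  rcases W.mem_or_inv_mem s with h | h
  · exact desc_isDVR_of_transcendental hs hfin W hK h hW
  · have h1 : K⟮s⁻¹⟯ = K⟮s⟯ := Fermat.Agent.S24Lib.adjoin_inv_eq_aux s
    have h2 : FiniteDimensional K⟮s⁻¹⟯ F := by rw [h1]; exact hfin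
    exact desc_isDVR_of_transcendental (Fermat.Agent.S24Lib.transcendental_inv_aux hs) h2 W hK h hW

end FF

/-- extension of valuation subrings along a field embedding -/
theorem desc_exists_valuationSubring {F0 F : Type*} [Field F0] [Field F] (ι : F0 →+* F)
    (V : ValuationSubring F0) : ∃ W : ValuationSubring F, W.comap ι = V := by
  obtain ⟨W, hW⟩ := (LocalSubring.map ι V.toLocalSubring).exists_le_valuationSubring
  obtain ⟨hle, hloc⟩ := hW
  refine ⟨W, ?_⟩
  ext x
  rw [ValuationSubring.mem_comap]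
  constructor
  · intro hx
    by_contra hxV
    have hx0 : x ≠ 0 := fun h => hxV (h ▸ V.zero_mem)
    have hinv : x⁻¹ ∈ V := (V.mem_or_inv_mem x).resolve_left hxV
    have hmem : ι x⁻¹ ∈ (LocalSubring.map ι V.toLocalSubring).toSubring :=
      Subring.mem_map.2 ⟨x⁻¹, hinv, rfl⟩
    have hu : IsUnit (Subring.inclusion hle ⟨ι x⁻¹, hmem⟩) := by
      refine IsUnit.of_mul_eq_one ⟨ι x, hx⟩ ?_
      apply Subtype.ext
      show ι x⁻¹ * ι x = 1
      rw [← map_mul, inv_mul_cancel₀ hx0, map_one]
    have hu' := hloc.map_nonunit _ hu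
    obtain ⟨⟨w, hw⟩, hw1⟩ := isUnit_iff_exists_inv.1 hu'
    obtain ⟨y, hy, rfl⟩ := Subring.mem_map.1 hw
    have h1 : ι x⁻¹ * ι y = 1 := congrArg Subtype.val hw1
    rw [← map_mul, ← map_one ι] at h1
    have h2 := ι.injective h1
    have h3 : y = x := by
      field_simp at h2
      exact h2
    exact hxV (h3 ▸ hy)
  · intro hx
    exact hle (Subring.mem_map.2 ⟨x, hx, rfl⟩)

/-! ### (TR) -/

theorem desc_exists_place (M : ℕ) [NeZero M] (K0 : IntermediateField ℚ Kb)
    (V : ValuationSubring (modularFunctionFieldFullC K0 M))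
    (hK : ∀ a : K0, algebraMap K0 (modularFunctionFieldFullC K0 M) a ∈ V) (hV : V ≠ ⊤) :
    ∃ P : Place Kb (FN M), ∀ y, y ∈ V ↔ descBar K0 M y ∈ P.toValuationSubring := by
  obtain ⟨W, hW⟩ := desc_exists_valuationSubring (descBar K0 M) V
  have hiff : ∀ y, y ∈ V ↔ descBar K0 M y ∈ W := by
    intro y
    rw [← hW, ValuationSubring.mem_comap]
  have hK0 : ∀ a : K0, algebraMap Kb (FN M) (a : Kb) ∈ W := by
    intro a
    rw [← descBar_algebraMap]
    exact (hiff _).1 (hK a)
  have hKb : ∀ a : Kb, algebraMap Kb (FN M) a ∈ W := by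
    intro a
    have h1 : IsIntegral ℚ (algebraMap Kb (FN M) a) := (desc_isIntegral a).algebraMap
    refine desc_mem_of_isIntegral W (A := ℚ) (fun q => ?_) h1
    have h2 : algebraMap ℚ (FN M) q = algebraMap Kb (FN M) ((algebraMap ℚ K0 q : K0) : Kb) := by
      rw [IsScalarTower.algebraMap_apply ℚ Kb (FN M)]
      rfl
    rw [h2]
    exact hK0 _
  have hWtop : W ≠ ⊤ := by
    intro h
    apply hV
    rw [← hW, h]
    rfl
  have hDVR := desc_isDVR_of_isFF (Fermat.Agent.S24Lib.isFF M) W hKb hWtop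
  exact ⟨{ toValuationSubring := W
           algebraMap_mem' := hKb
           ne_top' := hWtop
           isPrincipalIdealRing' := inferInstance }, hiff⟩

/-- if `g ∈ F0` is a uniformizer at `P`, every `y ∈ F0` is a `V`-unit times `g ^ ord_P y`. -/
theorem desc_unit_mul_zpow (M : ℕ) (K0 : IntermediateField ℚ Kb)
    (V : ValuationSubring (modularFunctionFieldFullC K0 M)) (P : Place Kb (FN M))
    (hP : ∀ y, y ∈ V ↔ descBar K0 M y ∈ P.toValuationSubring)
    (g : modularFunctionFieldFullC K0 M) (hg : P.ord (descBar K0 M g) = 1)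
    (y : modularFunctionFieldFullC K0 M) (hy : y ≠ 0) :
    ∃ u : modularFunctionFieldFullC K0 M, u ∈ V ∧ u⁻¹ ∈ V ∧
      y = u * g ^ (P.ord (descBar K0 M y)) := by
  set n := P.ord (descBar K0 M y) with hn
  have hg0 : g ≠ 0 := by
    rintro rfl
    simp at hg
  have hιy : descBar K0 M y ≠ 0 := (map_ne_zero _).2 hy
  have hιg : descBar K0 M g ≠ 0 := (map_ne_zero _).2 hg0
  have hord : P.ord (descBar K0 M (y * g ^ (-n))) = 0 := by
    rw [map_mul, map_zpow₀, P.ord_mul hιy (zpow_ne_zero _ hιg), P.ord_zpow, hg, ← hn]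
    ring
  refine ⟨y * g ^ (-n), ?_, ?_, ?_⟩
  · rw [hP]
    exact Fermat.Agent.S24Lib.mem_toValuationSubring_of_ord_nonneg P hord.ge
  · rw [hP, map_inv₀]
    apply Fermat.Agent.S24Lib.mem_toValuationSubring_of_ord_nonneg P
    rw [P.ord_inv, hord]
    simp
  · rw [mul_assoc, ← zpow_add₀ hg0]
    simp

end Fermat.Agent.S18Lib
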