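import Fermat.Agent.S18.DescDVR
import Fermat.Agent.S18.DescCoeff
import Fermat.Agent.S18.DescA0
import Fermat.Agent.S18.DescPlace
import Fermat.Agent.S18.DescInst
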