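import Fermat.Agent.S18.GEGauss
import Fermat.Agent.S18.Descent

/-!
# S18 : small inputs of the final assembly

* `finf_hf1_abs`, `finf_hf1` : `(y0 / y0' - 1) / π ∈ geOv`;
* `finf_isUnit_natCast` : `IsUnit (m : A0)` for `ℓ ∤ m`;
* `finf_sqf_*` : squarefreeness mod `π` of the six branch polynomials.
-/

set_option autoImplicit false
set_option linter.style.haveILetI false
set_option linter.unusedSectionVars false

open ModularCurve IsLocalRing Polynomial

namespace Fermat.Agent.S18Lib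

/-! ### units -/

theorem finf_isUnit_natCast {A0 : Type*} [CommRing A0] [IsLocalRing A0] {ℓ m : ℕ}
    (hℓ : ℓ.Prime) (hmem : (ℓ : A0) ∈ maximalIdeal A0) (hm : ¬ ℓ ∣ m) : IsUnit (m : A0) := by
  have hc : Nat.Coprime m ℓ := ((Nat.Prime.coprime_iff_not_dvd hℓ).2 hm).symm
  have hb : (m : ℤ) * Nat.gcdA m ℓ + (ℓ : ℤ) * Nat.gcdB m ℓ = 1 := by
    have := Nat.gcd_eq_gcd_ab m ℓ
    rw [hc.gcd_eq_one] at this
    exact_mod_cast this.symm
  have hb' : (m : A0) * (Nat.gcdA m ℓ : A0) + (ℓ : A0) * (Nat.gcdB m ℓ : A0) = 1 := by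
    exact_mod_cast congrArg (Int.cast : ℤ → A0) hb
  by_contra hu
  have h1 : (m : A0) ∈ maximalIdeal A0 := (mem_maximalIdeal _).2 hu
  have h2 : (1 : A0) ∈ maximalIdeal A0 := by
    rw [← hb']
    exact add_mem (Ideal.mul_mem_right _ _ h1) (Ideal.mul_mem_right _ _ hmem)
  exact (Ideal.ne_top_iff_one _).1 (maximalIdeal.isMaximal A0).ne_top h2

theorem finf_not_dvd_natCast {A0 : Type*} [CommRing A0] [IsLocalRing A0] {ℓ n : ℕ}
    (hℓ : ℓ.Prime) (hmem : (ℓ : A0) ∈ maximalIdeal A0) (hn : ¬ ℓ ∣ n) {π : A0}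
    (hπ : Irreducible π) : ¬ π ∣ (n : A0) := fun h =>
  hπ.not_isUnit (isUnit_of_dvd_unit h (finf_isUnit_natCast hℓ hmem hn))

/-! ### squarefreeness -/

theorem finf_separable {k : Type*} [Field k] (a b : k) (hb : b ≠ 0) :
    (X * (C a * X + C b) : k[X]).Separable := by
  rw [separable_def]
  refine ⟨-4 * C a * C (b ^ 2)⁻¹, C (b ^ 2)⁻¹ * (2 * C a * X + C b), ?_⟩
  have hd : derivative (X * (C a * X + C b) : k[X]) = 2 * C a * X + C b := by
    simp only [derivative_mul, derivative_X, derivative_add, derivative_C]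
    ring
  have hβ : (C (b ^ 2)⁻¹ : k[X]) * C b ^ 2 = 1 := by
    rw [← C_pow, ← C_mul, inv_mul_cancel₀ (pow_ne_zero 2 hb), C_1]
  rw [hd]
  linear_combination hβ

section Sqf

variable {A0 : Type*} [CommRing A0] [IsDomain A0] [IsPrincipalIdealRing A0]

theorem finf_sqf {π : A0} (hπ : Irreducible π) (a b : A0) (hb : ¬ π ∣ b) :
    Squarefree ((X * (C a * X + C b) : A0[X]).map (Ideal.Quotient.mk (Ideal.span {π}))) := by
  haveI : (Ideal.span {π}).IsMaximal := PrincipalIdealRing.isMaximal_of_irreducible hπ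
  letI : Field (A0 ⧸ Ideal.span {π}) := Ideal.Quotient.field _
  have hb' : Ideal.Quotient.mk (Ideal.span {π}) b ≠ 0 := by
    rw [Ne, Ideal.Quotient.eq_zero_iff_mem, Ideal.mem_span_singleton]
    exact hb
  have := (finf_separable (Ideal.Quotient.mk (Ideal.span {π}) a) _ hb').squarefree
  simpa only [Polynomial.map_mul, Polynomial.map_add, Polynomial.map_X, Polynomial.map_C]
    using this

/-- `X (X - c)` -/
theorem finf_sqf_sub {π : A0} (hπ : Irreducible π) (c : A0) (hc : ¬ π ∣ c) :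
    Squarefree ((X * (X - C c) : A0[X]).map (Ideal.Quotient.mk (Ideal.span {π}))) := by
  have := finf_sqf hπ 1 (-c) (by rwa [dvd_neg])
  have h2 : (X * (C 1 * X + C (-c)) : A0[X]) = X * (X - C c) := by
    rw [C_1, C_neg]; ring
  rwa [h2] at this

/-- `X (X + c)` -/
theorem finf_sqf_add {π : A0} (hπ : Irreducible π) (c : A0) (hc : ¬ π ∣ c) :
    Squarefree ((X * (X + C c) : A0[X]).map (Ideal.Quotient.mk (Ideal.span {π}))) := by
  have := finf_sqf hπ 1 c hc
  have h2 : (X * (C 1 * X + C c) : A0[X]) = X * (X + C c) := by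
    rw [C_1]; ring
  rwa [h2] at this

/-- `X (1 - c X)` -/
theorem finf_sqf_inv_sub {π : A0} (hπ : Irreducible π) (c : A0) :
    Squarefree ((X * (1 - C c * X) : A0[X]).map (Ideal.Quotient.mk (Ideal.span {π}))) := by
  have := finf_sqf hπ (-c) 1 (fun h => hπ.not_isUnit (isUnit_of_dvd_one h))
  have h2 : (X * (C (-c) * X + C 1) : A0[X]) = X * (1 - C c * X) := by
    rw [C_1, C_neg]; ring
  rwa [h2] at this

/-- `X (1 + c X)` -/
theorem finf_sqf_inv_add {π : A0} (hπ : Irreducible π) (c : A0) :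
    Squarefree ((X * (1 + C c * X) : A0[X]).map (Ideal.Quotient.mk (Ideal.span {π}))) := by
  have := finf_sqf hπ c 1 (fun h => hπ.not_isUnit (isUnit_of_dvd_one h))
  have h2 : (X * (C c * X + C 1) : A0[X]) = X * (1 + C c * X) := by
    rw [C_1]; ring
  rwa [h2] at this

end Sqf

theorem finf_not_dvd_1728 {ℓ : ℕ} (hℓ : ℓ.Prime) (h2 : ℓ ≠ 2) (h3 : ℓ ≠ 3) : ¬ ℓ ∣ 1728 := by
  intro h
  have h1 : (1728 : ℕ) = 2 ^ 6 * 3 ^ 3 := by norm_num
  rw [h1] at h
  rcases (Nat.Prime.dvd_mul hℓ).1 h with h | h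
  · exact h2 ((Nat.prime_dvd_prime_iff_eq hℓ Nat.prime_two).1 (hℓ.dvd_of_dvd_pow h))
  · exact h3 ((Nat.prime_dvd_prime_iff_eq hℓ Nat.prime_three).1 (hℓ.dvd_of_dvd_pow h))

section Six

variable {A0 : Type*} [CommRing A0] [IsDomain A0] [IsDiscreteValuationRing A0]

/-- `ℓ ≥ 5`, `x = j` -/
theorem finf_sqf_j {ℓ : ℕ} (hℓ : ℓ.Prime) (hmem : (ℓ : A0) ∈ maximalIdeal A0) (h2 : ℓ ≠ 2)
    (h3 : ℓ ≠ 3) {π : A0} (hπ : Irreducible π) :
    Squarefree ((X * (X - C 1728) : A0[X]).map (Ideal.Quotient.mk (Ideal.span {π}))) :=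
  finf_sqf_sub hπ 1728 (by
    have := finf_not_dvd_natCast hℓ hmem (finf_not_dvd_1728 hℓ h2 h3) hπ
    exact_mod_cast this)

/-- `ℓ = 3`, `x = h2` -/
theorem finf_sqf_h2 (hmem : ((3 : ℕ) : A0) ∈ maximalIdeal A0) {π : A0} (hπ : Irreducible π) :
    Squarefree ((X * (X + C 64) : A0[X]).map (Ideal.Quotient.mk (Ideal.span {π}))) :=
  finf_sqf_add hπ 64 (by
    have := finf_not_dvd_natCast (n := 64) Nat.prime_three hmem (by norm_num) hπ
    exact_mod_cast this)

/-- `ℓ = 2`, `x = h3` -/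
theorem finf_sqf_h3 (hmem : ((2 : ℕ) : A0) ∈ maximalIdeal A0) {π : A0} (hπ : Irreducible π) :
    Squarefree ((X * (X + C 27) : A0[X]).map (Ideal.Quotient.mk (Ideal.span {π}))) :=
  finf_sqf_add hπ 27 (by
    have := finf_not_dvd_natCast (n := 27) Nat.prime_two hmem (by norm_num) hπ
    exact_mod_cast this)

end Six

/-! ### `hf1` -/

section Abs

variable {A K : Type*} [CommRing A] [IsDomain A] [IsDiscreteValuationRing A] [Field K]
  [Algebra A K] [IsFractionRing A K]
variable {F : IntermediateField K (LaurentSeries K)} (hF : GeFrac A F)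

/-- abstract form of `hf1` -/
theorem finf_hf1_abs {π : A} (hπ : Irreducible π) (z z' : LaurentSeries A)
    (hz : geI A K z ∈ F) (hz' : geI A K z' ∈ F) (h : geR A z = geR A z') (h0 : geR A z' ≠ 0) :
    (⟨geI A K z', hz'⟩ : F) ≠ 0 ∧
      (((⟨geI A K z, hz⟩ : F) / ⟨geI A K z', hz'⟩ - 1) / algebraMap K F (algebraMap A K π)) ∈
        geOv A F hF := by
  have hne : (⟨geI A K z', hz'⟩ : F) ≠ 0 := fun h1 =>
    geR_ne_zero_imp (K := K) h0 (congrArg Subtype.val h1)
  refine ⟨hne, ?_⟩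
  have h1 : geR A (z - z') = 0 := by rw [map_sub, h, sub_self]
  obtain ⟨w, hw⟩ := (geR_eq_zero_iff hπ _).1 h1
  have hzz : geI A K (z - z') ∈ F := by
    rw [map_sub]; exact sub_mem hz hz'
  have hwF : geI A K w ∈ F := ge_mem_of_C_pow_mul hπ.ne_zero 1 w (by rwa [pow_one, ← hw])
  have hπ0 : algebraMap K F (algebraMap A K π) ≠ 0 := by
    rw [Ne, map_eq_zero]
    simpa using (IsFractionRing.injective A K).ne hπ.ne_zero
  have key : ((⟨geI A K z, hz⟩ : F) / ⟨geI A K z', hz'⟩ - 1) / algebraMap K F (algebraMap A K π) =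
      (⟨geI A K w, hwF⟩ : F) * (⟨geI A K z', hz'⟩ : F)⁻¹ := by
    have h2 : (⟨geI A K z, hz⟩ : F) - ⟨geI A K z', hz'⟩ =
        algebraMap K F (algebraMap A K π) * ⟨geI A K w, hwF⟩ := by
      apply Subtype.ext
      have h3 : geI A K (z - z') = geI A K z - geI A K z' := map_sub _ _ _
      have h4 : geI A K (HahnSeries.C π * w) = geI A K (HahnSeries.C π) * geI A K w :=
        map_mul _ _ _
      change geI A K z - geI A K z' = algebraMap K (LaurentSeries K) (algebraMap A K π) * geI A K w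
      rw [← h3, hw, h4, geI_C]
    field_simp
    linear_combination h2
  rw [key]
  exact mul_mem (ge_int_mem hF w hwF) (ge_int_inv_mem hF z' hz' h0)

end Abs

section Res

variable {A0 A : Type*} [CommRing A0] [IsLocalRing A0] [CommRing A] [IsLocalRing A]

theorem finf_coeffMap_injective {R S : Type*} [CommRing R] [CommRing S] (f : R →+* S)
    (hf : Function.Injective f) : Function.Injective (coeffMap f) := by
  intro x y h
  ext k
  have := congrArg (fun z => HahnSeries.coeff z k) h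
  simp only [coeffMap_coeff] at this
  exact hf this

theorem finf_res_comp (φ : A0 →+* A) [IsLocalHom φ] (z : LaurentSeries A0) :
    coeffMap (residue A) (coeffMap φ z) =
      coeffMap (ResidueField.map φ) (coeffMap (residue A0) z) := by
  rw [coeffMap_coeffMap, coeffMap_coeffMap]
  rfl

theorem finf_res_eq (φ : A0 →+* A) [IsLocalHom φ] (z z' : LaurentSeries A0)
    (h : coeffMap (residue A) (coeffMap φ z) = coeffMap (residue A) (coeffMap φ z')) :
    coeffMap (residue A0) z = coeffMap (residue A0) z' := by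
  rw [finf_res_comp, finf_res_comp] at h
  exact finf_coeffMap_injective _ (ResidueField.map φ).injective h

theorem finf_res_ne (φ : A0 →+* A) [IsLocalHom φ] (z : LaurentSeries A0)
    (h : coeffMap (residue A) (coeffMap φ z) ≠ 0) : coeffMap (residue A0) z ≠ 0 := by
  intro h0
  apply h
  rw [finf_res_comp, h0, map_zero]

end Res

section Conc

open Fermat.Agent.S24Lib (Kb)

/-- **`hf1`** : concrete form for `A0 = A ∩ K0`, `F0 = modularFunctionFieldFullC K0 M`. -/
theorem finf_hf1 (A : ValuationSubring Kb) (K0 : IntermediateField ℚ Kb)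
    [IsDiscreteValuationRing (descA0 A K0)] (M : ℕ)
    (hF : GeFrac (descA0 A K0) (modularFunctionFieldFullC K0 M))
    {π : descA0 A K0} (hπ : Irreducible π) (Y Y' : LaurentSeries A)
    (hres : coeffMap (residue A) Y = coeffMap (residue A) Y')
    (hres0 : coeffMap (residue A) Y ≠ 0)
    (y0 y0' : modularFunctionFieldFullC K0 M)
    (hy : coeffMap (algebraMap K0 Kb) (y0 : LaurentSeries K0) = coeffMap A.subtype Y)
    (hy' : coeffMap (algebraMap K0 Kb) (y0' : LaurentSeries K0) = coeffMap A.subtype Y') :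
    y0' ≠ 0 ∧ (y0 / y0' - 1) / algebraMap K0 (modularFunctionFieldFullC K0 M)
      (algebraMap (descA0 A K0) K0 π) ∈ geOv (descA0 A K0) (modularFunctionFieldFullC K0 M) hF := by
  obtain ⟨z, hz1, hz2⟩ := desc_exists_integral A K0 Y y0 hy
  obtain ⟨z', hz1', hz2'⟩ := desc_exists_integral A K0 Y' y0' hy'
  haveI := descA0Incl_isLocalHom A K0
  have g1 : geI (descA0 A K0) K0 z = (y0 : LaurentSeries K0) := hz1
  have g1' : geI (descA0 A K0) K0 z' = (y0' : LaurentSeries K0) := hz1'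
  have m1 : geI (descA0 A K0) K0 z ∈ modularFunctionFieldFullC K0 M := by rw [g1]; exact y0.2
  have m1' : geI (descA0 A K0) K0 z' ∈ modularFunctionFieldFullC K0 M := by rw [g1']; exact y0'.2
  have e1 : y0 = ⟨geI (descA0 A K0) K0 z, m1⟩ := Subtype.ext g1.symm
  have e1' : y0' = ⟨geI (descA0 A K0) K0 z', m1'⟩ := Subtype.ext g1'.symm
  have r1 : geR (descA0 A K0) z = geR (descA0 A K0) z' :=
    finf_res_eq (descA0Incl A K0) z z' (by rw [hz2, hz2', hres])
  have r2 : geR (descA0 A K0) z' ≠ 0 :=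
    finf_res_ne (descA0Incl A K0) z' (by rw [hz2', ← hres]; exact hres0)
  rw [e1, e1']
  exact finf_hf1_abs hF hπ z z' m1 m1' r1 r2

/-- `IsUnit (m : A0)` -/
theorem finf_isUnit (A : ValuationSubring Kb) {ℓ : ℕ} (hℓ : ℓ.Prime) (hA : A.LiesOverPrime ℓ)
    (K0 : IntermediateField ℚ Kb) {m : ℕ} (hm : ¬ ℓ ∣ m) : IsUnit (m : descA0 A K0) :=
  finf_isUnit_natCast hℓ (descA0_natCast_mem A hA K0) hm

theorem finf_not_dvd (A : ValuationSubring Kb) {ℓ : ℕ} (hℓ : ℓ.Prime) (hA : A.LiesOverPrime ℓ)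
    (K0 : IntermediateField ℚ Kb) {n : ℕ} (hn : ¬ ℓ ∣ n) {π : descA0 A K0}
    (hπ : Irreducible π) : ¬ π ∣ (n : descA0 A K0) :=
  finf_not_dvd_natCast hℓ (descA0_natCast_mem A hA K0) hn hπ

end Conc

end Fermat.Agent.S18Lib
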