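import Fermat.Agent.S18.GExTr

/-!
# S18 [GExH] : `gex_data`, `gex_trace` instantiated at the relations of `h₂` and `h₃`
-/

set_option autoImplicit false
set_option linter.unusedSectionVars false
set_option linter.unusedVariables false
set_option linter.style.haveILetI false

open Polynomial IntermediateField

namespace Fermat.Agent.S18Lib

section
variable {A0 K0 F0 : Type} [CommRing A0] [IsDomain A0] [IsDiscreteValuationRing A0]
    [Field K0] [CharZero K0] [Algebra A0 K0] [IsFractionRing A0 K0]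
    [Field F0] [Algebra K0 F0] [Algebra A0 F0] [IsScalarTower A0 K0 F0]

theorem gexh_ne_h2 [CharZero F0] {j x : F0} (hrel : j * x ^ 2 = (x + 256) ^ 3) : x ≠ 0 := by
  rintro rfl
  norm_num at hrel

theorem gexh_ne_h3 [CharZero F0] {j x : F0} (hrel : j * x ^ 3 = (x + 27) * (x + 243) ^ 3) :
    x ≠ 0 := by
  rintro rfl
  norm_num at hrel

theorem gexh_mem_h2 {j x : F0} (hrel : j * x ^ 2 = (x + 256) ^ 3) : j ∈ K0⟮x⟯ := by
  haveI : CharZero F0 := charZero_of_injective_algebraMap (algebraMap K0 F0).injective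
  have hx0 := gexh_ne_h2 hrel
  have hx : x ∈ K0⟮x⟯ := mem_adjoin_simple_self K0 x
  have : j = (x + 256) ^ 3 / x ^ 2 := by
    rw [eq_div_iff (pow_ne_zero _ hx0), hrel]
  rw [this]
  have h256 : (256 : F0) ∈ K0⟮x⟯ := by exact_mod_cast IntermediateField.natCast_mem K0⟮x⟯ 256
  exact div_mem (pow_mem (add_mem hx h256) 3) (pow_mem hx 2)

theorem gexh_mem_h3 {j x : F0} (hrel : j * x ^ 3 = (x + 27) * (x + 243) ^ 3) : j ∈ K0⟮x⟯ := by
  haveI : CharZero F0 := charZero_of_injective_algebraMap (algebraMap K0 F0).injective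
  have hx0 := gexh_ne_h3 hrel
  have hx : x ∈ K0⟮x⟯ := mem_adjoin_simple_self K0 x
  have : j = (x + 27) * (x + 243) ^ 3 / x ^ 3 := by
    rw [eq_div_iff (pow_ne_zero _ hx0), hrel]
  rw [this]
  have h27 : (27 : F0) ∈ K0⟮x⟯ := by exact_mod_cast IntermediateField.natCast_mem K0⟮x⟯ 27
  have h243 : (243 : F0) ∈ K0⟮x⟯ := by exact_mod_cast IntermediateField.natCast_mem K0⟮x⟯ 243
  exact div_mem (mul_mem (add_mem hx h27) (pow_mem (add_mem hx h243) 3)) (pow_mem hx 3)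

theorem gexh_const_ne {π : A0} {j : F0} {Ov : ValuationSubring F0} (h : GEData π j Ov) (c : A0)
    (hc : ¬ π ∣ c) : algebraMap A0 F0 c ≠ 0 := by
  intro h0
  apply hc
  have h1 : C π ∣ (C c : A0[X]) := by
    apply h.hG
    rw [aeval_C, h0, zero_div]
    exact Ov.zero_mem
  simpa using (C_dvd_iff_dvd_coeff _ _).1 h1 0

/-- (GE1)-(GE3) for `x = h₂` -/
theorem gexh_h2 {π : A0} (hπ : Irreducible π) {j x : F0} {Ov : ValuationSubring F0}
    (h : GEData π j Ov) (hrel : j * x ^ 2 = (x + 256) ^ 3) (h2 : ¬ π ∣ 2) : GEData π x Ov := by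
  have hc : ¬ π ∣ (256 : A0) ^ 3 := by
    intro hdvd
    have e : (256 : A0) ^ 3 = 2 ^ 24 := by norm_num
    rw [e] at hdvd
    exact h2 (hπ.prime.dvd_of_dvd_pow hdvd)
  have hx0 : x ≠ 0 := by
    rintro rfl
    apply gexh_const_ne h _ hc
    rw [map_pow, map_ofNat]
    linear_combination -hrel
  have hm : ((X + C 256 : A0[X]) ^ 3).Monic := (monic_X_add_C _).pow 3
  have hd : ((X + C 256 : A0[X]) ^ 3).natDegree = 3 := by
    rw [(monic_X_add_C (256 : A0)).natDegree_pow, natDegree_X_add_C]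
  refine gex_data hπ h hx0 2 (by norm_num)
    ((X + C 256) ^ 3) hm (by rw [hd]; norm_num) ?_ ?_
  · rw [map_pow, map_add, aeval_X, aeval_C, map_ofNat, ← hrel, mul_comm]
  · rw [coeff_zero_eq_eval_zero, eval_pow, eval_add, eval_X, eval_C, zero_add]
    exact hc

/-- (GE1)-(GE3) for `x = h₃` -/
theorem gexh_h3 {π : A0} (hπ : Irreducible π) {j x : F0} {Ov : ValuationSubring F0}
    (h : GEData π j Ov) (hrel : j * x ^ 3 = (x + 27) * (x + 243) ^ 3) (h3 : ¬ π ∣ 3) :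
    GEData π x Ov := by
  have hc : ¬ π ∣ (27 : A0) * 243 ^ 3 := by
    intro hdvd
    have e : (27 : A0) * 243 ^ 3 = 3 ^ 18 := by norm_num
    rw [e] at hdvd
    exact h3 (hπ.prime.dvd_of_dvd_pow hdvd)
  have hx0 : x ≠ 0 := by
    rintro rfl
    apply gexh_const_ne h _ hc
    rw [map_mul, map_pow, map_ofNat, map_ofNat]
    linear_combination -hrel
  have hm : ((X + C 27 : A0[X]) * (X + C 243) ^ 3).Monic :=
    (monic_X_add_C _).mul ((monic_X_add_C _).pow 3)
  have hd : ((X + C 27 : A0[X]) * (X + C 243) ^ 3).natDegree = 4 := by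
    rw [(monic_X_add_C (27 : A0)).natDegree_mul ((monic_X_add_C (243 : A0)).pow 3),
      (monic_X_add_C (243 : A0)).natDegree_pow, natDegree_X_add_C, natDegree_X_add_C]
  refine gex_data hπ h hx0 3 (by norm_num)
    ((X + C 27) * (X + C 243) ^ 3) hm (by rw [hd]; norm_num) ?_ ?_
  · rw [map_mul, map_pow, map_add, map_add, aeval_X, aeval_C, aeval_C, map_ofNat, map_ofNat,
      ← hrel, mul_comm]
  · rw [coeff_zero_eq_eval_zero, eval_mul, eval_pow, eval_add, eval_add, eval_X, eval_C, eval_C,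
      zero_add, zero_add]
    exact hc

/-- weak (GE4) for `x = h₂` -/
theorem gexh_sep_h2 {π : A0} {j x : F0} {Ov : ValuationSubring F0} (h : GEData π j Ov)
    (hrel : j * x ^ 2 = (x + 256) ^ 3) (hfin : FiniteDimensional K0⟮j⟯ F0)
    (hsep : ∃ s ∈ Ov, algebraMap K0⟮j⟯ F0 (Algebra.trace K0⟮j⟯ F0 s) / algebraMap A0 F0 π ∉ Ov) :
    ∃ s ∈ Ov, algebraMap K0⟮x⟯ F0 (Algebra.trace K0⟮x⟯ F0 s) / algebraMap A0 F0 π ∉ Ov :=
  gex_trace h (gexh_mem_h2 hrel) hfin hsep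

/-- weak (GE4) for `x = h₃` -/
theorem gexh_sep_h3 {π : A0} {j x : F0} {Ov : ValuationSubring F0} (h : GEData π j Ov)
    (hrel : j * x ^ 3 = (x + 27) * (x + 243) ^ 3) (hfin : FiniteDimensional K0⟮j⟯ F0)
    (hsep : ∃ s ∈ Ov, algebraMap K0⟮j⟯ F0 (Algebra.trace K0⟮j⟯ F0 s) / algebraMap A0 F0 π ∉ Ov) :
    ∃ s ∈ Ov, algebraMap K0⟮x⟯ F0 (Algebra.trace K0⟮x⟯ F0 s) / algebraMap A0 F0 π ∉ Ov :=
  gex_trace h (gexh_mem_h3 hrel) hfin hsep

end

end Fermat.Agent.S18Lib
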