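import Fermat.Agent.S18.H2

/-!
# S18 : further properties of the Hauptmodul `h = Δ(q) / Δ(q²)`

* `h2_mem` : `h ∈ K(j, j(q²))` for every field `K` of characteristic `≠ 2` (explicit formula);
* `h2_1728`, `coeffMap_h2`, `h2_eq`, `h2_mul_inv`.
-/

set_option autoImplicit false

open PowerSeries ModularCurve

namespace Fermat.Agent.S18Lib

section Ring

variable (R : Type*) [CommRing R]

theorem h2_eq : h2 R = HahnSeries.single (-1 : ℤ) 1 * hcL R (hcHU 2) := by
  have := hcH_eq R 2
  rw [h2, this]
  norm_num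

theorem h2_mul_inv : h2 R * hcHInv R 2 = 1 := hcH_mul_inv R 2

variable {R} in
theorem coeffMap_h2 {S : Type*} [CommRing S] (f : R →+* S) : coeffMap f (h2 R) = h2 S :=
  coeffMap_hcH f 2

theorem h2_rat : h2 ℚ = modularUnitSeries 2 := hcH_rat 2

/-- `(j - 1728) h² = (h + 64) (h - 512)²` -/
theorem h2_1728 : (jqModC R - 1728) * h2 R ^ 2 = (h2 R + 64) * (h2 R - 512) ^ 2 := by
  linear_combination h2_j R

/-- a monic polynomial expression of degree `n` in `h` is not zero (leading coefficient) -/
theorem h2_single_mul : HahnSeries.single (1 : ℤ) (1 : R) * h2 R = hcL R (hcHU 2) := by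
  rw [h2_eq, ← mul_assoc, mul_comm (HahnSeries.single (1 : ℤ) (1 : R)), hc_single_mul_single,
    one_mul]

end Ring

section Field

variable (K : Type*) [Field K]

theorem h2_lin :
    ((720 - jqModC K) * ((720 - jqModC K) * (768 - qExpand K 2 (jqModC K)) - 16773120) -
      (48 * (720 - jqModC K) - (qExpand K 2 (jqModC K) + 195840)) *
        (qExpand K 2 (jqModC K) + 195840)) * h2 K +
    ((720 - jqModC K) * (4096 * (720 - jqModC K)) -
      (48 * (720 - jqModC K) - (qExpand K 2 (jqModC K) + 195840)) * 16773120) = 0 := by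
  have hA := h2_j K
  have hB := h2_j2 K
  generalize jqModC K = j at *
  generalize qExpand K 2 j = j2 at *
  generalize h2 K = h at *
  linear_combination (-((720 - j) ^ 2 + (720 - j) * h + (48 * (720 - j) - (j2 + 195840)))) * hB +
    ((720 - j) * h + (48 * (720 - j) - (j2 + 195840))) * hA

theorem h2_lin_ne (h2ne : (2 : K) ≠ 0) :
    ((720 - jqModC K) * ((720 - jqModC K) * (768 - qExpand K 2 (jqModC K)) - 16773120) -
      (48 * (720 - jqModC K) - (qExpand K 2 (jqModC K) + 195840)) *
        (qExpand K 2 (jqModC K) + 195840)) ≠ 0 := by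
  intro h0
  have hA := h2_j K
  have hB := h2_j2 K
  have hu := h2_single_mul K
  have hc : PowerSeries.constantCoeff (hcHU 2) = 1 := constantCoeff_hcHU 2
  have hX := hcL_X K
  generalize jqModC K = j at *
  generalize qExpand K 2 j = j2 at *
  generalize h2 K = h at *
  have hα : (720 - j) * h ^ 2 = 720 * h ^ 2 - (h + 256) ^ 3 := by linear_combination -hA
  have hβ : (j2 + 195840) * h = (h + 16) ^ 3 + 195840 * h := by linear_combination hB
  have hγ : (768 - j2) * h = 768 * h - (h + 16) ^ 3 := by linear_combination -hB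
  have h1 : ((720 - j) * h ^ 2) ^ 2 * ((768 - j2) * h) - ((720 - j) * h ^ 2) * 16773120 * h ^ 3 -
      48 * ((720 - j) * h ^ 2) * ((j2 + 195840) * h) * h ^ 2 +
      ((j2 + 195840) * h) ^ 2 * h ^ 3 = 0 := by
    linear_combination h ^ 5 * h0
  rw [hα, hβ, hγ] at h1
  -- multiply by `q ^ 6`
  have h2' : hcL K (16777216 * hcHU 2 ^ 6 + 1610612736 * X * hcHU 2 ^ 5 +
      3337994895360 * X ^ 2 * hcHU 2 ^ 4 + 158574470758400 * X ^ 3 * hcHU 2 ^ 3 +
      13672427091394560 * X ^ 4 * hcHU 2 ^ 2 + 27021597764222976 * X ^ 5 * hcHU 2 +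
      1152921504606846976 * X ^ 6) = 0 := by
    simp only [map_add, map_mul, map_pow, map_ofNat, hX, ← hu]
    linear_combination (-(HahnSeries.single (1 : ℤ) (1 : K)) ^ 6) * h1
  have h3 := congrArg (fun x => HahnSeries.coeff x ((0 : ℕ) : ℤ)) h2'
  simp only [hcL_coeff_nat, HahnSeries.coeff_zero, PowerSeries.coeff_zero_eq_constantCoeff] at h3
  simp only [map_add, map_mul, map_pow, map_ofNat, hc, PowerSeries.constantCoeff_X] at h3
  norm_num at h3
  have h4 : (16777216 : K) = 2 ^ 24 := by norm_num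
  rw [h4] at h3
  exact h2ne (pow_eq_zero_iff (by norm_num) |>.1 h3)

/-- `h ∈ K(j, j(q²))` -/
theorem h2_mem (h2ne : (2 : K) ≠ 0) : h2 K ∈ modularFunctionFieldC K 2 := by
  have hj : jqModC K ∈ modularFunctionFieldC K 2 := jqModC_mem K 2
  have hj2 : qExpand K 2 (jqModC K) ∈ modularFunctionFieldC K 2 := jqNModC_mem K 2
  have hn : ∀ n : ℕ, ((n : ℕ) : LaurentSeries K) ∈ modularFunctionFieldC K 2 := fun n =>
    natCast_mem _ n
  have hlin := h2_lin K
  have hne := h2_lin_ne K h2ne
  set l1 := ((720 - jqModC K) * ((720 - jqModC K) * (768 - qExpand K 2 (jqModC K)) - 16773120) -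
      (48 * (720 - jqModC K) - (qExpand K 2 (jqModC K) + 195840)) *
        (qExpand K 2 (jqModC K) + 195840)) with hl1
  set l0 := ((720 - jqModC K) * (4096 * (720 - jqModC K)) -
      (48 * (720 - jqModC K) - (qExpand K 2 (jqModC K) + 195840)) * 16773120) with hl0
  have e720 : (720 : LaurentSeries K) ∈ modularFunctionFieldC K 2 := by exact_mod_cast hn 720
  have e768 : (768 : LaurentSeries K) ∈ modularFunctionFieldC K 2 := by exact_mod_cast hn 768
  have e48 : (48 : LaurentSeries K) ∈ modularFunctionFieldC K 2 := by exact_mod_cast hn 48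
  have e4096 : (4096 : LaurentSeries K) ∈ modularFunctionFieldC K 2 := by exact_mod_cast hn 4096
  have e195840 : (195840 : LaurentSeries K) ∈ modularFunctionFieldC K 2 := by
    exact_mod_cast hn 195840
  have e16773120 : (16773120 : LaurentSeries K) ∈ modularFunctionFieldC K 2 := by
    exact_mod_cast hn 16773120
  have ha := sub_mem e720 hj
  have hb := add_mem hj2 e195840
  have hd := sub_mem (mul_mem e48 ha) hb
  have m1 : l1 ∈ modularFunctionFieldC K 2 :=
    sub_mem (mul_mem ha (sub_mem (mul_mem ha (sub_mem e768 hj2)) e16773120)) (mul_mem hd hb)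
  have m0 : l0 ∈ modularFunctionFieldC K 2 :=
    sub_mem (mul_mem ha (mul_mem e4096 ha)) (mul_mem hd e16773120)
  have : h2 K = -l0 / l1 := by
    rw [eq_div_iff hne]
    linear_combination hlin
  rw [this]
  exact div_mem (neg_mem m0) m1

theorem h2_mem_full (h2ne : (2 : K) ≠ 0) (M : ℕ) [NeZero M] (hM : 2 ∣ M) :
    h2 K ∈ modularFunctionFieldFullC K M :=
  full_degeneracyC_le K hM (modularFunctionFieldC_le_full K 2 (h2_mem K h2ne))

end Field

end Fermat.Agent.S18Lib
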