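import Fermat.Agent.S18.H3
import Fermat.Agent.S24.DegreeAlg

/-!
# S18 : `h₃ ∈ K(j, j(q³))` for every field of characteristic `≠ 3` (explicit Euclid chain)
-/

set_option autoImplicit false
set_option linter.unusedSimpArgs false

open PowerSeries ModularCurve

namespace Fermat.Agent.S18Lib

section Alg

variable {L : Type*} [Field L]

/-- the linear relation produced by the Euclidean algorithm -/
theorem h3m_lin (j J h : L) (hA : j * h ^ 3 = (h + 27) * (h + 243) ^ 3)
    (hB : J * h = (h + 27) * (h + 3) ^ 3) (al be e2 e1 e0 f2 f1 f0 : L)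
    (hal : al = 720 - j) (hbe : be = 19131120 + J)
    (he2 : e2 = al * (270 * al - be) - (36 * al - 196560) * 196560)
    (he1 : e1 = al * ((756 - J) * al - 387419760) - (36 * al - 196560) * be)
    (he0 : e0 = 729 * al ^ 2 - (36 * al - 196560) * 387419760)
    (hf2 : f2 = 196560 * e2 - al * e1) (hf1 : f1 = be * e2 - al * e0)
    (hf0 : f0 = 387419760 * e2) :
    (e2 * f1 - f2 * e1) * h + (e2 * f0 - f2 * e0) = 0 := by
  -- `Q₃(h) = 0`
  have hQ3 : al * h ^ 3 + 196560 * h ^ 2 + be * h + 387419760 = 0 := by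
    rw [hal, hbe]; linear_combination hB - hA
  have hP2 : h ^ 4 + 36 * h ^ 3 + 270 * h ^ 2 + (756 - J) * h + 729 = 0 := by
    linear_combination -hB
  have hQ2 : e2 * h ^ 2 + e1 * h + e0 = 0 := by
    rw [he2, he1, he0]
    linear_combination al ^ 2 * hP2 - (al * h + (36 * al - 196560)) * hQ3
  have hR2 : f2 * h ^ 2 + f1 * h + f0 = 0 := by
    rw [hf2, hf1, hf0]
    linear_combination e2 * hQ3 - al * h * hQ2
  linear_combination e2 * hR2 - f2 * hQ2

open Polynomial in
/-- the coefficient of `h` in the linear relation does not vanish -/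
theorem h3m_ne {K : Type*} [Field K] [Algebra K L] (h3ne : (3 : K) ≠ 0) (j J h : L)
    (htr : Transcendental K h)
    (hA : j * h ^ 3 = (h + 27) * (h + 243) ^ 3)
    (hB : J * h = (h + 27) * (h + 3) ^ 3) (al be e2 e1 e0 f2 f1 : L)
    (hal : al = 720 - j) (hbe : be = 19131120 + J)
    (he2 : e2 = al * (270 * al - be) - (36 * al - 196560) * 196560)
    (he1 : e1 = al * ((756 - J) * al - 387419760) - (36 * al - 196560) * be)
    (he0 : e0 = 729 * al ^ 2 - (36 * al - 196560) * 387419760)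
    (hf2 : f2 = 196560 * e2 - al * e1) (hf1 : f1 = be * e2 - al * e0) :
    e2 * f1 - f2 * e1 ≠ 0 := by
  intro h0
  -- polynomial versions
  set T : K[X] := Polynomial.X with hT
  set pal : K[X] := 720 * T ^ 3 - (T + 27) * (T + 243) ^ 3 with hpal
  set pbe : K[X] := 19131120 * T + (T + 27) * (T + 3) ^ 3 with hpbe
  set pka : K[X] := 756 * T - (T + 27) * (T + 3) ^ 3 with hpka
  set pe2 : K[X] := pal * (270 * pal - pbe * T ^ 2) - (36 * pal - 196560 * T ^ 3) * 196560 * T ^ 3
    with hpe2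
  set pe1 : K[X] := pal * (pka * pal - 387419760 * T ^ 4) - (36 * pal - 196560 * T ^ 3) * pbe * T ^ 3
    with hpe1
  set pe0 : K[X] := 729 * pal ^ 2 - (36 * pal - 196560 * T ^ 3) * 387419760 * T ^ 3 with hpe0
  set pf2 : K[X] := 196560 * pe2 * T ^ 4 - pal * pe1 with hpf2
  set pf1 : K[X] := pbe * pe2 * T ^ 2 - pal * pe0 with hpf1
  set pa : K[X] := pe2 * pf1 * T ^ 2 - pf2 * pe1 with hpa
  have aT : aeval h T = h := aeval_X h
  have a1 : aeval h pal = al * h ^ 3 := by
    rw [hpal, hal]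
    simp only [map_sub, map_mul, map_add, map_pow, map_ofNat, aT]
    linear_combination hA
  have a2 : aeval h pbe = be * h := by
    rw [hpbe, hbe]
    simp only [map_sub, map_mul, map_add, map_pow, map_ofNat, aT]
    linear_combination -hB
  have a3 : aeval h pka = (756 - J) * h := by
    rw [hpka]
    simp only [map_sub, map_mul, map_add, map_pow, map_ofNat, aT]
    linear_combination hB
  have a4 : aeval h pe2 = e2 * h ^ 6 := by
    rw [hpe2, he2]
    simp only [map_sub, map_mul, map_add, map_pow, map_ofNat, aT, a1, a2]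
    ring
  have a5 : aeval h pe1 = e1 * h ^ 7 := by
    rw [hpe1, he1]
    simp only [map_sub, map_mul, map_add, map_pow, map_ofNat, aT, a1, a2, a3]
    ring
  have a6 : aeval h pe0 = e0 * h ^ 6 := by
    rw [hpe0, he0]
    simp only [map_sub, map_mul, map_add, map_pow, map_ofNat, aT, a1]
    ring
  have a7 : aeval h pf2 = f2 * h ^ 10 := by
    rw [hpf2, hf2]
    simp only [map_sub, map_mul, map_add, map_pow, map_ofNat, aT, a1, a4, a5]
    ring
  have a8 : aeval h pf1 = f1 * h ^ 9 := by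
    rw [hpf1, hf1]
    simp only [map_sub, map_mul, map_add, map_pow, map_ofNat, aT, a1, a2, a4, a6]
    ring
  have a9 : aeval h pa = 0 := by
    rw [hpa]
    simp only [map_sub, map_mul, map_add, map_pow, map_ofNat, aT, a4, a5, a7, a8]
    linear_combination h ^ 17 * h0
  have hpa0 : pa = 0 := by
    by_contra hne
    exact htr ⟨pa, hne, a9⟩
  have hev := congrArg (Polynomial.eval 0) hpa0
  simp only [hpa, hpf1, hpf2, hpe0, hpe1, hpe2, hpka, hpbe, hpal, hT, eval_sub, eval_mul, eval_add,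
    eval_pow, eval_X, eval_ofNat, eval_zero] at hev
  norm_num at hev
  have h4 : (4638397686588101979328150167890591454318967698009 : K) = 3 ^ 102 := by norm_num
  rw [h4] at hev
  exact h3ne (pow_eq_zero_iff (by norm_num) |>.1 hev)

end Alg

section Field

variable (K : Type*) [Field K]

theorem h3_transcendental : Transcendental K (h3 K) :=
  S24Lib.transcendental_of_coeff_neg (h3 K) (n := -1) (by norm_num)
    (by rw [h3_coeff_neg_one]; exact one_ne_zero)

/-- `h ∈ K(j, j(q³))` -/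
theorem h3_mem (h3ne : (3 : K) ≠ 0) : h3 K ∈ modularFunctionFieldC K 3 := by
  have hj : jqModC K ∈ modularFunctionFieldC K 3 := jqModC_mem K 3
  have hJ : qExpand K 3 (jqModC K) ∈ modularFunctionFieldC K 3 := jqNModC_mem K 3
  have hn : ∀ n : ℕ, ((n : ℕ) : LaurentSeries K) ∈ modularFunctionFieldC K 3 := fun n =>
    natCast_mem _ n
  have c720 : (720 : LaurentSeries K) ∈ modularFunctionFieldC K 3 := by exact_mod_cast hn 720
  have c19 : (19131120 : LaurentSeries K) ∈ modularFunctionFieldC K 3 := by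
    exact_mod_cast hn 19131120
  have c270 : (270 : LaurentSeries K) ∈ modularFunctionFieldC K 3 := by exact_mod_cast hn 270
  have c36 : (36 : LaurentSeries K) ∈ modularFunctionFieldC K 3 := by exact_mod_cast hn 36
  have c196 : (196560 : LaurentSeries K) ∈ modularFunctionFieldC K 3 := by
    exact_mod_cast hn 196560
  have c756 : (756 : LaurentSeries K) ∈ modularFunctionFieldC K 3 := by exact_mod_cast hn 756
  have c387 : (387419760 : LaurentSeries K) ∈ modularFunctionFieldC K 3 := by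
    exact_mod_cast hn 387419760
  have c729 : (729 : LaurentSeries K) ∈ modularFunctionFieldC K 3 := by exact_mod_cast hn 729
  obtain ⟨al, hal⟩ : ∃ al, al = 720 - jqModC K := ⟨_, rfl⟩
  obtain ⟨be, hbe⟩ : ∃ be, be = 19131120 + qExpand K 3 (jqModC K) := ⟨_, rfl⟩
  obtain ⟨e2, he2⟩ : ∃ e2, e2 = al * (270 * al - be) - (36 * al - 196560) * 196560 := ⟨_, rfl⟩
  obtain ⟨e1, he1⟩ : ∃ e1, e1 = al * ((756 - qExpand K 3 (jqModC K)) * al - 387419760) -
      (36 * al - 196560) * be := ⟨_, rfl⟩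
  obtain ⟨e0, he0⟩ : ∃ e0, e0 = 729 * al ^ 2 - (36 * al - 196560) * 387419760 := ⟨_, rfl⟩
  obtain ⟨f2, hf2⟩ : ∃ f2, f2 = 196560 * e2 - al * e1 := ⟨_, rfl⟩
  obtain ⟨f1, hf1⟩ : ∃ f1, f1 = be * e2 - al * e0 := ⟨_, rfl⟩
  obtain ⟨f0, hf0⟩ : ∃ f0, f0 = 387419760 * e2 := ⟨_, rfl⟩
  have mal : al ∈ modularFunctionFieldC K 3 := hal ▸ sub_mem c720 hj
  have mbe : be ∈ modularFunctionFieldC K 3 := hbe ▸ add_mem c19 hJ
  have m36 := sub_mem (mul_mem c36 mal) c196
  have me2 : e2 ∈ modularFunctionFieldC K 3 :=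
    he2 ▸ sub_mem (mul_mem mal (sub_mem (mul_mem c270 mal) mbe)) (mul_mem m36 c196)
  have me1 : e1 ∈ modularFunctionFieldC K 3 :=
    he1 ▸ sub_mem (mul_mem mal (sub_mem (mul_mem (sub_mem c756 hJ) mal) c387)) (mul_mem m36 mbe)
  have me0 : e0 ∈ modularFunctionFieldC K 3 :=
    he0 ▸ sub_mem (mul_mem c729 (pow_mem mal 2)) (mul_mem m36 c387)
  have mf2 : f2 ∈ modularFunctionFieldC K 3 := hf2 ▸ sub_mem (mul_mem c196 me2) (mul_mem mal me1)
  have mf1 : f1 ∈ modularFunctionFieldC K 3 := hf1 ▸ sub_mem (mul_mem mbe me2) (mul_mem mal me0)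
  have mf0 : f0 ∈ modularFunctionFieldC K 3 := hf0 ▸ mul_mem c387 me2
  have hlin := h3m_lin (jqModC K) (qExpand K 3 (jqModC K)) (h3 K) (h3_j K) (h3_j3 K)
    al be e2 e1 e0 f2 f1 f0 hal hbe he2 he1 he0 hf2 hf1 hf0
  have hne := h3m_ne (K := K) h3ne (jqModC K) (qExpand K 3 (jqModC K)) (h3 K)
    (h3_transcendental K) (h3_j K) (h3_j3 K) al be e2 e1 e0 f2 f1 hal hbe he2 he1 he0 hf2 hf1
  have : h3 K = -(e2 * f0 - f2 * e0) / (e2 * f1 - f2 * e1) := by
    rw [eq_div_iff hne]
    linear_combination hlin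
  rw [this]
  exact div_mem (neg_mem (sub_mem (mul_mem me2 mf0) (mul_mem mf2 me0)))
    (sub_mem (mul_mem me2 mf1) (mul_mem mf2 me1))

theorem h3_mem_full (h3ne : (3 : K) ≠ 0) (M : ℕ) [NeZero M] (hM : 3 ∣ M) :
    h3 K ∈ modularFunctionFieldFullC K M :=
  full_degeneracyC_le K hM (modularFunctionFieldC_le_full K 3 (h3_mem K h3ne))

end Field

end Fermat.Agent.S18Lib
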