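import Fermat.Agent.S18.HUInst
import Fermat.Agent.S18.DescMod

set_option autoImplicit false

/-!
# S18 [HUFin] : the hypotheses `hram1`, `hram2` of `abs_main` for the three coordinates
-/

open AlgebraicCurve IntermediateField Polynomial

namespace Fermat.Agent.S18Lib

open Fermat.Agent.S24Lib

section Abs

variable {K F : Type} [Field K] [IsAlgClosed K] [CharZero K] [Field F] [Algebra K F]
variable {A0 K0 F0 : Type} [CommRing A0] [Field K0] [CharZero K0] [Algebra A0 K0] [Algebra K0 K]
  [Algebra.IsAlgebraic K0 K] [Field F0] [Algebra K0 F0] [Algebra A0 F0] [IsScalarTower A0 K0 F0]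

open scoped IntermediateField.algebraAdjoinAdjoin in
theorem huf_abs (hFF : IsFF K F) (ι : F0 →+* F)
    (hι : ∀ a : K0, ι (algebraMap K0 F0 a) = algebraMap K F (algebraMap K0 K a))
    (hTR : ∀ V : ValuationSubring F0, (∀ a : K0, algebraMap K0 F0 a ∈ V) → V ≠ ⊤ →
      ∃ P : Place K F, ∀ y, y ∈ V ↔ ι y ∈ P.toValuationSubring)
    (t : F0) (ht : Transcendental K0 t) (hfin : FiniteDimensional K0⟮t⟯ F0)
    (D : A0[X]) (Dp : K0[X]) (hD : D.map (algebraMap A0 K0) = Dp)
    (hram : ∀ c : K, (Dp.map (algebraMap K0 K)).eval c ≠ 0 → ∀ v : Place K F,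
      0 < v.ord (ι t - algebraMap K F c) → v.ord (ι t - algebraMap K F c) = 1) :
    RamOutside K0 t (aeval t D) := by
  have hPID := Fermat.Agent.S24Lib.isPrincipalIdealRing_adjoin ht
  have hchar : CharZero K0⟮t⟯ := charZero_of_injective_algebraMap (algebraMap K0 K0⟮t⟯).injective
  have hDed : IsDedekindDomain (integralClosure (Algebra.adjoin K0 {t}) F0) :=
    integralClosure.isDedekindDomain (Algebra.adjoin K0 {t}) K0⟮t⟯ F0
  have hFr : IsFractionRing (integralClosure (Algebra.adjoin K0 {t}) F0) F0 :=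
    integralClosure.isFractionRing_of_finite_extension K0⟮t⟯ F0
  rw [← aeval_map_algebraMap K0, hD]
  exact hui_abs hFF ι hι hTR t ht Dp hram

omit [CharZero K0] in
theorem huf_fin_inv {t : F0} (hfin : FiniteDimensional K0⟮t⟯ F0) :
    FiniteDimensional K0⟮t⁻¹⟯ F0 := by
  have h1 : K0⟮t⁻¹⟯ = K0⟮t⟯ := Fermat.Agent.S24Lib.adjoin_inv_eq_aux t
  rw [h1]; exact hfin

omit [CharZero K] in
theorem huf_transc_of_rel {j : F} (hj : Transcendental K j) (x : F) (a b : K → K)
    (hrel : ∀ c : K, x = algebraMap K F c → j * algebraMap K F (b c) = algebraMap K F (a c))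
    (hab : ∀ c : K, b c = 0 → a c ≠ 0) : Transcendental K x := by
  intro halg
  obtain ⟨c, hc⟩ : x ∈ Set.range (algebraMap K F) := by
    by_contra hcon
    exact transcendental_of_not_mem_range hcon halg
  have hrel := hrel c hc.symm
  by_cases hQ : b c = 0
  · rw [hQ, map_zero, mul_zero] at hrel
    exact hab c hQ ((map_eq_zero _).1 hrel.symm)
  · apply hj
    have h1 : j = algebraMap K F (a c / b c) := by
      rw [map_div₀, eq_div_iff ((_root_.map_ne_zero _).2 hQ), hrel]
    rw [h1]
    exact isAlgebraic_algebraMap _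

theorem huf_transc_h2_abs {j : F} (hj : Transcendental K j) (x : F)
    (hx : j * x ^ 2 = (x + 256) ^ 3) : Transcendental K x := by
  refine huf_transc_of_rel hj x (fun c => (c + 256) ^ 3) (fun c => c ^ 2) ?_ ?_
  · intro c hc
    rw [hc] at hx
    simp only [map_pow, map_add, map_ofNat]
    exact hx
  · intro c hc
    have hc0 : c = 0 := by simpa using hc
    simp [hc0]

theorem huf_transc_h3_abs {j : F} (hj : Transcendental K j) (x : F)
    (hx : j * x ^ 3 = (x + 27) * (x + 243) ^ 3) : Transcendental K x := by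
  refine huf_transc_of_rel hj x (fun c => (c + 27) * (c + 243) ^ 3) (fun c => c ^ 3) ?_ ?_
  · intro c hc
    rw [hc] at hx
    simp only [map_pow, map_add, map_mul, map_ofNat]
    exact hx
  · intro c hc
    have hc0 : c = 0 := by simpa using hc
    simp [hc0]

end Abs

section Conc

open ModularCurve

variable (M : ℕ) [NeZero M] (A : ValuationSubring Kb) (K0 : IntermediateField ℚ Kb)

theorem huf_main (t : modularFunctionFieldFullC K0 M) (ht : Transcendental K0 t)
    (hfin : FiniteDimensional K0⟮t⟯ (modularFunctionFieldFullC K0 M))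
    (D : (descA0 A K0)[X]) (Dp : K0[X]) (hD : D.map (algebraMap (descA0 A K0) K0) = Dp)
    (hram : ∀ c : Kb, (Dp.map (algebraMap K0 Kb)).eval c ≠ 0 → ∀ v : Place Kb (FN M),
      0 < v.ord (descBar K0 M t - algebraMap Kb (FN M) c) →
        v.ord (descBar K0 M t - algebraMap Kb (FN M) c) = 1) :
    RamOutside K0 t (aeval t D) :=
  have := hui_isAlgebraic K0
  huf_abs (K := Kb) (F := FN M) (A0 := descA0 A K0) (K0 := K0)
    (F0 := modularFunctionFieldFullC K0 M)
    (isFF M) (descBar K0 M) (descBar_algebraMap K0 M) (desc_exists_place M K0) t ht hfin D Dp hD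
    hram

/-! ### transcendence of the coordinates -/

theorem huf_transc_h2 (x : modularFunctionFieldFullC K0 M)
    (hx : descJ K0 M * x ^ 2 = (x + 256) ^ 3) : Transcendental K0 x := by
  apply desc_transcendental
  have h := congrArg (descBar K0 M) hx
  simp only [map_mul, map_pow, map_add, map_ofNat, descBar_descJ] at h
  exact huf_transc_h2_abs (transcendental_jj M) _ h

theorem huf_transc_h3 (x : modularFunctionFieldFullC K0 M)
    (hx : descJ K0 M * x ^ 3 = (x + 27) * (x + 243) ^ 3) : Transcendental K0 x := by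
  apply desc_transcendental
  have h := congrArg (descBar K0 M) hx
  simp only [map_mul, map_pow, map_add, map_ofNat, descBar_descJ] at h
  exact huf_transc_h3_abs (transcendental_jj M) _ h

/-! ### the six instances -/

theorem huf_j (hfin : FiniteDimensional K0⟮descJ K0 M⟯ (modularFunctionFieldFullC K0 M)) :
    RamOutside K0 (descJ K0 M)
      (aeval (descJ K0 M) (X * (X - C 1728) : (descA0 A K0)[X])) := by
  refine huf_main M A K0 _ (desc_transcendental_J K0 M) hfin _ (X * (X - C 1728)) (by simp [-ValuationSubring.algebraMap_apply]; exact map_ofNat (algebraMap _ _) _) ?_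
  rw [descBar_descJ]
  exact hu_ram_j M

theorem huf_j_inv (hfin : FiniteDimensional K0⟮descJ K0 M⟯ (modularFunctionFieldFullC K0 M)) :
    RamOutside K0 (descJ K0 M)⁻¹
      (aeval (descJ K0 M)⁻¹ (X * (1 - C 1728 * X) : (descA0 A K0)[X])) := by
  refine huf_main M A K0 _ (transcendental_inv_aux (desc_transcendental_J K0 M))
    (huf_fin_inv hfin) _ (X * (1 - C 1728 * X)) (by simp [-ValuationSubring.algebraMap_apply]; exact map_ofNat (algebraMap _ _) _) ?_
  rw [map_inv₀, descBar_descJ]
  exact hu_ram_j_inv M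

theorem huf_h2 (x : modularFunctionFieldFullC K0 M)
    (hx : descJ K0 M * x ^ 2 = (x + 256) ^ 3)
    (hfin : FiniteDimensional K0⟮x⟯ (modularFunctionFieldFullC K0 M)) :
    RamOutside K0 x (aeval x (X * (X + C 64) : (descA0 A K0)[X])) := by
  have h := congrArg (descBar K0 M) hx
  simp only [map_mul, map_pow, map_add, map_ofNat, descBar_descJ] at h
  exact huf_main M A K0 _ (huf_transc_h2 M K0 x hx) hfin _ (X * (X + C 64)) (by simp [-ValuationSubring.algebraMap_apply]; exact map_ofNat (algebraMap _ _) _)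
    (hu_ram_h2 M _ h)

theorem huf_h2_inv (x : modularFunctionFieldFullC K0 M)
    (hx : descJ K0 M * x ^ 2 = (x + 256) ^ 3)
    (hfin : FiniteDimensional K0⟮x⟯ (modularFunctionFieldFullC K0 M)) :
    RamOutside K0 x⁻¹ (aeval x⁻¹ (X * (1 + C 64 * X) : (descA0 A K0)[X])) := by
  have h := congrArg (descBar K0 M) hx
  simp only [map_mul, map_pow, map_add, map_ofNat, descBar_descJ] at h
  refine huf_main M A K0 _ (transcendental_inv_aux (huf_transc_h2 M K0 x hx))
    (huf_fin_inv hfin) _ (X * (1 + C 64 * X)) (by simp [-ValuationSubring.algebraMap_apply]; exact map_ofNat (algebraMap _ _) _) ?_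
  rw [map_inv₀]
  exact hu_ram_h2_inv M _ h

theorem huf_h3 (x : modularFunctionFieldFullC K0 M)
    (hx : descJ K0 M * x ^ 3 = (x + 27) * (x + 243) ^ 3)
    (hfin : FiniteDimensional K0⟮x⟯ (modularFunctionFieldFullC K0 M)) :
    RamOutside K0 x (aeval x (X * (X + C 27) : (descA0 A K0)[X])) := by
  have h := congrArg (descBar K0 M) hx
  simp only [map_mul, map_pow, map_add, map_ofNat, descBar_descJ] at h
  exact huf_main M A K0 _ (huf_transc_h3 M K0 x hx) hfin _ (X * (X + C 27)) (by simp [-ValuationSubring.algebraMap_apply]; exact map_ofNat (algebraMap _ _) _)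
    (hu_ram_h3 M _ h)

theorem huf_h3_inv (x : modularFunctionFieldFullC K0 M)
    (hx : descJ K0 M * x ^ 3 = (x + 27) * (x + 243) ^ 3)
    (hfin : FiniteDimensional K0⟮x⟯ (modularFunctionFieldFullC K0 M)) :
    RamOutside K0 x⁻¹ (aeval x⁻¹ (X * (1 + C 27 * X) : (descA0 A K0)[X])) := by
  have h := congrArg (descBar K0 M) hx
  simp only [map_mul, map_pow, map_add, map_ofNat, descBar_descJ] at h
  refine huf_main M A K0 _ (transcendental_inv_aux (huf_transc_h3 M K0 x hx))
    (huf_fin_inv hfin) _ (X * (1 + C 27 * X)) (by simp [-ValuationSubring.algebraMap_apply]; exact map_ofNat (algebraMap _ _) _) ?_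
  rw [map_inv₀]
  exact hu_ram_h3_inv M _ h

end Conc

end Fermat.Agent.S18Lib
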