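import Fermat.Agent.S18.Final
import Fermat.Agent.S18.HUFin
import Fermat.Agent.S18.FinF0
import Fermat.Agent.S18.DescFF
import Fermat.Agent.S18.GExH
import Fermat.Agent.S18.H2Mem
import Fermat.Agent.S18.H3Mem

set_option autoImplicit false
set_option linter.style.haveILetI false

/-!
# S18 : `FinHyp` from the data for the coordinate `j` (three cases `ℓ ≥ 5`, `ℓ = 3`, `ℓ = 2`)
-/

open Polynomial IntermediateField ModularCurve AlgebraicCurve

namespace Fermat.Agent.S18Lib

open Fermat.Agent.S24Lib (Kb FN)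

/-- the data for the coordinate `j` -/
def FinJ (A : ValuationSubring Kb) (M : ℕ) (K0 : IntermediateField ℚ Kb)
    (Ov : ValuationSubring (modularFunctionFieldFullC K0 M)) : Prop :=
  ∀ π : descA0 A K0, Irreducible π →
    GEData π (descJ K0 M) Ov ∧
      ∃ s ∈ Ov, algebraMap K0⟮descJ K0 M⟯ (modularFunctionFieldFullC K0 M)
        (Algebra.trace K0⟮descJ K0 M⟯ (modularFunctionFieldFullC K0 M) s) /
          algebraMap (descA0 A K0) (modularFunctionFieldFullC K0 M) π ∉ Ov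

/-- `h₂` as an element of `F0` -/
noncomputable def fincH2 (K0 : IntermediateField ℚ Kb) (M : ℕ) [NeZero M] (hM : 2 ∣ M) :
    modularFunctionFieldFullC K0 M :=
  ⟨h2 K0, h2_mem_full K0 two_ne_zero M hM⟩

/-- `h₃` as an element of `F0` -/
noncomputable def fincH3 (K0 : IntermediateField ℚ Kb) (M : ℕ) [NeZero M] (hM : 3 ∣ M) :
    modularFunctionFieldFullC K0 M :=
  ⟨h3 K0, h3_mem_full K0 three_ne_zero M hM⟩

theorem finc_rel_abs2 {K : Type*} [Field K] (F : IntermediateField K (LaurentSeries K))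
    (j x : F) (h : (j : LaurentSeries K) * (x : LaurentSeries K) ^ 2 =
      ((x : LaurentSeries K) + 256) ^ 3) : j * x ^ 2 = (x + 256) ^ 3 := by
  apply Subtype.ext
  push_cast
  exact h

theorem finc_rel_abs3 {K : Type*} [Field K] (F : IntermediateField K (LaurentSeries K))
    (j x : F) (h : (j : LaurentSeries K) * (x : LaurentSeries K) ^ 3 =
      ((x : LaurentSeries K) + 27) * ((x : LaurentSeries K) + 243) ^ 3) :
    j * x ^ 3 = (x + 27) * (x + 243) ^ 3 := by
  apply Subtype.ext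
  push_cast
  exact h

theorem fincH2_rel (K0 : IntermediateField ℚ Kb) (M : ℕ) [NeZero M] (hM : 2 ∣ M) :
    descJ K0 M * fincH2 K0 M hM ^ 2 = (fincH2 K0 M hM + 256) ^ 3 :=
  finc_rel_abs2 _ _ _ (h2_j K0)

theorem fincH3_rel (K0 : IntermediateField ℚ Kb) (M : ℕ) [NeZero M] (hM : 3 ∣ M) :
    descJ K0 M * fincH3 K0 M hM ^ 3 = (fincH3 K0 M hM + 27) * (fincH3 K0 M hM + 243) ^ 3 :=
  finc_rel_abs3 _ _ _ (h3_j K0)

theorem finc_hyp (M : ℕ) [NeZero M] {ℓ : ℕ} (hℓ : ℓ.Prime) (hM0 : auxM0 ℓ ∣ M)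
    (A : ValuationSubring Kb) (hA : A.LiesOverPrime ℓ)
    (K0 : IntermediateField ℚ Kb) (hfin : FiniteDimensional ℚ K0)
    (Ov : ValuationSubring (modularFunctionFieldFullC K0 M)) (hJ : FinJ A M K0 Ov) :
    FinHyp A M K0 Ov := by
  intro π hπ
  haveI : IsDiscreteValuationRing (descA0 A K0) := descA0_isDVR A hℓ.ne_zero hA K0
  obtain ⟨hGE, hsep⟩ := hJ π hπ
  have hmem := descA0_natCast_mem A hA K0
  have hfJ := desc_finiteDimensional K0 M _ (desc_transcendental_J K0 M)
  by_cases h2 : ℓ = 2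
  · subst h2
    have hM : 3 ∣ M := by simpa [auxM0] using hM0
    have hrel := fincH3_rel K0 M hM
    have htr := huf_transc_h3 M K0 _ hrel
    have hf := desc_finiteDimensional K0 M _ htr
    have h3 : ¬ π ∣ (3 : descA0 A K0) := by
      have := finf_not_dvd A hℓ hA K0 (n := 3) (by norm_num) hπ
      exact_mod_cast this
    exact ⟨fincH3 K0 M hM, X * (X + C 27), X * (1 + C 27 * X), htr, hf, gexh_h3 hπ hGE hrel h3,
      gexh_sep_h3 hGE hrel hfJ hsep, finf_sqf_h3 hmem hπ, finf_sqf_inv_add hπ 27,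
      huf_h3 M A K0 _ hrel hf, huf_h3_inv M A K0 _ hrel hf⟩
  · by_cases h3 : ℓ = 3
    · subst h3
      have hM : 2 ∣ M := by simpa [auxM0] using hM0
      have hrel := fincH2_rel K0 M hM
      have htr := huf_transc_h2 M K0 _ hrel
      have hf := desc_finiteDimensional K0 M _ htr
      have h2' : ¬ π ∣ (2 : descA0 A K0) := by
        have := finf_not_dvd A hℓ hA K0 (n := 2) (by norm_num) hπ
        exact_mod_cast this
      exact ⟨fincH2 K0 M hM, X * (X + C 64), X * (1 + C 64 * X), htr, hf,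
        gexh_h2 hπ hGE hrel h2', gexh_sep_h2 hGE hrel hfJ hsep, finf_sqf_h2 hmem hπ,
        finf_sqf_inv_add hπ 64, huf_h2 M A K0 _ hrel hf, huf_h2_inv M A K0 _ hrel hf⟩
    · exact ⟨descJ K0 M, X * (X - C 1728), X * (1 - C 1728 * X), desc_transcendental_J K0 M, hfJ,
        hGE, hsep, finf_sqf_j hℓ hmem h2 h3 hπ, finf_sqf_inv_sub hπ 1728,
        huf_j M A K0 hfJ, huf_j_inv M A K0 hfJ⟩

end Fermat.Agent.S18Lib
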