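import Fermat.Agent.S18.Final
import Fermat.Agent.S18.FinF0

/-!
# S18 : `FinOv` for the Gauss valuation ring
-/

set_option autoImplicit false

open Polynomial IntermediateField ModularCurve AlgebraicCurve

namespace Fermat.Agent.S18Lib

open Fermat.Agent.S24Lib (Kb FN)

theorem finf_FinOv (A : ValuationSubring Kb) (K0 : IntermediateField ℚ Kb)
    [IsDiscreteValuationRing (descA0 A K0)] (M : ℕ)
    (hF : GeFrac (descA0 A K0) (modularFunctionFieldFullC K0 M)) :
    FinOv A M K0 (geOv (descA0 A K0) (modularFunctionFieldFullC K0 M) hF) := by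
  intro π hπ Y Y' y0 y0' hy hy' hres hres0
  have h := (finf_hf1 A K0 M hF hπ Y Y' hres hres0 y0 y0' hy hy').2
  rwa [← IsScalarTower.algebraMap_apply] at h

end Fermat.Agent.S18Lib
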