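import Fermat.Agent.S24.Degree2
import Fermat.Agent.S24.Dict2
import Fermat.Agent.S20.CombCard

set_option autoImplicit false

/-!
# S18, C1 : change of level

`F_N ⊆ F_M` for `N ∣ M`; divisibility of orders goes up, `m`-th powers come down
(norm trick, the degree being a power of `ℓ`).
-/

open AlgebraicCurve IntermediateField

namespace Fermat.Agent.S18Lib

open Fermat.Agent.S24Lib Fermat.Agent.S20Lib

/-- the auxiliary level : `3` for `ℓ = 2`, `2` for `ℓ = 3`, `1` otherwise -/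
def auxM0 (ℓ : ℕ) : ℕ := if ℓ = 2 then 3 else if ℓ = 3 then 2 else 1

/-- the smallest multiple of `N` divisible by `auxM0 ℓ` -/
def auxLevel (ℓ N : ℕ) : ℕ := if auxM0 ℓ ∣ N then N else auxM0 ℓ * N

theorem lvl_auxM0_pos (ℓ : ℕ) : 0 < auxM0 ℓ := by
  unfold auxM0; split_ifs <;> norm_num

theorem lvl_auxM0_dvd (ℓ N : ℕ) : auxM0 ℓ ∣ auxLevel ℓ N := by
  unfold auxLevel
  split_ifs with h
  · exact h
  · exact dvd_mul_right _ _

theorem lvl_dvd_auxLevel (ℓ N : ℕ) : N ∣ auxLevel ℓ N := by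
  unfold auxLevel
  split_ifs with h
  · exact dvd_rfl
  · exact dvd_mul_left _ _

instance lvl_neZero_auxLevel (ℓ N : ℕ) [NeZero N] : NeZero (auxLevel ℓ N) := by
  constructor
  unfold auxLevel
  split_ifs with h
  · exact NeZero.ne N
  · exact mul_ne_zero (lvl_auxM0_pos ℓ).ne' (NeZero.ne N)

theorem lvl_not_dvd_auxM0 {ℓ : ℕ} (hℓ : ℓ.Prime) : ¬ ℓ ∣ auxM0 ℓ := by
  unfold auxM0
  split_ifs with h2 h3
  · subst h2; norm_num
  · subst h3; norm_num
  · exact hℓ.one_lt.ne' ∘ Nat.dvd_one.1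

theorem lvl_not_dvd_auxLevel {ℓ N : ℕ} (hℓ : ℓ.Prime) (hN : ¬ ℓ ∣ N) : ¬ ℓ ∣ auxLevel ℓ N := by
  unfold auxLevel
  split_ifs with h
  · exact hN
  · intro hd
    rcases (hℓ.dvd_mul).1 hd with h1 | h1
    · exact lvl_not_dvd_auxM0 hℓ h1
    · exact hN h1

/-- `F_N ⊆ F_M` -/
theorem lvl_le {N M : ℕ} [NeZero N] [NeZero M] (h : N ∣ M) :
    ModularCurve.modularFunctionFieldBar N ≤ ModularCurve.modularFunctionFieldBar M := by
  rw [ModularCurve.modularFunctionFieldBar, ModularCurve.laurentBaseChange, adjoin_le_iff]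
  rintro _ ⟨y, hy, rfl⟩
  exact ModularCurve.coeffEmb_mem_laurentBaseChange _ (ModularCurve.full_degeneracy_le h hy)

/-- the inclusion `F_N → F_M` -/
noncomputable def lvl_incl {N M : ℕ} [NeZero N] [NeZero M] (h : N ∣ M) : FN N →ₐ[Kb] FN M :=
  IntermediateField.inclusion (lvl_le h)

@[simp] theorem lvl_incl_coe {N M : ℕ} [NeZero N] [NeZero M] (h : N ∣ M) (f : FN N) :
    ((lvl_incl h f : FN M) : LaurentSeries Kb) = (f : LaurentSeries Kb) := by
  rw [lvl_incl]
  exact IntermediateField.coe_inclusion _ _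

theorem lvl_incl_injective {N M : ℕ} [NeZero N] [NeZero M] (h : N ∣ M) :
    Function.Injective (lvl_incl h) := (lvl_incl h).toRingHom.injective

theorem lvl_incl_jj {N M : ℕ} [NeZero N] [NeZero M] (h : N ∣ M) :
    lvl_incl h (jj N) = jj M := by
  apply Subtype.ext
  rw [lvl_incl_coe]
  rfl

/-- divisibility of all orders goes up -/
theorem lvl_ord_dvd {N M : ℕ} [NeZero N] [NeZero M] (h : N ∣ M) (m : ℕ) (f : FN N)
    (hf : ∀ P : Place Kb (FN N), (m : ℤ) ∣ P.ord f) (P' : Place Kb (FN M)) :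
    (m : ℤ) ∣ P'.ord (lvl_incl h f) := by
  rcases eq_or_ne f 0 with rfl | hf0
  · simp
  have hinj := lvl_incl_injective h
  have hne : ∀ x : FN N, x ≠ 0 → lvl_incl h x ≠ 0 := fun x hx =>
    (map_ne_zero_iff _ hinj).2 hx
  -- an element with positive order
  obtain ⟨s, hs0, hs⟩ : ∃ s : FN N, s ≠ 0 ∧ 0 < P'.ord (lvl_incl h s) := by
    have htr := transcendental_jj N
    have hj0 : jj N ≠ 0 := by
      rintro h0
      exact htr (h0 ▸ isAlgebraic_zero)
    by_cases hj : 0 ≤ P'.ord (jj M)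
    · obtain ⟨c, hc | hc⟩ := exists_sub_algebraMap_ord_pos (isFF M) P' hj
      · exact absurd hc (fun hc => not_mem_range_of_transcendental (transcendental_jj M) ⟨c, hc.symm⟩)
      · refine ⟨jj N - algebraMap Kb (FN N) c, ?_, ?_⟩
        · intro h0
          exact not_mem_range_of_transcendental htr ⟨c, (sub_eq_zero.1 h0).symm⟩
        · rw [map_sub, lvl_incl_jj, AlgHom.commutes]
          exact hc
    · refine ⟨(jj N)⁻¹, inv_ne_zero hj0, ?_⟩
      rw [map_inv₀, lvl_incl_jj, P'.ord_inv]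
      omega
  obtain ⟨v, e, -, he⟩ := exists_place_of_ordFun (K := Kb) (F := FN N)
    (fun x => P'.ord (lvl_incl h x))
    (fun x y hx hy => by
      simp only [map_mul]
      exact P'.ord_mul (hne x hx) (hne y hy))
    (fun x y _ _ hxy => by
      simp only [map_add]
      exact le_ord_add P' (by rw [← map_add]; exact hne _ hxy))
    (fun a _ => by
      simp only [AlgHom.commutes]
      exact ord_algebraMap P' a)
    hs0 hs
  have := he f hf0
  rw [this]
  exact Dvd.dvd.mul_left (hf v) _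

/-- the Laurent series of `j` -/
noncomputable def lvl_J : LaurentSeries Kb :=
  ModularCurve.coeffEmb Kb (ModularCurve.qExpand ℚ 1 ModularCurve.jq)

theorem lvl_J_le (N : ℕ) [NeZero N] : Kb⟮lvl_J⟯ ≤ ModularCurve.modularFunctionFieldBar N := by
  rw [adjoin_simple_le_iff]
  exact (jj N).2

theorem lvl_relfinrank_J (N : ℕ) [NeZero N] :
    relfinrank Kb⟮lvl_J⟯ (ModularCurve.modularFunctionFieldBar N) = Nat.card (X0 N) := by
  rw [← finrank_jj N, ← relfinrank_top_right,
    ← relfinrank_map_map _ _ (ModularCurve.modularFunctionFieldBar N).val]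
  congr 1
  · rw [adjoin_map, Set.image_singleton]
    rfl
  · rw [← AlgHom.fieldRange_eq_map, fieldRange_val]

theorem lvl_card_mul_relfinrank {N M : ℕ} [NeZero N] [NeZero M] (h : N ∣ M) :
    Nat.card (X0 N) * relfinrank (ModularCurve.modularFunctionFieldBar N)
      (ModularCurve.modularFunctionFieldBar M) = Nat.card (X0 M) := by
  rw [← lvl_relfinrank_J N, ← lvl_relfinrank_J M]
  exact relfinrank_mul_relfinrank (lvl_J_le N) (lvl_le h)

theorem lvl_card_X0_pos (N : ℕ) [NeZero N] : 0 < Nat.card (X0 N) := Nat.card_pos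

theorem lvl_card_X0_prime {p : ℕ} (hp : p.Prime) : Nat.card (X0 p) = p + 1 := by
  have := card_X0_prime_pow hp 0
  simpa using this

/-- the degree `[F_{auxLevel} : F_N]` is a power of `ℓ` -/
theorem lvl_relfinrank_aux {ℓ : ℕ} (N : ℕ) [NeZero N] :
    relfinrank (ModularCurve.modularFunctionFieldBar N)
      (ModularCurve.modularFunctionFieldBar (auxLevel ℓ N)) ∣ ℓ ^ 2 := by
  have key := lvl_card_mul_relfinrank (lvl_dvd_auxLevel ℓ N)
  have hpos := lvl_card_X0_pos N
  by_cases hd : auxM0 ℓ ∣ N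
  · have hE : auxLevel ℓ N = N := by
      unfold auxLevel; rw [if_pos hd]
    rw [hE]
    rw [relfinrank_self]
    exact one_dvd _
  · have hE : auxLevel ℓ N = auxM0 ℓ * N := by
      unfold auxLevel; rw [if_neg hd]
    have hcases : (ℓ = 2 ∧ auxM0 ℓ = 3) ∨ (ℓ = 3 ∧ auxM0 ℓ = 2) := by
      unfold auxM0 at hd ⊢
      split_ifs at hd ⊢ with h2 h3
      · exact Or.inl ⟨h2, rfl⟩
      · exact Or.inr ⟨h3, rfl⟩
      · exact absurd (one_dvd N) hd
    have hM0 : (auxM0 ℓ).Prime ∧ auxM0 ℓ + 1 ∣ ℓ ^ 2 := by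
      rcases hcases with ⟨h1, h2⟩ | ⟨h1, h2⟩ <;> rw [h2, h1] <;> norm_num
    have : NeZero (auxM0 ℓ) := ⟨hM0.1.ne_zero⟩
    have hcop : (auxM0 ℓ).Coprime N := (Nat.Prime.coprime_iff_not_dvd hM0.1).2 hd
    have hc : Nat.card (X0 (auxLevel ℓ N)) = (auxM0 ℓ + 1) * Nat.card (X0 N) := by
      rw [hE, card_X0_mul hcop, lvl_card_X0_prime hM0.1]
    rw [hc, mul_comm] at key
    have := Nat.eq_of_mul_eq_mul_right hpos key
    rw [this]
    exact hM0.2

/-- `m`-th powers come down along an extension of degree prime to `m` (abstract form) -/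
theorem lvl_descend_abs {K L : Type*} [Field K] [Field L] [Algebra K L]
    (A B : IntermediateField K L) (h : A ≤ B) {m : ℕ}
    (hcop : Nat.Coprime (relfinrank A B) m)
    (f : A) (s : B) (hs : (f : L) = (s : L) ^ m) : ∃ t : A, f = t ^ m := by
  rcases eq_or_ne f 0 with rfl | hf0
  · rcases Nat.eq_zero_or_pos m with rfl | hm
    · exfalso
      rw [pow_zero] at hs
      exact zero_ne_one hs
    · exact ⟨0, (zero_pow hm.ne').symm⟩
  set n := relfinrank A B with hn
  let E := extendScalars h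
  have hnE : n = Module.finrank A E := relfinrank_eq_finrank_of_le h
  let s' : E := ⟨(s : L), s.2⟩
  have hs' : algebraMap A E f = s' ^ m := by
    apply Subtype.ext
    simpa using hs
  have hfree : Module.Free A E := Module.Free.of_divisionRing _ _
  have hnorm : f ^ n = (Algebra.norm A s') ^ m := by
    rw [← map_pow, ← hs', Algebra.norm_algebraMap, hnE]
  set g := Algebra.norm A s' with hg
  -- Bezout
  have hb : (n : ℤ) * Nat.gcdA n m + m * Nat.gcdB n m = 1 := by
    have := Nat.gcd_eq_gcd_ab n m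
    rw [hcop] at this
    simpa using this.symm
  refine ⟨g ^ (Nat.gcdA n m) * f ^ (Nat.gcdB n m), ?_⟩
  rw [mul_pow, ← zpow_natCast (g ^ _), ← zpow_natCast (f ^ _), ← zpow_mul, ← zpow_mul,
    mul_comm (Nat.gcdA n m) (m : ℤ), zpow_mul, zpow_natCast, ← hnorm, ← zpow_natCast f n,
    ← zpow_mul, ← zpow_add₀ hf0, mul_comm (Nat.gcdB n m) (m : ℤ), hb, zpow_one]

/-- `m`-th powers come down along an extension of degree prime to `m` -/
theorem lvl_descend_gen {N M : ℕ} [NeZero N] [NeZero M] (h : N ∣ M) {m : ℕ}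
    (hcop : Nat.Coprime (relfinrank (ModularCurve.modularFunctionFieldBar N)
      (ModularCurve.modularFunctionFieldBar M)) m)
    (f : FN N) (s : FN M) (hs : lvl_incl h f = s ^ m) : ∃ t : FN N, f = t ^ m := by
  refine lvl_descend_abs _ _ (lvl_le h) hcop f s ?_
  rw [← lvl_incl_coe h f, hs]
  exact SubmonoidClass.coe_pow _ _

/-- C1 : `m`-th powers come down from the auxiliary level -/
theorem lvl_descend {ℓ N m : ℕ} [NeZero N] (hℓ : ℓ.Prime) (hm : ¬ ℓ ∣ m)
    (f : FN N) (s : FN (auxLevel ℓ N))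
    (hs : lvl_incl (lvl_dvd_auxLevel ℓ N) f = s ^ m) : ∃ t : FN N, f = t ^ m := by
  refine lvl_descend_gen (lvl_dvd_auxLevel ℓ N) ?_ f s hs
  refine Nat.Coprime.coprime_dvd_left (lvl_relfinrank_aux (ℓ := ℓ) N) ?_
  exact Nat.Coprime.pow_left 2 ((Nat.Prime.coprime_iff_not_dvd hℓ).2 hm)

end Fermat.Agent.S18Lib
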