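import Fermat.Agent.S18.Abs
import Fermat.Agent.S18.DescMod
import Fermat.Agent.S18.Level

set_option autoImplicit false

/-!
# S18 : final assembly, abstract in the coordinate

`fin_main` : at a level `M` for which a good coordinate exists over every number field,
a function `f = Y / Y'` with `Ȳ = Ȳ' ≠ 0` all of whose orders are divisible by `m` is an
`m`-th power.
-/

open Polynomial IntermediateField ModularCurve AlgebraicCurve

namespace Fermat.Agent.S18Lib

open Fermat.Agent.S24Lib (Kb FN)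

/-- the hypotheses of `abs_main` on the coordinate, over the number field `K0`. -/
def FinHyp (A : ValuationSubring Kb) (M : ℕ) (K0 : IntermediateField ℚ Kb)
    (Ov : ValuationSubring (modularFunctionFieldFullC K0 M)) : Prop :=
  ∀ π : descA0 A K0, Irreducible π →
    ∃ (x : modularFunctionFieldFullC K0 M) (D1 D2 : (descA0 A K0)[X]),
      Transcendental K0 x ∧ FiniteDimensional K0⟮x⟯ (modularFunctionFieldFullC K0 M) ∧
      GEData π x Ov ∧
      (∃ s ∈ Ov, algebraMap K0⟮x⟯ (modularFunctionFieldFullC K0 M)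
        (Algebra.trace K0⟮x⟯ (modularFunctionFieldFullC K0 M) s) /
          algebraMap (descA0 A K0) (modularFunctionFieldFullC K0 M) π ∉ Ov) ∧
      Squarefree (D1.map (Ideal.Quotient.mk (Ideal.span {π}))) ∧
      Squarefree (D2.map (Ideal.Quotient.mk (Ideal.span {π}))) ∧
      RamOutside K0 x (aeval x D1) ∧ RamOutside K0 x⁻¹ (aeval x⁻¹ D2)

/-- `Ov` sees the reduction of `q`-expansions: quotients of integral series with the same
non zero reduction are `≡ 1 mod π`. -/
def FinOv (A : ValuationSubring Kb) (M : ℕ) (K0 : IntermediateField ℚ Kb)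
    (Ov : ValuationSubring (modularFunctionFieldFullC K0 M)) : Prop :=
  ∀ π : descA0 A K0, Irreducible π →
    ∀ (Y Y' : LaurentSeries A) (y0 y0' : modularFunctionFieldFullC K0 M),
      coeffMap (algebraMap K0 Kb) (y0 : LaurentSeries K0) = coeffMap A.subtype Y →
      coeffMap (algebraMap K0 Kb) (y0' : LaurentSeries K0) = coeffMap A.subtype Y' →
      coeffMap (IsLocalRing.residue A) Y = coeffMap (IsLocalRing.residue A) Y' →
      coeffMap (IsLocalRing.residue A) Y ≠ 0 →
      (y0 / y0' - 1) / algebraMap (descA0 A K0) (modularFunctionFieldFullC K0 M) π ∈ Ov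

theorem fin_isUnit_natCast (A : ValuationSubring Kb) {ℓ : ℕ} (hℓ : ℓ.Prime)
    (hA : A.LiesOverPrime ℓ) (K0 : IntermediateField ℚ Kb) (m : ℕ) (hm : ¬ ℓ ∣ m) :
    IsUnit (m : descA0 A K0) := by
  by_contra hu
  have h1 : (m : descA0 A K0) ∈ IsLocalRing.maximalIdeal (descA0 A K0) :=
    (IsLocalRing.mem_maximalIdeal _).2 hu
  have h2 := descA0_natCast_mem A hA K0
  have hcop : Nat.Coprime ℓ m := (Nat.Prime.coprime_iff_not_dvd hℓ).2 hm
  have hb : (ℓ : ℤ) * Nat.gcdA ℓ m + m * Nat.gcdB ℓ m = 1 := by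
    have := Nat.gcd_eq_gcd_ab ℓ m
    rw [hcop] at this
    simpa using this.symm
  have h3 : (1 : descA0 A K0) ∈ IsLocalRing.maximalIdeal (descA0 A K0) := by
    have h4 : (1 : descA0 A K0) = (ℓ : descA0 A K0) * ((Nat.gcdA ℓ m : ℤ) : descA0 A K0) +
        (m : descA0 A K0) * ((Nat.gcdB ℓ m : ℤ) : descA0 A K0) := by
      have := congrArg (Int.cast : ℤ → descA0 A K0) hb
      push_cast at this
      exact this.symm
    rw [h4]
    exact Ideal.add_mem _ (Ideal.mul_mem_right _ _ h2) (Ideal.mul_mem_right _ _ h1)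
  exact (Ideal.ne_top_iff_one _).1 (IsLocalRing.maximalIdeal.isMaximal _).ne_top h3

theorem fin_ne_zero (A : ValuationSubring Kb) (Y : LaurentSeries A)
    (h : coeffMap (IsLocalRing.residue A) Y ≠ 0) : coeffMap A.subtype Y ≠ 0 := by
  intro h0
  apply h
  have : Y = 0 := by
    ext n
    have h1 := congrArg (fun s : LaurentSeries Kb => s.coeff n) h0
    simp only [coeffMap_coeff, HahnSeries.coeff_zero] at h1
    simpa using h1
  rw [this, map_zero]

theorem fin_main (M : ℕ) [NeZero M] {ℓ : ℕ} (hℓ : ℓ.Prime) (A : ValuationSubring Kb)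
    (hA : A.LiesOverPrime ℓ) (m : ℕ) (hm : ¬ ℓ ∣ m)
    (H : ∀ K0 : IntermediateField ℚ Kb, FiniteDimensional ℚ K0 →
      ∃ Ov : ValuationSubring (modularFunctionFieldFullC K0 M), FinOv A M K0 Ov ∧ FinHyp A M K0 Ov)
    (Y Y' : LaurentSeries A) (y y' : FN M)
    (hy : (y : LaurentSeries Kb) = coeffMap A.subtype Y)
    (hy' : (y' : LaurentSeries Kb) = coeffMap A.subtype Y')
    (hres : coeffMap (IsLocalRing.residue A) Y = coeffMap (IsLocalRing.residue A) Y')
    (hne : coeffMap (IsLocalRing.residue A) Y ≠ 0)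
    (hord : ∀ P : Place Kb (FN M), (m : ℤ) ∣ P.ord (y / y')) :
    ∃ s : FN M, y / y' = s ^ m := by
  classical
  have hm0 : m ≠ 0 := by
    rintro rfl
    exact hm (dvd_zero _)
  have hy0 : y ≠ 0 := by
    intro h0
    apply fin_ne_zero A Y hne
    rw [← hy, h0]
    rfl
  have hy'0 : y' ≠ 0 := by
    intro h0
    apply fin_ne_zero A Y' (hres ▸ hne)
    rw [← hy', h0]
    rfl
  have hf : y / y' ≠ 0 := div_ne_zero hy0 hy'0
  obtain ⟨K0, hfin, -, hT, f0, hf0, hV⟩ := desc_HVal M m (y / y') hf hord {y, y'} ∅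
  obtain ⟨z0, hz0⟩ := hT y (by simp)
  obtain ⟨z0', hz0'⟩ := hT y' (by simp)
  have hf0' : f0 = z0 / z0' := by
    apply (descBar K0 M).injective
    rw [hf0, map_div₀, hz0, hz0']
  have hf00 : f0 ≠ 0 := by
    rintro rfl
    exact hf (by rw [← hf0, map_zero])
  haveI : IsDiscreteValuationRing (descA0 A K0) := descA0_isDVR A hℓ.ne_zero hA K0
  obtain ⟨π, hπ⟩ := IsDiscreteValuationRing.exists_irreducible (descA0 A K0)
  obtain ⟨Ov, hOv, hH⟩ := H K0 hfin
  obtain ⟨x, D1, D2, hx, hfd, hGE, hsep, hD1, hD2, hr1, hr2⟩ := hH π hπ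
  have hf1 : (f0 - 1) / algebraMap (descA0 A K0) (modularFunctionFieldFullC K0 M) π ∈ Ov := by
    rw [hf0']
    refine hOv π hπ Y Y' z0 z0' ?_ ?_ hres hne
    · rw [← descBar_coe, hz0, hy]
    · rw [← descBar_coe, hz0', hy']
  obtain ⟨u, hu, halg⟩ := abs_main π hπ x hx hfd Ov hGE hsep D1 D2 hD1 hD2 hr1 hr2 m
    (fin_isUnit_natCast A hℓ hA K0 m hm) f0 hf00 hf1 hV
  obtain ⟨w, hw⟩ := desc_pow_of_algebraic K0 M m hm0 u f0 hu hf00 halg
  exact ⟨w, by rw [← hf0, hw]⟩

end Fermat.Agent.S18Lib
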