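import Fermat.Agent.S18.Chart

set_option autoImplicit false

/-!
# S18 : transitivity of the trace, transfer of the weak (GE4) from `j` to another coordinate
-/

open Polynomial IntermediateField

namespace Fermat.Agent.S18Lib

theorem getr_abs {A0 E1 E2 F0 : Type} [CommRing A0] [Field E1] [Field E2] [Field F0]
    [Algebra A0 E1] [Algebra A0 E2] [Algebra A0 F0] [Algebra E1 E2] [Algebra E2 F0] [Algebra E1 F0]
    [IsScalarTower E1 E2 F0] [IsScalarTower A0 E1 E2] [IsScalarTower A0 E2 F0]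
    [IsScalarTower A0 E1 F0] [FiniteDimensional E1 F0]
    (π : A0) (j1 : E1) (Ov : ValuationSubring F0) (hGE : GEData π (algebraMap E1 F0 j1) Ov)
    (s : F0) (hs : algebraMap E1 F0 (Algebra.trace E1 F0 s) / algebraMap A0 F0 π ∉ Ov) :
    algebraMap E2 F0 (Algebra.trace E2 F0 s) / algebraMap A0 F0 π ∉ Ov := by
  intro hu
  have hfd1 : FiniteDimensional E1 E2 := FiniteDimensional.left E1 E2 F0
  have hfd2 : FiniteDimensional E2 F0 := FiniteDimensional.right E1 E2 F0
  set j : F0 := algebraMap E1 F0 j1 with hj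
  have hπ0 : algebraMap A0 F0 π ≠ 0 := by
    intro h0
    apply hGE.hπ1
    rw [h0, inv_zero]
    exact zero_mem _
  have hπ2 : algebraMap A0 E2 π ≠ 0 := by
    intro h0
    apply hπ0
    rw [IsScalarTower.algebraMap_apply A0 E2 F0, h0, map_zero]
  set u : E2 := Algebra.trace E2 F0 s with hu_def
  set u' : E2 := u / algebraMap A0 E2 π with hu'
  have hu'F : algebraMap E2 F0 u' = algebraMap E2 F0 u / algebraMap A0 F0 π := by
    rw [hu', map_div₀, ← IsScalarTower.algebraMap_apply A0 E2 F0]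
  obtain ⟨Q, hQ, hint⟩ := hGE.hI _ hu
  -- `Q(j)` is a unit of `Ov`
  have hadj : ∀ a ∈ Algebra.adjoin A0 ({j} : Set F0), a ∈ Ov := by
    apply chart_adjoin_le_valuationSubring Ov hGE.hA
    rintro _ rfl
    exact hGE.ht
  have hQmem : aeval j Q ∈ Ov := hadj _ (aeval_mem_adjoin_singleton _ _)
  have hQinv : (aeval j Q)⁻¹ ∈ Ov := by
    by_contra hc
    exact hQ (hGE.hG Q (hGE.hπ2 _ hQmem hc))
  have hQ0 : aeval j Q ≠ 0 := by
    intro h0
    apply hQ
    apply hGE.hG Q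
    rw [h0, zero_div]
    exact zero_mem _
  -- the models of `A0[j]`
  let R1 : Subalgebra A0 E1 := Algebra.adjoin A0 {j1}
  let f : E1 →ₐ[A0] F0 := IsScalarTower.toAlgHom A0 E1 F0
  have hf : Function.Injective f := (algebraMap E1 F0).injective
  let e : R1 ≃ₐ[A0] R1.map f := R1.equivMapOfInjective f hf
  have hmap : R1.map f = Algebra.adjoin A0 {j} := by
    rw [AlgHom.map_adjoin_singleton]
    rfl
  have he : ∀ b : R1, algebraMap (R1.map f) F0 (e b) = algebraMap R1 F0 b := fun b => rfl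
  let z2 : E2 := algebraMap E1 E2 (aeval j1 Q) * u'
  have hz2 : algebraMap E2 F0 z2 = aeval j Q * (algebraMap E2 F0 u / algebraMap A0 F0 π) := by
    rw [map_mul, hu'F, ← IsScalarTower.algebraMap_apply E1 E2 F0, hj, aeval_algebraMap_apply]
  rw [← hz2] at hint
  have hint' : IsIntegral (R1.map f) (algebraMap E2 F0 z2) := chart_int_mono hmap.ge hint
  have h1 : IsIntegral R1 (algebraMap E2 F0 z2) := by
    refine chart_int_of_hom e.symm.toRingHom ?_ hint'
    intro a
    obtain ⟨b, rfl⟩ := e.surjective a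
    rw [he]
    congr 1
    exact e.symm_apply_apply b
  have h2 : IsIntegral R1 z2 := (isIntegral_algebraMap_iff (algebraMap E2 F0).injective).1 h1
  have h3 : IsIntegral R1 (Algebra.trace E1 E2 z2) := Algebra.isIntegral_trace h2
  have h3' : Algebra.trace E1 E2 z2 = aeval j1 Q * Algebra.trace E1 E2 u' := by
    have : z2 = (aeval j1 Q) • u' := by rw [Algebra.smul_def]
    rw [this, map_smul, smul_eq_mul]
  have h4 : IsIntegral R1 (algebraMap E1 F0 (Algebra.trace E1 E2 z2)) := h3.algebraMap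
  have h5 : IsIntegral (R1.map f) (algebraMap E1 F0 (Algebra.trace E1 E2 z2)) :=
    chart_int_of_hom e.toRingHom (fun b => he b) h4
  have h6 : algebraMap E1 F0 (Algebra.trace E1 E2 z2) ∈ Ov :=
    chart_mem_valuationSubring _ Ov hadj (chart_int_mono hmap.le h5)
  rw [h3', map_mul, ← aeval_algebraMap_apply, ← hj] at h6
  have h7 : algebraMap E1 F0 (Algebra.trace E1 E2 u') ∈ Ov := by
    have := Ov.mul_mem _ _ hQinv h6
    rwa [inv_mul_cancel_left₀ hQ0] at this
  apply hs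
  have h8 : Algebra.trace E1 F0 s = algebraMap A0 E1 π * Algebra.trace E1 E2 u' := by
    rw [← Algebra.trace_trace (S := E2), ← hu_def]
    have : u = (algebraMap A0 E1 π) • u' := by
      rw [Algebra.smul_def, ← IsScalarTower.algebraMap_apply A0 E1 E2, hu', mul_div_cancel₀ _ hπ2]
    rw [this, map_smul, smul_eq_mul]
  rw [h8, map_mul, ← IsScalarTower.algebraMap_apply A0 E1 F0, mul_div_cancel_left₀ _ hπ0]
  exact h7

/-- transfer of the weak (GE4) from `j` to any coordinate `t` with `j ∈ K0(t)` -/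
theorem getr_main {A0 K0 F0 : Type} [CommRing A0] [Field K0] [Field F0] [Algebra A0 K0]
    [Algebra K0 F0] [Algebra A0 F0] [IsScalarTower A0 K0 F0] (π : A0) (j t : F0)
    (Ov : ValuationSubring F0) (hGE : GEData π j Ov) (hjt : j ∈ K0⟮t⟯)
    [FiniteDimensional K0⟮j⟯ F0]
    (hs : ∃ s ∈ Ov, algebraMap K0⟮j⟯ F0 (Algebra.trace K0⟮j⟯ F0 s) / algebraMap A0 F0 π ∉ Ov) :
    ∃ s ∈ Ov, algebraMap K0⟮t⟯ F0 (Algebra.trace K0⟮t⟯ F0 s) / algebraMap A0 F0 π ∉ Ov := by
  obtain ⟨s, hsO, hs⟩ := hs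
  refine ⟨s, hsO, ?_⟩
  have hle : K0⟮j⟯ ≤ K0⟮t⟯ := adjoin_simple_le_iff.2 hjt
  letI : Algebra K0⟮j⟯ K0⟮t⟯ := (IntermediateField.inclusion hle).toRingHom.toAlgebra
  haveI : IsScalarTower K0⟮j⟯ K0⟮t⟯ F0 := IsScalarTower.of_algebraMap_eq (fun _ => rfl)
  haveI : IsScalarTower A0 K0⟮j⟯ K0⟮t⟯ := IsScalarTower.of_algebraMap_eq (fun _ => rfl)
  haveI : IsScalarTower A0 K0⟮t⟯ F0 := IsScalarTower.of_algebraMap_eq (fun _ => rfl)
  haveI : IsScalarTower A0 K0⟮j⟯ F0 := IsScalarTower.of_algebraMap_eq (fun _ => rfl)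
  exact getr_abs (E1 := K0⟮j⟯) (E2 := K0⟮t⟯) π ⟨j, mem_adjoin_simple_self K0 j⟩ Ov hGE s hs

end Fermat.Agent.S18Lib
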