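import Fermat.Agent.S18.Chart

/-!
# S18 [GEx] : transfer of (GE1)-(GE3) and of the weak (GE4) from the coordinate `j` to a coordinate
`x` with `x ^ m * j = R(x)`, `R` monic of degree `> m` (`x = h₂, h₃`).
-/

set_option autoImplicit false
set_option linter.unusedSectionVars false
set_option linter.unusedVariables false
set_option linter.style.haveILetI false

open Polynomial IntermediateField

namespace Fermat.Agent.S18Lib

section
variable {A0 K0 F0 : Type} [CommRing A0] [IsDomain A0] [IsDiscreteValuationRing A0]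
    [Field K0] [CharZero K0] [Algebra A0 K0] [IsFractionRing A0 K0]
    [Field F0] [Algebra K0 F0] [Algebra A0 F0] [IsScalarTower A0 K0 F0]

/-- `A0 → Ov` -/
def gexPhi (Ov : ValuationSubring F0) (hA : ∀ a : A0, algebraMap A0 F0 a ∈ Ov) : A0 →+* Ov where
  toFun a := ⟨algebraMap A0 F0 a, hA a⟩
  map_one' := Subtype.ext (map_one _)
  map_mul' _ _ := Subtype.ext (map_mul _ _ _)
  map_zero' := Subtype.ext (map_zero _)
  map_add' _ _ := Subtype.ext (map_add _ _ _)

theorem gex_aeval_mem (Ov : ValuationSubring F0) (hA : ∀ a : A0, algebraMap A0 F0 a ∈ Ov) {t : F0}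
    (ht : t ∈ Ov) (P : A0[X]) : aeval t P ∈ Ov :=
  chart_adjoin_le_valuationSubring Ov hA {t} (by rintro _ rfl; exact ht) _
    (aeval_mem_adjoin_singleton _ _)

theorem gex_pi_ne {π : A0} {t : F0} {Ov : ValuationSubring F0} (h : GEData π t Ov) :
    algebraMap A0 F0 π ≠ 0 := by
  intro h0
  apply h.hπ1
  rw [h0, inv_zero]
  exact Ov.zero_mem

/-- the residue of `y ∈ Ov` vanishes iff `y / π ∈ Ov` -/
theorem gex_res_iff {π : A0} {t : F0} {Ov : ValuationSubring F0} (h : GEData π t Ov) (y : F0)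
    (hy : y ∈ Ov) : IsLocalRing.residue Ov ⟨y, hy⟩ = 0 ↔ y / algebraMap A0 F0 π ∈ Ov := by
  rw [IsLocalRing.residue_eq_zero_iff, IsLocalRing.mem_maximalIdeal, mem_nonunits_iff]
  constructor
  · intro hnu
    by_cases hy0 : y = 0
    · rw [hy0, zero_div]; exact Ov.zero_mem
    · apply h.hπ2 y hy
      intro hinv
      exact hnu (IsUnit.of_mul_eq_one (⟨y⁻¹, hinv⟩ : Ov) (Subtype.ext (mul_inv_cancel₀ hy0)))
  · intro hd hu
    obtain ⟨b, hb⟩ := hu.exists_right_inv
    have hb' : y * (b : F0) = 1 := congrArg Subtype.val hb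
    apply h.hπ1
    have : (algebraMap A0 F0 π)⁻¹ = (y / algebraMap A0 F0 π) * b := by
      rw [div_mul_eq_mul_div, hb', one_div]
    rw [this]
    exact Ov.mul_mem _ _ hd b.2

/-- a unit of `Ov` is not divisible by `π` -/
theorem gex_unit_not_div {π : A0} {t : F0} {Ov : ValuationSubring F0} (h : GEData π t Ov) {u : F0}
    (hu0 : u ≠ 0) (hu : u⁻¹ ∈ Ov) : u / algebraMap A0 F0 π ∉ Ov := by
  intro hd
  apply h.hπ1
  have : (algebraMap A0 F0 π)⁻¹ = (u / algebraMap A0 F0 π) * u⁻¹ := by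
    field_simp
  rw [this]
  exact Ov.mul_mem _ _ hd hu

/-- `Q(t)` is a unit of `Ov` if `π ∤ Q` -/
theorem gex_aeval_unit {π : A0} {t : F0} {Ov : ValuationSubring F0} (h : GEData π t Ov) (Q : A0[X])
    (hQ : ¬ C π ∣ Q) : (aeval t Q)⁻¹ ∈ Ov := by
  by_contra hc
  exact hQ (h.hG Q (h.hπ2 _ (gex_aeval_mem Ov h.hA h.ht Q) hc))

/-- the residue of `P(t)` -/
theorem gex_res_aeval (Ov : ValuationSubring F0) (hA : ∀ a : A0, algebraMap A0 F0 a ∈ Ov) {t : F0}
    (ht : t ∈ Ov) (P : A0[X]) :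
    IsLocalRing.residue Ov ⟨aeval t P, gex_aeval_mem Ov hA ht P⟩ =
      eval₂ ((IsLocalRing.residue Ov).comp (gexPhi Ov hA)) (IsLocalRing.residue Ov ⟨t, ht⟩) P := by
  have h1 : (⟨aeval t P, gex_aeval_mem Ov hA ht P⟩ : Ov) = eval₂ (gexPhi Ov hA) ⟨t, ht⟩ P := by
    apply Subtype.ext
    have := hom_eval₂ P (gexPhi Ov hA) Ov.subtype ⟨t, ht⟩
    rw [show ((eval₂ (gexPhi Ov hA) ⟨t, ht⟩ P : Ov) : F0) =
      Ov.subtype (eval₂ (gexPhi Ov hA) ⟨t, ht⟩ P) from rfl, this]
    show aeval t P = _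
    rw [aeval_def]
    rfl
  rw [h1, hom_eval₂]

theorem gex_mem_max_iff {π : A0} (hπ : Irreducible π) (a : A0) :
    a ∈ IsLocalRing.maximalIdeal A0 ↔ π ∣ a := by
  rw [(IsDiscreteValuationRing.irreducible_iff_uniformizer π).1 hπ, Ideal.mem_span_singleton]

/-- `A0 / 𝔪 → Ov / 𝔪` -/
noncomputable def gexRho {π : A0} (hπ : Irreducible π) {t : F0} {Ov : ValuationSubring F0}
    (h : GEData π t Ov) : IsLocalRing.ResidueField A0 →+* IsLocalRing.ResidueField Ov :=
  Ideal.Quotient.lift (IsLocalRing.maximalIdeal A0)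
    ((IsLocalRing.residue Ov).comp (gexPhi Ov h.hA)) (by
      intro a ha
      obtain ⟨b, rfl⟩ := (gex_mem_max_iff hπ a).1 ha
      rw [RingHom.comp_apply]
      show IsLocalRing.residue Ov ⟨algebraMap A0 F0 (π * b), h.hA _⟩ = 0
      rw [gex_res_iff h, map_mul, mul_div_cancel_left₀ _ (gex_pi_ne h)]
      exact h.hA b)

theorem gexRho_comp {π : A0} (hπ : Irreducible π) {t : F0} {Ov : ValuationSubring F0}
    (h : GEData π t Ov) : (gexRho hπ h).comp (IsLocalRing.residue A0) =
      (IsLocalRing.residue Ov).comp (gexPhi Ov h.hA) := by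
  ext a
  rfl

theorem gex_map_eq_zero_iff {π : A0} (hπ : Irreducible π) (P : A0[X]) :
    P.map (IsLocalRing.residue A0) = 0 ↔ C π ∣ P := by
  rw [C_dvd_iff_dvd_coeff, Polynomial.ext_iff]
  refine forall_congr' fun i => ?_
  rw [coeff_map, coeff_zero, IsLocalRing.residue_eq_zero_iff, gex_mem_max_iff hπ]

/-- (GE2) for `s` is the transcendence of the residue of `s` -/
theorem gex_hG_iff {π : A0} (hπ : Irreducible π) {t : F0} {Ov : ValuationSubring F0}
    (h : GEData π t Ov) {s : F0} (hs : s ∈ Ov) :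
    letI := (gexRho hπ h).toAlgebra
    (∀ P : A0[X], aeval s P / algebraMap A0 F0 π ∈ Ov → C π ∣ P) ↔
      Transcendental (IsLocalRing.ResidueField A0) (IsLocalRing.residue Ov ⟨s, hs⟩) := by
  letI := (gexRho hπ h).toAlgebra
  have key : ∀ P : A0[X], aeval s P / algebraMap A0 F0 π ∈ Ov ↔
      aeval (IsLocalRing.residue Ov ⟨s, hs⟩) (P.map (IsLocalRing.residue A0)) = 0 := by
    intro P
    rw [← gex_res_iff h _ (gex_aeval_mem Ov h.hA hs P), gex_res_aeval Ov h.hA hs P, aeval_def,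
      eval₂_map]
    have : (algebraMap (IsLocalRing.ResidueField A0) (IsLocalRing.ResidueField Ov)).comp
        (IsLocalRing.residue A0) = (IsLocalRing.residue Ov).comp (gexPhi Ov h.hA) :=
      gexRho_comp hπ h
    rw [this]
  rw [transcendental_iff]
  constructor
  · intro hG p hp
    obtain ⟨P, rfl⟩ := Polynomial.map_surjective _ IsLocalRing.residue_surjective p
    exact (gex_map_eq_zero_iff hπ P).2 (hG P ((key P).2 hp))
  · intro hT P hP
    exact (gex_map_eq_zero_iff hπ P).1 (hT _ ((key P).1 hP))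

end

/-- transcendence goes up along `x ^ m * j = R(x)` -/
theorem gex_transc {k κ : Type*} [Field k] [Field κ] [Algebra k κ] {jb xb : κ}
    (hj : Transcendental k jb) (m : ℕ) (Rb : k[X]) (hx0 : xb ≠ 0)
    (hrel : xb ^ m * jb = aeval xb Rb) : Transcendental k xb := by
  intro halg
  apply hj
  have hx : xb ∈ algebraicClosure k κ := mem_algebraicClosure_iff.2 halg
  have h1 : aeval xb Rb ∈ algebraicClosure k κ := by
    have := IntermediateField.aeval_coe (algebraicClosure k κ) (⟨xb, hx⟩ : algebraicClosure k κ) Rb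
    rw [this]
    exact Subtype.prop _
  have h2 : jb = aeval xb Rb / xb ^ m := by
    rw [eq_div_iff (pow_ne_zero _ hx0), ← hrel, mul_comm]
  rw [← mem_algebraicClosure_iff, h2]
  exact div_mem h1 (pow_mem hx m)

section
variable {A0 K0 F0 : Type} [CommRing A0] [IsDomain A0] [IsDiscreteValuationRing A0]
    [Field K0] [CharZero K0] [Algebra A0 K0] [IsFractionRing A0 K0]
    [Field F0] [Algebra K0 F0] [Algebra A0 F0] [IsScalarTower A0 K0 F0]

/-- `x` is integral over `A0[j]` -/
theorem gex_x_integral {j x : F0} (m : ℕ) (R : A0[X]) (hR : R.Monic) (hdeg : m < R.natDegree)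
    (hrel : x ^ m * j = aeval x R) : x ∈ chartS A0 j := by
  rw [mem_chartS]
  set B := Algebra.adjoin A0 ({j} : Set F0) with hB
  let jB : B := ⟨j, Algebra.self_mem_adjoin_singleton A0 j⟩
  refine ⟨R.map (algebraMap A0 B) - C jB * X ^ m, ?_, ?_⟩
  · refine (hR.map _).sub_of_left ?_
    refine lt_of_le_of_lt (degree_C_mul_X_pow_le m jB) ?_
    rw [degree_eq_natDegree (hR.map _).ne_zero, hR.natDegree_map]
    exact_mod_cast hdeg
  · rw [eval₂_sub, eval₂_mul, eval₂_C, eval₂_pow, eval₂_X, eval₂_map,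
      ← IsScalarTower.algebraMap_eq A0 B F0, ← aeval_def, ← hrel]
    show x ^ m * j - j * x ^ m = 0
    ring

/-- clearing the denominators of `Q(j)` -/
theorem gex_clear {j x : F0} (m : ℕ) (R : A0[X]) (hrel : x ^ m * j = aeval x R) (Q : A0[X]) :
    ∃ Q' : A0[X], aeval x Q' = x ^ (m * Q.natDegree) * aeval j Q := by
  refine ⟨∑ i ∈ Finset.range (Q.natDegree + 1),
    C (Q.coeff i) * X ^ (m * (Q.natDegree - i)) * R ^ i, ?_⟩
  rw [map_sum, aeval_eq_sum_range, Finset.mul_sum]
  refine Finset.sum_congr rfl fun i hi => ?_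
  rw [Finset.mem_range] at hi
  have e : m * Q.natDegree = m * (Q.natDegree - i) + m * i := by
    rw [← Nat.mul_add]; congr 1; omega
  rw [map_mul, map_mul, map_pow, map_pow, aeval_C, aeval_X, ← hrel, e, pow_add, pow_mul x m i,
    Algebra.smul_def, mul_pow]
  ring

/-- transfer of (GE1)-(GE3) from `j` to `x` -/
theorem gex_data {π : A0} (hπ : Irreducible π) {j x : F0} {Ov : ValuationSubring F0}
    (h : GEData π j Ov) (hx0 : x ≠ 0) (m : ℕ) (hm : 0 < m) (R : A0[X]) (hR : R.Monic)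
    (hdeg : m < R.natDegree) (hrel : x ^ m * j = aeval x R) (hR0 : ¬ π ∣ R.coeff 0) :
    GEData π x Ov := by
  have hx : x ∈ Ov := chart_le_Ov h x (gex_x_integral m R hR hdeg hrel)
  have hxi : x⁻¹ ∈ Ov := by
    by_contra hc
    have h1 := h.hπ2 x hx hc
    apply hR0
    have h2 : C π ∣ (C (R.coeff 0) : A0[X]) := by
      apply h.hG
      rw [aeval_C]
      have h3 : algebraMap A0 F0 (R.coeff 0) = x * (x ^ (m - 1) * j - aeval x R.divX) := by
        have h4 : aeval x R = aeval x R.divX * x + algebraMap A0 F0 (R.coeff 0) := by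
          conv_lhs => rw [← divX_mul_X_add R]
          rw [map_add, map_mul, aeval_X, aeval_C]
        have h5 : x ^ m = x * x ^ (m - 1) := by
          rw [← pow_succ']; congr 1; omega
        rw [h5] at hrel
        linear_combination -h4 - hrel
      rw [h3, mul_div_right_comm]
      exact Ov.mul_mem _ _ h1 (Ov.sub_mem (Ov.mul_mem _ _ (Ov.pow_mem hx _) h.ht)
        (gex_aeval_mem Ov h.hA hx _))
    exact C_dvd_iff_dvd_coeff _ _ |>.1 h2 0 |> fun h => by simpa using h
  refine ⟨h.hA, hx, h.hπ1, h.hπ2, ?_, ?_⟩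
  · -- (GE2)
    letI := (gexRho hπ h).toAlgebra
    rw [gex_hG_iff hπ h hx]
    have hj := (gex_hG_iff hπ h h.ht).1 h.hG
    refine gex_transc hj m (R.map (IsLocalRing.residue A0)) ?_ ?_
    · intro h0
      rw [gex_res_iff h] at h0
      exact gex_unit_not_div h hx0 hxi h0
    · have h1 := gex_res_aeval Ov h.hA hx R
      rw [aeval_def, eval₂_map]
      have : (algebraMap (IsLocalRing.ResidueField A0) (IsLocalRing.ResidueField Ov)).comp
          (IsLocalRing.residue A0) = (IsLocalRing.residue Ov).comp (gexPhi Ov h.hA) :=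
        gexRho_comp hπ h
      rw [this, ← h1, ← map_pow, ← map_mul]
      congr 1
      exact Subtype.ext hrel
  · -- (GE3)
    intro y hy
    obtain ⟨Q, hQ, hint⟩ := h.hI y hy
    have hle : Algebra.adjoin A0 ({j} : Set F0) ≤ Algebra.adjoin A0 ({x, x⁻¹} : Set F0) := by
      refine Algebra.adjoin_le ?_
      intro a ha
      rw [Set.mem_singleton_iff] at ha
      rw [ha]
      have hj : j = x⁻¹ ^ m * aeval x R := by
        rw [← hrel, ← mul_assoc, ← mul_pow, inv_mul_cancel₀ hx0, one_pow, one_mul]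
      show j ∈ Algebra.adjoin A0 ({x, x⁻¹} : Set F0)
      rw [hj]
      refine mul_mem (pow_mem (Algebra.subset_adjoin (by simp)) _) ?_
      exact Algebra.adjoin_mono (Set.singleton_subset_iff.mpr (Set.mem_insert _ _))
        (aeval_mem_adjoin_singleton _ _)
    obtain ⟨n, hn⟩ := chart12_left (A0 := A0) hx0 (aeval j Q * y)
      (mem_chartS12.2 (chart_int_mono hle hint))
    obtain ⟨Q', hQ'⟩ := gex_clear m R hrel Q
    have hval : aeval x (X ^ n * Q') = x ^ n * (x ^ (m * Q.natDegree) * aeval j Q) := by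
      rw [map_mul, map_pow, aeval_X, hQ']
    refine ⟨X ^ n * Q', ?_, ?_⟩
    · rintro ⟨P, hP⟩
      have hQj := gex_aeval_unit h Q hQ
      have hQ0 : aeval j Q ≠ 0 := by
        intro h0
        apply hQ
        apply h.hG
        rw [h0, zero_div]
        exact Ov.zero_mem
      refine gex_unit_not_div h (u := aeval x (X ^ n * Q')) ?_ ?_ ?_
      · rw [hval]
        exact mul_ne_zero (pow_ne_zero _ hx0) (mul_ne_zero (pow_ne_zero _ hx0) hQ0)
      · rw [hval, mul_inv, mul_inv, ← inv_pow, ← inv_pow]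
        exact Ov.mul_mem _ _ (Ov.pow_mem hxi _) (Ov.mul_mem _ _ (Ov.pow_mem hxi _) hQj)
      · rw [hP, map_mul, aeval_C, mul_div_cancel_left₀ _ (gex_pi_ne h)]
        exact gex_aeval_mem Ov h.hA hx P
    · rw [← mem_chartS, hval]
      have : x ^ n * (x ^ (m * Q.natDegree) * aeval j Q) * y =
          aeval x (X ^ (m * Q.natDegree) : A0[X]) * (x ^ n * (aeval j Q * y)) := by
        rw [map_pow, aeval_X]; ring
      rw [this]
      exact mul_mem (chart_aeval_mem _) hn
end
end Fermat.Agent.S18Lib
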