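import Fermat.Agent.S18.FinalJ
import Fermat.Agent.S18.FinF0
import Fermat.Agent.S18.HUFin
import Fermat.Agent.S18.DescFF
import Fermat.Agent.S18.GEx
import Fermat.Agent.S18.GETr
import Fermat.Agent.S18.H2Mem
import Fermat.Agent.S18.H3Mem

set_option autoImplicit false

/-!
# S18 : the good coordinate at the auxiliary level
-/

open Polynomial IntermediateField ModularCurve AlgebraicCurve

namespace Fermat.Agent.S18Lib

open Fermat.Agent.S24Lib (Kb FN)

/-- abstract : `j ∈ K(x)` from a relation `j * x ^ n = r`, `r ∈ K(x)` -/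
theorem finh_mem_adjoin {K F : Type*} [Field K] [Field F] [Algebra K F] (j x r : F) (n : ℕ)
    (hx0 : x ≠ 0) (hr : r ∈ K⟮x⟯) (hrel : j * x ^ n = r) : j ∈ K⟮x⟯ := by
  have : j = r / x ^ n := by
    rw [eq_div_iff (pow_ne_zero _ hx0), hrel]
  rw [this]
  exact div_mem hr (pow_mem (mem_adjoin_simple_self K x) n)

/-- relations between elements of an intermediate field can be checked in the big field -/
theorem finh_rel2 {K L : Type*} [Field K] [Field L] [Algebra K L] (F : IntermediateField K L)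
    (j x : F) (h : (j : L) * (x : L) ^ 2 = ((x : L) + 256) ^ 3) : j * x ^ 2 = (x + 256) ^ 3 := by
  apply F.val.injective
  simp only [map_mul, map_pow, map_add, map_ofNat]
  exact h

theorem finh_rel3 {K L : Type*} [Field K] [Field L] [Algebra K L] (F : IntermediateField K L)
    (j x : F) (h : (j : L) * (x : L) ^ 3 = ((x : L) + 27) * ((x : L) + 243) ^ 3) :
    j * x ^ 3 = (x + 27) * (x + 243) ^ 3 := by
  apply F.val.injective
  simp only [map_mul, map_pow, map_add, map_ofNat]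
  exact h

section

variable (M : ℕ) [NeZero M] (A : ValuationSubring Kb) (K0 : IntermediateField ℚ Kb)

/-- `h2` as an element of `F0` -/
noncomputable def finhX2 (hM : 2 ∣ M) : modularFunctionFieldFullC K0 M :=
  ⟨h2 K0, h2_mem_full K0 two_ne_zero M hM⟩

/-- `h3` as an element of `F0` -/
noncomputable def finhX3 (hM : 3 ∣ M) : modularFunctionFieldFullC K0 M :=
  ⟨h3 K0, h3_mem_full K0 three_ne_zero M hM⟩

theorem finhX2_rel (hM : 2 ∣ M) :
    descJ K0 M * finhX2 M K0 hM ^ 2 = (finhX2 M K0 hM + 256) ^ 3 :=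
  finh_rel2 _ _ _ (h2_j K0)

theorem finhX3_rel (hM : 3 ∣ M) :
    descJ K0 M * finhX3 M K0 hM ^ 3 = (finhX3 M K0 hM + 27) * (finhX3 M K0 hM + 243) ^ 3 :=
  finh_rel3 _ _ _ (h3_j K0)

end

/-- the transfer from `j` to `x`, abstract form -/
theorem finh_transfer {A0 K0 F0 : Type} [CommRing A0] [IsDomain A0] [IsDiscreteValuationRing A0]
    [Field K0] [CharZero K0] [Algebra A0 K0] [IsFractionRing A0 K0]
    [Field F0] [Algebra K0 F0] [Algebra A0 F0] [IsScalarTower A0 K0 F0]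
    {π : A0} (hπ : Irreducible π) {j x : F0} {Ov : ValuationSubring F0}
    (h : GEData π j Ov) [FiniteDimensional K0⟮j⟯ F0]
    (hs : ∃ s ∈ Ov, algebraMap K0⟮j⟯ F0 (Algebra.trace K0⟮j⟯ F0 s) / algebraMap A0 F0 π ∉ Ov)
    (hx0 : x ≠ 0) (m : ℕ) (hm : 0 < m) (R : A0[X]) (hR : R.Monic)
    (hdeg : m < R.natDegree) (hrel : j * x ^ m = aeval x R) (hR0 : ¬ π ∣ R.coeff 0) :
    GEData π x Ov ∧
      ∃ s ∈ Ov, algebraMap K0⟮x⟯ F0 (Algebra.trace K0⟮x⟯ F0 s) / algebraMap A0 F0 π ∉ Ov := by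
  refine ⟨gex_data hπ h hx0 m hm R hR hdeg (by rw [mul_comm, hrel]) hR0, ?_⟩
  refine getr_main π j x Ov h ?_ hs
  refine finh_mem_adjoin j x _ m hx0 ?_ hrel
  have h1 : aeval x R = aeval x (R.map (algebraMap A0 K0)) := by
    rw [aeval_map_algebraMap]
  rw [h1]
  exact IntermediateField.algebra_adjoin_le_adjoin K0 {x} (aeval_mem_adjoin_singleton _ _)

theorem finh_transfer_h2 {A0 K0 F0 : Type} [CommRing A0] [IsDomain A0]
    [IsDiscreteValuationRing A0]
    [Field K0] [CharZero K0] [Algebra A0 K0] [IsFractionRing A0 K0]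
    [Field F0] [Algebra K0 F0] [Algebra A0 F0] [IsScalarTower A0 K0 F0]
    {π : A0} (hπ : Irreducible π) {j x : F0} {Ov : ValuationSubring F0}
    (h : GEData π j Ov) [FiniteDimensional K0⟮j⟯ F0]
    (hs : ∃ s ∈ Ov, algebraMap K0⟮j⟯ F0 (Algebra.trace K0⟮j⟯ F0 s) / algebraMap A0 F0 π ∉ Ov)
    (hx0 : x ≠ 0) (hrel : j * x ^ 2 = (x + 256) ^ 3) (hu : ¬ π ∣ ((256 ^ 3 : ℕ) : A0)) :
    GEData π x Ov ∧
      ∃ s ∈ Ov, algebraMap K0⟮x⟯ F0 (Algebra.trace K0⟮x⟯ F0 s) / algebraMap A0 F0 π ∉ Ov := by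
  refine finh_transfer (K0 := K0) hπ h hs hx0 2 (by norm_num) ((X + C 256) ^ 3)
    ((monic_X_add_C _).pow 3) ?_ ?_ ?_
  · rw [natDegree_pow_X_add_C]
    norm_num
  · rw [hrel]
    simp only [map_pow, map_add, aeval_X, aeval_C, map_ofNat]
  · rw [coeff_zero_eq_eval_zero]
    simp only [eval_pow, eval_add, eval_X, eval_C, zero_add]
    intro hd
    apply hu
    norm_num at hd ⊢
    exact hd

theorem finh_transfer_h3 {A0 K0 F0 : Type} [CommRing A0] [IsDomain A0]
    [IsDiscreteValuationRing A0]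
    [Field K0] [CharZero K0] [Algebra A0 K0] [IsFractionRing A0 K0]
    [Field F0] [Algebra K0 F0] [Algebra A0 F0] [IsScalarTower A0 K0 F0]
    {π : A0} (hπ : Irreducible π) {j x : F0} {Ov : ValuationSubring F0}
    (h : GEData π j Ov) [FiniteDimensional K0⟮j⟯ F0]
    (hs : ∃ s ∈ Ov, algebraMap K0⟮j⟯ F0 (Algebra.trace K0⟮j⟯ F0 s) / algebraMap A0 F0 π ∉ Ov)
    (hx0 : x ≠ 0) (hrel : j * x ^ 3 = (x + 27) * (x + 243) ^ 3)
    (hu : ¬ π ∣ ((27 * 243 ^ 3 : ℕ) : A0)) :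
    GEData π x Ov ∧
      ∃ s ∈ Ov, algebraMap K0⟮x⟯ F0 (Algebra.trace K0⟮x⟯ F0 s) / algebraMap A0 F0 π ∉ Ov := by
  refine finh_transfer (K0 := K0) hπ h hs hx0 3 (by norm_num) ((X + C 27) * (X + C 243) ^ 3)
    ((monic_X_add_C _).mul ((monic_X_add_C _).pow 3)) ?_ ?_ ?_
  · rw [(monic_X_add_C _).natDegree_mul ((monic_X_add_C _).pow 3), natDegree_pow_X_add_C,
      natDegree_X_add_C]
    norm_num
  · rw [hrel]
    simp only [map_mul, map_pow, map_add, aeval_X, aeval_C, map_ofNat]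
  · rw [coeff_zero_eq_eval_zero]
    simp only [eval_mul, eval_pow, eval_add, eval_X, eval_C, zero_add]
    intro hd
    apply hu
    norm_num at hd ⊢
    exact hd

theorem fin_H (M : ℕ) [NeZero M] {ℓ : ℕ} (hℓ : ℓ.Prime) (hℓM : ¬ ℓ ∣ M) (hM0 : auxM0 ℓ ∣ M)
    (A : ValuationSubring Kb) (hA : A.LiesOverPrime ℓ)
    (K0 : IntermediateField ℚ Kb) (hfin : FiniteDimensional ℚ K0) :
    ∃ Ov : ValuationSubring (modularFunctionFieldFullC K0 M),
      FinOv A M K0 Ov ∧ FinHyp A M K0 Ov := by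
  haveI : IsDiscreteValuationRing (descA0 A K0) := descA0_isDVR A hℓ.ne_zero hA K0
  obtain ⟨hF, hJ⟩ := fin_J M hℓ hℓM A hA K0
  refine ⟨geOv (descA0 A K0) (modularFunctionFieldFullC K0 M) hF, ?_, ?_⟩
  · intro π hπ Y Y' y0 y0' hy hy' hres hne
    exact (finf_hf1 A K0 M hF hπ Y Y' hres hne y0 y0' hy hy').2
  · intro π hπ
    obtain ⟨hGE, hsep⟩ := hJ π hπ
    have hmem := descA0_natCast_mem A hA K0
    have hfdJ := desc_finiteDimensional K0 M _ (desc_transcendental_J K0 M)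
    by_cases h2 : ℓ = 2
    · -- `x = h3`
      subst h2
      have hM3 : 3 ∣ M := by simpa [auxM0] using hM0
      have hrel := finhX3_rel M K0 hM3
      have htr := huf_transc_h3 M K0 _ hrel
      have hfd := desc_finiteDimensional K0 M _ htr
      have hx0 : finhX3 M K0 hM3 ≠ 0 := fun h0 => htr (h0 ▸ isAlgebraic_zero)
      obtain ⟨g1, g2⟩ := finh_transfer_h3 (K0 := K0) hπ hGE hsep hx0 hrel
        (finf_not_dvd A Nat.prime_two hA K0 (by norm_num) hπ)
      exact ⟨_, X * (X + C 27), X * (1 + C 27 * X), htr, hfd, g1, g2, finf_sqf_h3 hmem hπ,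
        finf_sqf_inv_add hπ 27, huf_h3 M A K0 _ hrel hfd, huf_h3_inv M A K0 _ hrel hfd⟩
    · by_cases h3 : ℓ = 3
      · subst h3
        have hM2 : 2 ∣ M := by simpa [auxM0] using hM0
        have hrel := finhX2_rel M K0 hM2
        have htr := huf_transc_h2 M K0 _ hrel
        have hfd := desc_finiteDimensional K0 M _ htr
        have hx0 : finhX2 M K0 hM2 ≠ 0 := fun h0 => htr (h0 ▸ isAlgebraic_zero)
        obtain ⟨g1, g2⟩ := finh_transfer_h2 (K0 := K0) hπ hGE hsep hx0 hrel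
          (finf_not_dvd A Nat.prime_three hA K0 (by norm_num) hπ)
        exact ⟨_, X * (X + C 64), X * (1 + C 64 * X), htr, hfd, g1, g2, finf_sqf_h2 hmem hπ,
          finf_sqf_inv_add hπ 64, huf_h2 M A K0 _ hrel hfd, huf_h2_inv M A K0 _ hrel hfd⟩
      · exact ⟨descJ K0 M, X * (X - C 1728), X * (1 - C 1728 * X), desc_transcendental_J K0 M,
          hfdJ, hGE, hsep, finf_sqf_j hℓ hmem h2 h3 hπ, finf_sqf_inv_sub hπ 1728,
          huf_j M A K0 hfdJ, huf_j_inv M A K0 hfdJ⟩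

end Fermat.Agent.S18Lib
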