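import Fermat.Agent.S18.GEBase

/-!
# S18 [GE] : `GEData` for the coordinate `j`
-/

set_option autoImplicit false
set_option linter.unusedSectionVars false

open ModularCurve Polynomial IsLocalRing IntermediateField

namespace Fermat.Agent.S18Lib

open Fermat.Agent.S20Lib Fermat.Agent.S24Lib Fermat.Agent.S28Lib

variable {A K : Type} [CommRing A] [IsDomain A] [IsDiscreteValuationRing A] [Field K] [CharZero K]
  [Algebra A K] [IsFractionRing A K] {N : ℕ} [NeZero N]
  [Algebra A (modularFunctionFieldFullC K N)] [IsScalarTower A K (modularFunctionFieldFullC K N)]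
  {ℓ : ℕ} [Fact ℓ.Prime]

/-- every element of the function field is `B(j,t)/g(j)` with `A`-integral `g ≠ 0`, `B` -/
theorem ge_span (hℓN : ¬ ℓ ∣ N) (y : modularFunctionFieldFullC K N) :
    ∃ g : A[X], g ≠ 0 ∧ ∃ B : A[X][X], geF A K N (C g) * y = geF A K N B := by
  obtain ⟨g, hg, B, hB⟩ := gein_span N ℓ hℓN K (y : LaurentSeries K) y.2
  obtain ⟨c, hc, g', B', hg', hB'⟩ := ge_clear A g B
  have hcK : algebraMap A K c ≠ 0 := fun h =>
    hc ((map_eq_zero_iff _ (IsFractionRing.injective A K)).mp h)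
  refine ⟨g', ?_, B', ?_⟩
  · rintro rfl
    rw [Polynomial.map_zero] at hg'
    rcases mul_eq_zero.mp hg'.symm with h | h
    · exact hcK (C_eq_zero.mp h)
    · exact hg h
  · apply Subtype.ext
    show ((geF A K N (C g') : modularFunctionFieldFullC K N) : LaurentSeries K) *
      (y : LaurentSeries K) = _
    rw [geF_coe, geF_coe, coeffMap_geEv, coeffMap_geEv, hB', Polynomial.map_C, coe_mapRingHom, hg',
      map_mul, map_mul, map_mul, mul_assoc, hB]

/-- reduction modulo `Φ` -/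
theorem ge_span_lt (hℓ : (ℓ : A) ∈ maximalIdeal A) (hℓN : ¬ ℓ ∣ N)
    (y : modularFunctionFieldFullC K N) :
    ∃ g : A[X], g ≠ 0 ∧ ∃ B : A[X][X], B.natDegree < Fintype.card (X0 N) ∧
      geF A K N (C g) * y = geF A K N B := by
  obtain ⟨g, hg, B, hB⟩ := ge_span (A := A) hℓN y
  obtain ⟨Φ, hm, hdeg, h0, -⟩ := ge_exists_Phi (A := A) (N := N) K hℓ hℓN
  have hpos : 0 < Fintype.card (X0 N) := Fintype.card_pos
  have hne1 : Φ ≠ 1 := by
    rintro rfl
    rw [natDegree_one] at hdeg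
    omega
  have hF0 : geF A K N Φ = 0 := by
    apply Subtype.ext
    rw [geF_coe, h0, map_zero]
    rfl
  refine ⟨g, hg, B %ₘ Φ, hdeg ▸ natDegree_modByMonic_lt B hm hne1, ?_⟩
  rw [hB]
  conv_lhs => rw [← modByMonic_add_div B Φ]
  rw [map_add, map_mul, hF0, zero_mul, add_zero]

theorem geF_mem_Ov (B : A[X][X]) : geF A K N B ∈ geOvN A K N :=
  geOvN_int _ _ (geF_coe A K N B)

theorem geF_C_C (a : A) :
    geF A K N (C (C a)) = algebraMap A (modularFunctionFieldFullC K N) a := by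
  rw [geF_C, aeval_C]

theorem ge_norm (hℓ : (ℓ : A) ∈ maximalIdeal A) (hℓN : ¬ ℓ ∣ N) {π : A} (hπ : Irreducible π)
    (y : modularFunctionFieldFullC K N) (hy : y ∈ geOvN A K N) (g : A[X]) (k : ℕ) :
    ∀ B : A[X][X], B.natDegree < Fintype.card (X0 N) →
      geF A K N (C (C π ^ k * g)) * y = geF A K N B →
      ∃ B' : A[X][X], B'.natDegree < Fintype.card (X0 N) ∧
        geF A K N (C g) * y = geF A K N B' := by
  induction k with
  | zero =>
    intro B hB h
    exact ⟨B, hB, by simpa using h⟩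
  | succ k ih =>
    intro B hB h
    have h0 := ge_algebraMap_ne_zero (K := K) (N := N) hπ
    have hz : geF A K N (C (C π ^ k * g)) * y ∈ geOvN A K N :=
      (geOvN A K N).mul_mem _ _ (geF_mem_Ov _) hy
    have h1 : geF A K N B = algebraMap A (modularFunctionFieldFullC K N) π *
        (geF A K N (C (C π ^ k * g)) * y) := by
      rw [← h, ← geF_C_C, ← mul_assoc, ← map_mul, ← C_mul, pow_succ']
      congr 3
      ring
    have h2 : geF A K N B / algebraMap A (modularFunctionFieldFullC K N) π ∈ geOvN A K N := by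
      rw [h1, mul_div_cancel_left₀ _ h0]
      exact hz
    rw [geOvN_div_iff hπ _ _ (geF_coe A K N B)] at h2
    obtain ⟨B1, rfl⟩ := ge_irr hℓ hℓN hπ B hB h2
    have hCπ : (C π : A[X]) ≠ 0 := C_ne_zero.mpr hπ.ne_zero
    rw [natDegree_C_mul hCπ] at hB
    refine ih B1 hB ?_
    rw [map_mul, geF_C_C] at h1
    exact (mul_left_cancel₀ h0 h1).symm

theorem geT_mem_chartS (hℓ : (ℓ : A) ∈ maximalIdeal A) (hℓN : ¬ ℓ ∣ N) :
    geT K N ∈ chartS A (geJ K N) := by
  obtain ⟨Φ, hm, hdeg, h0, -⟩ := ge_exists_Phi (A := A) (N := N) K hℓ hℓN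
  have hF0 : geF A K N Φ = 0 := by
    apply Subtype.ext
    rw [geF_coe, h0, map_zero]
    rfl
  rw [mem_chartS]
  let φ : A[X] →+* Algebra.adjoin A ({geJ K N} : Set (modularFunctionFieldFullC K N)) :=
    ((aeval (geJ K N) : A[X] →ₐ[A] modularFunctionFieldFullC K N).codRestrict
      (Algebra.adjoin A {geJ K N}) (fun _ => aeval_mem_adjoin_singleton _ _)).toRingHom
  refine ⟨Φ.map φ, hm.map φ, ?_⟩
  rw [eval₂_map]
  exact hF0

theorem geF_mem_chartS (hℓ : (ℓ : A) ∈ maximalIdeal A) (hℓN : ¬ ℓ ∣ N) (B : A[X][X]) :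
    geF A K N B ∈ chartS A (geJ K N) := by
  rw [geF, coe_eval₂RingHom, eval₂_eq_sum_range]
  refine Subalgebra.sum_mem _ fun i _ => Subalgebra.mul_mem _ ?_
    (Subalgebra.pow_mem _ (geT_mem_chartS hℓ hℓN) _)
  exact chart_aeval_mem _

theorem geJ_coe : ((geJ K N : modularFunctionFieldFullC K N) : LaurentSeries K) =
    geI A K (jqModC A) := by
  rw [coeffMap_jqModC]
  rfl

/-- **(GE1)-(GE3)** for the coordinate `j` -/
theorem ge_data_j (hℓ : (ℓ : A) ∈ maximalIdeal A) (hℓN : ¬ ℓ ∣ N) {π : A} (hπ : Irreducible π) :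
    GEData π (geJ K N) (geOvN A K N) where
  hA := geOvN_algebraMap
  ht := geOvN_int _ _ geJ_coe
  hπ1 := geOvN_pi_inv hπ
  hπ2 := geOvN_div hπ
  hG := fun P hP => geOvN_gauss hπ _ _ geJ_coe (n := -1) (by norm_num)
    (by rw [coeff_jqModC_neg_one, map_one]; exact one_ne_zero) P hP
  hI := by
    intro y hy
    obtain ⟨g, hg, B, hB, h⟩ := ge_span_lt (A := A) hℓ hℓN y
    have hprime : Prime (C π : A[X]) := prime_C_iff.mpr hπ.prime
    obtain ⟨g', hg', hnd⟩ := (FiniteMultiplicity.of_not_isUnit hprime.not_isUnit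
      hg).exists_eq_pow_mul_and_not_dvd
    rw [hg'] at h
    obtain ⟨B', -, hB'⟩ := ge_norm hℓ hℓN hπ y hy g' _ B hB h
    refine ⟨g', hnd, ?_⟩
    rw [← geF_C, hB']
    exact geF_mem_chartS hℓ hℓN B'

end Fermat.Agent.S18Lib
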