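import Mathlib
import Fermat.Prelude.Def_ModularCurve_LaurentCoeff

set_option autoImplicit false

/-!
# S18 : the Gauss valuation ring of a field of Laurent series with bounded denominators
-/

open ModularCurve IsLocalRing

namespace Fermat.Agent.S18Lib

variable (A K : Type*) [CommRing A] [IsDomain A] [IsDiscreteValuationRing A] [Field K]
  [Algebra A K] [IsFractionRing A K]

noncomputable abbrev geI : LaurentSeries A →+* LaurentSeries K := coeffMap (algebraMap A K)

noncomputable abbrev geR : LaurentSeries A →+* LaurentSeries (ResidueField A) :=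
  coeffMap (residue A)

omit [IsDomain A] [IsDiscreteValuationRing A] in
theorem geI_injective : Function.Injective (geI A K) := by
  intro x y h
  ext k
  have := congrArg (fun z => HahnSeries.coeff z k) h
  simp only [coeffMap_coeff] at this
  exact IsFractionRing.injective A K this

omit [IsDomain A] [IsDiscreteValuationRing A] [IsFractionRing A K] in
theorem geI_C (c : A) :
    geI A K (HahnSeries.C c) = algebraMap K (LaurentSeries K) (algebraMap A K c) := by
  rw [algebraMap_laurentSeries_eq_single, HahnSeries.C_apply, coeffMap_single]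

omit [IsDomain A] [IsDiscreteValuationRing A] in
theorem ge_coeff_C_mul (c : A) (x : LaurentSeries A) (k : ℤ) :
    (HahnSeries.C c * x).coeff k = c * x.coeff k := by
  rw [HahnSeries.C_mul_eq_smul, HahnSeries.coeff_smul, smul_eq_mul]

variable {A}

theorem geR_C_eq_zero {π : A} (hπ : Irreducible π) : geR A (HahnSeries.C π) = 0 := by
  rw [HahnSeries.C_apply, coeffMap_single]
  have : residue A π = 0 := by
    rw [residue_eq_zero_iff]
    exact (mem_maximalIdeal _).2 hπ.not_isUnit
  rw [this, HahnSeries.single_eq_zero]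

theorem geR_eq_zero_iff {π : A} (hπ : Irreducible π) (a : LaurentSeries A) :
    geR A a = 0 ↔ ∃ a' : LaurentSeries A, a = HahnSeries.C π * a' := by
  constructor
  · intro h
    have h1 : ∀ k : ℤ, ∃ c : A, a.coeff k = π * c := by
      intro k
      have := congrArg (fun z => HahnSeries.coeff z k) h
      simp only [coeffMap_coeff, HahnSeries.coeff_zero] at this
      rw [residue_eq_zero_iff, hπ.maximalIdeal_eq, Ideal.mem_span_singleton] at this
      exact this
    choose c hc using h1
    have hsupp : Function.support c ⊆ a.support := by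
      intro k hk
      rw [HahnSeries.mem_support, hc k]
      exact mul_ne_zero hπ.ne_zero hk
    refine ⟨⟨c, a.isPWO_support.mono hsupp⟩, ?_⟩
    ext k
    rw [ge_coeff_C_mul, hc k]
  · rintro ⟨a', rfl⟩
    rw [map_mul, geR_C_eq_zero hπ, zero_mul]

theorem ge_exists_prim_aux {π : A} (hπ : Irreducible π) (v : ℕ) :
    ∀ a : LaurentSeries A, (∃ n : ℤ, ¬ π ^ (v + 1) ∣ a.coeff n) →
      ∃ (k : ℕ) (a' : LaurentSeries A), a = HahnSeries.C π ^ k * a' ∧ geR A a' ≠ 0 := by
  induction v with
  | zero =>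
    rintro a ⟨n, hn⟩
    refine ⟨0, a, by simp, ?_⟩
    intro h
    obtain ⟨a', rfl⟩ := (geR_eq_zero_iff hπ a).1 h
    apply hn
    rw [ge_coeff_C_mul]
    simp
  | succ v ih =>
    rintro a ⟨n, hn⟩
    by_cases h : geR A a = 0
    · obtain ⟨a', rfl⟩ := (geR_eq_zero_iff hπ a).1 h
      rw [ge_coeff_C_mul] at hn
      have hn' : ¬ π ^ (v + 1) ∣ a'.coeff n := by
        intro hd
        apply hn
        rw [pow_succ' π (v + 1)]
        exact mul_dvd_mul_left π hd
      obtain ⟨k, a'', h1, h2⟩ := ih a' ⟨n, hn'⟩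
      refine ⟨k + 1, a'', ?_, h2⟩
      rw [h1, pow_succ']
      ring
    · exact ⟨0, a, by simp, h⟩

theorem ge_exists_prim {π : A} (hπ : Irreducible π) (a : LaurentSeries A) (ha : a ≠ 0) :
    ∃ (k : ℕ) (a' : LaurentSeries A), a = HahnSeries.C π ^ k * a' ∧ geR A a' ≠ 0 := by
  have h1 : ∃ n : ℤ, a.coeff n ≠ 0 := by
    by_contra hcon
    push Not at hcon
    apply ha
    ext k
    simpa using hcon k
  obtain ⟨n, hn⟩ := h1
  obtain ⟨v, hv⟩ := FiniteMultiplicity.of_not_isUnit hπ.not_isUnit hn
  exact ge_exists_prim_aux hπ v a ⟨n, hv⟩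

variable (A) {K}

def GeFrac (F : IntermediateField K (LaurentSeries K)) : Prop :=
  ∀ y ∈ F, ∃ a b : LaurentSeries A, b ≠ 0 ∧ geI A K b ∈ F ∧ y * geI A K b = geI A K a

theorem geFrac_adjoin_aux (S : Set (LaurentSeries K)) (hS : ∀ s ∈ S, s ∈ (geI A K).range)
    (r : LaurentSeries K) (hr : r ∈ Algebra.adjoin K S) :
    ∃ (c : A) (a : LaurentSeries A), c ≠ 0 ∧
      algebraMap K (LaurentSeries K) (algebraMap A K c) * r = geI A K a := by
  induction hr using Algebra.adjoin_induction with
  | mem x hx =>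
    obtain ⟨a, ha⟩ := hS x hx
    exact ⟨1, a, one_ne_zero, by simp [ha]⟩
  | algebraMap k =>
    obtain ⟨x, c, hc, rfl⟩ := IsFractionRing.div_surjective (A := A) k
    have hc0 : c ≠ 0 := nonZeroDivisors.ne_zero hc
    have hc1 : algebraMap A K c ≠ 0 := by
      simpa using (IsFractionRing.injective A K).ne hc0
    refine ⟨c, HahnSeries.C x, hc0, ?_⟩
    rw [geI_C, ← map_mul, mul_div_cancel₀ _ hc1]
  | add x y _ _ hx hy =>
    obtain ⟨c1, a1, h1, e1⟩ := hx
    obtain ⟨c2, a2, h2, e2⟩ := hy
    refine ⟨c1 * c2, HahnSeries.C c2 * a1 + HahnSeries.C c1 * a2, mul_ne_zero h1 h2, ?_⟩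
    have h3 : geI A K (HahnSeries.C c2 * a1 + HahnSeries.C c1 * a2)
        = geI A K (HahnSeries.C c2) * geI A K a1 + geI A K (HahnSeries.C c1) * geI A K a2 := by
      rw [map_add, map_mul, map_mul]
    rw [h3, geI_C, geI_C, ← e1, ← e2, map_mul, map_mul]
    ring
  | mul x y _ _ hx hy =>
    obtain ⟨c1, a1, h1, e1⟩ := hx
    obtain ⟨c2, a2, h2, e2⟩ := hy
    refine ⟨c1 * c2, a1 * a2, mul_ne_zero h1 h2, ?_⟩
    have h3 : geI A K (a1 * a2) = geI A K a1 * geI A K a2 := map_mul _ _ _
    rw [h3, ← e1, ← e2, map_mul, map_mul]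
    ring

theorem geFrac_adjoin (S : Set (LaurentSeries K)) (hS : ∀ s ∈ S, s ∈ (geI A K).range) :
    GeFrac A (IntermediateField.adjoin K S) := by
  intro y hy
  obtain ⟨r, hr, s, hs, rfl⟩ := IntermediateField.mem_adjoin_iff_div.1 hy
  by_cases hs0 : s = 0
  · refine ⟨0, 1, one_ne_zero, ?_, ?_⟩
    · rw [map_one]; exact one_mem _
    · simp [hs0]
  obtain ⟨c1, a1, h1, e1⟩ := geFrac_adjoin_aux A S hS r hr
  obtain ⟨c2, a2, h2, e2⟩ := geFrac_adjoin_aux A S hS s hs
  have hc1 : algebraMap K (LaurentSeries K) (algebraMap A K c1) ≠ 0 := by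
    rw [Ne, map_eq_zero]
    simpa using (IsFractionRing.injective A K).ne h1
  have hc2 : algebraMap K (LaurentSeries K) (algebraMap A K c2) ≠ 0 := by
    rw [Ne, map_eq_zero]
    simpa using (IsFractionRing.injective A K).ne h2
  have hb : geI A K (HahnSeries.C c1 * a2) = algebraMap K (LaurentSeries K) (algebraMap A K c1) *
      (algebraMap K (LaurentSeries K) (algebraMap A K c2) * s) := by
    rw [map_mul, geI_C, e2]
  refine ⟨HahnSeries.C c2 * a1, HahnSeries.C c1 * a2, ?_, ?_, ?_⟩
  · intro h0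
    rw [h0, map_zero] at hb
    exact mul_ne_zero hc1 (mul_ne_zero hc2 hs0) hb.symm
  · rw [hb]
    refine mul_mem (IntermediateField.algebraMap_mem _ _)
      (mul_mem (IntermediateField.algebraMap_mem _ _) ?_)
    exact IntermediateField.algebra_adjoin_le_adjoin K S hs
  · rw [hb, map_mul, geI_C, ← e1]
    field_simp

variable {A} in
/-- dividing an integral series in `F` by a power of `π` stays in `F` -/
theorem ge_mem_of_C_pow_mul {F : IntermediateField K (LaurentSeries K)} {π : A} (hπ0 : π ≠ 0)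
    (k : ℕ) (a' : LaurentSeries A) (h : geI A K (HahnSeries.C π ^ k * a') ∈ F) :
    geI A K a' ∈ F := by
  have hc : algebraMap K (LaurentSeries K) (algebraMap A K π) ≠ 0 := by
    rw [Ne, map_eq_zero]
    simpa using (IsFractionRing.injective A K).ne hπ0
  have h1 : geI A K (HahnSeries.C π ^ k * a')
      = algebraMap K (LaurentSeries K) (algebraMap A K π) ^ k * geI A K a' := by
    rw [map_mul, map_pow, geI_C]
  have h2 : geI A K a' = (algebraMap K (LaurentSeries K) (algebraMap A K π) ^ k)⁻¹ *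
      geI A K (HahnSeries.C π ^ k * a') := by
    rw [h1, ← mul_assoc, inv_mul_cancel₀ (pow_ne_zero _ hc), one_mul]
  rw [h2]
  exact mul_mem (inv_mem (pow_mem (IntermediateField.algebraMap_mem _ _) _)) h

variable {A} in
theorem geR_ne_zero_imp {a : LaurentSeries A} (h : geR A a ≠ 0) : geI A K a ≠ 0 := by
  intro h0
  apply h
  have : a = 0 := geI_injective A K (by rw [h0, map_zero])
  rw [this, map_zero]

noncomputable def geOv (F : IntermediateField K (LaurentSeries K)) (hF : GeFrac A F) :
    ValuationSubring F where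
  carrier := {y | ∃ a b : LaurentSeries A, geR A b ≠ 0 ∧ geI A K b ∈ F ∧
    (y : LaurentSeries K) * geI A K b = geI A K a}
  mul_mem' := by
    rintro x y ⟨a1, b1, h1, m1, e1⟩ ⟨a2, b2, h2, m2, e2⟩
    refine ⟨a1 * a2, b1 * b2, ?_, ?_, ?_⟩
    · rw [map_mul]; exact mul_ne_zero h1 h2
    · rw [map_mul]; exact mul_mem m1 m2
    · have h3 : geI A K (a1 * a2) = geI A K a1 * geI A K a2 := map_mul _ _ _
      have h4 : geI A K (b1 * b2) = geI A K b1 * geI A K b2 := map_mul _ _ _
      rw [h3, h4, ← e1, ← e2, MulMemClass.coe_mul]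
      ring
  one_mem' := by
    refine ⟨1, 1, ?_, ?_, ?_⟩
    · rw [map_one]; exact one_ne_zero
    · rw [map_one]; exact one_mem _
    · simp
  add_mem' := by
    rintro x y ⟨a1, b1, h1, m1, e1⟩ ⟨a2, b2, h2, m2, e2⟩
    refine ⟨a1 * b2 + a2 * b1, b1 * b2, ?_, ?_, ?_⟩
    · rw [map_mul]; exact mul_ne_zero h1 h2
    · rw [map_mul]; exact mul_mem m1 m2
    · have h3 : geI A K (a1 * b2 + a2 * b1)
          = geI A K a1 * geI A K b2 + geI A K a2 * geI A K b1 := by
        rw [map_add, map_mul, map_mul]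
      have h4 : geI A K (b1 * b2) = geI A K b1 * geI A K b2 := map_mul _ _ _
      rw [h3, h4, ← e1, ← e2, AddMemClass.coe_add]
      ring
  zero_mem' := by
    refine ⟨0, 1, ?_, ?_, ?_⟩
    · rw [map_one]; exact one_ne_zero
    · rw [map_one]; exact one_mem _
    · simp
  neg_mem' := by
    rintro x ⟨a1, b1, h1, m1, e1⟩
    refine ⟨-a1, b1, h1, m1, ?_⟩
    rw [map_neg, ← e1, NegMemClass.coe_neg]
    ring
  mem_or_inv_mem' := by
    intro y
    obtain ⟨π, hπ⟩ := IsDiscreteValuationRing.exists_irreducible A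
    obtain ⟨a, b, hb, mb, e⟩ := hF y y.2
    have hb0 : geI A K b ≠ 0 := fun h => hb (geI_injective A K (by rw [h, map_zero]))
    have hc : algebraMap K (LaurentSeries K) (algebraMap A K π) ≠ 0 := by
      rw [Ne, map_eq_zero]
      simpa using (IsFractionRing.injective A K).ne hπ.ne_zero
    by_cases ha : a = 0
    · left
      refine ⟨0, 1, ?_, ?_, ?_⟩
      · rw [map_one]; exact one_ne_zero
      · rw [map_one]; exact one_mem _
      · rw [ha, map_zero] at e
        rcases mul_eq_zero.1 e with h | h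
        · rw [h]; simp
        · exact absurd h hb0
    have ma : geI A K a ∈ F := by
      rw [← e]; exact mul_mem y.2 mb
    obtain ⟨k, a', rfl, ha'⟩ := ge_exists_prim hπ a ha
    obtain ⟨m, b', rfl, hb'⟩ := ge_exists_prim hπ b hb
    have ma' := ge_mem_of_C_pow_mul hπ.ne_zero k a' ma
    have mb' := ge_mem_of_C_pow_mul hπ.ne_zero m b' mb
    have e1 : geI A K (HahnSeries.C π ^ k * a')
        = algebraMap K (LaurentSeries K) (algebraMap A K π) ^ k * geI A K a' := by
      rw [map_mul, map_pow, geI_C]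
    have e2 : geI A K (HahnSeries.C π ^ m * b')
        = algebraMap K (LaurentSeries K) (algebraMap A K π) ^ m * geI A K b' := by
      rw [map_mul, map_pow, geI_C]
    rw [e1, e2] at e
    rcases le_total m k with hmk | hkm
    · left
      obtain ⟨d, rfl⟩ := Nat.exists_eq_add_of_le hmk
      refine ⟨HahnSeries.C π ^ d * a', b', hb', mb', ?_⟩
      have e3 : geI A K (HahnSeries.C π ^ d * a')
          = algebraMap K (LaurentSeries K) (algebraMap A K π) ^ d * geI A K a' := by
        rw [map_mul, map_pow, geI_C]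
      rw [e3]
      apply mul_left_cancel₀ (pow_ne_zero m hc)
      rw [pow_add] at e
      linear_combination e
    · right
      obtain ⟨d, rfl⟩ := Nat.exists_eq_add_of_le hkm
      refine ⟨HahnSeries.C π ^ d * b', a', ha', ma', ?_⟩
      have e3 : geI A K (HahnSeries.C π ^ d * b')
          = algebraMap K (LaurentSeries K) (algebraMap A K π) ^ d * geI A K b' := by
        rw [map_mul, map_pow, geI_C]
      have hy0 : (y : LaurentSeries K) ≠ 0 := by
        intro h0
        rw [h0, zero_mul] at e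
        exact mul_ne_zero (pow_ne_zero k hc) (geR_ne_zero_imp ha') e.symm
      rw [e3]
      have : ((y⁻¹ : F) : LaurentSeries K) = (y : LaurentSeries K)⁻¹ := rfl
      rw [this]
      apply mul_left_cancel₀ (mul_ne_zero (pow_ne_zero k hc) hy0)
      rw [pow_add] at e
      have h5 : (y : LaurentSeries K) * (y : LaurentSeries K)⁻¹ = 1 := mul_inv_cancel₀ hy0
      linear_combination (algebraMap K (LaurentSeries K) (algebraMap A K π) ^ k * geI A K a') * h5
        - e

variable {A}
variable {F : IntermediateField K (LaurentSeries K)} (hF : GeFrac A F)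

theorem mem_geOv_iff (y : F) : y ∈ geOv A F hF ↔ ∃ a b : LaurentSeries A, geR A b ≠ 0 ∧
    geI A K b ∈ F ∧ (y : LaurentSeries K) * geI A K b = geI A K a := Iff.rfl

theorem ge_int_mem (a : LaurentSeries A) (ha : geI A K a ∈ F) :
    (⟨geI A K a, ha⟩ : F) ∈ geOv A F hF := by
  refine ⟨a, 1, ?_, ?_, ?_⟩
  · rw [map_one]; exact one_ne_zero
  · rw [map_one]; exact one_mem _
  · simp

theorem ge_algebraMap_mem (c : A) : algebraMap K F (algebraMap A K c) ∈ geOv A F hF := by
  refine ⟨HahnSeries.C c, 1, ?_, ?_, ?_⟩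
  · rw [map_one]; exact one_ne_zero
  · rw [map_one]; exact one_mem _
  · rw [geI_C, map_one, mul_one]
    rfl

theorem ge_int_dvd_iff {π : A} (hπ : Irreducible π) (a : LaurentSeries A) (ha : geI A K a ∈ F) :
    (∃ z ∈ geOv A F hF, (⟨geI A K a, ha⟩ : F) = algebraMap K F (algebraMap A K π) * z) ↔
      geR A a = 0 := by
  constructor
  · rintro ⟨z, ⟨c, b, hb, mb, e⟩, hz⟩
    have hz' : geI A K a = algebraMap K (LaurentSeries K) (algebraMap A K π) *
        (z : LaurentSeries K) := congrArg Subtype.val hz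
    have h1 : a * b = HahnSeries.C π * c := by
      apply geI_injective A K
      have h3 : geI A K (a * b) = geI A K a * geI A K b := map_mul _ _ _
      have h4 : geI A K (HahnSeries.C π * c) = geI A K (HahnSeries.C π) * geI A K c :=
        map_mul _ _ _
      rw [h3, h4, geI_C, hz', ← e]
      ring
    have h2 : geR A a * geR A b = 0 := by
      rw [← map_mul, h1, map_mul, geR_C_eq_zero hπ, zero_mul]
    exact (mul_eq_zero.1 h2).resolve_right hb
  · intro h
    obtain ⟨a', rfl⟩ := (geR_eq_zero_iff hπ a).1 h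
    have ma' : geI A K a' ∈ F := ge_mem_of_C_pow_mul hπ.ne_zero 1 a' (by rwa [pow_one])
    refine ⟨⟨geI A K a', ma'⟩, ge_int_mem hF a' ma', ?_⟩
    apply Subtype.ext
    have h4 : geI A K (HahnSeries.C π * a') = geI A K (HahnSeries.C π) * geI A K a' :=
      map_mul _ _ _
    change geI A K (HahnSeries.C π * a') = _
    rw [h4, geI_C]
    rfl

theorem ge_int_inv_mem (a : LaurentSeries A) (ha : geI A K a ∈ F) (h : geR A a ≠ 0) :
    (⟨geI A K a, ha⟩ : F)⁻¹ ∈ geOv A F hF := by
  refine ⟨1, a, h, ha, ?_⟩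
  change (geI A K a)⁻¹ * geI A K a = _
  rw [inv_mul_cancel₀ (geR_ne_zero_imp h), map_one]

theorem ge_inv_mem_or_dvd {π : A} (hπ : Irreducible π) (y : F) (hy : y ∈ geOv A F hF) :
    y⁻¹ ∈ geOv A F hF ∨ ∃ z ∈ geOv A F hF, y = algebraMap K F (algebraMap A K π) * z := by
  obtain ⟨a, b, hb, mb, e⟩ := hy
  have ma : geI A K a ∈ F := by
    rw [← e]; exact mul_mem y.2 mb
  have hc : algebraMap K (LaurentSeries K) (algebraMap A K π) ≠ 0 := by
    rw [Ne, map_eq_zero]
    simpa using (IsFractionRing.injective A K).ne hπ.ne_zero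
  by_cases ha : geR A a = 0
  · right
    obtain ⟨a', rfl⟩ := (geR_eq_zero_iff hπ a).1 ha
    have h4 : geI A K (HahnSeries.C π * a') = geI A K (HahnSeries.C π) * geI A K a' :=
      map_mul _ _ _
    rw [h4, geI_C] at e
    have hcF : algebraMap K F (algebraMap A K π) ≠ 0 := by
      intro h0
      exact hc (congrArg Subtype.val h0)
    refine ⟨(algebraMap K F (algebraMap A K π))⁻¹ * y, ⟨a', b, hb, mb, ?_⟩, ?_⟩
    · change (algebraMap K (LaurentSeries K) (algebraMap A K π))⁻¹ * (y : LaurentSeries K) *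
        geI A K b = _
      rw [mul_assoc, e, ← mul_assoc, inv_mul_cancel₀ hc, one_mul]
    · rw [← mul_assoc, mul_inv_cancel₀ hcF, one_mul]
  · left
    refine ⟨b, a, ha, ma, ?_⟩
    have hy0 : (y : LaurentSeries K) ≠ 0 := by
      intro h0
      rw [h0, zero_mul] at e
      exact geR_ne_zero_imp ha e.symm
    change (y : LaurentSeries K)⁻¹ * geI A K a = _
    rw [← e, ← mul_assoc, inv_mul_cancel₀ hy0, one_mul]

theorem ge_pi_inv_not_mem {π : A} (hπ : Irreducible π) :
    (algebraMap K F (algebraMap A K π))⁻¹ ∉ geOv A F hF := by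
  rintro ⟨a, b, hb, mb, e⟩
  have hc : algebraMap K (LaurentSeries K) (algebraMap A K π) ≠ 0 := by
    rw [Ne, map_eq_zero]
    simpa using (IsFractionRing.injective A K).ne hπ.ne_zero
  change (algebraMap K (LaurentSeries K) (algebraMap A K π))⁻¹ * geI A K b = _ at e
  apply hb
  rw [geR_eq_zero_iff hπ]
  refine ⟨a, geI_injective A K ?_⟩
  have h4 : geI A K (HahnSeries.C π * a) = geI A K (HahnSeries.C π) * geI A K a :=
    map_mul _ _ _
  rw [h4, geI_C, ← e, ← mul_assoc, mul_inv_cancel₀ hc, one_mul]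

end Fermat.Agent.S18Lib
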