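import Mathlib

set_option autoImplicit false
set_option linter.style.haveILetI false

/-!
# S18 : abstract form of weak (GE4): an étale generator forces the trace to be non zero mod `ϖ`
-/

open Polynomial

namespace Fermat.Agent.S18Lib

theorem ge_sep_abs {E F : Type*} [Field E] [CharZero E] [Field F] [Algebra E F]
    (Ov : ValuationSubring F) (ϖ : E) (hϖ : (algebraMap E F ϖ)⁻¹ ∉ Ov)
    (t : F) (htop : Algebra.adjoin E {t} = ⊤) (Φ : E[X]) (hΦm : Φ.Monic)
    (hΦc : ∀ i, algebraMap E F (Φ.coeff i) ∈ Ov) (hΦ0 : aeval t Φ = 0)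
    (hΦne : aeval t (derivative Φ) ≠ 0)
    (hΦu : (aeval t (derivative Φ))⁻¹ ∈ Ov) :
    ∃ s ∈ Ov, algebraMap E F (Algebra.trace E F s) / algebraMap E F ϖ ∉ Ov := by
  classical
  by_contra hcon
  push Not at hcon
  set R : ValuationSubring E := Ov.comap (algebraMap E F) with hR
  letI : Algebra R F := ((algebraMap E F).comp R.subtype).toAlgebra
  haveI : IsScalarTower R E F := IsScalarTower.of_algebraMap_eq (fun _ => rfl)
  have hinj : Function.Injective (algebraMap R F) :=
    (algebraMap E F).injective.comp Subtype.val_injective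
  haveI : FaithfulSMul R F := (faithfulSMul_iff_algebraMap_injective _ _).2 hinj
  have hlift : Φ ∈ Polynomial.lifts (algebraMap R E) := by
    rw [Polynomial.lifts_iff_coeff_lifts]
    intro n
    exact ⟨⟨Φ.coeff n, hΦc n⟩, rfl⟩
  obtain ⟨Φ0, hΦ0map, -, hΦ0m⟩ := Polynomial.lifts_and_natDegree_eq_and_monic hlift hΦm
  have hΦ0t : aeval t Φ0 = 0 := by
    rw [← aeval_map_algebraMap E, hΦ0map]; exact hΦ0
  have htR : IsIntegral R t := ⟨Φ0, hΦ0m, hΦ0t⟩
  have htE : IsIntegral E t := htR.tower_top
  haveI : FiniteDimensional E F := by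
    have h1 := htE.fg_adjoin_singleton
    rw [htop] at h1
    exact ⟨by simpa using h1⟩
  -- `R[t] ⊆ Ov`
  let OvR : Subalgebra R F := { Ov.toSubring with algebraMap_mem' := fun r => r.2 }
  have htOv : t ∈ Ov := by
    let φ : R →+* Ov :=
      { toFun := fun a => ⟨algebraMap E F a.1, a.2⟩
        map_one' := Subtype.ext (map_one _)
        map_mul' := fun _ _ => Subtype.ext (map_mul _ _ _)
        map_zero' := Subtype.ext (map_zero _)
        map_add' := fun _ _ => Subtype.ext (map_add _ _ _) }
    have h1 : IsIntegral Ov t := by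
      refine ⟨Φ0.map φ, hΦ0m.map _, ?_⟩
      rw [eval₂_map]
      exact hΦ0t
    obtain ⟨z, hz⟩ := (IsIntegrallyClosed.isIntegral_iff (R := Ov) (K := F)).mp h1
    rw [← hz]
    exact z.2
  have hadj : Algebra.adjoin R ({t} : Set F) ≤ OvR := by
    refine Algebra.adjoin_le fun x hx => ?_
    rw [Set.mem_singleton_iff.1 hx]
    exact htOv
  have hOv : ∀ p : R[X], aeval t p ∈ Ov := fun p => hadj (aeval_mem_adjoin_singleton R t)
  obtain ⟨h0, hh0⟩ := minpoly.isIntegrallyClosed_dvd htR hΦ0t
  have hmE : minpoly E t = (minpoly R t).map (algebraMap R E) :=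
    minpoly.isIntegrallyClosed_eq_field_fractions' E htR
  have hder : aeval t (derivative Φ)
      = aeval t (derivative (minpoly R t)) * aeval t h0 := by
    rw [← hΦ0map, derivative_map, aeval_map_algebraMap, hh0, derivative_mul, map_add, map_mul,
      map_mul, minpoly.aeval, zero_mul, add_zero]
  have hder2 : aeval t (derivative (minpoly E t)) = aeval t (derivative (minpoly R t)) := by
    rw [hmE, derivative_map, aeval_map_algebraMap]
  have hm1 : aeval t (derivative (minpoly R t)) ≠ 0 := by
    intro h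
    rw [h, zero_mul] at hder
    exact hΦne hder
  have hminv : (aeval t (derivative (minpoly E t)))⁻¹ ∈ Ov := by
    have : (aeval t (derivative (minpoly E t)))⁻¹
        = aeval t h0 * (aeval t (derivative Φ))⁻¹ := by
      rw [hder2, hder, mul_inv]
      have h2 : aeval t h0 ≠ 0 := by
        intro h
        rw [h, mul_zero] at hder
        exact hΦne hder
      field_simp
    rw [this]
    exact mul_mem (hOv h0) hΦu
  have hϖ0 : ϖ ≠ 0 := by
    rintro rfl
    apply hϖ
    rw [map_zero, inv_zero]
    exact zero_mem _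
  have hmem : (algebraMap E F ϖ)⁻¹ ∈ (Algebra.traceForm E F).dualSubmodule
      (Subalgebra.toSubmodule (Algebra.adjoin R ({t} : Set F))) := by
    rw [LinearMap.BilinForm.mem_dualSubmodule]
    intro y hy
    have hyOv : y ∈ Ov := hadj hy
    rw [Submodule.mem_one]
    have h1 := hcon y hyOv
    rw [← map_div₀] at h1
    refine ⟨⟨_, h1⟩, ?_⟩
    rw [Algebra.traceForm_apply]
    have h2 : (algebraMap E F ϖ)⁻¹ * y = ϖ⁻¹ • y := by
      rw [Algebra.smul_def, map_inv₀]
    rw [h2, map_smul, smul_eq_mul, ← div_eq_inv_mul]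
    rfl
  rw [traceForm_dualSubmodule_adjoin R E htop htR] at hmem
  obtain ⟨y, hy, hy2⟩ := hmem
  apply hϖ
  rw [← hy2]
  exact mul_mem hminv (hadj hy)

end Fermat.Agent.S18Lib
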