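import Fermat.Agent.S18.GEIn
import Fermat.Agent.S18.GEGauss
import Fermat.Agent.S18.GESep

set_option autoImplicit false
set_option linter.style.haveILetI false
set_option linter.unusedSectionVars false

/-!
# S18 : weak (GE4) for the coordinate `x = j`
-/

open ModularCurve Polynomial IntermediateField IsLocalRing

namespace Fermat.Agent.S18Lib

open Fermat.Agent.S20Lib Fermat.Agent.S24Lib Fermat.Agent.S28Lib

/-- abstract form: `F = K(j)[t]`, `Φ(j, t) = 0`, `Φ` monic with `Ov`-integral coefficients and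
`Φ_Y(j, t)` a unit of `Ov`. -/
theorem gesj_abs {K F : Type*} [Field K] [CharZero K] [Field F] [Algebra K F]
    (Ov : ValuationSubring F) (ϖ : K) (hϖ : (algebraMap K F ϖ)⁻¹ ∉ Ov) (j t : F)
    (hspan : ∀ y : F, ∃ g : K[X], aeval j g ≠ 0 ∧ ∃ B : K[X][X],
      aeval j g * y = eval₂ (aeval j : K[X] →ₐ[K] F).toRingHom t B)
    (Φ : K[X][X]) (hΦm : Φ.Monic) (hΦc : ∀ i, aeval j (Φ.coeff i) ∈ Ov)
    (hΦ0 : eval₂ (aeval j : K[X] →ₐ[K] F).toRingHom t Φ = 0)
    (w : F) (hw : w ∈ Ov)
    (hΦu : eval₂ (aeval j : K[X] →ₐ[K] F).toRingHom t (derivative Φ) * w = 1) :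
    ∃ s ∈ Ov, algebraMap K⟮j⟯ F (Algebra.trace K⟮j⟯ F s) / algebraMap K F ϖ ∉ Ov := by
  let jE : K⟮j⟯ := AdjoinSimple.gen K j
  let Ψ : K[X] →+* K⟮j⟯ := (aeval jE : K[X] →ₐ[K] K⟮j⟯).toRingHom
  have hΨ : ∀ g, algebraMap K⟮j⟯ F (Ψ g) = aeval j g := by
    intro g
    have h1 := aeval_algebraMap_apply F jE g
    rw [AdjoinSimple.algebraMap_gen] at h1
    exact h1.symm
  have hev : ∀ B : K[X][X], aeval t (B.map Ψ)
      = eval₂ (aeval j : K[X] →ₐ[K] F).toRingHom t B := by
    intro B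
    rw [aeval_def, eval₂_map]
    congr 1
    exact RingHom.ext fun g => hΨ g
  haveI : CharZero K⟮j⟯ := charZero_of_injective_algebraMap (algebraMap K K⟮j⟯).injective
  have htop : Algebra.adjoin K⟮j⟯ ({t} : Set F) = ⊤ := by
    rw [eq_top_iff]
    intro y _
    obtain ⟨g, hg, B, hB⟩ := hspan y
    have h1 : y = algebraMap K⟮j⟯ F (Ψ g)⁻¹ * aeval t (B.map Ψ) := by
      rw [hev, ← hB, map_inv₀, hΨ, ← mul_assoc, inv_mul_cancel₀ hg, one_mul]
    rw [h1]
    exact Subalgebra.mul_mem _ (Subalgebra.algebraMap_mem _ _) (aeval_mem_adjoin_singleton _ t)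
  have hϖE : algebraMap K⟮j⟯ F (algebraMap K K⟮j⟯ ϖ) = algebraMap K F ϖ :=
    (IsScalarTower.algebraMap_apply K K⟮j⟯ F ϖ).symm
  have hd : aeval t (derivative (Φ.map Ψ))
      = eval₂ (aeval j : K[X] →ₐ[K] F).toRingHom t (derivative Φ) := by
    rw [derivative_map, hev]
  have hne : aeval t (derivative (Φ.map Ψ)) ≠ 0 := by
    rw [hd]
    intro h0
    rw [h0, zero_mul] at hΦu
    exact zero_ne_one hΦu
  have key := ge_sep_abs Ov (algebraMap K K⟮j⟯ ϖ) (by rw [hϖE]; exact hϖ) t htop (Φ.map Ψ)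
    (hΦm.map Ψ) (fun i => by rw [coeff_map, hΨ]; exact hΦc i) (by rw [hev]; exact hΦ0) hne
    (by
      have : (aeval t (derivative (Φ.map Ψ)))⁻¹ = w := by
        rw [hd]
        exact inv_eq_of_mul_eq_one_right hΦu
      rw [this]
      exact hw)
  rw [hϖE] at key
  exact key

/-- coercion of a two variable evaluation in an intermediate field -/
theorem gesj_coe_eval₂ {K L : Type*} [Field K] [Field L] [Algebra K L] (F : IntermediateField K L)
    (j t : F) (B : K[X][X]) :
    ((eval₂ (aeval j : K[X] →ₐ[K] F).toRingHom t B : F) : L)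
      = eval₂ (aeval (j : L) : K[X] →ₐ[K] L).toRingHom (t : L) B := by
  have h1 := Polynomial.hom_eval₂ B (aeval j : K[X] →ₐ[K] F).toRingHom (algebraMap F L) t
  have h2 : (algebraMap F L).comp (aeval j : K[X] →ₐ[K] F).toRingHom
      = (aeval (j : L) : K[X] →ₐ[K] L).toRingHom := by
    refine RingHom.ext fun g => ?_
    exact (aeval_algebraMap_apply L j g).symm
  rw [h2] at h1
  exact h1

theorem gesj_coe_aeval {K L : Type*} [Field K] [Field L] [Algebra K L] (F : IntermediateField K L)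
    (j : F) (g : K[X]) : ((aeval j g : F) : L) = aeval (j : L) g :=
  (aeval_algebraMap_apply L j g).symm

section Lift

variable {A K : Type*} [CommRing A] [IsDomain A] [IsDiscreteValuationRing A] [Field K]
  [CharZero K] [Algebra A K] [IsFractionRing A K] {ℓ : ℕ}

/-- the canonical map `ℤ_(ℓ) → K` -/
noncomputable def gesjPhi (K : Type*) [Field K] [CharZero K] (ℓ : ℕ) : Zl ℓ →+* K :=
  (algebraMap ℚ K).comp (GaloisRep.ratLocalizedAt ℓ).subtype

theorem gesj_lift_coeff (hℓ : (ℓ : A) ∈ maximalIdeal A) (c : Zl ℓ) :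
    ∃ a : A, algebraMap A K a = gesjPhi K ℓ c := by
  have hc : (c : ℚ).den.Coprime ℓ := c.2
  have hu : IsUnit (((c : ℚ).den : ℕ) : A) := by
    by_contra hcon
    have h1 : (((c : ℚ).den : ℕ) : A) ∈ maximalIdeal A := (mem_maximalIdeal _).2 hcon
    have h2 : (1 : A) ∈ maximalIdeal A := by
      have h3 := Nat.isCoprime_iff_coprime.2 hc
      obtain ⟨u, v, huv⟩ := h3
      have h4 : (u : A) * (((c : ℚ).den : ℕ) : A) + (v : A) * (ℓ : A) = 1 := by
        have := congrArg (Int.cast : ℤ → A) huv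
        push_cast at this
        exact this
      rw [← h4]
      exact add_mem (Ideal.mul_mem_left _ _ h1) (Ideal.mul_mem_left _ _ hℓ)
    exact (Ideal.ne_top_iff_one _).1 (maximalIdeal.isMaximal A).ne_top h2
  obtain ⟨b, hb⟩ := hu.exists_right_inv
  refine ⟨((c : ℚ).num : A) * b, ?_⟩
  have hden : (((c : ℚ).den : ℕ) : K) ≠ 0 := Nat.cast_ne_zero.2 (c : ℚ).den_nz
  have h5 : (((c : ℚ).den : ℕ) : K) * algebraMap A K b = 1 := by
    have := congrArg (algebraMap A K) hb
    rwa [map_mul, map_natCast, map_one] at this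
  have h6 : gesjPhi K ℓ c = ((c : ℚ).num : K) / (((c : ℚ).den : ℕ) : K) := by
    change algebraMap ℚ K (c : ℚ) = _
    conv_lhs => rw [← Rat.num_div_den (c : ℚ)]
    rw [map_div₀, map_intCast, map_natCast]
  rw [h6, map_mul, map_intCast, eq_div_iff hden, mul_assoc, mul_comm (algebraMap A K b), h5,
    mul_one]

theorem gesj_lift (hℓ : (ℓ : A) ∈ maximalIdeal A) (s : LaurentSeries (Zl ℓ)) :
    ∃ a : LaurentSeries A, geI A K a = coeffMap (gesjPhi K ℓ) s := by
  choose c hc using fun k : ℤ => gesj_lift_coeff (A := A) (K := K) hℓ (s.coeff k)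
  have hsupp : Function.support c ⊆ s.support := by
    intro k hk
    rw [HahnSeries.mem_support]
    intro h0
    apply hk
    apply IsFractionRing.injective A K
    rw [hc k, h0, map_zero, map_zero]
  refine ⟨⟨c, s.isPWO_support.mono hsupp⟩, ?_⟩
  ext k
  rw [coeffMap_coeff, coeffMap_coeff]
  exact hc k

end Lift

section Main

variable (N : ℕ) [NeZero N] (ℓ : ℕ) [Fact ℓ.Prime]
  {A K : Type*} [CommRing A] [IsDomain A] [IsDiscreteValuationRing A] [Field K]
  [CharZero K] [Algebra A K] [IsFractionRing A K]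

theorem gesj_geEv_eq (B : K[X][X]) : geEv K N B
    = eval₂ (aeval (jqModC K) : K[X] →ₐ[K] LaurentSeries K).toRingHom
        (qExpand K N (jqModC K)) B := rfl

/-- **weak (GE4) for `x = j`.** -/
theorem gesj_main (hℓN : ¬ ℓ ∣ N) (hℓ : (ℓ : A) ∈ maximalIdeal A)
    (hF : GeFrac A (modularFunctionFieldFullC K N)) {π : A} (hπ : Irreducible π)
    (jF : modularFunctionFieldFullC K N) (hj : (jF : LaurentSeries K) = jqModC K) :
    ∃ s ∈ geOv A (modularFunctionFieldFullC K N) hF,
      algebraMap K⟮jF⟯ (modularFunctionFieldFullC K N)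
        (Algebra.trace K⟮jF⟯ (modularFunctionFieldFullC K N) s) /
        algebraMap K (modularFunctionFieldFullC K N) (algebraMap A K π) ∉
      geOv A (modularFunctionFieldFullC K N) hF := by
  obtain ⟨Φ, hm, -, h0, ⟨w, hw⟩, -, -⟩ := gem_main N ℓ hℓN
  set φ : Zl ℓ →+* K := gesjPhi K ℓ with hφ
  let tF : modularFunctionFieldFullC K N :=
    ⟨qExpand K N (jqModC K), jqModCd_mem_full K N dvd_rfl⟩
  have hcoe : ∀ B : K[X][X], ((eval₂ (aeval jF : K[X] →ₐ[K] _).toRingHom tF B :
      modularFunctionFieldFullC K N) : LaurentSeries K) = geEv K N B := by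
    intro B
    rw [gesj_coe_eval₂, gesj_geEv_eq, hj]
  have hcoe1 : ∀ g : K[X], ((aeval jF g : modularFunctionFieldFullC K N) : LaurentSeries K)
      = geEv K N (C g) := by
    intro g
    rw [gesj_coe_aeval, geEv_C, hj]
  -- the inverse of the derivative
  obtain ⟨wA, hwA⟩ := gesj_lift (A := A) (K := K) hℓ w
  have hd1 : geEv K N (derivative (Φ.map (mapRingHom φ))) * geI A K wA = 1 := by
    rw [hwA, derivative_map, ← coeffMap_geEv, ← map_mul, hw, map_one]
  have hwmem : geI A K wA ∈ modularFunctionFieldFullC K N := by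
    have h1 : geI A K wA = (geEv K N (derivative (Φ.map (mapRingHom φ))))⁻¹ :=
      eq_inv_of_mul_eq_one_right hd1
    rw [h1, ← hcoe]
    exact inv_mem (Subtype.mem _)
  refine gesj_abs (geOv A (modularFunctionFieldFullC K N) hF) (algebraMap A K π)
    (ge_pi_inv_not_mem hF hπ) jF tF ?_ (Φ.map (mapRingHom φ)) (hm.map _) ?_ ?_
    ⟨geI A K wA, hwmem⟩ (ge_int_mem hF wA hwmem) ?_
  · intro y
    obtain ⟨g, hg, B, hB⟩ := gein_span N ℓ hℓN K (y : LaurentSeries K) y.2
    refine ⟨g, ?_, B, ?_⟩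
    · intro h
      apply gein_C_ne_zero (N := N) hg
      rw [← hcoe1, h]
      rfl
    · apply Subtype.ext
      rw [hcoe, ← hB, ← hcoe1]
      rfl
  · intro i
    obtain ⟨a, ha⟩ := gesj_lift (A := A) (K := K) hℓ (geEv (Zl ℓ) N (C (Φ.coeff i)))
    have h1 : ((aeval jF ((Φ.map (mapRingHom φ)).coeff i) : modularFunctionFieldFullC K N) :
        LaurentSeries K) = geI A K a := by
      rw [hcoe1, ha, coeffMap_geEv, coeff_map, Polynomial.map_C]
    have hmem : geI A K a ∈ modularFunctionFieldFullC K N := by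
      rw [← h1]
      exact Subtype.mem _
    have h2 : aeval jF ((Φ.map (mapRingHom φ)).coeff i) = ⟨geI A K a, hmem⟩ := Subtype.ext h1
    rw [h2]
    exact ge_int_mem hF a hmem
  · apply Subtype.ext
    rw [hcoe, ← coeffMap_geEv, h0, map_zero]
    rfl
  · apply Subtype.ext
    have : ((eval₂ (aeval jF : K[X] →ₐ[K] _).toRingHom tF
        (derivative (Φ.map (mapRingHom φ))) * ⟨geI A K wA, hwmem⟩ :
        modularFunctionFieldFullC K N) : LaurentSeries K)
        = geEv K N (derivative (Φ.map (mapRingHom φ))) * geI A K wA := by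
      rw [← hcoe]
      rfl
    rw [this, hd1]
    rfl

/-- the same in the shape of `abs_main`. -/
theorem gesj_main' (hℓN : ¬ ℓ ∣ N) (hℓ : (ℓ : A) ∈ maximalIdeal A)
    [Algebra A (modularFunctionFieldFullC K N)]
    [IsScalarTower A K (modularFunctionFieldFullC K N)]
    (hF : GeFrac A (modularFunctionFieldFullC K N)) {π : A} (hπ : Irreducible π)
    (jF : modularFunctionFieldFullC K N) (hj : (jF : LaurentSeries K) = jqModC K) :
    ∃ s ∈ geOv A (modularFunctionFieldFullC K N) hF,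
      algebraMap K⟮jF⟯ (modularFunctionFieldFullC K N)
        (Algebra.trace K⟮jF⟯ (modularFunctionFieldFullC K N) s) /
        algebraMap A (modularFunctionFieldFullC K N) π ∉
      geOv A (modularFunctionFieldFullC K N) hF := by
  rw [IsScalarTower.algebraMap_apply A K (modularFunctionFieldFullC K N)]
  exact gesj_main N ℓ hℓN hℓ hF hπ jF hj

end Main

end Fermat.Agent.S18Lib
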