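import Fermat.Agent.S18.Final
import Fermat.Agent.S18.GEGauss
import Fermat.Agent.S18.GEData
import Fermat.Agent.S18.GESepJ

set_option autoImplicit false

/-!
# S18 : the data for the coordinate `j`
-/

open Polynomial IntermediateField ModularCurve AlgebraicCurve

namespace Fermat.Agent.S18Lib

open Fermat.Agent.S24Lib (Kb FN)

theorem fin_J (M : ℕ) [NeZero M] {ℓ : ℕ} (hℓ : ℓ.Prime) (hℓM : ¬ ℓ ∣ M)
    (A : ValuationSubring Kb) (hA : A.LiesOverPrime ℓ)
    (K0 : IntermediateField ℚ Kb) [IsDiscreteValuationRing (descA0 A K0)] :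
    ∃ hF : GeFrac (descA0 A K0) (modularFunctionFieldFullC K0 M),
      ∀ π : descA0 A K0, Irreducible π →
        GEData π (descJ K0 M) (geOv (descA0 A K0) (modularFunctionFieldFullC K0 M) hF) ∧
        ∃ s ∈ geOv (descA0 A K0) (modularFunctionFieldFullC K0 M) hF,
          algebraMap K0⟮descJ K0 M⟯ (modularFunctionFieldFullC K0 M)
            (Algebra.trace K0⟮descJ K0 M⟯ (modularFunctionFieldFullC K0 M) s) /
            algebraMap (descA0 A K0) (modularFunctionFieldFullC K0 M) π ∉
          geOv (descA0 A K0) (modularFunctionFieldFullC K0 M) hF := by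
  haveI : Fact ℓ.Prime := ⟨hℓ⟩
  have hmem := descA0_natCast_mem A hA K0
  refine ⟨geFrac_full (descA0 A K0) K0 M, fun π hπ => ⟨?_, ?_⟩⟩
  · exact ge_data_j (A := descA0 A K0) (K := K0) (N := M) hmem hℓM hπ
  · exact gesj_main' M ℓ hℓM hmem (geFrac_full (descA0 A K0) K0 M) hπ (descJ K0 M) rfl

end Fermat.Agent.S18Lib
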