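import Fermat.Agent.S18.GEData

/-!
# S18 [GE] : change of coordinate, final exports
-/

set_option autoImplicit false
set_option linter.unusedSectionVars false

open ModularCurve Polynomial IsLocalRing IntermediateField

namespace Fermat.Agent.S18Lib

open Fermat.Agent.S20Lib Fermat.Agent.S24Lib Fermat.Agent.S28Lib

section abs

variable {A0 K0 F0 : Type} [CommRing A0] [IsDomain A0] [IsDiscreteValuationRing A0]
    [Field K0] [CharZero K0] [Algebra A0 K0] [IsFractionRing A0 K0]
    [Field F0] [Algebra K0 F0] [Algebra A0 F0] [IsScalarTower A0 K0 F0]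

theorem ge_aeval_mem_Ov {Ov : ValuationSubring F0} (hA : ∀ a : A0, algebraMap A0 F0 a ∈ Ov)
    {x : F0} (hx : x ∈ Ov) (Q : A0[X]) : aeval x Q ∈ Ov :=
  chart_adjoin_le_valuationSubring Ov hA {x} (by rintro _ rfl; exact hx) _
    (aeval_mem_adjoin_singleton _ _)

/-- homogenisation: `x ^ (m d) Q(j)` is a polynomial in `x` when `x ^ m j = P(x)` -/
theorem ge_homog {j x : F0} (m : ℕ) (P : A0[X]) (hrel : x ^ m * j = aeval x P) (Q : A0[X]) :
    ∃ Q' : A0[X], aeval x Q' = x ^ (m * Q.natDegree) * aeval j Q := by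
  refine ⟨∑ i ∈ Finset.range (Q.natDegree + 1),
    C (Q.coeff i) * P ^ i * X ^ (m * (Q.natDegree - i)), ?_⟩
  rw [map_sum, aeval_eq_sum_range, Finset.mul_sum]
  refine Finset.sum_congr rfl fun i hi => ?_
  have hi' : i ≤ Q.natDegree := Nat.lt_succ_iff.mp (Finset.mem_range.mp hi)
  rw [map_mul, map_mul, map_pow, map_pow, aeval_X, aeval_C, ← hrel, Algebra.smul_def]
  have e : x ^ (m * Q.natDegree) = (x ^ m) ^ i * x ^ (m * (Q.natDegree - i)) := by
    rw [← pow_mul, ← pow_add, ← Nat.mul_add, Nat.add_sub_cancel' hi']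
  rw [e, mul_pow]
  ring

theorem ge_change {π : A0} {j x : F0} {Ov : ValuationSubring F0}
    (h : GEData π j Ov) (hx : x ∈ Ov) (hxi : x⁻¹ ∈ Ov) (hx0 : x ≠ 0) (m : ℕ) (P : A0[X])
    (hrel : x ^ m * j = aeval x P)
    (hG : ∀ P : A0[X], aeval x P / algebraMap A0 F0 π ∈ Ov → C π ∣ P) : GEData π x Ov where
  hA := h.hA
  ht := hx
  hπ1 := h.hπ1
  hπ2 := h.hπ2
  hG := hG
  hI := by
    intro y hy
    obtain ⟨Q, hQ, hint⟩ := h.hI y hy
    have hj : j = x⁻¹ ^ m * aeval x P := by
      rw [← hrel, ← mul_assoc, ← mul_pow, inv_mul_cancel₀ hx0, one_pow, one_mul]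
    have hle : Algebra.adjoin A0 ({j} : Set F0) ≤ Algebra.adjoin A0 ({x, x⁻¹} : Set F0) := by
      refine Algebra.adjoin_le ?_
      rintro _ rfl
      have h1 : x⁻¹ ∈ Algebra.adjoin A0 ({x, x⁻¹} : Set F0) :=
        Algebra.subset_adjoin (Set.mem_insert_of_mem _ (Set.mem_singleton _))
      have h2 : aeval x P ∈ Algebra.adjoin A0 ({x, x⁻¹} : Set F0) :=
        Algebra.adjoin_mono (Set.singleton_subset_iff.mpr (Set.mem_insert _ _))
          (aeval_mem_adjoin_singleton _ _)
      have h3 := Subalgebra.mul_mem _ (Subalgebra.pow_mem _ h1 m) h2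
      rw [← hj] at h3
      exact h3
    have h12 : aeval j Q * y ∈ chartS12 A0 x := mem_chartS12.mpr (chart_int_mono hle hint)
    obtain ⟨n, hn⟩ := chart12_left hx0 _ h12
    obtain ⟨Q', hQ'⟩ := ge_homog m P hrel Q
    have hxS : x ∈ chartS A0 x := by
      have := chart_aeval_mem (A0 := A0) (t := x) X
      rwa [aeval_X] at this
    refine ⟨X ^ n * Q', ?_, ?_⟩
    · rintro ⟨Q2, hQ2⟩
      apply hQ
      apply h.hG
      have hπ0 : algebraMap A0 F0 π ≠ 0 := by
        intro h0
        apply h.hπ1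
        rw [h0, inv_zero]
        exact Ov.zero_mem
      have e1 : aeval x (X ^ n * Q') = algebraMap A0 F0 π * aeval x Q2 := by
        rw [hQ2, map_mul, aeval_C]
      rw [map_mul, map_pow, aeval_X, hQ'] at e1
      have e2 : aeval j Q / algebraMap A0 F0 π = x⁻¹ ^ (n + m * Q.natDegree) * aeval x Q2 := by
        rw [div_eq_iff hπ0, mul_assoc, mul_comm (aeval x Q2), ← e1, ← mul_assoc (x ^ n), ← pow_add,
          ← mul_assoc, ← mul_pow, inv_mul_cancel₀ hx0, one_pow, one_mul]
      rw [e2]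
      exact Ov.mul_mem _ _ (Ov.pow_mem hxi _) (ge_aeval_mem_Ov h.hA hx Q2)
    · have e : aeval x (X ^ n * Q') * y = x ^ (m * Q.natDegree) * (x ^ n * (aeval j Q * y)) := by
        rw [map_mul, map_pow, aeval_X, hQ']
        ring
      rw [e]
      exact (chartS A0 x).mul_mem ((chartS A0 x).pow_mem hxS _) hn

end abs

section conc

variable {A K : Type} [CommRing A] [IsDomain A] [IsDiscreteValuationRing A] [Field K] [CharZero K]
  [Algebra A K] [IsFractionRing A K] {N : ℕ} [NeZero N]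
  [Algebra A (modularFunctionFieldFullC K N)] [IsScalarTower A K (modularFunctionFieldFullC K N)]
  {ℓ : ℕ} [Fact ℓ.Prime]

theorem geR_ne_zero_of_coeff (xA : LaurentSeries A) {n : ℤ} (hpole : residue A (xA.coeff n) ≠ 0) :
    geR A xA ≠ 0 := by
  intro h
  apply hpole
  rw [← coeffMap_coeff, h, HahnSeries.coeff_zero]

/-- **(GE1)-(GE3)** for any coordinate `x` with `x ^ m * j = P(x)` whose expansion is integral with
a pole modulo `π` (`x = j, h₂, h₃`) -/
theorem ge_data_of_rel (hℓ : (ℓ : A) ∈ maximalIdeal A) (hℓN : ¬ ℓ ∣ N) {π : A}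
    (hπ : Irreducible π) (x : modularFunctionFieldFullC K N) (xA : LaurentSeries A)
    (hx : (x : LaurentSeries K) = geI A K xA) {n : ℤ} (hn : n < 0)
    (hpole : residue A (xA.coeff n) ≠ 0) (m : ℕ) (P : A[X])
    (hrel : x ^ m * geJ K N = aeval x P) : GEData π x (geOvN A K N) := by
  have hne := geR_ne_zero_of_coeff xA hpole
  have hx0 : x ≠ 0 := by
    rintro rfl
    have h1 : geI A K xA = 0 := hx.symm
    have h2 : xA = 0 := geI_injective A K (by rw [h1, map_zero])
    exact hne (by rw [h2, map_zero])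
  exact ge_change (ge_data_j hℓ hℓN hπ) (geOvN_int _ _ hx) (geOvN_inv _ _ hx hne) hx0 m P
    hrel (geOvN_gauss hπ x xA hx hn hpole)

/-- **(GE5)** : `f = Y / Y'` with `Ȳ = Ȳ' ≠ 0` is `≡ 1` modulo `π` -/
theorem ge_sub_one {π : A} (hπ : Irreducible π) (Y Y' : LaurentSeries A)
    (y y' : modularFunctionFieldFullC K N) (hY : (y : LaurentSeries K) = geI A K Y)
    (hY' : (y' : LaurentSeries K) = geI A K Y') (hred : geR A Y = geR A Y') (hne : geR A Y' ≠ 0) :
    (y / y' - 1) / algebraMap A (modularFunctionFieldFullC K N) π ∈ geOvN A K N := by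
  have hy0 : y' ≠ 0 := by
    rintro rfl
    have h1 : geI A K Y' = 0 := hY'.symm
    have h2 : Y' = 0 := geI_injective A K (by rw [h1, map_zero])
    exact hne (by rw [h2, map_zero])
  have h1 : (y - y') / algebraMap A (modularFunctionFieldFullC K N) π ∈ geOvN A K N := by
    rw [geOvN_div_iff hπ (Y - Y') (y - y') (by rw [map_sub, ← hY, ← hY']; rfl), map_sub, hred,
      sub_self]
  have h2 := geOvN_inv _ _ hY' hne
  have e : (y / y' - 1) / algebraMap A (modularFunctionFieldFullC K N) π =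
      (y - y') / algebraMap A (modularFunctionFieldFullC K N) π * y'⁻¹ := by
    field_simp
  rw [e]
  exact (geOvN A K N).mul_mem _ _ h1 h2

end conc

end Fermat.Agent.S18Lib
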