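import Fermat.Agent.S18.GEIn
import Fermat.Agent.S18.GEGauss
import Fermat.Agent.S18.GESep
import Fermat.Agent.S18.Chart

/-!
# S18 [GE] : generic étaleness of `X₀(N)` over the `j`-line modulo `ℓ ∤ N`
-/

set_option autoImplicit false
set_option linter.unusedSectionVars false

open ModularCurve Polynomial IsLocalRing IntermediateField

namespace Fermat.Agent.S18Lib

open Fermat.Agent.S20Lib Fermat.Agent.S24Lib Fermat.Agent.S28Lib

section zl

variable (A K : Type) [CommRing A] [IsDomain A] [IsDiscreteValuationRing A] [Field K] [CharZero K]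
  [Algebra A K] [IsFractionRing A K] (ℓ : ℕ) [Fact ℓ.Prime]

theorem ge_isUnit_natCast (hℓ : (ℓ : A) ∈ maximalIdeal A) (b : ℕ) (hb : b.Coprime ℓ) :
    IsUnit (b : A) := by
  by_contra hn
  have h1 : (b : A) ∈ maximalIdeal A := (mem_maximalIdeal _).mpr hn
  have h2 : ((Nat.gcd b ℓ : ℕ) : ℤ) = b * Nat.gcdA b ℓ + ℓ * Nat.gcdB b ℓ := Nat.gcd_eq_gcd_ab b ℓ
  rw [hb] at h2
  have h3 : (1 : A) = (b : A) * (Nat.gcdA b ℓ : A) + (ℓ : A) * (Nat.gcdB b ℓ : A) := by
    have := congrArg (Int.cast : ℤ → A) h2
    push_cast at this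
    exact this
  have h4 : (1 : A) ∈ maximalIdeal A := by
    rw [h3]
    exact Ideal.add_mem _ (Ideal.mul_mem_right _ _ h1) (Ideal.mul_mem_right _ _ hℓ)
  exact (Ideal.ne_top_iff_one _).mp (maximalIdeal.isMaximal A).ne_top h4

/-- `ℤ_(ℓ) → A` -/
theorem ge_exists_zlA (hℓ : (ℓ : A) ∈ maximalIdeal A) :
    ∃ e : Zl ℓ →+* A, ∀ r : Zl ℓ, algebraMap A K (e r) = ((r : ℚ) : K) := by
  refine exists_lift_of_injective (algebraMap A K) (IsFractionRing.injective A K)
    ((algebraMap ℚ K).comp (GaloisRep.ratLocalizedAt ℓ).subtype) ?_ |>.imp fun e he r => ?_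
  · rintro ⟨q, hq⟩
    obtain ⟨u, hu⟩ := ge_isUnit_natCast A ℓ hℓ q.den hq
    refine ⟨(q.num : A) * ((u⁻¹ : Aˣ) : A), ?_⟩
    have h1 : algebraMap A K (u : A) * algebraMap A K ((u⁻¹ : Aˣ) : A) = 1 := by
      rw [← map_mul]; simp
    rw [hu, map_natCast] at h1
    have h2 : algebraMap A K ((u⁻¹ : Aˣ) : A) = ((q.den : K))⁻¹ := eq_inv_of_mul_eq_one_right h1
    rw [map_mul, h2, map_intCast]
    simp only [RingHom.comp_apply, Subring.subtype_apply, eq_ratCast]
    rw [Rat.cast_def, div_eq_mul_inv]
  · rw [he]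
    simp

theorem ge_charP (hℓ : (ℓ : A) ∈ maximalIdeal A) : CharP (ResidueField A) ℓ := by
  have hp : ℓ.Prime := Fact.out
  rw [CharP.charP_iff_prime_eq_zero hp, ← map_natCast (residue A)]
  exact (residue_eq_zero_iff _).mpr hℓ

end zl

section main

variable (A K : Type) [CommRing A] [IsDomain A] [IsDiscreteValuationRing A] [Field K] [CharZero K]
  [Algebra A K] [IsFractionRing A K] (N : ℕ) [NeZero N]
  [Algebra A (modularFunctionFieldFullC K N)] [IsScalarTower A K (modularFunctionFieldFullC K N)]

/-- `j` as an element of the function field -/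
noncomputable def geJ : modularFunctionFieldFullC K N := ⟨jqModC K, jqModC_mem_full K N⟩

/-- `t = j(q^N)` as an element of the function field -/
noncomputable def geT : modularFunctionFieldFullC K N :=
  ⟨qExpand K N (jqModC K), jqModCd_mem_full K N dvd_rfl⟩

/-- evaluation at `(j, t)` in the function field -/
noncomputable def geF : A[X][X] →+* modularFunctionFieldFullC K N :=
  eval₂RingHom (aeval (geJ K N) : A[X] →ₐ[A] modularFunctionFieldFullC K N).toRingHom (geT K N)

theorem geF_C (g : A[X]) : geF A K N (C g) = aeval (geJ K N) g := by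
  simp [geF]

theorem geF_X : geF A K N X = geT K N := by
  simp [geF]

theorem ge_coe_algebraMap (a : A) :
    ((algebraMap A (modularFunctionFieldFullC K N) a : modularFunctionFieldFullC K N) :
      LaurentSeries K) = HahnSeries.C (algebraMap A K a) := by
  rw [IsScalarTower.algebraMap_apply A K (modularFunctionFieldFullC K N), ← algebraMap_eq_C]
  rfl

theorem geF_coe (B : A[X][X]) :
    ((geF A K N B : modularFunctionFieldFullC K N) : LaurentSeries K) =
      geI A K (geEv A N B) := by
  have h : (algebraMap (modularFunctionFieldFullC K N) (LaurentSeries K)).comp (geF A K N) =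
      (geI A K).comp (geEv A N) := by
    apply Polynomial.ringHom_ext
    · intro g
      have h2 : ((algebraMap (modularFunctionFieldFullC K N) (LaurentSeries K)).comp
          (geF A K N)).comp C = ((geI A K).comp (geEv A N)).comp C := by
        apply Polynomial.ringHom_ext
        · intro r
          simp only [RingHom.comp_apply, geEv_C_C, geF_C, aeval_C, coeffMap_C]
          exact ge_coe_algebraMap A K N r
        · simp only [RingHom.comp_apply, geEv_C_X, geF_C, aeval_X, coeffMap_jqModC]
          rfl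
      exact RingHom.congr_fun h2 g
    · simp only [RingHom.comp_apply, geEv_X, geF_X, ModularCurve.coeffMap_qExpand, coeffMap_jqModC]
      rfl
  exact RingHom.congr_fun h B

theorem geFrac_full : GeFrac A (modularFunctionFieldFullC K N) := by
  refine geFrac_adjoin A (divisorExpansionsC K N) ?_
  rintro _ ⟨d, hd, -, rfl⟩
  exact ⟨qExpand A d (jqModC A), by rw [ModularCurve.coeffMap_qExpand, coeffMap_jqModC]⟩

/-- the Gauss valuation ring of the function field -/
noncomputable def geOvN : ValuationSubring (modularFunctionFieldFullC K N) :=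
  geOv A (modularFunctionFieldFullC K N) (geFrac_full A K N)

variable {A K N}

theorem geOvN_int (a : LaurentSeries A) (y : modularFunctionFieldFullC K N)
    (h : (y : LaurentSeries K) = geI A K a) : y ∈ geOvN A K N := by
  have ha : geI A K a ∈ modularFunctionFieldFullC K N := h ▸ y.2
  have e : y = ⟨geI A K a, ha⟩ := Subtype.ext h
  rw [e]
  exact ge_int_mem (geFrac_full A K N) a ha

theorem geOvN_inv (a : LaurentSeries A) (y : modularFunctionFieldFullC K N)
    (h : (y : LaurentSeries K) = geI A K a) (hne : geR A a ≠ 0) : y⁻¹ ∈ geOvN A K N := by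
  have ha : geI A K a ∈ modularFunctionFieldFullC K N := h ▸ y.2
  have e : y = ⟨geI A K a, ha⟩ := Subtype.ext h
  rw [e]
  exact ge_int_inv_mem (geFrac_full A K N) a ha hne

theorem ge_algebraMap_ne_zero {π : A} (hπ : Irreducible π) :
    algebraMap A (modularFunctionFieldFullC K N) π ≠ 0 := by
  rw [IsScalarTower.algebraMap_apply A K (modularFunctionFieldFullC K N)]
  intro h
  have h1 := (map_eq_zero_iff _ (algebraMap K (modularFunctionFieldFullC K N)).injective).mp h
  exact hπ.ne_zero ((map_eq_zero_iff _ (IsFractionRing.injective A K)).mp h1)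

theorem geOvN_div_iff {π : A} (hπ : Irreducible π) (a : LaurentSeries A)
    (y : modularFunctionFieldFullC K N) (h : (y : LaurentSeries K) = geI A K a) :
    y / algebraMap A (modularFunctionFieldFullC K N) π ∈ geOvN A K N ↔ geR A a = 0 := by
  have ha : geI A K a ∈ modularFunctionFieldFullC K N := h ▸ y.2
  have e : y = ⟨geI A K a, ha⟩ := Subtype.ext h
  have h0 := ge_algebraMap_ne_zero (K := K) (N := N) hπ
  rw [← ge_int_dvd_iff (geFrac_full A K N) hπ a ha, ← e,
    ← IsScalarTower.algebraMap_apply A K (modularFunctionFieldFullC K N)]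
  constructor
  · intro hy
    exact ⟨_, hy, by rw [mul_div_cancel₀ _ h0]⟩
  · rintro ⟨z, hz, rfl⟩
    rw [mul_div_cancel_left₀ _ h0]
    exact hz

theorem geOvN_algebraMap (a : A) :
    algebraMap A (modularFunctionFieldFullC K N) a ∈ geOvN A K N := by
  rw [IsScalarTower.algebraMap_apply A K (modularFunctionFieldFullC K N)]
  exact ge_algebraMap_mem (geFrac_full A K N) a

theorem geOvN_pi_inv {π : A} (hπ : Irreducible π) :
    (algebraMap A (modularFunctionFieldFullC K N) π)⁻¹ ∉ geOvN A K N := by
  rw [IsScalarTower.algebraMap_apply A K (modularFunctionFieldFullC K N)]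
  exact ge_pi_inv_not_mem (geFrac_full A K N) hπ

theorem geOvN_div {π : A} (hπ : Irreducible π) (y : modularFunctionFieldFullC K N)
    (hy : y ∈ geOvN A K N) (hinv : y⁻¹ ∉ geOvN A K N) :
    y / algebraMap A (modularFunctionFieldFullC K N) π ∈ geOvN A K N := by
  rcases ge_inv_mem_or_dvd (geFrac_full A K N) hπ y hy with h | ⟨z, hz, rfl⟩
  · exact absurd h hinv
  · rw [← IsScalarTower.algebraMap_apply A K (modularFunctionFieldFullC K N),
      mul_div_cancel_left₀ _ (ge_algebraMap_ne_zero hπ)]
    exact hz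

theorem ge_coe_aeval (x : modularFunctionFieldFullC K N) (xA : LaurentSeries A)
    (hx : (x : LaurentSeries K) = geI A K xA) (P : A[X]) :
    ((aeval x P : modularFunctionFieldFullC K N) : LaurentSeries K) = geI A K (aeval xA P) := by
  have h : (algebraMap (modularFunctionFieldFullC K N) (LaurentSeries K)).comp
      (aeval x : A[X] →ₐ[A] modularFunctionFieldFullC K N).toRingHom =
      (geI A K).comp (aeval xA : A[X] →ₐ[A] LaurentSeries A).toRingHom := by
    apply Polynomial.ringHom_ext
    · intro r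
      simp only [RingHom.comp_apply, AlgHom.toRingHom_eq_coe, RingHom.coe_coe, aeval_C,
        algebraMap_eq_C, coeffMap_C]
      exact ge_coe_algebraMap A K N r
    · simp only [RingHom.comp_apply, AlgHom.toRingHom_eq_coe, RingHom.coe_coe, aeval_X]
      exact hx
  exact RingHom.congr_fun h P

theorem geR_aeval (xA : LaurentSeries A) (P : A[X]) :
    geR A (aeval xA P) = aeval (geR A xA) (P.map (residue A)) := by
  have h : (geR A).comp (aeval xA : A[X] →ₐ[A] LaurentSeries A).toRingHom =
      ((aeval (geR A xA) : (ResidueField A)[X] →ₐ[ResidueField A]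
        LaurentSeries (ResidueField A)).toRingHom).comp (mapRingHom (residue A)) := by
    apply Polynomial.ringHom_ext
    · intro r
      simp only [RingHom.comp_apply, AlgHom.toRingHom_eq_coe, RingHom.coe_coe, aeval_C,
        algebraMap_eq_C, coeffMap_C, coe_mapRingHom, map_C]
    · simp only [RingHom.comp_apply, AlgHom.toRingHom_eq_coe, RingHom.coe_coe, aeval_X,
        coe_mapRingHom, map_X]
  exact RingHom.congr_fun h P

theorem ge_C_dvd_of_map_eq_zero {π : A} (hπ : Irreducible π) (P : A[X])
    (h : P.map (residue A) = 0) : C π ∣ P := by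
  rw [C_dvd_iff_dvd_coeff]
  intro i
  have h1 := congrArg (fun p => p.coeff i) h
  simp only [coeff_map, coeff_zero] at h1
  have h2 : P.coeff i ∈ maximalIdeal A := (residue_eq_zero_iff _).mp h1
  rw [hπ.maximalIdeal_eq, Ideal.mem_span_singleton] at h2
  exact h2

/-- (GE2) for any coordinate with an integral expansion having a pole modulo `π` -/
theorem geOvN_gauss {π : A} (hπ : Irreducible π) (x : modularFunctionFieldFullC K N)
    (xA : LaurentSeries A) (hx : (x : LaurentSeries K) = geI A K xA) {n : ℤ} (hn : n < 0)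
    (hpole : residue A (xA.coeff n) ≠ 0) (P : A[X])
    (hP : aeval x P / algebraMap A (modularFunctionFieldFullC K N) π ∈ geOvN A K N) :
    C π ∣ P := by
  rw [geOvN_div_iff hπ _ _ (ge_coe_aeval x xA hx P), geR_aeval] at hP
  have htr : Transcendental (ResidueField A) (geR A xA) :=
    transcendental_of_coeff_neg _ hn (by rw [coeffMap_coeff]; exact hpole)
  exact ge_C_dvd_of_map_eq_zero hπ P ((transcendental_iff.mp htr) _ hP)

end main

section modular

variable {A K : Type} [CommRing A] [IsDomain A] [IsDiscreteValuationRing A] [Field K] [CharZero K]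
  [Algebra A K] [IsFractionRing A K] {N : ℕ} [NeZero N]
  [Algebra A (modularFunctionFieldFullC K N)] [IsScalarTower A K (modularFunctionFieldFullC K N)]
  {ℓ : ℕ} [Fact ℓ.Prime]

theorem ge_exists_Phi (K : Type) [Field K] [CharZero K] [Algebra A K] [IsFractionRing A K]
    (hℓ : (ℓ : A) ∈ maximalIdeal A) (hℓN : ¬ ℓ ∣ N) :
    ∃ Φ : A[X][X], Φ.Monic ∧ Φ.natDegree = Fintype.card (X0 N) ∧ geEv A N Φ = 0 ∧
      ∃ w : LaurentSeries A, geEv A N (derivative Φ) * w = 1 := by
  obtain ⟨e, -⟩ := ge_exists_zlA A K ℓ hℓ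
  obtain ⟨Φ, hm, hdeg, h0, ⟨w, hw⟩, -, -⟩ := gem_main N ℓ hℓN
  refine ⟨Φ.map (mapRingHom e), hm.map _, by rw [hm.natDegree_map, hdeg], ?_, coeffMap e w, ?_⟩
  · rw [← coeffMap_geEv, h0, map_zero]
  · rw [derivative_map, ← coeffMap_geEv, ← map_mul, hw, map_one]

theorem ge_irr (hℓ : (ℓ : A) ∈ maximalIdeal A) (hℓN : ¬ ℓ ∣ N) {π : A} (hπ : Irreducible π)
    (B : A[X][X]) (hB : B.natDegree < Fintype.card (X0 N)) (h : geR A (geEv A N B) = 0) :
    ∃ B' : A[X][X], B = C (C π) * B' := by
  have := ge_charP A ℓ hℓ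
  rw [coeffMap_geEv] at h
  have h1 := gein_indep N ℓ hℓN (ResidueField A) _ (lt_of_le_of_lt natDegree_map_le hB) h
  refine (C_dvd_iff_dvd_coeff _ _).mpr fun i => ge_C_dvd_of_map_eq_zero hπ _ ?_
  have h2 := congrArg (fun p => p.coeff i) h1
  simpa only [coeff_map, coeff_zero, coe_mapRingHom] using h2

variable (A) in
theorem ge_clear (g : K[X]) (B : K[X][X]) : ∃ c : A, c ≠ 0 ∧ ∃ (g' : A[X]) (B' : A[X][X]),
    g'.map (algebraMap A K) = C (algebraMap A K c) * g ∧
    B'.map (mapRingHom (algebraMap A K)) = C (C (algebraMap A K c)) * B := by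
  classical
  obtain ⟨b, hb⟩ := IsLocalization.exist_integer_multiples_of_finset (nonZeroDivisors A)
    (g.coeffs ∪ B.coeffs.biUnion fun p => p.coeffs)
  have hint : ∀ p : K[X], (∀ i, p.coeff i = 0 ∨ p.coeff i ∈
      (g.coeffs ∪ B.coeffs.biUnion fun p => p.coeffs)) →
      C (algebraMap A K (b : A)) * p ∈ lifts (algebraMap A K) := by
    intro p hp
    rw [lifts_iff_coeff_lifts]
    intro i
    rw [coeff_C_mul]
    rcases hp i with h0 | hmem
    · rw [h0, mul_zero]; exact ⟨0, map_zero _⟩
    · obtain ⟨a, ha⟩ := hb _ hmem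
      exact ⟨a, by rw [ha, Algebra.smul_def]⟩
  have hg : C (algebraMap A K (b : A)) * g ∈ lifts (algebraMap A K) := by
    refine hint g fun i => ?_
    by_cases h0 : g.coeff i = 0
    · exact Or.inl h0
    · exact Or.inr (Finset.mem_union_left _ (coeff_mem_coeffs h0))
  have hB : C (C (algebraMap A K (b : A))) * B ∈ lifts (mapRingHom (algebraMap A K)) := by
    rw [lifts_iff_coeff_lifts]
    intro i
    rw [coeff_C_mul]
    have : C (algebraMap A K (b : A)) * B.coeff i ∈ lifts (algebraMap A K) := by
      refine hint _ fun m => ?_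
      by_cases h0 : (B.coeff i).coeff m = 0
      · exact Or.inl h0
      · refine Or.inr (Finset.mem_union_right _ (Finset.mem_biUnion.mpr ⟨B.coeff i, ?_, ?_⟩))
        · refine coeff_mem_coeffs fun h => h0 ?_
          rw [h, coeff_zero]
        · exact coeff_mem_coeffs h0
    exact this
  obtain ⟨g', hg'⟩ := hg
  obtain ⟨B', hB'⟩ := hB
  exact ⟨b, nonZeroDivisors.coe_ne_zero b, g', B', hg', hB'⟩

end modular

end Fermat.Agent.S18Lib
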