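import Fermat.Agent.S18.GEMod
import Fermat.Agent.S24.LinDisj

/-!
# S18 [GEIn] : (I1) the span statement in characteristic zero, (I2) independence modulo `ℓ`
-/

set_option autoImplicit false
set_option linter.unusedSectionVars false

open ModularCurve Polynomial

namespace Fermat.Agent.S18Lib

open Fermat.Agent.S20Lib Fermat.Agent.S24Lib Fermat.Agent.S28Lib

section Span

variable (K : Type*) [Field K] (N : ℕ) [NeZero N]

/-- `y ∈ K(j)[t]` -/
def GeinW (y : LaurentSeries K) : Prop :=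
  ∃ g : K[X], g ≠ 0 ∧ ∃ B : K[X][X], geEv K N (C g) * y = geEv K N B

variable {K N}

theorem gein_C_ne_zero {g : K[X]} (hg : g ≠ 0) : geEv K N (C g) ≠ 0 := by
  rw [geEv_C]
  intro h
  have htr : Transcendental K (jqModC K) :=
    transcendental_of_coeff_neg (jqModC K) (n := -1) (by norm_num)
      (by rw [coeff_jqModC_neg_one]; exact one_ne_zero)
  exact hg ((transcendental_iff.1 htr) g h)

theorem GeinW.add {y z : LaurentSeries K} (hy : GeinW K N y) (hz : GeinW K N z) :
    GeinW K N (y + z) := by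
  obtain ⟨g, hg, B, hB⟩ := hy
  obtain ⟨g', hg', B', hB'⟩ := hz
  refine ⟨g * g', mul_ne_zero hg hg', C g' * B + C g * B', ?_⟩
  rw [C_mul, map_mul, map_add, map_mul, map_mul, ← hB, ← hB']
  ring

theorem GeinW.mul {y z : LaurentSeries K} (hy : GeinW K N y) (hz : GeinW K N z) :
    GeinW K N (y * z) := by
  obtain ⟨g, hg, B, hB⟩ := hy
  obtain ⟨g', hg', B', hB'⟩ := hz
  refine ⟨g * g', mul_ne_zero hg hg', B * B', ?_⟩
  rw [C_mul, map_mul, map_mul, ← hB, ← hB']
  ring

theorem GeinW.algebraMap (c : K) : GeinW K N (algebraMap K (LaurentSeries K) c) :=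
  ⟨1, one_ne_zero, C (C c), by rw [geEv_C_C, S28Lib.algebraMap_eq_C]; simp⟩

/-- a non zero root of a non zero polynomial over `K[j]` divides a non zero element of `K[j]` -/
theorem gein_inv_aux (B : K[X][X]) (hB : geEv K N B ≠ 0) :
    ∀ (d : ℕ) (p : K[X][X]), p.natDegree ≤ d → p ≠ 0 → geEv K N (p.eval₂ C B) = 0 →
      ∃ g : K[X], g ≠ 0 ∧ ∃ B' : K[X][X], geEv K N (C g) = geEv K N B * geEv K N B' := by
  intro d
  induction d with
  | zero =>
    intro p hd hp h
    exfalso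
    rw [eq_C_of_natDegree_le_zero hd, eval₂_C] at h
    refine gein_C_ne_zero (N := N) (g := p.coeff 0) ?_ h
    intro h0
    apply hp
    rw [eq_C_of_natDegree_le_zero hd, h0, C_0]
  | succ d ih =>
    intro p hd hp h
    have hdiv : p = divX p * X + C (p.coeff 0) := (divX_mul_X_add p).symm
    by_cases h0 : p.coeff 0 = 0
    · rw [h0, C_0, add_zero] at hdiv
      refine ih (divX p) ?_ ?_ ?_
      · rw [natDegree_divX_eq_natDegree_tsub_one]
        omega
      · intro h1
        apply hp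
        rw [hdiv, h1, zero_mul]
      · rw [hdiv, eval₂_mul, eval₂_X, map_mul] at h
        exact (mul_eq_zero.1 h).resolve_right hB
    · refine ⟨-p.coeff 0, neg_ne_zero.2 h0, (divX p).eval₂ C B, ?_⟩
      rw [hdiv, eval₂_add, eval₂_mul, eval₂_X, eval₂_C, map_add, map_mul] at h
      rw [C_neg, map_neg]
      linear_combination -h

theorem gein_isIntegralElem {Φ : K[X][X]} (hm : Φ.Monic) (h0 : geEv K N Φ = 0) (B : K[X][X]) :
    ((geEv K N).comp C).IsIntegralElem (geEv K N B) := by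
  have ht : ((geEv K N).comp C).IsIntegralElem (geEv K N X) :=
    ⟨Φ, hm, by rw [← hom_eval₂, eval₂_C_X, h0]⟩
  induction B using Polynomial.induction_on' with
  | add p q hp hq =>
    rw [map_add]
    exact RingHom.IsIntegralElem.add _ hp hq
  | monomial n a =>
    rw [← C_mul_X_pow_eq_monomial, map_mul, map_pow]
    refine RingHom.IsIntegralElem.mul _ (RingHom.isIntegralElem_map _ (x := a)) ?_
    induction n with
    | zero =>
      rw [pow_zero, ← map_one ((geEv K N).comp C)]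
      exact RingHom.isIntegralElem_map _
    | succ n ih =>
      rw [pow_succ]
      exact RingHom.IsIntegralElem.mul _ ih ht

theorem GeinW.inv {Φ : K[X][X]} (hm : Φ.Monic) (h0 : geEv K N Φ = 0) {y : LaurentSeries K}
    (hy : GeinW K N y) : GeinW K N y⁻¹ := by
  obtain ⟨g, hg, B, hB⟩ := hy
  by_cases hy0 : y = 0
  · rw [hy0, inv_zero]
    exact ⟨1, one_ne_zero, 0, by simp⟩
  have hβ : geEv K N B ≠ 0 := by
    rw [← hB]
    exact mul_ne_zero (gein_C_ne_zero hg) hy0
  obtain ⟨p, hp, hpe⟩ := gein_isIntegralElem hm h0 B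
  obtain ⟨g', hg', B', hB'⟩ := gein_inv_aux B hβ p.natDegree p le_rfl hp.ne_zero
    (by rw [hom_eval₂]; exact hpe)
  refine ⟨g', hg', B' * C g, ?_⟩
  rw [hB', ← hB, map_mul]
  field_simp

end Span

/-- **(I1)** -/
theorem gein_span (N : ℕ) [NeZero N] (ℓ : ℕ) [Fact ℓ.Prime] (hℓN : ¬ ℓ ∣ N)
    (K : Type*) [Field K] [CharZero K] (y : LaurentSeries K)
    (hy : y ∈ modularFunctionFieldFullC K N) :
    ∃ g : K[X], g ≠ 0 ∧ ∃ B : K[X][X], geEv K N (C g) * y = geEv K N B := by
  obtain ⟨Φ, hm, -, h0, -, hgen, -⟩ := gem_main N ℓ hℓN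
  set φ : Zl ℓ →+* K := (algebraMap ℚ K).comp (GaloisRep.ratLocalizedAt ℓ).subtype with hφ
  have hφi : Function.Injective φ := (algebraMap ℚ K).injective.comp Subtype.val_injective
  have hmK : (Φ.map (mapRingHom φ)).Monic := hm.map _
  have h0K : geEv K N (Φ.map (mapRingHom φ)) = 0 := by rw [← coeffMap_geEv, h0, map_zero]
  show GeinW K N y
  induction hy using IntermediateField.adjoin_induction with
  | mem x hx =>
    obtain ⟨d, hd, hdN, rfl⟩ := hx
    obtain ⟨g, hg, B, hB⟩ := hgen d hdN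
    refine ⟨g.map φ, (Polynomial.map_ne_zero_iff hφi).2 hg, B.map (mapRingHom φ), ?_⟩
    have h1 := congrArg (coeffMap φ) hB
    rw [map_mul, coeffMap_geEv, coeffMap_geEv, ModularCurve.coeffMap_qExpand, coeffMap_jqModC,
      Polynomial.map_C, coe_mapRingHom] at h1
    exact h1
  | algebraMap c => exact GeinW.algebraMap c
  | add x y _ _ hx hy => exact hx.add hy
  | inv x _ hx => exact hx.inv hmK h0K
  | mul x y _ _ hx hy => exact hx.mul hy

section Indep

variable (N : ℕ) [NeZero N] (ℓ : ℕ) [Fact ℓ.Prime]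

theorem gein_int_dvd (c : ℤ) (b : Zl ℓ) (h : (c : Zl ℓ) = ℓ * b) : (ℓ : ℤ) ∣ c := by
  have hb : (b : ℚ).den.Coprime ℓ := b.2
  have h1 : (c : ℚ) = ℓ * (b : ℚ) := by
    have := congrArg (fun z : Zl ℓ => (z : ℚ)) h
    simpa using this
  have h2 : (c : ℚ) * ((b : ℚ).den : ℚ) = ℓ * ((b : ℚ).num : ℚ) := by
    rw [h1, mul_assoc, Rat.mul_den_eq_num]
  have h3 : c * ((b : ℚ).den : ℤ) = (ℓ : ℤ) * (b : ℚ).num := by exact_mod_cast h2
  have hcop : IsCoprime (ℓ : ℤ) ((b : ℚ).den : ℤ) := Nat.isCoprime_iff_coprime.2 hb.symm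
  exact hcop.dvd_of_dvd_mul_right ⟨_, h3⟩

/-- division of an integral Laurent series by `ℓ` -/
theorem gein_exists_div (e : LaurentSeries ℤ) (h : ∀ n, (ℓ : ℤ) ∣ e.coeff n) :
    ∃ e' : LaurentSeries ℤ, e = HahnSeries.C (ℓ : ℤ) * e' := by
  refine ⟨⟨fun n => e.coeff n / ℓ, e.isPWO_support.mono (by
    intro n hn
    simp only [Function.mem_support, ne_eq] at hn ⊢
    intro h0
    exact hn (by rw [h0, Int.zero_ediv]))⟩, ?_⟩
  ext n
  rw [HahnSeries.C_mul_eq_smul, HahnSeries.coeff_smul, smul_eq_mul]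
  exact (Int.mul_ediv_cancel' (h n)).symm

/-- independence over the prime field -/
theorem gein_indep_zmod (hℓN : ¬ ℓ ∣ N) (B : (ZMod ℓ)[X][X])
    (hB : B.natDegree < Fintype.card (X0 N)) (h : geEv (ZMod ℓ) N B = 0) : B = 0 := by
  obtain ⟨-, -, -, -, -, -, hirr⟩ := gem_main N ℓ hℓN
  have hsurj : Function.Surjective (mapRingHom (Int.castRingHom (ZMod ℓ))) :=
    Polynomial.map_surjective _ ZMod.intCast_surjective
  obtain ⟨Bz, hBz, hdeg⟩ := exists_natDegree_eq_of_mem_lifts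
    (mem_lifts_of_surjective hsurj B)
  have h1 : coeffMap (Int.castRingHom (ZMod ℓ)) (geEv ℤ N Bz) = 0 := by
    rw [coeffMap_geEv, hBz, h]
  obtain ⟨e', he'⟩ := gein_exists_div ℓ (geEv ℤ N Bz) (fun n => by
    have h2 := congrArg (fun s => s.coeff n) h1
    simp only [coeffMap_coeff, HahnSeries.coeff_zero, eq_intCast] at h2
    exact (ZMod.intCast_zmod_eq_zero_iff_dvd _ ℓ).1 h2)
  obtain ⟨B', hB'⟩ := hirr (Bz.map (mapRingHom (Int.castRingHom (Zl ℓ))))
    (lt_of_le_of_lt natDegree_map_le (hdeg ▸ hB))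
    ⟨coeffMap (Int.castRingHom (Zl ℓ)) e', by
      rw [← coeffMap_geEv, he', map_mul, S28Lib.coeffMap_C]
      simp⟩
  rw [← hBz]
  ext i a
  rw [coeff_map, coe_mapRingHom, coeff_map, coeff_zero, coeff_zero, eq_intCast,
    ZMod.intCast_zmod_eq_zero_iff_dvd]
  apply gein_int_dvd ℓ _ ((B'.coeff i).coeff a)
  have h3 := congrArg (fun P : (Zl ℓ)[X][X] => (P.coeff i).coeff a) hB'
  simp only [coeff_map, coe_mapRingHom, coeff_C_mul, eq_intCast] at h3
  exact h3

/-- the monomials `j^a t^i` -/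
noncomputable def geinMon (R : Type*) [CommRing R] (n : ℕ) (x : ℕ × Fin n) : LaurentSeries R :=
  jqModC R ^ x.1 * qExpand R N (jqModC R) ^ (x.2 : ℕ)

theorem gein_li_zmod (hℓN : ¬ ℓ ∣ N) :
    LinearIndependent (ZMod ℓ) (geinMon N (ZMod ℓ) (Fintype.card (X0 N))) := by
  classical
  rw [linearIndependent_iff']
  intro s g hsum z hz
  obtain ⟨B, hBdef⟩ : ∃ B : (ZMod ℓ)[X][X],
      B = ∑ x ∈ s, C (monomial x.1 (g x)) * X ^ (x.2 : ℕ) := ⟨_, rfl⟩
  have hBev : geEv (ZMod ℓ) N B =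
      ∑ x ∈ s, g x • geinMon N (ZMod ℓ) (Fintype.card (X0 N)) x := by
    rw [hBdef, map_sum]
    refine Finset.sum_congr rfl fun x _ => ?_
    rw [map_mul, map_pow, geEv_X, geEv_C, aeval_monomial, geinMon, S28Lib.algebraMap_eq_C,
      mul_assoc, HahnSeries.C_mul_eq_smul]
  have hdeg : B.natDegree < Fintype.card (X0 N) := by
    have hn : 0 < Fintype.card (X0 N) := Fintype.card_pos_iff.2 ⟨x0 N⟩
    have h1 : B.natDegree ≤ Fintype.card (X0 N) - 1 := by
      rw [hBdef]
      refine natDegree_sum_le_of_forall_le _ _ (fun x _ => ?_)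
      refine (natDegree_C_mul_X_pow_le _ _).trans ?_
      have := x.2.2
      omega
    omega
  have hB0 := gein_indep_zmod N ℓ hℓN B hdeg (by rw [hBev, hsum])
  have h3 := congrArg (fun P : (ZMod ℓ)[X][X] => (P.coeff (z.2 : ℕ)).coeff z.1) hB0
  simp only [hBdef, finsetSum_coeff, coeff_C_mul_X_pow, coeff_zero] at h3
  rw [Finset.sum_eq_single z] at h3
  · simpa using h3
  · intro x _ hxz
    by_cases h1 : (z.2 : ℕ) = (x.2 : ℕ)
    · rw [if_pos h1, coeff_monomial, if_neg]
      intro h2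
      exact hxz (Prod.ext h2 (Fin.ext h1.symm))
    · rw [if_neg h1, coeff_zero]
  · intro h
    exact absurd hz h

end Indep

/-- **(I2)** -/
theorem gein_indep (N : ℕ) [NeZero N] (ℓ : ℕ) [Fact ℓ.Prime] (hℓN : ¬ ℓ ∣ N)
    (k : Type*) [Field k] [CharP k ℓ] (B : k[X][X]) (hB : B.natDegree < Fintype.card (X0 N))
    (h : geEv k N B = 0) : B = 0 := by
  classical
  have hli := linearIndependent_map_coeff (ZMod.castHom (dvd_refl ℓ) k) _ (gein_li_zmod N ℓ hℓN)
  have hli' : LinearIndependent k (geinMon N k (Fintype.card (X0 N))) := by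
    convert hli using 1
    funext x
    simp only [geinMon, map_mul, map_pow, coeffMap_jqModC, ModularCurve.coeffMap_qExpand]
  rw [linearIndependent_iff'] at hli'
  set n := Fintype.card (X0 N) with hn
  set D := (Finset.range n).sup (fun i => (B.coeff i).natDegree) with hD
  have hdeg : ∀ i, i < n → (B.coeff i).natDegree < D + 1 := fun i hi =>
    Nat.lt_succ_of_le (Finset.le_sup (f := fun i => (B.coeff i).natDegree) (Finset.mem_range.2 hi))
  have h3 := hli' (Finset.range (D + 1) ×ˢ Finset.univ) (fun x => (B.coeff (x.2 : ℕ)).coeff x.1) ?_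
  · ext i a
    rw [coeff_zero, coeff_zero]
    by_cases hi : i < n
    · by_cases ha : a < D + 1
      · exact h3 (a, ⟨i, hi⟩) (by simp [ha])
      · exact coeff_eq_zero_of_natDegree_lt (lt_of_lt_of_le (hdeg i hi) (not_lt.1 ha))
    · rw [coeff_eq_zero_of_natDegree_lt (lt_of_lt_of_le hB (not_lt.1 hi)), coeff_zero]
  · rw [← h, Finset.sum_product_right]
    have h4 : geEv k N B = ∑ i ∈ Finset.range n,
        aeval (jqModC k) (B.coeff i) * qExpand k N (jqModC k) ^ i := by
      show eval₂ _ _ B = _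
      rw [eval₂_eq_sum_range' _ hB]
      rfl
    rw [h4, Finset.sum_range]
    refine Finset.sum_congr rfl fun i _ => ?_
    rw [aeval_def, eval₂_eq_sum_range' _ (hdeg i i.2), Finset.sum_mul]
    refine Finset.sum_congr rfl fun a _ => ?_
    rw [geinMon, S28Lib.algebraMap_eq_C, mul_assoc, HahnSeries.C_mul_eq_smul]

end Fermat.Agent.S18Lib
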