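import Fermat.Agent.S18.GE
import Fermat.Agent.S18.GESepJ
import Fermat.Agent.S18.DescMod

/-!
# S18 [GE] : instantiation at `A0 = A ∩ K0`
-/

set_option autoImplicit false

open ModularCurve Polynomial IsLocalRing IntermediateField

namespace Fermat.Agent.S18Lib

open Fermat.Agent.S24Lib (Kb FN)

theorem gei_hJ (M : ℕ) [NeZero M] {ℓ : ℕ} (hℓ : ℓ.Prime) (hℓM : ¬ ℓ ∣ M)
    (A : ValuationSubring Kb) (hA : A.LiesOverPrime ℓ)
    (K0 : IntermediateField ℚ Kb)
    [IsDiscreteValuationRing (descA0 A K0)] :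
    ∀ π : descA0 A K0, Irreducible π →
      GEData π (descJ K0 M) (geOvN (descA0 A K0) K0 M) ∧
      ∃ s ∈ geOvN (descA0 A K0) K0 M,
        algebraMap K0⟮descJ K0 M⟯ (modularFunctionFieldFullC K0 M)
          (Algebra.trace K0⟮descJ K0 M⟯ (modularFunctionFieldFullC K0 M) s) /
          algebraMap (descA0 A K0) (modularFunctionFieldFullC K0 M) π ∉
        geOvN (descA0 A K0) K0 M := by
  intro π hπ
  have : Fact ℓ.Prime := ⟨hℓ⟩
  have hmem := descA0_natCast_mem A hA K0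
  exact ⟨ge_data_j hmem hℓM hπ,
    gesj_main' M ℓ hℓM hmem (geFrac_full (descA0 A K0) K0 M) hπ (descJ K0 M) rfl⟩

end Fermat.Agent.S18Lib
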