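import Fermat.Agent.S18.GEIn
import Fermat.Agent.S18.GEGauss

/-!
# S18 [GEInt] : the core of (GE3) for the coordinate `j`
-/

set_option autoImplicit false
set_option linter.unusedSectionVars false

open ModularCurve Polynomial IsLocalRing

namespace Fermat.Agent.S18Lib

open Fermat.Agent.S20Lib Fermat.Agent.S24Lib Fermat.Agent.S28Lib

section Clear

variable (A K : Type*) [CommRing A] [IsDomain A] [Field K] [Algebra A K] [IsFractionRing A K]

theorem geint_clear1 (p : K[X]) :
    ∃ c : A, c ≠ 0 ∧ ∃ pA : A[X], pA.map (algebraMap A K) = C (algebraMap A K c) * p := by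
  obtain ⟨b, hbM, hb⟩ := IsLocalization.integerNormalization_spec (nonZeroDivisors A) p
  refine ⟨b, nonZeroDivisors.ne_zero hbM, IsLocalization.integerNormalization (nonZeroDivisors A) p,
    ?_⟩
  rw [hb]
  ext i
  rw [coeff_smul, coeff_C_mul, Algebra.smul_def]

theorem geint_clear2 (P : K[X][X]) :
    ∃ c : A, c ≠ 0 ∧ ∃ PA : A[X][X],
      PA.map (mapRingHom (algebraMap A K)) = C (C (algebraMap A K c)) * P := by
  induction P using Polynomial.induction_on' with
  | add p q hp hq =>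
    obtain ⟨c, hc, PA, h⟩ := hp
    obtain ⟨c', hc', PA', h'⟩ := hq
    refine ⟨c * c', mul_ne_zero hc hc', C (C c') * PA + C (C c) * PA', ?_⟩
    simp only [Polynomial.map_add, Polynomial.map_mul, Polynomial.map_C, coe_mapRingHom, h, h',
      map_mul]
    ring
  | monomial n a =>
    obtain ⟨c, hc, pA, h⟩ := geint_clear1 A K a
    exact ⟨c, hc, monomial n pA, by rw [map_monomial, coe_mapRingHom, h, C_mul_monomial]⟩

end Clear

section Core

variable (A K : Type*) [CommRing A] [IsDomain A] [IsDiscreteValuationRing A] [Field K] [CharZero K]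
  [Algebra A K] [IsFractionRing A K]

variable {A} in
theorem geint_residue_dvd {π : A} (hπ : Irreducible π) (B : A[X][X])
    (h : B.map (mapRingHom (residue A)) = 0) : C (C π) ∣ B := by
  rw [C_dvd_iff_dvd_coeff]
  intro i
  rw [C_dvd_iff_dvd_coeff]
  intro a
  have h1 := congrArg (fun P : (ResidueField A)[X][X] => (P.coeff i).coeff a) h
  simp only [coeff_map, coe_mapRingHom, coeff_zero] at h1
  rw [residue_eq_zero_iff, hπ.maximalIdeal_eq, Ideal.mem_span_singleton] at h1
  exact h1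

/-- `A[X][Y] → K((q))` -/
noncomputable def geintE (N : ℕ) [NeZero N] : A[X][X] →+* LaurentSeries K :=
  (geI A K).comp (geEv A N)

theorem geintE_eq (N : ℕ) [NeZero N] (B : A[X][X]) :
    geintE A K N B = geEv K N (B.map (mapRingHom (algebraMap A K))) := coeffMap_geEv _ N B

theorem geintE_C_ne_zero (N : ℕ) [NeZero N] {g : A[X]} (hg : g ≠ 0) : geintE A K N (C g) ≠ 0 := by
  rw [geintE_eq, Polynomial.map_C, coe_mapRingHom]
  exact gein_C_ne_zero ((Polynomial.map_ne_zero_iff (IsFractionRing.injective A K)).2 hg)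

/-- the relation over `A`, before removing the content -/
theorem geint_rel (N : ℕ) [NeZero N] (ℓ : ℕ) [Fact ℓ.Prime] (hℓN : ¬ ℓ ∣ N)
    (y : LaurentSeries K) (hy : y ∈ modularFunctionFieldFullC K N) :
    ∃ g : A[X], g ≠ 0 ∧ ∃ B : A[X][X], B.natDegree < Fintype.card (X0 N) ∧
      geintE A K N (C g) * y = geintE A K N B := by
  obtain ⟨Φ, hm, hdegΦ, h0, -, -, -⟩ := gem_main N ℓ hℓN
  obtain ⟨φ, hφ⟩ : ∃ φ : Zl ℓ →+* K,
      φ = (algebraMap ℚ K).comp (GaloisRep.ratLocalizedAt ℓ).subtype := ⟨_, rfl⟩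
  have hmK : (Φ.map (mapRingHom φ)).Monic := hm.map _
  have h0K : geEv K N (Φ.map (mapRingHom φ)) = 0 := by rw [← coeffMap_geEv, h0, map_zero]
  have hn : 0 < Fintype.card (X0 N) := Fintype.card_pos_iff.2 ⟨x0 N⟩
  have hdK : (Φ.map (mapRingHom φ)).natDegree = Fintype.card (X0 N) := by
    rw [hm.natDegree_map, hdegΦ]
  obtain ⟨g, hg, B0, hB0⟩ := gein_span N ℓ hℓN K y hy
  obtain ⟨B1, hB1def⟩ : ∃ B1, B1 = B0 %ₘ (Φ.map (mapRingHom φ)) := ⟨_, rfl⟩
  have hB1deg : B1.natDegree < Fintype.card (X0 N) := by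
    rw [hB1def, ← hdK]
    refine natDegree_modByMonic_lt B0 hmK ?_
    intro h1
    rw [h1, natDegree_one] at hdK
    omega
  have hB1 : geEv K N B1 = geEv K N B0 := by
    have h1 := modByMonic_add_div B0 (Φ.map (mapRingHom φ))
    conv_rhs => rw [← h1]
    rw [map_add, map_mul, h0K, zero_mul, add_zero, hB1def]
  obtain ⟨c1, hc1, gA, hgA⟩ := geint_clear1 A K g
  obtain ⟨c2, hc2, BA, hBA⟩ := geint_clear2 A K B1
  have hinj : Function.Injective (mapRingHom (algebraMap A K)) :=
    Polynomial.map_injective _ (IsFractionRing.injective A K)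
  have hc1K : algebraMap A K c1 ≠ 0 := by
    rw [Ne, map_eq_zero_iff _ (IsFractionRing.injective A K)]; exact hc1
  have hgA0 : gA ≠ 0 := by
    rintro rfl
    rw [Polynomial.map_zero] at hgA
    exact mul_ne_zero (C_ne_zero.2 hc1K) hg hgA.symm
  refine ⟨C c2 * gA, mul_ne_zero (C_ne_zero.2 hc2) hgA0, C (C c1) * BA, ?_, ?_⟩
  · refine lt_of_le_of_lt (natDegree_C_mul_le _ _) ?_
    rw [← natDegree_map_eq_of_injective hinj BA, hBA]
    exact lt_of_le_of_lt (natDegree_C_mul_le _ _) hB1deg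
  · rw [geintE_eq, geintE_eq]
    simp only [Polynomial.map_mul, Polynomial.map_C, coe_mapRingHom, hgA, hBA, map_mul]
    rw [hB1, ← hB0]
    ring

variable {A K} in
/-- **the core of (GE3)** -/
theorem geint_core (N : ℕ) [NeZero N] (ℓ : ℕ) [Fact ℓ.Prime] (hℓN : ¬ ℓ ∣ N)
    (hℓ : (ℓ : A) ∈ maximalIdeal A) {π : A} (hπ : Irreducible π)
    (y : LaurentSeries K) (hy : y ∈ modularFunctionFieldFullC K N) (a b : LaurentSeries A)
    (hb : geR A b ≠ 0) (e : y * geI A K b = geI A K a) :
    ∃ Q : A[X], ¬ C π ∣ Q ∧ ∃ B : A[X][X], B.natDegree < Fintype.card (X0 N) ∧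
      geI A K (geEv A N (C Q)) * y = geI A K (geEv A N B) := by
  classical
  have : CharP (ResidueField A) ℓ := (CharP.charP_iff_prime_eq_zero Fact.out).2 (by
    rw [← map_natCast (residue A), residue_eq_zero_iff]; exact hℓ)
  obtain ⟨g2, hg2, B2, hB2deg, hrel⟩ := geint_rel A K N ℓ hℓN y hy
  by_cases hB20 : B2 = 0
  · refine ⟨1, ?_, 0, Fintype.card_pos_iff.2 ⟨x0 N⟩, ?_⟩
    · intro h
      exact hπ.not_isUnit (isUnit_C.1 (isUnit_of_dvd_one h))
    · rw [hB20, map_zero] at hrel
      have hy0 : y = 0 := (mul_eq_zero.1 hrel).resolve_left (geintE_C_ne_zero A K N hg2)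
      rw [hy0, mul_zero, map_zero, map_zero]
  have hπ1 : Irreducible (C π : A[X]) := (prime_C_iff.2 hπ.prime).irreducible
  have hπ2 : Irreducible (C (C π) : A[X][X]) :=
    (prime_C_iff.2 (prime_C_iff.2 hπ.prime)).irreducible
  obtain ⟨r1, g', hg', hg2e⟩ := WfDvdMonoid.max_power_factor hg2 hπ1
  obtain ⟨r2, B', hB', hB2e⟩ := WfDvdMonoid.max_power_factor hB20 hπ2
  have hϖ : geintE A K N (C (C π)) ≠ 0 := geintE_C_ne_zero A K N (C_ne_zero.2 hπ.ne_zero)
  have hB'deg : B'.natDegree < Fintype.card (X0 N) := by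
    rw [hB2e, ← C_pow, natDegree_C_mul (pow_ne_zero _ (C_ne_zero.2 hπ.ne_zero))] at hB2deg
    exact hB2deg
  rw [hg2e, hB2e, C_mul, C_pow, map_mul, map_mul, map_pow, map_pow] at hrel
  by_cases hr : r1 ≤ r2
  · refine ⟨g', hg', C (C π) ^ (r2 - r1) * B', ?_, ?_⟩
    · rw [← C_pow, natDegree_C_mul (pow_ne_zero _ (C_ne_zero.2 hπ.ne_zero))]
      exact hB'deg
    · show geintE A K N (C g') * y = geintE A K N (C (C π) ^ (r2 - r1) * B')
      apply mul_left_cancel₀ (pow_ne_zero r1 hϖ)
      rw [map_mul, map_pow, ← mul_assoc, ← mul_assoc, ← pow_add, Nat.add_sub_cancel' hr, hrel]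
  · exfalso
    push Not at hr
    apply hB'
    apply geint_residue_dvd hπ
    apply gein_indep N ℓ hℓN (ResidueField A) _ (lt_of_le_of_lt natDegree_map_le hB'deg)
    obtain ⟨Qc, hQc⟩ : ∃ Qc : A[X], Qc = C π ^ (r1 - r2) * g' := ⟨_, rfl⟩
    have h1 : geintE A K N (C Qc) * y = geintE A K N B' := by
      apply mul_left_cancel₀ (pow_ne_zero r2 hϖ)
      rw [hQc, C_mul, C_pow, map_mul, map_pow, ← mul_assoc, ← mul_assoc, ← pow_add,
        Nat.add_sub_cancel' hr.le, hrel]
    have h5 : (C Qc : A[X][X]).map (mapRingHom (residue A)) = 0 := by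
      have h6 : residue A π = 0 := by
        rw [residue_eq_zero_iff]
        exact (mem_maximalIdeal _).2 hπ.not_isUnit
      rw [hQc, Polynomial.map_C, coe_mapRingHom, Polynomial.map_mul, Polynomial.map_pow,
        Polynomial.map_C, h6, C_0, zero_pow (by omega), zero_mul, C_0]
    have h2 : geEv A N (C Qc) * a = geEv A N B' * b := by
      apply geI_injective A K
      rw [map_mul (geI A K), map_mul (geI A K), ← e]
      have h3 : geI A K (geEv A N B') = geintE A K N B' := rfl
      rw [h3, ← h1]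
      show _ = geI A K (geEv A N _) * y * _
      ring
    have h4 := congrArg (geR A) h2
    rw [map_mul (geR A), map_mul (geR A), coeffMap_geEv, coeffMap_geEv, h5, map_zero,
      zero_mul] at h4
    exact (mul_eq_zero.1 h4.symm).resolve_right hb

end Core

section Integral

theorem geint_isIntegralElem_eval₂ {R S : Type*} [CommRing R] [CommRing S] (f : R →+* S) {t : S}
    (ht : f.IsIntegralElem t) (B : R[X]) : f.IsIntegralElem (eval₂ f t B) := by
  induction B using Polynomial.induction_on' with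
  | add p q hp hq =>
    rw [eval₂_add]
    exact RingHom.IsIntegralElem.add _ hp hq
  | monomial n a =>
    rw [eval₂_monomial]
    refine RingHom.IsIntegralElem.mul _ (RingHom.isIntegralElem_map _ (x := a)) ?_
    induction n with
    | zero =>
      rw [pow_zero, ← map_one f]
      exact RingHom.isIntegralElem_map _
    | succ n ih =>
      rw [pow_succ]
      exact RingHom.IsIntegralElem.mul _ ih ht

theorem geint_isIntegral_adjoin {A F : Type*} [CommRing A] [CommRing F] [Algebra A F] (j x : F)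
    (h : (aeval j : A[X] →ₐ[A] F).toRingHom.IsIntegralElem x) :
    IsIntegral (Algebra.adjoin A ({j} : Set F)) x := by
  obtain ⟨q, hq, hqx⟩ := h
  set φ : A[X] →+* Algebra.adjoin A ({j} : Set F) :=
    ((aeval j : A[X] →ₐ[A] F).codRestrict (Algebra.adjoin A {j})
      (fun a => by
        rw [Algebra.adjoin_singleton_eq_range_aeval]
        exact ⟨a, rfl⟩)).toRingHom with hφ
  have hcomp : (algebraMap (Algebra.adjoin A ({j} : Set F)) F).comp φ =
      (aeval j : A[X] →ₐ[A] F).toRingHom := by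
    ext <;> rfl
  refine ⟨q.map φ, hq.map φ, ?_⟩
  rw [eval₂_map, hcomp]
  exact hqx

variable (A K : Type*) [CommRing A] [IsDomain A] [IsDiscreteValuationRing A] [Field K] [CharZero K]
  [Algebra A K] [IsFractionRing A K]

variable {A} in
/-- `ℤ_(ℓ) ⊆ A` -/
theorem geint_Zl_mem {ℓ : ℕ} (hℓ : (ℓ : A) ∈ maximalIdeal A) (r : Zl ℓ) :
    ∃ a : A, algebraMap A K a = ((r : ℚ) : K) := by
  have hcop : (r : ℚ).den.Coprime ℓ := r.2
  have hu : IsUnit (((r : ℚ).den : ℕ) : A) := by
    by_contra hnu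
    have hmem : (((r : ℚ).den : ℕ) : A) ∈ maximalIdeal A := (mem_maximalIdeal _).2 hnu
    obtain ⟨u, v, huv⟩ := Nat.isCoprime_iff_coprime.2 hcop
    have h1 : (u : A) * (((r : ℚ).den : ℕ) : A) + (v : A) * (ℓ : A) = 1 := by
      have h0 := congrArg (Int.cast : ℤ → A) huv
      push_cast at h0
      exact h0
    have h2 : (1 : A) ∈ maximalIdeal A := by
      rw [← h1]
      exact add_mem (Ideal.mul_mem_left _ _ hmem) (Ideal.mul_mem_left _ _ hℓ)
    exact (Ideal.ne_top_iff_one _).1 (maximalIdeal.isMaximal A).ne_top h2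
  obtain ⟨w, hw⟩ := hu
  refine ⟨((r : ℚ).num : A) * ((w⁻¹ : Aˣ) : A), ?_⟩
  have h3 : algebraMap A K ((w⁻¹ : Aˣ) : A) = (((r : ℚ).den : ℕ) : K)⁻¹ := by
    have h4 : algebraMap A K (w : A) * algebraMap A K ((w⁻¹ : Aˣ) : A) = 1 := by
      rw [← map_mul]; simp
    rw [hw, map_natCast] at h4
    exact eq_inv_of_mul_eq_one_right h4
  rw [map_mul, h3, map_intCast, Rat.cast_def, div_eq_mul_inv]

variable {A} in
include K in
/-- the modular polynomial over `A` -/
theorem geint_exists_Phi (N : ℕ) [NeZero N] (ℓ : ℕ) [Fact ℓ.Prime] (hℓN : ¬ ℓ ∣ N)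
    (hℓ : (ℓ : A) ∈ maximalIdeal A) :
    ∃ Φ : A[X][X], Φ.Monic ∧ Φ.natDegree = Fintype.card (X0 N) ∧ geEv A N Φ = 0 := by
  obtain ⟨Φ, hm, hdegΦ, h0, -, -, -⟩ := gem_main N ℓ hℓN
  obtain ⟨φ, hφ⟩ : ∃ φ : Zl ℓ →+* K,
      φ = (algebraMap ℚ K).comp (GaloisRep.ratLocalizedAt ℓ).subtype := ⟨_, rfl⟩
  have hmK : (Φ.map (mapRingHom φ)).Monic := hm.map _
  have h0K : geEv K N (Φ.map (mapRingHom φ)) = 0 := by rw [← coeffMap_geEv, h0, map_zero]
  have hl : Φ.map (mapRingHom φ) ∈ lifts (mapRingHom (algebraMap A K)) := by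
    rw [lifts_iff_coeff_lifts]
    intro i
    rw [coeff_map, coe_mapRingHom]
    have h1 : (Φ.coeff i).map φ ∈ lifts (algebraMap A K) := by
      rw [lifts_iff_coeff_lifts]
      intro a
      rw [coeff_map]
      obtain ⟨c, hc⟩ := geint_Zl_mem K hℓ ((Φ.coeff i).coeff a)
      refine ⟨c, ?_⟩
      rw [hc, hφ]
      simp
    obtain ⟨q, hq⟩ := (mem_lifts _).1 h1
    exact ⟨q, hq⟩
  obtain ⟨ΦA, hΦA, hdeg, hmon⟩ := lifts_and_natDegree_eq_and_monic hl hmK
  refine ⟨ΦA, hmon, ?_, ?_⟩
  · rw [hdeg, hm.natDegree_map, hdegΦ]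
  · apply geI_injective A K
    rw [map_zero, coeffMap_geEv, hΦA, h0K]

end Integral

section HI

variable {A K : Type*} [CommRing A] [IsDomain A] [IsDiscreteValuationRing A] [Field K] [CharZero K]
  [Algebra A K] [IsFractionRing A K] (N : ℕ) [NeZero N]
  [Algebra A (modularFunctionFieldFullC K N)] [IsScalarTower A K (modularFunctionFieldFullC K N)]

/-- `j` as an element of `F` -/
noncomputable def geintJ (K : Type*) [Field K] (N : ℕ) : modularFunctionFieldFullC K N :=
  ⟨jqModC K, jqModC_mem_full K N⟩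

/-- `j(q^N)` as an element of `F` -/
noncomputable def geintT (K : Type*) [Field K] (N : ℕ) [NeZero N] : modularFunctionFieldFullC K N :=
  ⟨qExpand K N (jqModC K), jqModCd_mem_full K N dvd_rfl⟩

/-- evaluation at `(j, j_N)` in `F` -/
noncomputable def geintF : A[X][X] →+* modularFunctionFieldFullC K N :=
  eval₂RingHom (aeval (geintJ K N) : A[X] →ₐ[A] modularFunctionFieldFullC K N).toRingHom
    (geintT K N)

theorem coe_geintF (B : A[X][X]) :
    ((geintF N B : modularFunctionFieldFullC K N) : LaurentSeries K) = geI A K (geEv A N B) := by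
  have h : (algebraMap (modularFunctionFieldFullC K N) (LaurentSeries K)).comp (geintF N) =
      (geI A K).comp (geEv A N) := by
    apply Polynomial.ringHom_ext
    · intro g
      have h2 : ((algebraMap (modularFunctionFieldFullC K N) (LaurentSeries K)).comp
          (geintF N)).comp C = ((geI A K).comp (geEv A N)).comp C := by
        apply Polynomial.ringHom_ext
        · intro r
          simp only [RingHom.comp_apply, geEv_C_C]
          have h3 : (geintF N (C (C r)) : modularFunctionFieldFullC K N) =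
              algebraMap A (modularFunctionFieldFullC K N) r := by simp [geintF]
          rw [h3, geI_C, IsScalarTower.algebraMap_apply A K (modularFunctionFieldFullC K N),
            ← IsScalarTower.algebraMap_apply K (modularFunctionFieldFullC K N) (LaurentSeries K)]
        · simp only [RingHom.comp_apply, geEv_C_X]
          have h3 : (geintF N (C X : A[X][X]) : modularFunctionFieldFullC K N) = geintJ K N := by
            simp [geintF]
          rw [h3, coeffMap_jqModC]
          rfl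
      exact RingHom.congr_fun h2 g
    · simp only [RingHom.comp_apply, geEv_X]
      have h3 : (geintF N (X : A[X][X]) : modularFunctionFieldFullC K N) = geintT K N := by
        simp [geintF]
      rw [h3, ModularCurve.coeffMap_qExpand, coeffMap_jqModC]
      rfl
  exact RingHom.congr_fun h B

/-- **(GE3)** for the coordinate `j` -/
theorem geint_hI (ℓ : ℕ) [Fact ℓ.Prime] (hℓN : ¬ ℓ ∣ N) (hℓ : (ℓ : A) ∈ maximalIdeal A)
    {π : A} (hπ : Irreducible π) (hF : GeFrac A (modularFunctionFieldFullC K N)) :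
    ∀ y ∈ geOv A (modularFunctionFieldFullC K N) hF, ∃ Q : A[X], ¬ C π ∣ Q ∧
      IsIntegral (Algebra.adjoin A ({geintJ K N} : Set (modularFunctionFieldFullC K N)))
        (aeval (geintJ K N) Q * y) := by
  rintro y ⟨a, b, hb, -, e⟩
  obtain ⟨Q, hQ, B, -, hrel⟩ := geint_core N ℓ hℓN hℓ hπ (y : LaurentSeries K) y.2 a b hb e
  refine ⟨Q, hQ, ?_⟩
  have h0 : (geintF N (C Q) : modularFunctionFieldFullC K N) = aeval (geintJ K N) Q := by
    simp [geintF]
  have h1 : aeval (geintJ K N) Q * y = geintF N B := by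
    apply Subtype.ext
    rw [coe_geintF, ← hrel, ← coe_geintF, h0]
    rfl
  rw [h1]
  apply geint_isIntegral_adjoin
  obtain ⟨Φ, hm, -, hΦ0⟩ := geint_exists_Phi K N ℓ hℓN hℓ
  refine geint_isIntegralElem_eval₂ _ ⟨Φ, hm, ?_⟩ B
  have h2 : (geintF N Φ : modularFunctionFieldFullC K N) = 0 := by
    apply Subtype.ext
    rw [coe_geintF, hΦ0, map_zero]
    rfl
  exact h2

end HI

end Fermat.Agent.S18Lib
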