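import Fermat.Agent.S18.H3Id

/-!
# S18 : the Hauptmodul `h = (η(q) / η(q³))¹²` of level 3

* `h3 R` : `q⁻¹ ∏ (1 - qⁿ)¹² / (1 - q³ⁿ)¹²` over any commutative ring, `h3_sq : h² = Δ(q)/Δ(q³)`;
* `h3_j`, `h3_j3` : `j h³ = (h + 27)(h + 243)³`, `j(q³) h = (h + 27)(h + 3)³`.
-/

set_option autoImplicit false

open PowerSeries ModularCurve

namespace Fermat.Agent.S18Lib

/-- the inverse of the Euler product -/
noncomputable def h3EtaInv : PowerSeries ℤ := etaProd.invOfUnit 1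

theorem h3_eta_mul_inv : etaProd * h3EtaInv = 1 :=
  PowerSeries.mul_invOfUnit _ _ (by rw [constantCoeff_etaProd]; rfl)

theorem h3_constantCoeff_etaInv : PowerSeries.constantCoeff h3EtaInv = 1 := by
  have h := congrArg (PowerSeries.constantCoeff (R := ℤ)) h3_eta_mul_inv
  rwa [map_mul, constantCoeff_etaProd, one_mul, map_one] at h

theorem h3_unitInv_eq : dedekindEtaUnitInv = h3EtaInv ^ 24 := by
  have h1 : dedekindEtaUnit * h3EtaInv ^ 24 = 1 := by
    rw [dedekindEtaUnit, ← mul_pow, h3_eta_mul_inv, one_pow]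
  calc dedekindEtaUnitInv = dedekindEtaUnitInv * (dedekindEtaUnit * h3EtaInv ^ 24) := by
        rw [h1, mul_one]
    _ = (dedekindEtaUnit * dedekindEtaUnitInv) * h3EtaInv ^ 24 := by ring
    _ = h3EtaInv ^ 24 := by rw [dedekindEtaUnit_mul_inv, one_mul]

/-- the unit part of `h` -/
noncomputable def h3U : PowerSeries ℤ :=
  etaProd ^ 12 * PowerSeries.expand 3 (NeZero.ne 3) (h3EtaInv ^ 12)

theorem constantCoeff_h3U : PowerSeries.constantCoeff h3U = 1 := by
  rw [h3U, map_mul, map_pow, constantCoeff_etaProd, PowerSeries.constantCoeff_expand, map_pow,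
    h3_constantCoeff_etaInv]
  simp

theorem h3U_sq : h3U ^ 2 = hcHU 3 := by
  rw [h3U, hcHU, h3_unitInv_eq, dedekindEtaUnit, mul_pow, ← pow_mul, ← map_pow, ← pow_mul]

section Ring

variable (R : Type*) [CommRing R]

/-- the Hauptmodul of level 3 over `R` -/
noncomputable def h3 : LaurentSeries R := HahnSeries.single (-1 : ℤ) 1 * hcL R h3U

theorem h3_eq : h3 R = HahnSeries.single (-1 : ℤ) 1 * hcL R h3U := rfl

theorem h3_sq : h3 R ^ 2 = hcH R 3 := by
  rw [h3, mul_pow, ← map_pow (hcL R), h3U_sq, hcH_eq, HahnSeries.single_pow]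
  norm_num

variable {R} in
theorem coeffMap_h3 {S : Type*} [CommRing S] (f : R →+* S) : coeffMap f (h3 R) = h3 S := by
  rw [h3, map_mul, coeffMap_single, map_one, coeffMap_hcL, h3]

theorem h3_single_mul : HahnSeries.single (1 : ℤ) (1 : R) * h3 R = hcL R h3U := by
  rw [h3_eq, ← mul_assoc, mul_comm (HahnSeries.single (1 : ℤ) (1 : R)), hc_single_mul_single,
    one_mul]

theorem h3_coeff_neg_one : (h3 R).coeff (-1) = 1 := by
  rw [h3, HahnSeries.coeff_single_mul, one_mul, sub_neg_eq_add, neg_add_cancel,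
    show (0 : ℤ) = ((0 : ℕ) : ℤ) from rfl, hcL_coeff_nat, PowerSeries.coeff_zero_eq_constantCoeff,
    constantCoeff_h3U]
  simp

theorem h3_jq_single_mul : HahnSeries.single (1 : ℤ) (1 : R) * jqModC R = hcL R jNum := by
  rw [jqModC_eq_hcL, ← mul_assoc, mul_comm (HahnSeries.single (1 : ℤ) (1 : R)),
    hc_single_mul_single, one_mul]

theorem h3_hcL_D3 : hcL R h3iD3 = qExpand R 3 (hcDel R) := hcL_expand R 3 hcD

theorem h3_hcL_E3 : hcL R h3iE3 = qExpand R 3 (hcL R eisenstein4) := hcL_expand R 3 eisenstein4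

/-- `y ((j - 756) y - 19131876)² = (y² + 196830 y + 3¹⁸)²`, `y = Δ(q)/Δ(q³)` -/
theorem h3_sqC : hcH R 3 * ((jqModC R - 756) * hcH R 3 - 19131876) ^ 2 =
    (hcH R 3 ^ 2 + 196830 * hcH R 3 + 387420489) ^ 2 := by
  have hA := congrArg (hcL R) h3i_psC
  simp only [map_mul, map_pow, map_add, map_sub, map_intCast, h3_hcL_D3] at hA
  have h1 : hcL R hcD = hcDel R := rfl
  rw [h1, ← jqModC_mul_hcDel] at hA
  have h3' : hcDel R = hcH R 3 * qExpand R 3 (hcDel R) := (hcH_mul R 3).symm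
  have h4 : qExpand R 3 (hcDel R) * qExpand R 3 (hcDelInv R) = 1 := by
    rw [← map_mul, hcDel_mul_inv, map_one]
  generalize qExpand R 3 (hcDel R) = W at *
  generalize qExpand R 3 (hcDelInv R) = W' at *
  rw [h3'] at hA
  push_cast at hA
  generalize hcH R 3 = y at *
  generalize jqModC R = j at *
  have h5 : (W * W') ^ 4 = 1 := by rw [h4, one_pow]
  calc y * ((j - 756) * y - 19131876) ^ 2
      = (y * ((j - 756) * y - 19131876) ^ 2) * (W * W') ^ 4 := by rw [h5, mul_one]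
    _ = (y * W * W * (j * (y * W) - 756 * (y * W) - 19131876 * W) ^ 2) * W' ^ 4 := by ring
    _ = (((y * W) ^ 2 + 196830 * (y * W * W) + 387420489 * W ^ 2) ^ 2) * W' ^ 4 := by rw [hA]
    _ = (y ^ 2 + 196830 * y + 387420489) ^ 2 * (W * W') ^ 4 := by ring
    _ = _ := by rw [h5, mul_one]

/-- `y (j(q³) - 36 y - 756)² = (y² + 270 y + 729)²`, `y = Δ(q)/Δ(q³)` -/
theorem h3_sqD : hcH R 3 * (qExpand R 3 (jqModC R) - 36 * hcH R 3 - 756) ^ 2 =
    (hcH R 3 ^ 2 + 270 * hcH R 3 + 729) ^ 2 := by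
  have hB := congrArg (hcL R) h3i_psD
  simp only [map_mul, map_pow, map_add, map_sub, map_intCast, h3_hcL_D3, h3_hcL_E3] at hB
  have h1 : hcL R hcD = hcDel R := rfl
  have h2' : qExpand R 3 (hcL R eisenstein4) ^ 3 =
      qExpand R 3 (jqModC R) * qExpand R 3 (hcDel R) := by
    rw [← map_pow, ← jqModC_mul_hcDel, map_mul]
  rw [h1, h2'] at hB
  have h3' : hcDel R = hcH R 3 * qExpand R 3 (hcDel R) := (hcH_mul R 3).symm
  have h4 : qExpand R 3 (hcDel R) * qExpand R 3 (hcDelInv R) = 1 := by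
    rw [← map_mul, hcDel_mul_inv, map_one]
  generalize qExpand R 3 (hcDel R) = W at *
  generalize qExpand R 3 (hcDelInv R) = W' at *
  generalize qExpand R 3 (jqModC R) = J at *
  rw [h3'] at hB
  push_cast at hB
  generalize hcH R 3 = y at *
  have h5 : (W * W') ^ 4 = 1 := by rw [h4, one_pow]
  calc y * (J - 36 * y - 756) ^ 2
      = (y * (J - 36 * y - 756) ^ 2) * (W * W') ^ 4 := by rw [h5, mul_one]
    _ = (y * W * W * (J * W - 36 * (y * W) - 756 * W) ^ 2) * W' ^ 4 := by ring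
    _ = (((y * W) ^ 2 + 270 * (y * W * W) + 729 * W ^ 2) ^ 2) * W' ^ 4 := by rw [hB]
    _ = (y ^ 2 + 270 * y + 729) ^ 2 * (W * W') ^ 4 := by ring
    _ = _ := by rw [h5, mul_one]

end Ring

/-! ### the sign -/

theorem h3_hcL_ne_zero {P : PowerSeries ℤ} (hP : PowerSeries.constantCoeff P ≠ 0) :
    hcL ℤ P ≠ 0 := by
  intro h
  have h3 := congrArg (fun x => HahnSeries.coeff x ((0 : ℕ) : ℤ)) h
  simp only [hcL_coeff_nat, HahnSeries.coeff_zero, PowerSeries.coeff_zero_eq_constantCoeff] at h3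
  exact hP (by simpa using h3)

theorem h3_j_int : jqModC ℤ * h3 ℤ ^ 3 = (h3 ℤ + 27) * (h3 ℤ + 243) ^ 3 := by
  have hC := h3_sqC ℤ
  rw [← h3_sq] at hC
  have hu := h3_single_mul ℤ
  have hn := h3_jq_single_mul ℤ
  have hX := hcL_X ℤ
  have hne : hcL ℤ (h3U * (jNum * h3U ^ 2 - 756 * X * h3U ^ 2 - 19131876 * X ^ 3) +
      (h3U ^ 4 + 196830 * X ^ 2 * h3U ^ 2 + 387420489 * X ^ 4)) ≠ 0 := by
    apply h3_hcL_ne_zero
    simp only [map_add, map_sub, map_mul, map_pow, map_ofNat, constantCoeff_h3U,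
      constantCoeff_jNum, PowerSeries.constantCoeff_X]
    norm_num
  simp only [map_add, map_sub, map_mul, map_pow, map_ofNat, hX, ← hu, ← hn] at hne
  generalize jqModC ℤ = j at *
  generalize h3 ℤ = h at *
  generalize (HahnSeries.single (1 : ℤ) (1 : ℤ) : LaurentSeries ℤ) = q at *
  have hfac : (h * ((j - 756) * h ^ 2 - 19131876) - (h ^ 4 + 196830 * h ^ 2 + 387420489)) *
      (h * ((j - 756) * h ^ 2 - 19131876) + (h ^ 4 + 196830 * h ^ 2 + 387420489)) = 0 := by
    linear_combination hC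
  rcases mul_eq_zero.1 hfac with h0 | h0
  · linear_combination h0
  · exfalso
    apply hne
    linear_combination q ^ 4 * h0

theorem h3_j3_int : qExpand ℤ 3 (jqModC ℤ) * h3 ℤ = (h3 ℤ + 27) * (h3 ℤ + 3) ^ 3 := by
  have hD := h3_sqD ℤ
  rw [← h3_sq] at hD
  have hu := h3_single_mul ℤ
  have hn : HahnSeries.single (3 : ℤ) (1 : ℤ) * qExpand ℤ 3 (jqModC ℤ) =
      hcL ℤ (PowerSeries.expand 3 (NeZero.ne 3) jNum) := by
    rw [hcL_expand, ← h3_jq_single_mul, map_mul, qExpand_single]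
    norm_num
  have hq3 : (HahnSeries.single (3 : ℤ) (1 : ℤ) : LaurentSeries ℤ) =
      HahnSeries.single (1 : ℤ) (1 : ℤ) ^ 3 := by
    rw [HahnSeries.single_pow]; norm_num
  rw [hq3] at hn
  have hX := hcL_X ℤ
  have hne : hcL ℤ (h3U * (PowerSeries.expand 3 (NeZero.ne 3) jNum - 36 * X * h3U ^ 2 -
      756 * X ^ 3) + (h3U ^ 4 + 270 * X ^ 2 * h3U ^ 2 + 729 * X ^ 4)) ≠ 0 := by
    apply h3_hcL_ne_zero
    simp only [map_add, map_sub, map_mul, map_pow, map_ofNat, constantCoeff_h3U,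
      PowerSeries.constantCoeff_expand, constantCoeff_jNum, PowerSeries.constantCoeff_X]
    norm_num
  simp only [map_add, map_sub, map_mul, map_pow, map_ofNat, hX, ← hu, ← hn] at hne
  generalize qExpand ℤ 3 (jqModC ℤ) = J at *
  generalize h3 ℤ = h at *
  generalize (HahnSeries.single (1 : ℤ) (1 : ℤ) : LaurentSeries ℤ) = q at *
  have hfac : (h * (J - 36 * h ^ 2 - 756) - (h ^ 4 + 270 * h ^ 2 + 729)) *
      (h * (J - 36 * h ^ 2 - 756) + (h ^ 4 + 270 * h ^ 2 + 729)) = 0 := by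
    linear_combination hD
  rcases mul_eq_zero.1 hfac with h0 | h0
  · linear_combination h0
  · exfalso
    apply hne
    linear_combination q ^ 4 * h0

section Ring2

variable (R : Type*) [CommRing R]

/-- `j h³ = (h + 27) (h + 243)³` -/
theorem h3_j : jqModC R * h3 R ^ 3 = (h3 R + 27) * (h3 R + 243) ^ 3 := by
  have h := congrArg (coeffMap (Int.castRingHom R)) h3_j_int
  simpa only [map_mul, map_pow, map_add, map_ofNat, coeffMap_jqModC, coeffMap_h3] using h

/-- `j(q³) h = (h + 27) (h + 3)³` -/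
theorem h3_j3 : qExpand R 3 (jqModC R) * h3 R = (h3 R + 27) * (h3 R + 3) ^ 3 := by
  have h := congrArg (coeffMap (Int.castRingHom R)) h3_j3_int
  simpa only [map_mul, map_pow, map_add, map_ofNat, S24Lib.coeffMap_qExpand, coeffMap_jqModC,
    coeffMap_h3] using h

/-- `(j - 1728) h³ = (h² - 486 h - 19683)²` -/
theorem h3_1728 : (jqModC R - 1728) * h3 R ^ 3 = (h3 R ^ 2 - 486 * h3 R - 19683) ^ 2 := by
  linear_combination h3_j R

end Ring2

end Fermat.Agent.S18Lib
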