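import Fermat.Agent.S18.H2Mem
import Fermat.Agent.S18.H3

/-!
# S18 : a Laurent series `x = q⁻¹ (1 + ⋯)` over any commutative ring is "transcendental":
`P(x) = 0 → P = 0` (leading coefficient).  Applications: `j`, `h2`.
-/

set_option autoImplicit false

open PowerSeries ModularCurve Polynomial

namespace Fermat.Agent.S18Lib

section

variable {R : Type*} [CommRing R]

theorem xt_pow (x : LaurentSeries R) (u : PowerSeries R)
    (hx : x = HahnSeries.single (-1 : ℤ) 1 * HahnSeries.ofPowerSeries ℤ R u) (n : ℕ) :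
    x ^ n = HahnSeries.single (-(n : ℤ)) 1 * HahnSeries.ofPowerSeries ℤ R (u ^ n) := by
  have h : n • (-1 : ℤ) = -(n : ℤ) := by simp
  rw [hx, mul_pow, HahnSeries.single_pow, one_pow, h, ← map_pow]

theorem xt_coeff_pow_self (x : LaurentSeries R) (u : PowerSeries R)
    (hu : PowerSeries.constantCoeff u = 1)
    (hx : x = HahnSeries.single (-1 : ℤ) 1 * HahnSeries.ofPowerSeries ℤ R u) (n : ℕ) :
    (x ^ n).coeff (-(n : ℤ)) = 1 := by
  rw [xt_pow x u hx, HahnSeries.coeff_single_mul, one_mul, sub_neg_eq_add, neg_add_cancel,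
    show (0 : ℤ) = ((0 : ℕ) : ℤ) from rfl, HahnSeries.ofPowerSeries_apply_coeff,
    PowerSeries.coeff_zero_eq_constantCoeff, map_pow, hu, one_pow]

theorem xt_coeff_pow_of_lt (x : LaurentSeries R) (u : PowerSeries R)
    (hx : x = HahnSeries.single (-1 : ℤ) 1 * HahnSeries.ofPowerSeries ℤ R u) {n : ℕ} {m : ℤ}
    (hm : m < -(n : ℤ)) : (x ^ n).coeff m = 0 := by
  rw [xt_pow x u hx, HahnSeries.coeff_single_mul, one_mul]
  exact ofPowerSeries_coeff_of_neg _ (by omega)

theorem xt_algebraMap (c : R) :
    algebraMap R (LaurentSeries R) c = HahnSeries.single 0 c := by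
  have h1 : algebraMap R (PowerSeries R) c = PowerSeries.C c := by simp
  rw [HahnSeries.algebraMap_apply', h1, HahnSeries.ofPowerSeries_C]
  rfl

/-- the coefficient of `q ^ (- deg P)` in `P(x)` is the leading coefficient of `P` -/
theorem xt_coeff_aeval (x : LaurentSeries R) (u : PowerSeries R)
    (hu : PowerSeries.constantCoeff u = 1)
    (hx : x = HahnSeries.single (-1 : ℤ) 1 * HahnSeries.ofPowerSeries ℤ R u) (P : R[X]) :
    (aeval x P).coeff (-(P.natDegree : ℤ)) = P.leadingCoeff := by
  rw [aeval_eq_sum_range]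
  simp only [Algebra.smul_def, xt_algebraMap]
  rw [HahnSeries.coeff_sum, Finset.sum_range_succ, Finset.sum_eq_zero,
    zero_add, HahnSeries.coeff_single_mul, sub_zero, xt_coeff_pow_self x u hu hx, mul_one]
  · rfl
  · intro i hi
    rw [HahnSeries.coeff_single_mul, sub_zero, xt_coeff_pow_of_lt x u hx, mul_zero]
    have := Finset.mem_range.1 hi
    omega

theorem xt_eq_zero (x : LaurentSeries R) (u : PowerSeries R)
    (hu : PowerSeries.constantCoeff u = 1)
    (hx : x = HahnSeries.single (-1 : ℤ) 1 * HahnSeries.ofPowerSeries ℤ R u) (P : R[X])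
    (hP : aeval x P = 0) : P = 0 := by
  have h := xt_coeff_aeval x u hu hx P
  rw [hP, HahnSeries.coeff_zero] at h
  exact Polynomial.leadingCoeff_eq_zero.1 h.symm

theorem xt_transcendental (x : LaurentSeries R) (u : PowerSeries R)
    (hu : PowerSeries.constantCoeff u = 1)
    (hx : x = HahnSeries.single (-1 : ℤ) 1 * HahnSeries.ofPowerSeries ℤ R u) :
    Transcendental R x :=
  transcendental_iff.2 fun P hP => xt_eq_zero x u hu hx P hP

end

section

variable (R : Type*) [CommRing R]

theorem xt_constantCoeff_map (P : PowerSeries ℤ) (hP : PowerSeries.constantCoeff P = 1) :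
    PowerSeries.constantCoeff (P.map (Int.castRingHom R)) = 1 := by
  rw [← PowerSeries.coeff_zero_eq_constantCoeff, PowerSeries.coeff_map,
    PowerSeries.coeff_zero_eq_constantCoeff, hP]
  simp

/-- `P(h2) = 0 → P = 0`, over any commutative ring -/
theorem h2_aeval_eq_zero (P : R[X]) (hP : aeval (h2 R) P = 0) : P = 0 :=
  xt_eq_zero (h2 R) _ (xt_constantCoeff_map R _ (constantCoeff_hcHU 2)) (h2_eq R) P hP

theorem h2_transcendental : Transcendental R (h2 R) :=
  transcendental_iff.2 fun P hP => h2_aeval_eq_zero R P hP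

/-- `P(h3) = 0 → P = 0`, over any commutative ring -/
theorem xt_h3_aeval_eq_zero (P : R[X]) (hP : aeval (h3 R) P = 0) : P = 0 :=
  xt_eq_zero (h3 R) _ (xt_constantCoeff_map R _ constantCoeff_h3U) (h3_eq R) P hP

theorem xt_h3_transcendental : Transcendental R (h3 R) :=
  transcendental_iff.2 fun P hP => xt_h3_aeval_eq_zero R P hP

/-- `P(j) = 0 → P = 0`, over any commutative ring -/
theorem xt_jqModC_aeval_eq_zero (P : R[X]) (hP : aeval (jqModC R) P = 0) : P = 0 :=
  xt_eq_zero (jqModC R) _ (xt_constantCoeff_map R _ constantCoeff_jNum) rfl P hP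

theorem xt_jqModC_transcendental : Transcendental R (jqModC R) :=
  transcendental_iff.2 fun P hP => xt_jqModC_aeval_eq_zero R P hP

end

end Fermat.Agent.S18Lib
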