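import Fermat.Agent.S18.GEGauss
import Fermat.Agent.S18.XTrans
import Fermat.Agent.S18.ChartDefs

set_option autoImplicit false

/-!
# S18 [GEJ1] : `GeFrac` for the modular function field and the fields `hA, ht, hπ1, hπ2, hG`
of `GEData π j (geOv ..)`
-/

open ModularCurve IsLocalRing Polynomial

namespace Fermat.Agent.S18Lib

theorem gej_coeffMap_aeval {R S : Type*} [CommRing R] [CommRing S] (f : R →+* S)
    (x : LaurentSeries R) (P : R[X]) :
    coeffMap f (aeval x P) = aeval (coeffMap f x) (P.map f) := by
  rw [aeval_def, hom_eval₂, aeval_def, eval₂_map]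
  congr 1
  ext a : 1
  simp only [RingHom.comp_apply, xt_algebraMap, coeffMap_single]

section

variable (A K : Type) [CommRing A] [IsDomain A] [IsDiscreteValuationRing A] [Field K]
  [Algebra A K] [IsFractionRing A K] (M : ℕ)

theorem gej_hF : GeFrac A (modularFunctionFieldFullC K M) := by
  apply geFrac_adjoin
  rintro s ⟨d, hd, -, rfl⟩
  exact ⟨jqNModC A d, coeffMap_jqNModC (algebraMap A K) d⟩

variable {A K}

theorem gej_data [Algebra A (modularFunctionFieldFullC K M)]
    [IsScalarTower A K (modularFunctionFieldFullC K M)] {π : A} (hπ : Irreducible π)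
    (hF : GeFrac A (modularFunctionFieldFullC K M))
    (j : modularFunctionFieldFullC K M) (hj : (j : LaurentSeries K) = jqModC K)
    (hI : ∀ y ∈ geOv A (modularFunctionFieldFullC K M) hF, ∃ Q : A[X], ¬ C π ∣ Q ∧
      IsIntegral (Algebra.adjoin A ({j} : Set (modularFunctionFieldFullC K M)))
        (aeval j Q * y)) :
    GEData π j (geOv A (modularFunctionFieldFullC K M) hF) := by
  have hmap : ∀ a : A, algebraMap A (modularFunctionFieldFullC K M) a =
      algebraMap K (modularFunctionFieldFullC K M) (algebraMap A K a) :=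
    fun a => IsScalarTower.algebraMap_apply A K _ a
  have hπ0 : algebraMap K (modularFunctionFieldFullC K M) (algebraMap A K π) ≠ 0 := by
    rw [Ne, map_eq_zero, map_eq_zero_iff _ (IsFractionRing.injective A K)]
    exact hπ.ne_zero
  have hjI : geI A K (jqModC A) = jqModC K := coeffMap_jqModC (algebraMap A K)
  refine ⟨?_, ?_, ?_, ?_, ?_, hI⟩
  · intro a
    rw [hmap]
    exact ge_algebraMap_mem hF a
  · have hm : geI A K (jqModC A) ∈ modularFunctionFieldFullC K M := by
      rw [hjI, ← hj]; exact j.2
    have : j = ⟨geI A K (jqModC A), hm⟩ := Subtype.ext (hj.trans hjI.symm)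
    rw [this]
    exact ge_int_mem hF _ hm
  · rw [hmap]
    exact ge_pi_inv_not_mem hF hπ
  · intro y hy hy'
    rw [hmap]
    rcases ge_inv_mem_or_dvd hF hπ y hy with h | ⟨z, hz, rfl⟩
    · exact absurd h hy'
    · rwa [mul_div_cancel_left₀ _ hπ0]
  · intro P hP
    rw [hmap] at hP
    have hcoe : ((aeval j P : modularFunctionFieldFullC K M) : LaurentSeries K) =
        geI A K (aeval (jqModC A) P) := by
      rw [gej_coeffMap_aeval, hjI, ← hj, ← aeval_map_algebraMap K j P]
      exact (aeval_algHom_apply (modularFunctionFieldFullC K M).val j _).symm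
    have hm : geI A K (aeval (jqModC A) P) ∈ modularFunctionFieldFullC K M := by
      rw [← hcoe]; exact (aeval j P).2
    have h2 : geR A (aeval (jqModC A) P) = 0 := by
      rw [← ge_int_dvd_iff hF hπ _ hm]
      refine ⟨_, hP, ?_⟩
      rw [mul_div_cancel₀ _ hπ0]
      exact Subtype.ext hcoe.symm
    rw [gej_coeffMap_aeval, coeffMap_jqModC] at h2
    have h3 := xt_jqModC_aeval_eq_zero _ _ h2
    rw [C_dvd_iff_dvd_coeff]
    intro i
    have h4 : residue A (P.coeff i) = 0 := by
      rw [← coeff_map, h3, coeff_zero]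
    rw [residue_eq_zero_iff, (IsDiscreteValuationRing.irreducible_iff_uniformizer π).1 hπ,
      Ideal.mem_span_singleton] at h4
    exact h4

end

end Fermat.Agent.S18Lib
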