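import Fermat.Agent.S28.QepS
import Fermat.Agent.S28.Val
import Fermat.Agent.S28.TConj
import Fermat.Agent.S28.HCoef
import Fermat.Agent.S28.HIrr
import Fermat.Prelude.Def_ModularCurve_X0ModL

/-!
# S18 [GE, part 2] : the modular input over `ℤ_(ℓ)` (extracted from the S28 library)
-/

set_option autoImplicit false
set_option linter.unusedSectionVars false
set_option linter.style.haveILetI false
set_option linter.deprecated false

open UpperHalfPlane hiding I
open ModularCurve ModularCurve.IgusaScheme Polynomial Filter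
open scoped MatrixGroups

namespace Fermat.Agent.S18Lib

open Fermat.Agent.S20Lib Fermat.Agent.S24Lib Fermat.Agent.S28Lib

/-- evaluation of `B(X, Y)` at `(j(q), j(q^N))`, coefficients in any ring -/
noncomputable def geEv (R : Type*) [CommRing R] (N : ℕ) [NeZero N] :
    R[X][X] →+* LaurentSeries R :=
  eval₂RingHom (aeval (jqModC R) : R[X] →ₐ[R] LaurentSeries R).toRingHom
    (qExpand R N (jqModC R))

theorem geEv_X (R : Type*) [CommRing R] (N : ℕ) [NeZero N] :
    geEv R N X = qExpand R N (jqModC R) := by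
  simp [geEv]

theorem geEv_C (R : Type*) [CommRing R] (N : ℕ) [NeZero N] (g : R[X]) :
    geEv R N (C g) = aeval (jqModC R) g := by
  simp [geEv]

theorem geEv_C_X (R : Type*) [CommRing R] (N : ℕ) [NeZero N] :
    geEv R N (C X) = jqModC R := by
  simp [geEv]

theorem geEv_C_C (R : Type*) [CommRing R] (N : ℕ) [NeZero N] (r : R) :
    geEv R N (C (C r)) = HahnSeries.C r := by
  rw [geEv_C, aeval_C, algebraMap_eq_C]

theorem coeffMap_geEv {R S : Type*} [CommRing R] [CommRing S] (f : R →+* S) (N : ℕ) [NeZero N]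
    (B : R[X][X]) :
    coeffMap f (geEv R N B) = geEv S N (B.map (mapRingHom f)) := by
  have h : (coeffMap f).comp (geEv R N) = (geEv S N).comp (mapRingHom (mapRingHom f)) := by
    apply Polynomial.ringHom_ext
    · intro g
      have h2 : ((coeffMap f).comp (geEv R N)).comp C =
          ((geEv S N).comp (mapRingHom (mapRingHom f))).comp C := by
        apply Polynomial.ringHom_ext
        · intro r
          simp only [RingHom.comp_apply, coe_mapRingHom, map_C, geEv_C_C, coeffMap_C]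
        · simp only [RingHom.comp_apply, coe_mapRingHom, map_C, map_X, geEv_C_X, coeffMap_jqModC]
      exact RingHom.congr_fun h2 g
    · simp only [RingHom.comp_apply, coe_mapRingHom, map_X, geEv_X, ModularCurve.coeffMap_qExpand,
        coeffMap_jqModC]
  exact RingHom.congr_fun h B

variable (N : ℕ) [NeZero N] (ℓ : ℕ) [Fact ℓ.Prime]

/-- evaluation in `FF N` -/
noncomputable def gemEv : (Zl ℓ)[X][X] →+* FF N :=
  eval₂RingHom (aeval (jFull N) : (Zl ℓ)[X] →ₐ[Zl ℓ] FF N).toRingHom (tFull N)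

theorem gemEv_coe (B : (Zl ℓ)[X][X]) :
    ((gemEv N ℓ B : FF N) : LaurentSeries ℚ) = zlIncl ℓ (geEv (Zl ℓ) N B) := by
  have h : (algebraMap (FF N) (LaurentSeries ℚ)).comp (gemEv N ℓ) =
      (zlIncl ℓ).comp (geEv (Zl ℓ) N) := by
    apply Polynomial.ringHom_ext
    · intro g
      have h2 : ((algebraMap (FF N) (LaurentSeries ℚ)).comp (gemEv N ℓ)).comp C =
          ((zlIncl ℓ).comp (geEv (Zl ℓ) N)).comp C := by
        apply Polynomial.ringHom_ext
        · intro r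
          simp only [RingHom.comp_apply, geEv_C_C]
          have h3 : gemEv N ℓ (C (C r)) = algebraMap ℚ (FF N) (r : ℚ) := by
            simp [gemEv, algebraMap_Zl_FF]
          rw [h3, zlIncl, coeffMap_C]
          have h5 : (algebraMap (FF N) (LaurentSeries ℚ)).comp (algebraMap ℚ (FF N)) =
              algebraMap ℚ (LaurentSeries ℚ) := Subsingleton.elim _ _
          have h6 := RingHom.congr_fun h5 (r : ℚ)
          rw [RingHom.comp_apply] at h6
          rw [h6, algebraMap_eq_C]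
          rfl
        · simp only [RingHom.comp_apply, geEv_C_X]
          have h3 : gemEv N ℓ (C X) = jFull N := by simp [gemEv]
          rw [h3, zlIncl, coeffMap_jqModC]
          rfl
      exact RingHom.congr_fun h2 g
    · simp only [RingHom.comp_apply, geEv_X]
      have h3 : gemEv N ℓ X = tFull N := by simp [gemEv]
      rw [h3, zlIncl, ModularCurve.coeffMap_qExpand, coeffMap_jqModC]
      rfl
  exact RingHom.congr_fun h B

/-- the facts on `t = j(q^N)` over `ℤ_(ℓ)[j]`, at the level of `FF N` -/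
theorem gem_aux (hℓN : ¬ ℓ ∣ N) :
    ∃ Φ : (Zl ℓ)[X][X], Φ.Monic ∧ Φ.natDegree = Fintype.card (X0 N) ∧ gemEv N ℓ Φ = 0 ∧
      gemEv N ℓ (derivative Φ) ≠ 0 ∧
      (∀ n : ℤ, (((gemEv N ℓ (derivative Φ))⁻¹ : FF N) : LaurentSeries ℚ).coeff n ∈
        GaloisRep.ratLocalizedAt ℓ) ∧
      (∀ z : FF N, ∃ g : (Zl ℓ)[X], g ≠ 0 ∧ ∃ B : (Zl ℓ)[X][X],
        gemEv N ℓ (C g) * z = gemEv N ℓ B) ∧
      (∀ B : (Zl ℓ)[X][X], B.natDegree < Fintype.card (X0 N) →
        (∀ n : ℤ, ∃ b ∈ GaloisRep.ratLocalizedAt ℓ,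
          ((gemEv N ℓ B : FF N) : LaurentSeries ℚ).coeff n = ℓ * b) →
        ∃ B' : (Zl ℓ)[X][X], B = C (C (ℓ : Zl ℓ)) * B') := by
  classical
  obtain ⟨V, hV⟩ := exists_goodV ℓ
  obtain ⟨tV, ht, hu⟩ := exists_tV N ℓ hℓN V hV
  have hcoef := fun i => hcoef_fin N ℓ V hV tV ht hu i
  have hℓ : ℓ.Prime := Fact.out
  letI alg : Algebra (Zl ℓ)[X] (FF N) :=
    (aeval (jFull N) : (Zl ℓ)[X] →ₐ[Zl ℓ] FF N).toRingHom.toAlgebra
  have halg : ∀ a : (Zl ℓ)[X], algebraMap (Zl ℓ)[X] (FF N) a = aeval (jFull N) a := fun _ => rfl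
  have hinj : Function.Injective (algebraMap (Zl ℓ)[X] (FF N)) := aeval_jFull_injective N ℓ
  haveI : FaithfulSMul (Zl ℓ)[X] (FF N) := (faithfulSMul_iff_algebraMap_injective _ _).mpr hinj
  letI := FractionRing.liftAlgebra (Zl ℓ)[X] (FF N)
  haveI : IsScalarTower (Zl ℓ)[X] (FractionRing (Zl ℓ)[X]) (FF N) :=
    FractionRing.isScalarTower_liftAlgebra _ _
  haveI := isIntegrallyClosed_ZlX ℓ
  haveI := isNoetherianRing_ZlX ℓ
  obtain ⟨hfd, hrank⟩ := finrank_le_of_lin_dep (A := (Zl ℓ)[X]) (K := FractionRing (Zl ℓ)[X])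
    (F := FF N) (Fintype.card (X0 N)) (fun v => lin_dep N ℓ v)
  haveI := hfd
  obtain ⟨σ, hσj, hσt⟩ := exists_sigma N
  set τ : X0 N → LaurentSeries ℂ := fun x => iV V (tV x) with hτdef
  have hτ : Function.Injective τ := by
    intro x y hxy
    by_contra hne
    have h1 : tV x = tV y := iV_injective V hxy
    have h2 := hu x y hne
    rw [h1, sub_self] at h2
    exact not_isUnit_zero h2
  obtain ⟨htint, htop, hmin⟩ := minpoly_map_eq_pol1 (A := (Zl ℓ)[X])
    (K := FractionRing (Zl ℓ)[X]) (F := FF N) hrank (eStd N) (tFull N) τ hτ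
    (fun x => ⟨σ x, fun a => ringHom_eq_eStd N ℓ (σ x) (hσj x) a,
      (hσt x).unique (isChart_infty N) (ht x)⟩) hcoef
  have het : eStd N (tFull N) = τ (x0 N) := by
    refine (hasExp_eStd_tFull N).unique (isChart_infty N) ?_
    refine (ht (x0 N)).congr (Eventually.of_forall fun z => ?_)
    exact cvec_base (IsInv.jD (dvd_refl N)) z
  have hder : eStd N (aeval (tFull N) (derivative (minpoly (Zl ℓ)[X] (tFull N)))) =
      ∏ y ∈ Finset.univ.erase (x0 N), (τ (x0 N) - τ y) := by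
    rw [← eval_derivative_pol1, ← hmin, derivative_map, eval_map, ← het, aeval_def, hom_eval₂]
  have hunit : (eStd N (aeval (tFull N) (derivative (minpoly (Zl ℓ)[X] (tFull N)))))⁻¹ ∈ OV V := by
    rw [hder, ← Finset.prod_inv_distrib]
    refine Subring.prod_mem _ fun y hy => ?_
    have hne : x0 N ≠ y := fun h => by simp [h] at hy
    obtain ⟨u, hu'⟩ := hu (x0 N) y hne
    refine ⟨((u⁻¹ : (LaurentSeries V)ˣ) : LaurentSeries V), ?_⟩
    have h1 : iV V (u : LaurentSeries V) *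
        iV V ((u⁻¹ : (LaurentSeries V)ˣ) : LaurentSeries V) = 1 := by
      rw [← map_mul]; simp
    rw [hu', map_sub] at h1
    exact eq_inv_of_mul_eq_one_right h1
  have hdeg : (minpoly (Zl ℓ)[X] (tFull N)).natDegree = Fintype.card (X0 N) := by
    rw [← natDegree_pol1 τ, ← hmin, (minpoly.monic htint).natDegree_map]
  have hev : ∀ B : (Zl ℓ)[X][X], gemEv N ℓ B = aeval (tFull N) B := fun B => rfl
  refine ⟨minpoly (Zl ℓ)[X] (tFull N), minpoly.monic htint, hdeg, ?_, ?_, ?_, ?_, ?_⟩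
  · rw [hev, minpoly.aeval]
  · rw [hev]
    intro h
    rw [h, map_zero] at hder
    have h2 := Finset.prod_eq_zero_iff.mp hder.symm
    obtain ⟨y, hy, hy0⟩ := h2
    have hne : y ≠ x0 N := (Finset.mem_erase.mp hy).1
    exact hne (hτ (sub_eq_zero.mp hy0)).symm
  · intro n
    refine coeff_mem_of_eStd_mem N ℓ hV _ ?_ n
    rw [map_inv₀, hev]
    exact hunit
  · intro z
    have hz : z ∈ Algebra.adjoin (FractionRing (Zl ℓ)[X]) {tFull N} := by
      rw [htop]; exact Algebra.mem_top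
    rw [Algebra.adjoin_singleton_eq_range_aeval] at hz
    obtain ⟨p, hp⟩ := hz
    obtain ⟨b, hb⟩ := IsLocalization.integerNormalization_map_to_map
      (nonZeroDivisors (Zl ℓ)[X]) p
    refine ⟨(b : (Zl ℓ)[X]), nonZeroDivisors.coe_ne_zero b,
      IsLocalization.integerNormalization (nonZeroDivisors (Zl ℓ)[X]) p, ?_⟩
    have hb2 : (b : (Zl ℓ)[X]) • p =
        C (algebraMap (Zl ℓ)[X] (FractionRing (Zl ℓ)[X]) (b : (Zl ℓ)[X])) * p := by
      rw [← smul_eq_C_mul, algebraMap_smul]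
    rw [hev, hev, aeval_C, ← aeval_map_algebraMap (FractionRing (Zl ℓ)[X]), hb, hb2, map_mul,
      aeval_C, ← IsScalarTower.algebraMap_apply]
    congr 1
    exact hp.symm
  · intro B hB h
    exact hirr_fin N ℓ hℓN V hV tV ht hu B hB (exists_eStd_eq_mul N ℓ hV _ h)

/-- the modular input, in `ℤ_(ℓ)((q))` -/
theorem gem_main (hℓN : ¬ ℓ ∣ N) :
    ∃ Φ : (Zl ℓ)[X][X], Φ.Monic ∧ Φ.natDegree = Fintype.card (X0 N) ∧ geEv (Zl ℓ) N Φ = 0 ∧
      (∃ w : LaurentSeries (Zl ℓ), geEv (Zl ℓ) N (derivative Φ) * w = 1) ∧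
      (∀ (d : ℕ) [NeZero d], d ∣ N → ∃ g : (Zl ℓ)[X], g ≠ 0 ∧ ∃ B : (Zl ℓ)[X][X],
        geEv (Zl ℓ) N (C g) * qExpand (Zl ℓ) d (jqModC (Zl ℓ)) = geEv (Zl ℓ) N B) ∧
      (∀ B : (Zl ℓ)[X][X], B.natDegree < Fintype.card (X0 N) →
        (∃ y : LaurentSeries (Zl ℓ), geEv (Zl ℓ) N B = HahnSeries.C (ℓ : Zl ℓ) * y) →
        ∃ B' : (Zl ℓ)[X][X], B = C (C (ℓ : Zl ℓ)) * B') := by
  obtain ⟨Φ, hm, hdeg, h0, hne, hw, hgen, hirr⟩ := gem_aux N ℓ hℓN
  refine ⟨Φ, hm, hdeg, ?_, ?_, ?_, ?_⟩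
  · apply zlIncl_injective ℓ
    rw [← gemEv_coe, h0, map_zero]
    rfl
  · obtain ⟨w, hw'⟩ := (mem_range_zlIncl_iff ℓ _).mpr hw
    refine ⟨w, ?_⟩
    apply zlIncl_injective ℓ
    rw [map_mul, hw', ← gemEv_coe, map_one]
    have h5 : (((gemEv N ℓ (derivative Φ)) * (gemEv N ℓ (derivative Φ))⁻¹ : FF N) :
        LaurentSeries ℚ) = 1 := by
      rw [mul_inv_cancel₀ hne]; rfl
    exact h5
  · intro d _ hd
    obtain ⟨g, hg, B, hB⟩ := hgen ⟨qExpand ℚ d jq, jqd_mem_full N hd⟩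
    refine ⟨g, hg, B, ?_⟩
    apply zlIncl_injective ℓ
    rw [map_mul, ← gemEv_coe, ← gemEv_coe, ← hB, zlIncl, ModularCurve.coeffMap_qExpand,
      coeffMap_jqModC]
    rfl
  · rintro B hB ⟨y, hy⟩
    refine hirr B hB fun n => ⟨y.coeff n, (y.coeff n).2, ?_⟩
    rw [gemEv_coe, hy, zlIncl_coeff, HahnSeries.C_mul_eq_smul, HahnSeries.coeff_smul]
    simp

end Fermat.Agent.S18Lib
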