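import Fermat.Agent.S18.GEx

/-!
# S18 [GExTr] : transfer of the weak (GE4) (the trace is not `≡ 0 mod π`) from `j` to `x`
-/

set_option autoImplicit false
set_option linter.unusedSectionVars false
set_option linter.unusedVariables false
set_option linter.style.haveILetI false

open Polynomial IntermediateField

namespace Fermat.Agent.S18Lib

section
variable {A0 K0 F0 : Type} [CommRing A0] [IsDomain A0] [IsDiscreteValuationRing A0]
    [Field K0] [CharZero K0] [Algebra A0 K0] [IsFractionRing A0 K0]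
    [Field F0] [Algebra K0 F0] [Algebra A0 F0] [IsScalarTower A0 K0 F0]

theorem gext_adjoin_le (j : F0) : ∀ b ∈ Algebra.adjoin A0 ({j} : Set F0), b ∈ K0⟮j⟯ := by
  have : Algebra.adjoin A0 ({j} : Set F0) ≤ (K0⟮j⟯.toSubalgebra).restrictScalars A0 := by
    refine Algebra.adjoin_le ?_
    intro a ha
    rw [Set.mem_singleton_iff] at ha
    rw [ha]
    exact mem_adjoin_simple_self K0 j
  exact fun b hb => this hb

/-- the trace of an intermediate extension preserves `Ov` -/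
theorem gext_trace_mem {π : A0} {j : F0} {Ov : ValuationSubring F0} (h : GEData π j Ov)
    (E2 : IntermediateField K0 F0) (h12 : K0⟮j⟯ ≤ E2) (hfin : FiniteDimensional K0⟮j⟯ F0) :
    letI := (IntermediateField.inclusion h12).toRingHom.toAlgebra
    ∀ w : E2, (w : F0) ∈ Ov → ((Algebra.trace K0⟮j⟯ E2 w : K0⟮j⟯) : F0) ∈ Ov := by
  letI := (IntermediateField.inclusion h12).toRingHom.toAlgebra
  haveI : IsScalarTower K0⟮j⟯ E2 F0 := IsScalarTower.of_algebraMap_eq (fun _ => rfl)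
  haveI : FiniteDimensional K0⟮j⟯ E2 := FiniteDimensional.left K0⟮j⟯ E2 F0
  intro w hw
  obtain ⟨Q, hQ, hint⟩ := h.hI (w : F0) hw
  have hQu := gex_aeval_unit h Q hQ
  set O1 : ValuationSubring K0⟮j⟯ := Ov.comap (algebraMap K0⟮j⟯ F0) with hO1
  letI : Algebra O1 E2 := ((algebraMap K0⟮j⟯ E2).comp O1.subtype).toAlgebra
  haveI : IsScalarTower O1 K0⟮j⟯ E2 := IsScalarTower.of_algebraMap_eq (fun _ => rfl)
  letI : Algebra O1 F0 := ((algebraMap K0⟮j⟯ F0).comp O1.subtype).toAlgebra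
  haveI : IsScalarTower O1 E2 F0 := IsScalarTower.of_algebraMap_eq (fun _ => rfl)
  let u1 : K0⟮j⟯ := ⟨aeval j Q, gext_adjoin_le j _ (aeval_mem_adjoin_singleton _ _)⟩
  let θ : Algebra.adjoin A0 ({j} : Set F0) →+* O1 :=
    { toFun := fun b => ⟨⟨b.1, gext_adjoin_le j b.1 b.2⟩,
        chart_adjoin_le_valuationSubring Ov h.hA {j} (by rintro _ rfl; exact h.ht) b.1 b.2⟩
      map_one' := Subtype.ext (Subtype.ext rfl)
      map_mul' := fun _ _ => Subtype.ext (Subtype.ext rfl)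
      map_zero' := Subtype.ext (Subtype.ext rfl)
      map_add' := fun _ _ => Subtype.ext (Subtype.ext rfl) }
  have h1 : IsIntegral O1 (aeval j Q * (w : F0)) := chart_int_of_hom θ (fun _ => rfl) hint
  have h2 : IsIntegral O1 (u1 • w) := by
    rw [← isIntegral_algebraMap_iff (algebraMap E2 F0).injective]
    exact h1
  have h3 : IsIntegral O1 (Algebra.trace K0⟮j⟯ E2 (u1 • w)) := Algebra.isIntegral_trace h2
  obtain ⟨z, hz⟩ := (IsIntegrallyClosed.isIntegral_iff (R := O1) (K := K0⟮j⟯)).mp h3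
  rw [map_smul, smul_eq_mul] at hz
  have hz' : aeval j Q * ((Algebra.trace K0⟮j⟯ E2 w : K0⟮j⟯) : F0) ∈ Ov := by
    have this : algebraMap K0⟮j⟯ F0 (z : K0⟮j⟯) ∈ Ov := z.2
    have e : algebraMap K0⟮j⟯ F0 (z : K0⟮j⟯) =
        aeval j Q * ((Algebra.trace K0⟮j⟯ E2 w : K0⟮j⟯) : F0) := by
      have := congrArg (algebraMap K0⟮j⟯ F0) hz
      rw [map_mul] at this
      exact this
    rwa [e] at this
  have hQ0 : aeval j Q ≠ 0 := by
    intro h0
    apply hQ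
    apply h.hG
    rw [h0, zero_div]
    exact Ov.zero_mem
  have : ((Algebra.trace K0⟮j⟯ E2 w : K0⟮j⟯) : F0) =
      (aeval j Q)⁻¹ * (aeval j Q * ((Algebra.trace K0⟮j⟯ E2 w : K0⟮j⟯) : F0)) := by
    rw [← mul_assoc, inv_mul_cancel₀ hQ0, one_mul]
  rw [this]
  exact Ov.mul_mem _ _ hQu hz'

/-- transfer of the weak (GE4) -/
theorem gex_trace {π : A0} {j x : F0} {Ov : ValuationSubring F0} (h : GEData π j Ov)
    (hjx : j ∈ K0⟮x⟯) (hfin : FiniteDimensional K0⟮j⟯ F0)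
    (hsep : ∃ s ∈ Ov, algebraMap K0⟮j⟯ F0 (Algebra.trace K0⟮j⟯ F0 s) / algebraMap A0 F0 π ∉ Ov) :
    ∃ s ∈ Ov, algebraMap K0⟮x⟯ F0 (Algebra.trace K0⟮x⟯ F0 s) / algebraMap A0 F0 π ∉ Ov := by
  obtain ⟨s, hs, hns⟩ := hsep
  refine ⟨s, hs, fun hc => hns ?_⟩
  have h12 : K0⟮j⟯ ≤ K0⟮x⟯ := adjoin_simple_le_iff.2 hjx
  have key := gext_trace_mem h K0⟮x⟯ h12 hfin
  letI := (IntermediateField.inclusion h12).toRingHom.toAlgebra
  haveI : IsScalarTower K0⟮j⟯ K0⟮x⟯ F0 := IsScalarTower.of_algebraMap_eq (fun _ => rfl)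
  haveI : FiniteDimensional K0⟮j⟯ K0⟮x⟯ := FiniteDimensional.left K0⟮j⟯ K0⟮x⟯ F0
  haveI : FiniteDimensional K0⟮x⟯ F0 := FiniteDimensional.right K0⟮j⟯ K0⟮x⟯ F0
  have hπ0 := gex_pi_ne h
  let p1 : K0⟮j⟯ := algebraMap K0 K0⟮j⟯ (algebraMap A0 K0 π)
  have hp1 : (p1 : F0) = algebraMap A0 F0 π := by
    show algebraMap K0 F0 (algebraMap A0 K0 π) = _
    rw [← IsScalarTower.algebraMap_apply]
  have hp10 : p1 ≠ 0 := by
    intro h0
    apply hπ0
    rw [← hp1, h0]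
    rfl
  set w : K0⟮x⟯ := Algebra.trace K0⟮x⟯ F0 s with hw
  have hw' : ((p1⁻¹ • w : K0⟮x⟯) : F0) ∈ Ov := by
    have : ((p1⁻¹ • w : K0⟮x⟯) : F0) = algebraMap K0⟮x⟯ F0 w / algebraMap A0 F0 π := by
      rw [← hp1, div_eq_inv_mul]
      rfl
    rw [this]
    exact hc
  have h3 := key _ hw'
  rw [map_smul, hw, Algebra.trace_trace, smul_eq_mul] at h3
  have : algebraMap K0⟮j⟯ F0 (Algebra.trace K0⟮j⟯ F0 s) / algebraMap A0 F0 π =
      ((p1⁻¹ * Algebra.trace K0⟮j⟯ F0 s : K0⟮j⟯) : F0) := by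
    rw [← hp1, div_eq_inv_mul]
    rfl
  rw [this]
  exact h3

end

end Fermat.Agent.S18Lib
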