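import Fermat.Agent.S18.HCommon

/-!
# S18 : the Hauptmodul `h = Δ(q) / Δ(q²)` of level 2

* `h2_psA`, `h2_psB` : the two weight 36 identities on `Γ₀(2)` as identities of integral power
  series (Sturm bound);
* `h2_j`, `h2_j2` : `j h² = (h + 256)³`, `j(q²) h = (h + 16)³` over any commutative ring.
-/

set_option autoImplicit false

open PowerSeries ModularCurve

namespace Fermat.Agent.S18Lib

/-- `Δ(q²)` -/
noncomputable def h2D2 : PowerSeries ℤ := PowerSeries.expand 2 two_ne_zero hcD

/-- `E₄(q²)` -/
noncomputable def h2E2 : PowerSeries ℤ := PowerSeries.expand 2 two_ne_zero eisenstein4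

theorem h2_hcQ_D2 : hcQ 2 12 h2D2 := hcQ_D_expand 2

theorem h2_hcQ_E2 : hcQ 2 4 h2E2 := hcQ_E4_expand 2

def h2D2L : List ℤ := [0, 0, 1, 0, -24, 0, 252, 0, -1472, 0, 4830, 0, -6048, 0, -16744, 0, 84480, 0, -113643, 0, -115920, 0, 534612, 0, -370944, 0, -577738, 0, 401856, 0, 1217160, 0, 987136, 0, -6905934, 0, 2727432, 0, 10661420, 0]

def h2E2L : List ℤ := [1, 0, 240, 0, 2160, 0, 6720, 0, 17520, 0, 30240, 0, 60480, 0, 82560, 0, 140400, 0, 181680, 0, 272160, 0, 319680, 0, 490560, 0, 527520, 0, 743040, 0, 846720, 0, 1123440, 0, 1179360, 0, 1635120, 0, 1646400, 0]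

theorem h2_hcIs_D2 : hcIs 40 h2D2 h2D2L := hcIs_D.expand 1 (by decide +kernel)

theorem h2_hcIs_E2 : hcIs 40 h2E2 h2E2L := hcIs_E4.expand 1 (by decide +kernel)

def h2AL : List ℤ := [0, 0, 0, 1, 696, 162228, 12815104, 30294474, -1190188608, -1613013192, 49897552896, 8336028459, -1141020749792, 655881703668, 15704496582144, -11700122581074, -159642592252416, 97998839379384, 1321405426722816, -499615056989355, -8921414869489008, 957792652897136, 48323755132147968, 10320962618838462, -206501674078654208, -124235146616018640, 651858707915209728, 741431785278653946, -1125473030948536512, -2954341469338179612, -1910071896881530368, 7838156241289409448, 22420961567535034368, -9075825467655227160, -87095860306981165056, -27271829318633087412, 181472624343299458584, 157695507735369770532, -17192328736332437760, -313356111018082759738]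

def h2BL : List ℤ := [0, 0, 0, 1, -24, 948, -18176, 342474, -4924608, 57064248, -550923264, 4039713579, -20631557792, 66915367668, -93128295936, -290992074834, 2177089288704, -6390872108616, 7292655138816, 20034338620245, -115198385074128, 243054804853616, -93211738828032, -978002631977538, 3138772324932352, -3822810105708240, -3546875855711232, 22388918815421946, -36840736796776512, 10860922484640228, 75039482049510912, -174953748036045912, 178539108199354368, -57333790985147160, -27519364574939136, 514962752643333708, -2922031552136770296, 5025345847428458532, 2880224564120874240, -18819299436533099578]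

theorem h2_hcIs_A1 : hcIs 40 (eisenstein4 ^ 3 * hcD * h2D2) h2AL := by
  have h1 : hcIs 40 (eisenstein4 ^ 3 * hcD)
      [0, 1, 696, 162252, 12831808, 34188270, -882400608, -833380744, 25487347200, -20041723323, -288074404080, 434433753732, 1007032271616, 2385917303462, -21022079461824, 20516848304040, 10832015527936, 123344605696626, -351842988872808, 23536401203900, 101878321292160, 846000537796512, 1104260190197472, -4088944650338328, -699850739865600, -6061574771885225, 27961109683401552, -2307819170521800, -32771191879025152, 11470644108960150, -75020813095268160, 66545942644320992, 173061270580985856, 31996819125724464, -401909145243212304, 278956532929887120, -622097011065057984, -421808619474896434, 2861746107057434400, -875304685207899576] :=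
    hcIs_E4cu.mul hcIs_D (by decide +kernel)
  exact h1.mul h2_hcIs_D2 (by decide +kernel)

theorem h2_hcIs_A2 : hcIs 40 ((hcD + ((256 : ℤ) : PowerSeries ℤ) * h2D2) ^ 3) h2AL := by
  have h0 : hcIs 40 (((256 : ℤ) : PowerSeries ℤ) * h2D2)
      [0, 0, 256, 0, -6144, 0, 64512, 0, -376832, 0, 1236480, 0, -1548288, 0, -4286464, 0, 21626880, 0, -29092608, 0, -29675520, 0, 136860672, 0, -94961664, 0, -147900928, 0, 102875136, 0, 311592960, 0, 252706816, 0, -1767919104, 0, 698222592, 0, 2729323520, 0] :=
    h2_hcIs_D2.smul 256 (by decide +kernel)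
  have h1 : hcIs 40 (hcD + ((256 : ℤ) : PowerSeries ℤ) * h2D2)
      [0, 1, 232, 252, -7616, 4830, 58464, -16744, -292352, -113643, 1120560, 534612, -1919232, -577738, -3884608, 1217160, 22614016, -6905934, -26365176, 10661420, -36785280, -4219488, 124029984, 18643272, -73672704, -25499225, -134035216, -73279080, 127522304, 128406630, 282381120, -52843168, 56000512, 134722224, -1602176688, -80873520, 865505088, -182213314, 2473449440, -145589976] :=
    hcIs_D.add h0 (by decide +kernel)
  have h2 : hcIs 40 ((hcD + ((256 : ℤ) : PowerSeries ℤ) * h2D2) *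
      (hcD + ((256 : ℤ) : PowerSeries ℤ) * h2D2))
      [0, 0, 1, 464, 54328, 101696, -3460660, -1480416, 87531584, -52458624, -1011512338, 621972208, 8173130912, -2241968832, -52692169096, -2059497888, 252607098368, 80345787264, -819914288571, -618484596720, 1473063728144, 2559785627392, 1313869359748, -5177757541024, -21272099687680, 1599465235200, 77599212616358, 9881042517792, -104634544616896, -4945149262784, -215053785755736, 9796539348096, 1123319830351872, -199287091065216, -1350921412308366, 526462704488896, -2187378429713640, -334450600305600, 8930524187024060, -586009361654816] :=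
    h1.mul h1 (by decide +kernel)
  have h3 := h2.mul h1 (c := h2AL) (by decide +kernel)
  rwa [← pow_two, ← pow_succ] at h3

theorem h2_hcIs_B1 : hcIs 40 (h2E2 ^ 3 * hcD * h2D2) h2BL := by
  have h2 : hcIs 40 (h2E2 * h2E2)
      [1, 0, 480, 0, 61920, 0, 1050240, 0, 7926240, 0, 37500480, 0, 135480960, 0, 395301120, 0, 1014559200, 0, 2296875360, 0, 4837561920, 0, 9353842560, 0, 17342613120, 0, 30119288640, 0, 50993844480, 0, 82051050240, 0, 129863578080, 0, 196962563520, 0, 296296921440, 0, 429058435200, 0] :=
    h2_hcIs_E2.mul h2_hcIs_E2 (by decide +kernel)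
  have h3 : hcIs 40 (h2E2 * h2E2 * h2E2)
      [1, 0, 720, 0, 179280, 0, 16954560, 0, 396974160, 0, 4632858720, 0, 34413301440, 0, 187477879680, 0, 814940600400, 0, 2975469665040, 0, 9486467837280, 0, 27053330840640, 0, 70485969919680, 0, 169930679355360, 0, 384163875688320, 0, 820167497170560, 0, 1668890801059920, 0, 3249626139960480, 0, 6096884624994960, 0, 11045508493118400, 0] :=
    h2.mul h2_hcIs_E2 (by decide +kernel)
  rw [← pow_two, ← pow_succ] at h3
  have h1 : hcIs 40 (h2E2 ^ 3 * hcD)
      [0, 1, -24, 972, -18752, 365550, -5368608, 65593976, -675079680, 5523276357, -35508067920, 183477719172, -783014010624, 2815402164902, -8635114576704, 22758065548200, -51670586445824, 100551095173746, -164507434464888, 213795483866300, -174938289985920, -87651712376928, 770829647889312, -2072564651111448, 4037905402214400, -6302471878829225, 7829990068551792, -6962434493079240, 1660227987450368, 11065806544923030, -34849263780296640, 67798668626754272, -97151408044867584, 112948837784007984, -118864824588548784, 86290539871040400,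 72462232071815616, -352407253936438834, 558239449018351200, -688369917985878456] :=
    h3.mul hcIs_D (by decide +kernel)
  exact h1.mul h2_hcIs_D2 (by decide +kernel)

theorem h2_hcIs_B2 : hcIs 40 ((hcD + ((16 : ℤ) : PowerSeries ℤ) * h2D2) ^ 3) h2BL := by
  have h0 : hcIs 40 (((16 : ℤ) : PowerSeries ℤ) * h2D2)
      [0, 0, 16, 0, -384, 0, 4032, 0, -23552, 0, 77280, 0, -96768, 0, -267904, 0, 1351680, 0, -1818288, 0, -1854720, 0, 8553792, 0, -5935104, 0, -9243808, 0, 6429696, 0, 19474560, 0, 15794176, 0, -110494944, 0, 43638912, 0, 170582720, 0] :=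
    h2_hcIs_D2.smul 16 (by decide +kernel)
  have h1 : hcIs 40 (hcD + ((16 : ℤ) : PowerSeries ℤ) * h2D2)
      [0, 1, -8, 252, -1856, 4830, -2016, -16744, 60928, -113643, -38640, 534612, -467712, -577738, 133952, 1217160, 2338816, -6905934, 909144, 10661420, -8964480, -4219488, -4276896, 18643272, 15353856, -25499225, 4621904, -73279080, 31076864, 128406630, -9737280, -52843168, -180912128, 134722224, 55247472, -80873520, 210921408, -182213314, -85291360, -145589976] :=
    hcIs_D.add h0 (by decide +kernel)
  have h2 : hcIs 40 ((hcD + ((16 : ℤ) : PowerSeries ℤ) * h2D2) *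
      (hcD + ((16 : ℤ) : PowerSeries ℤ) * h2D2))
      [0, 0, 1, -16, 568, -7744, 102860, -1016736, 5877824, -18555264, 21171182, 75127888, -439436128, 1048955328, -643887496, -4166105568, 14283304448, -17030480256, -13327019451, 89987144880, -158600824816, 33692845312, 354821311108, -423298012384, -39128485120, -930306604800, 2672889313958, 3048444489312, -14277481817536, 6069698051776, 20780464033704, -13276333743744, -21501693063168, -25579627430016, 113060344926834, 8720609563456, -246893959935720, 141669029365440, 102702429584060, 66746119371424] :=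
    h1.mul h1 (by decide +kernel)
  have h3 := h2.mul h1 (c := h2BL) (by decide +kernel)
  rwa [← pow_two, ← pow_succ] at h3

/-- `E₄³ Δ Δ₂ = (Δ + 256 Δ₂)³` -/
theorem h2_psA : eisenstein4 ^ 3 * hcD * h2D2 = (hcD + ((256 : ℤ) : PowerSeries ℤ) * h2D2) ^ 3 := by
  have hQ1 : hcQ 2 36 (eisenstein4 ^ 3 * hcD * h2D2) :=
    (((hcQ_E4 2).cube (k := 12) (by norm_num)).mul (hcQ_D 2) (k := 24) (by norm_num)).mul
      h2_hcQ_D2 (by norm_num)
  have hQ2 : hcQ 2 36 ((hcD + ((256 : ℤ) : PowerSeries ℤ) * h2D2) ^ 3) :=
    ((hcQ_D 2).add (h2_hcQ_D2.smul 256)).cube (by norm_num)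
  exact sub_eq_zero.1 ((hQ1.sub hQ2).eq_zero (by norm_num) 40 (by decide)
    ((h2_hcIs_A1.sub h2_hcIs_A2 rfl).dvd (by decide +kernel)))

/-- `E₄(q²)³ Δ Δ₂ = (Δ + 16 Δ₂)³` -/
theorem h2_psB : h2E2 ^ 3 * hcD * h2D2 = (hcD + ((16 : ℤ) : PowerSeries ℤ) * h2D2) ^ 3 := by
  have hQ1 : hcQ 2 36 (h2E2 ^ 3 * hcD * h2D2) :=
    ((h2_hcQ_E2.cube (k := 12) (by norm_num)).mul (hcQ_D 2) (k := 24) (by norm_num)).mul
      h2_hcQ_D2 (by norm_num)
  have hQ2 : hcQ 2 36 ((hcD + ((16 : ℤ) : PowerSeries ℤ) * h2D2) ^ 3) :=
    ((hcQ_D 2).add (h2_hcQ_D2.smul 16)).cube (by norm_num)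
  exact sub_eq_zero.1 ((hQ1.sub hQ2).eq_zero (by norm_num) 40 (by decide)
    ((h2_hcIs_B1.sub h2_hcIs_B2 rfl).dvd (by decide +kernel)))

section Laurent

variable (R : Type*) [CommRing R]

/-- the Hauptmodul `h = Δ(q) / Δ(q²)` over `R` -/
noncomputable def h2 : LaurentSeries R := hcH R 2

theorem h2_hcL_D2 : hcL R h2D2 = qExpand R 2 (hcDel R) := hcL_expand R 2 hcD

theorem h2_hcL_E2 : hcL R h2E2 = qExpand R 2 (hcL R eisenstein4) := hcL_expand R 2 eisenstein4

/-- `j h² = (h + 256)³` -/
theorem h2_j : jqModC R * h2 R ^ 2 = (h2 R + 256) ^ 3 := by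
  have hA := congrArg (hcL R) h2_psA
  simp only [map_mul, map_pow, map_add, map_intCast, h2_hcL_D2] at hA
  have h1 : hcL R hcD = hcDel R := rfl
  rw [h1, ← jqModC_mul_hcDel] at hA
  have h3 : hcDel R = h2 R * qExpand R 2 (hcDel R) := (hcH_mul R 2).symm
  have h4 : qExpand R 2 (hcDel R) * qExpand R 2 (hcDelInv R) = 1 := by
    rw [← map_mul, hcDel_mul_inv, map_one]
  generalize qExpand R 2 (hcDel R) = W at *
  generalize qExpand R 2 (hcDelInv R) = W' at *
  rw [h3] at hA
  push_cast at hA
  calc jqModC R * h2 R ^ 2 = (jqModC R * (h2 R * W) * (h2 R * W) * W) * W' ^ 3 := by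
        linear_combination (-(jqModC R * h2 R ^ 2) * ((W * W') ^ 2 + W * W' + 1)) * h4
    _ = (h2 R * W + 256 * W) ^ 3 * W' ^ 3 := by rw [hA]
    _ = (h2 R + 256) ^ 3 := by
        linear_combination ((h2 R + 256) ^ 3 * ((W * W') ^ 2 + W * W' + 1)) * h4

/-- `j(q²) h = (h + 16)³` -/
theorem h2_j2 : qExpand R 2 (jqModC R) * h2 R = (h2 R + 16) ^ 3 := by
  have hB := congrArg (hcL R) h2_psB
  simp only [map_mul, map_pow, map_add, map_intCast, h2_hcL_D2, h2_hcL_E2] at hB
  have h1 : hcL R hcD = hcDel R := rfl
  have h2' : qExpand R 2 (hcL R eisenstein4) ^ 3 =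
      qExpand R 2 (jqModC R) * qExpand R 2 (hcDel R) := by
    rw [← map_pow, ← jqModC_mul_hcDel, map_mul]
  rw [h1, h2'] at hB
  have h3 : hcDel R = h2 R * qExpand R 2 (hcDel R) := (hcH_mul R 2).symm
  have h4 : qExpand R 2 (hcDel R) * qExpand R 2 (hcDelInv R) = 1 := by
    rw [← map_mul, hcDel_mul_inv, map_one]
  generalize qExpand R 2 (hcDel R) = W at *
  generalize qExpand R 2 (hcDelInv R) = W' at *
  generalize qExpand R 2 (jqModC R) = J at *
  rw [h3] at hB
  push_cast at hB
  calc J * h2 R = (J * W * (h2 R * W) * W) * W' ^ 3 := by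
        linear_combination (-(J * h2 R) * ((W * W') ^ 2 + W * W' + 1)) * h4
    _ = (h2 R * W + 16 * W) ^ 3 * W' ^ 3 := by rw [hB]
    _ = (h2 R + 16) ^ 3 := by
        linear_combination ((h2 R + 16) ^ 3 * ((W * W') ^ 2 + W * W' + 1)) * h4

end Laurent

end Fermat.Agent.S18Lib
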