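import Fermat.Agent.S24.JExp
import Fermat.Agent.S16.SharpMF
import Fermat.Prelude.Thm_ModularForm_sturm_bound_Gamma0
import Fermat.Prelude.Def_ModularCurve_X0ModL
import Fermat.Prelude.Def_ModularCurve_ModularUnit

/-!
# S18 : common tools for the Hauptmoduln of level 2 and 3

* `hcPoly`, `hcIs` : certified truncated arithmetic of integral power series (lists of integers,
  every step is checked by kernel evaluation);
* `hcQ` : "the integral power series `P` is the `q`-expansion of a modular form of weight `k`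
  on `Γ₀(p)`", closed under the ring operations; `hcQ.eq_zero` : Sturm bound;
* `hcL` : integral power series as Laurent series over any commutative ring.
-/

set_option autoImplicit false

open PowerSeries

namespace Fermat.Agent.S18Lib

/-! ### polynomials as lists -/

/-- the power series (polynomial) with the given list of coefficients -/
noncomputable def hcPoly : List ℤ → PowerSeries ℤ
  | [] => 0
  | a :: l => C a + X * hcPoly l

def hcAdd : List ℤ → List ℤ → List ℤ
  | [], m => m
  | a :: l, [] => a :: l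
  | a :: l, b :: m => (a + b) :: hcAdd l m

def hcSmul (c : ℤ) : List ℤ → List ℤ
  | [] => []
  | a :: l => (c * a) :: hcSmul c l

def hcMul : List ℤ → List ℤ → List ℤ
  | [], _ => []
  | a :: l, m => hcAdd (hcSmul a m) (0 :: hcMul l m)

/-- `X ↦ X ^ (k + 1)` -/
def hcExp (k : ℕ) : List ℤ → List ℤ
  | [] => []
  | a :: l => a :: (List.replicate k 0 ++ hcExp k l)

@[simp] theorem hcPoly_nil : hcPoly [] = 0 := rfl
@[simp] theorem hcPoly_cons (a : ℤ) (l : List ℤ) : hcPoly (a :: l) = C a + X * hcPoly l := rfl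

theorem hcPoly_add : ∀ l m : List ℤ, hcPoly (hcAdd l m) = hcPoly l + hcPoly m
  | [], m => by simp [hcAdd]
  | a :: l, [] => by simp [hcAdd]
  | a :: l, b :: m => by
    simp only [hcAdd, hcPoly_cons, hcPoly_add l m, map_add]
    ring

theorem hcPoly_smul (c : ℤ) : ∀ l : List ℤ, hcPoly (hcSmul c l) = C c * hcPoly l
  | [] => by simp [hcSmul]
  | a :: l => by
    simp only [hcSmul, hcPoly_cons, hcPoly_smul c l, map_mul]
    ring

theorem hcPoly_mul : ∀ l m : List ℤ, hcPoly (hcMul l m) = hcPoly l * hcPoly m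
  | [], m => by simp [hcMul]
  | a :: l, m => by
    simp only [hcMul, hcPoly_cons, hcPoly_add, hcPoly_smul, hcPoly_mul l m, map_zero]
    ring

theorem hcPoly_replicate_append (k : ℕ) (l : List ℤ) :
    hcPoly (List.replicate k 0 ++ l) = X ^ k * hcPoly l := by
  induction k with
  | zero => simp
  | succ k ih =>
    rw [List.replicate_succ, List.cons_append, hcPoly_cons, ih, map_zero]
    ring

theorem hcPoly_exp (k : ℕ) : ∀ l : List ℤ,
    hcPoly (hcExp k l) = PowerSeries.expand (k + 1) k.succ_ne_zero (hcPoly l)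
  | [] => by simp [hcExp]
  | a :: l => by
    simp only [hcExp, hcPoly_cons, hcPoly_replicate_append, hcPoly_exp k l, map_add, map_mul,
      PowerSeries.expand_C, PowerSeries.expand_X]
    ring

theorem hcPoly_take (N : ℕ) : ∀ l : List ℤ, X ^ N ∣ hcPoly l - hcPoly (l.take N) := by
  induction N with
  | zero => intro l; simp
  | succ N ih =>
    intro l
    cases l with
    | nil => simp
    | cons a l =>
      obtain ⟨r, hr⟩ := ih l
      refine ⟨r, ?_⟩
      rw [List.take_succ_cons, hcPoly_cons, hcPoly_cons, pow_succ']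
      linear_combination X * hr

theorem hcPoly_coeff : ∀ (l : List ℤ) (n : ℕ), coeff n (hcPoly l) = l.getD n 0
  | [], n => by simp
  | a :: l, 0 => by simp
  | a :: l, n + 1 => by
    rw [hcPoly_cons, map_add, PowerSeries.coeff_succ_X_mul, hcPoly_coeff l n,
      PowerSeries.coeff_C]
    simp

/-! ### approximations -/

/-- the list `l` is an approximation of `f` modulo `X ^ N` -/
def hcIs (N : ℕ) (f : PowerSeries ℤ) (l : List ℤ) : Prop := X ^ N ∣ f - hcPoly l

namespace hcIs

variable {N : ℕ} {f g : PowerSeries ℤ} {a b c : List ℤ}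

theorem of_coeff (h : ∀ n < N, coeff n f = a.getD n 0) : hcIs N f a := by
  rw [hcIs, PowerSeries.X_pow_dvd_iff]
  intro m hm
  rw [map_sub, h m hm, hcPoly_coeff, sub_self]

theorem take (ha : hcIs N f a) (hc : a.take N = c) : hcIs N f c := by
  subst hc
  have := dvd_add ha (hcPoly_take N a)
  rwa [sub_add_sub_cancel] at this

theorem mul (ha : hcIs N f a) (hb : hcIs N g b) (hc : (hcMul a b).take N = c) :
    hcIs N (f * g) c := by
  refine take (a := hcMul a b) ?_ hc
  obtain ⟨r, hr⟩ := ha
  obtain ⟨s, hs⟩ := hb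
  refine ⟨r * g + hcPoly a * s, ?_⟩
  rw [hcPoly_mul]
  linear_combination g * hr + hcPoly a * hs

theorem add (ha : hcIs N f a) (hb : hcIs N g b) (hc : hcAdd a b = c) :
    hcIs N (f + g) c := by
  subst hc
  obtain ⟨r, hr⟩ := ha
  obtain ⟨s, hs⟩ := hb
  refine ⟨r + s, ?_⟩
  rw [hcPoly_add]
  linear_combination hr + hs

theorem smul (m : ℤ) (ha : hcIs N f a) (hc : hcSmul m a = c) :
    hcIs N ((m : PowerSeries ℤ) * f) c := by
  subst hc
  obtain ⟨r, hr⟩ := ha
  refine ⟨C m * r, ?_⟩
  have : (m : PowerSeries ℤ) = C m := by simp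
  rw [hcPoly_smul, this]
  linear_combination C m * hr

theorem sub (ha : hcIs N f a) (hb : hcIs N g b) (hc : hcAdd a (hcSmul (-1) b) = c) :
    hcIs N (f - g) c := by
  have := add ha (smul (-1) hb rfl) hc
  have h2 : f + ((-1 : ℤ) : PowerSeries ℤ) * g = f - g := by push_cast; ring
  rwa [h2] at this

theorem X_mul (ha : hcIs N f a) (hc : (0 :: a).take N = c) : hcIs N (X * f) c := by
  refine take (a := 0 :: a) ?_ hc
  obtain ⟨r, hr⟩ := ha
  refine ⟨X * r, ?_⟩
  rw [hcPoly_cons, map_zero]
  linear_combination X * hr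

theorem expand (k : ℕ) (ha : hcIs N f a) (hc : (hcExp k a).take N = c) :
    hcIs N (PowerSeries.expand (k + 1) k.succ_ne_zero f) c := by
  refine take (a := hcExp k a) ?_ hc
  obtain ⟨r, hr⟩ := ha
  have h1 := congrArg (PowerSeries.expand (k + 1) k.succ_ne_zero) hr
  rw [map_sub, map_mul, map_pow, PowerSeries.expand_X, ← hcPoly_exp] at h1
  refine ⟨X ^ (N * k) * PowerSeries.expand (k + 1) k.succ_ne_zero r, ?_⟩
  rw [h1]
  ring

/-- division by a non zero integer -/
theorem of_smul (m : ℤ) (hm : m ≠ 0) (ha : hcIs N ((m : PowerSeries ℤ) * f) c)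
    (hc : hcSmul m a = c) : hcIs N f a := by
  subst hc
  rw [hcIs, PowerSeries.X_pow_dvd_iff] at ha ⊢
  intro n hn
  have h := ha n hn
  have h1 : (m : PowerSeries ℤ) = C m := by simp
  rw [hcPoly_smul, h1, ← mul_sub, PowerSeries.coeff_C_mul] at h
  exact (mul_eq_zero.1 h).resolve_left hm

theorem dvd (ha : hcIs N f a) (hc : a = List.replicate a.length 0) : X ^ N ∣ f := by
  have h0 : hcPoly a = 0 := by
    rw [hc]
    have := hcPoly_replicate_append a.length []
    simpa using this
  rw [hcIs, h0, sub_zero] at ha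
  exact ha

end hcIs


/-! ### integral `q`-expansions of modular forms on `Γ₀(p)` -/

section MF

open UpperHalfPlane hiding I
open CongruenceSubgroup ModularFormClass ModularForm Matrix.SpecialLinearGroup EisensteinSeries
open scoped MatrixGroups

/-- `P` is the `q`-expansion of a modular form of weight `k` on `Γ₀(p)` -/
def hcQ (p : ℕ) (k : ℤ) (P : PowerSeries ℤ) : Prop :=
  ∃ F : ModularForm (Gamma0 p) k, qExpansion 1 F = P.map (Int.castRingHom ℂ)

theorem hc_map_injective :
    Function.Injective (PowerSeries.map (Int.castRingHom ℂ) : PowerSeries ℤ → PowerSeries ℂ) :=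
  PowerSeries.map_injective _ (RingHom.injective_int _)

namespace hcQ

variable {p : ℕ} {k k₁ k₂ : ℤ} {P Q : PowerSeries ℤ}

theorem mul (hP : hcQ p k₁ P) (hQ : hcQ p k₂ Q) (hk : k₁ + k₂ = k) : hcQ p k (P * Q) := by
  subst hk
  obtain ⟨F, hF⟩ := hP
  obtain ⟨G, hG⟩ := hQ
  refine ⟨F.mul G, ?_⟩
  rw [ModularForm.qExpansion_mul one_pos (one_mem_strictPeriods_Gamma0 p), hF, hG, map_mul]

theorem add (hP : hcQ p k P) (hQ : hcQ p k Q) : hcQ p k (P + Q) := by
  obtain ⟨F, hF⟩ := hP
  obtain ⟨G, hG⟩ := hQ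
  refine ⟨F + G, ?_⟩
  rw [FunLike.coe_add, ModularForm.qExpansion_add one_pos (one_mem_strictPeriods_Gamma0 p),
    hF, hG, map_add]

theorem sub (hP : hcQ p k P) (hQ : hcQ p k Q) : hcQ p k (P - Q) := by
  obtain ⟨F, hF⟩ := hP
  obtain ⟨G, hG⟩ := hQ
  refine ⟨F - G, ?_⟩
  rw [FunLike.coe_sub, ModularForm.qExpansion_sub one_pos (one_mem_strictPeriods_Gamma0 p),
    hF, hG, map_sub]

theorem smul (m : ℤ) (hP : hcQ p k P) : hcQ p k ((m : PowerSeries ℤ) * P) := by
  obtain ⟨F, hF⟩ := hP
  refine ⟨(m : ℂ) • F, ?_⟩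
  rw [FunLike.coe_smul, ModularForm.qExpansion_smul one_pos (one_mem_strictPeriods_Gamma0 p),
    hF, map_mul, PowerSeries.smul_eq_C_mul]
  congr 1
  simp

theorem sq (hP : hcQ p k₁ P) (hk : 2 * k₁ = k) : hcQ p k (P ^ 2) := by
  rw [pow_two]
  exact hP.mul hP (by omega)

theorem cube (hP : hcQ p k₁ P) (hk : 3 * k₁ = k) : hcQ p k (P ^ 3) := by
  rw [pow_succ]
  exact (hP.sq rfl).mul hP (by omega)

theorem Gamma0_le_SL (p : ℕ) :
    ((Gamma0 p : Subgroup SL(2, ℤ)) : Subgroup (GL (Fin 2) ℝ)) ≤ 𝒮ℒ := by
  rintro _ ⟨γ, -, rfl⟩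
  exact ⟨γ, rfl⟩

/-- a form of level one, seen in level `p` -/
theorem of_levelOne (p : ℕ) (F : ModularForm 𝒮ℒ k)
    (hF : qExpansion 1 F = P.map (Int.castRingHom ℂ)) : hcQ p k P :=
  ⟨S16Lib.resLE (Gamma0_le_SL p) F, hF⟩

/-- `F(p z)` for a form of level one -/
theorem of_levelOne_expand (p : ℕ) [Fact p.Prime] (F : ModularForm 𝒮ℒ k)
    (hF : qExpansion 1 F = P.map (Int.castRingHom ℂ)) :
    hcQ p k (PowerSeries.expand p (Fact.out : p.Prime).ne_zero P) := by
  obtain ⟨g, hg⟩ := S16Lib.exists_vp p F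
  refine ⟨g, ?_⟩
  ext n
  have h := S16Lib.qCoeff_vp p F n
  rw [← hg] at h
  rw [PowerSeries.coeff_map, PowerSeries.coeff_expand]
  unfold qCoeff at h
  rw [h, hF]
  split_ifs <;> simp

theorem index_Gamma0_le (p : ℕ) [NeZero p] : (Gamma0 p).index ≤ p ^ 2 := by
  classical
  rw [Subgroup.index]
  let col : SL(2, ℤ) → ZMod p × ZMod p := fun g => ((g 0 0 : ZMod p), (g 1 0 : ZMod p))
  have hcol : ∀ g h : SL(2, ℤ), col g = col h → g⁻¹ * h ∈ Gamma0 p := by
    intro g h hc
    rw [Gamma0_mem]
    have h1 : ((g 0 0 : ℤ) : ZMod p) = (h 0 0 : ZMod p) := congrArg Prod.fst hc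
    have h2 : ((g 1 0 : ℤ) : ZMod p) = (h 1 0 : ZMod p) := congrArg Prod.snd hc
    have : (g⁻¹ * h) 1 0 = - g 1 0 * h 0 0 + g 0 0 * h 1 0 := by
      rw [Matrix.SpecialLinearGroup.coe_mul, Matrix.SpecialLinearGroup.SL2_inv_expl]
      rw [Matrix.mul_apply, Fin.sum_univ_two]
      simp
    rw [this]
    push_cast
    rw [h1, h2]
    ring
  let φ : (SL(2, ℤ) ⧸ Gamma0 p) → ZMod p × ZMod p := fun x => col x.out
  have hφ : Function.Injective φ := by
    intro x y hxy
    have := hcol x.out y.out hxy
    have h2 : (QuotientGroup.mk x.out : SL(2, ℤ) ⧸ Gamma0 p) = QuotientGroup.mk y.out :=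
      QuotientGroup.eq.mpr this
    simpa using h2
  have h := Nat.card_le_card_of_injective φ hφ
  have h4 : Nat.card (ZMod p × ZMod p) = p ^ 2 := by
    simp [pow_two]
  omega

/-- **Sturm bound** -/
theorem eq_zero [NeZero p] (hP : hcQ p k P) (hk : 0 ≤ k) (N : ℕ)
    (hN : (k * (p ^ 2 : ℕ)).toNat / 12 < N) (hd : X ^ N ∣ P) : P = 0 := by
  obtain ⟨F, hF⟩ := hP
  have h0 : F = 0 := by
    refine ModularForm.sturm_bound_Gamma0 p F fun n hn => ?_
    have h1 : (k * ((Gamma0 p).index : ℤ)).toNat / 12 ≤ (k * (p ^ 2 : ℕ)).toNat / 12 := by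
      refine Nat.div_le_div_right (Int.toNat_le_toNat (mul_le_mul_of_nonneg_left ?_ hk))
      exact_mod_cast index_Gamma0_le p
    rw [hF, PowerSeries.coeff_map, (PowerSeries.X_pow_dvd_iff.1 hd) n (by omega), map_zero]
  apply hc_map_injective
  rw [← hF, h0, map_zero]
  exact qExpansion_zero 1

end hcQ

end MF

/-! ### the basic series -/

section Series

open UpperHalfPlane hiding I
open CongruenceSubgroup ModularFormClass ModularForm Matrix.SpecialLinearGroup EisensteinSeries
open Filter Topology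
open scoped MatrixGroups

/-- the formal `Δ = q ∏ (1 - q ^ n) ^ 24` -/
noncomputable def hcD : PowerSeries ℤ := X * ModularCurve.dedekindEtaUnit

/-- the formal `E₆` -/
noncomputable def hcE6 : PowerSeries ℤ :=
  PowerSeries.mk fun n => if n = 0 then 1 else -504 * ∑ d ∈ n.divisors, (d : ℤ) ^ 5

theorem hc_qExpansion_discriminant :
    qExpansion 1 ModularForm.discriminant = hcD.map (Int.castRingHom ℂ) := by
  have h1 : qExpansion 1 ModularForm.discriminant =
      S24Lib.tay (cuspFunction 1 ModularForm.discriminant) := by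
    ext m; rw [qExpansion_coeff, S24Lib.tay_coeff]
  have h2 : cuspFunction 1 ModularForm.discriminant =ᶠ[𝓝 0]
      fun z => z * S24Lib.eulerP z ^ 24 := by
    filter_upwards [Metric.ball_mem_nhds (0 : ℂ) one_pos] with q hq
    rw [discriminant_cuspFunction_eqOn hq]
    simp only
    rw [S24Lib.eulerP, (multipliable_one_sub_pow (by simpa using hq)).tprod_pow 24]
  have hid : AnalyticAt ℂ (fun z : ℂ => z) 0 := analyticAt_id
  have h24 : AnalyticAt ℂ (fun z : ℂ => S24Lib.eulerP z ^ 24) 0 :=
    S24Lib.analyticAt_eulerP.pow 24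
  rw [h1, S24Lib.tay_congr h2, S24Lib.tay_mul hid h24,
    S24Lib.tay_id, S24Lib.tay_pow S24Lib.analyticAt_eulerP, S24Lib.tay_eulerP, hcD, map_mul,
    ModularCurve.dedekindEtaUnit, map_pow, PowerSeries.map_X]

theorem hcE6_map : hcE6.map (Int.castRingHom ℂ) = qExpansion 1 E₆ := by
  ext m
  rw [E_qExpansion_coeff _ ⟨3, rfl⟩, PowerSeries.coeff_map, hcE6, PowerSeries.coeff_mk]
  split_ifs with h
  · simp
  · have hb : bernoulli 6 = 1 / 42 := by decide +kernel
    rw [hb, ArithmeticFunction.sigma_apply]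
    push_cast
    norm_num

/-- `1728 Δ = E₄³ - E₆²` -/
theorem hcD_eq : (1728 : ℤ) * hcD = ModularCurve.eisenstein4 ^ 3 - hcE6 ^ 2 := by
  apply hc_map_injective
  have hfun : ((1728 : ℂ) • (CuspForm.discriminant : ℍ → ℂ)) =
      ⇑((E₄.mul E₄).mul E₄) - ⇑(E₆.mul E₆) := by
    funext z
    simp only [Pi.smul_apply, Pi.sub_apply, ModularForm.coe_mul, Pi.mul_apply, smul_eq_mul,
      CuspForm.coe_discriminant]
    rw [discriminant_eq_E₄_cube_sub_E₆_sq z]
    ring
  have h1 := ModularForm.qExpansion_smul one_pos one_mem_strictPeriods_SL (1728 : ℂ)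
    CuspForm.discriminant
  rw [hfun, ModularForm.qExpansion_sub one_pos one_mem_strictPeriods_SL,
    ModularForm.qExpansion_mul one_pos one_mem_strictPeriods_SL,
    ModularForm.qExpansion_mul one_pos one_mem_strictPeriods_SL,
    ModularForm.qExpansion_mul one_pos one_mem_strictPeriods_SL,
    CuspForm.coe_discriminant, hc_qExpansion_discriminant, ← S24Lib.eisenstein4_map,
    ← hcE6_map, PowerSeries.smul_eq_C_mul] at h1
  have h2 : (C (1728 : ℂ) : PowerSeries ℂ) = 1728 := map_ofNat _ _
  rw [map_mul, map_sub, map_pow, map_pow, pow_succ, pow_two, pow_two, h1, h2]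
  congr 1
  rw [Int.cast_ofNat]
  exact map_ofNat _ 1728

theorem hcQ_E4 (p : ℕ) : hcQ p 4 ModularCurve.eisenstein4 :=
  hcQ.of_levelOne p E₄ S24Lib.eisenstein4_map.symm

theorem hcQ_E4_expand (p : ℕ) [Fact p.Prime] :
    hcQ p 4 (PowerSeries.expand p (Fact.out : p.Prime).ne_zero ModularCurve.eisenstein4) :=
  hcQ.of_levelOne_expand p E₄ S24Lib.eisenstein4_map.symm

theorem hcQ_D (p : ℕ) : hcQ p 12 hcD :=
  hcQ.of_levelOne p (CuspForm.discriminant : ModularForm 𝒮ℒ 12) hc_qExpansion_discriminant

theorem hcQ_D_expand (p : ℕ) [Fact p.Prime] :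
    hcQ p 12 (PowerSeries.expand p (Fact.out : p.Prime).ne_zero hcD) :=
  hcQ.of_levelOne_expand p (CuspForm.discriminant : ModularForm 𝒮ℒ 12)
    hc_qExpansion_discriminant

/-- the first 40 coefficients of `E₄` -/
def hcE4L : List ℤ := [1, 240, 2160, 6720, 17520, 30240, 60480, 82560, 140400, 181680, 272160, 319680, 490560, 527520, 743040, 846720, 1123440, 1179360, 1635120, 1646400, 2207520, 2311680, 2877120, 2920320, 3931200, 3780240, 4747680, 4905600, 6026880, 5853600, 7620480, 7150080, 8987760, 8951040, 10614240, 10402560, 13262640, 12156960, 14817600, 14770560]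

/-- the first 40 coefficients of `E₆` -/
def hcE6L : List ℤ := [1, -504, -16632, -122976, -532728, -1575504, -4058208, -8471232, -17047800, -29883672, -51991632, -81170208, -129985632, -187132176, -279550656, -384422976, -545530104, -715608432, -986161176, -1247954400, -1665307728, -2066980608, -2678616864, -3243917376, -4159663200, -4923450504, -6175361808, -7261732800, -8954092224, -10337619600, -12685958208, -14429092608, -17456963832, -19805530752, -23615078256, -26481071232, -31587041304, -34949354832, -41182495200, -45660250944]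

/-- the first 40 coefficients of `E₄³` -/
def hcE4cuL : List ℤ := [1, 720, 179280, 16954560, 396974160, 4632858720, 34413301440, 187477879680, 814940600400, 2975469665040, 9486467837280, 27053330840640, 70485969919680, 169930679355360, 384163875688320, 820167497170560, 1668890801059920, 3249626139960480, 6096884624994960, 11045508493118400, 19428434736248160, 33213183182000640, 55431582035319360, 90344577991916160, 144355754667499200, 226066346180748720, 348188710747580640, 527108064779721600, 786767305782407040, 1156841469349797600, 1680521624263117440, 2409208948515479040, 3417886973693900880, 4792384327947390720, 6658492910869487520, 9154704614903527680, 12486419299988799120, 16869989146561642080, 22632233085199281600, 30102943879644209280]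

/-- the first 40 coefficients of `Δ` -/
def hcDL : List ℤ := [0, 1, -24, 252, -1472, 4830, -6048, -16744, 84480, -113643, -115920, 534612, -370944, -577738, 401856, 1217160, 987136, -6905934, 2727432, 10661420, -7109760, -4219488, -12830688, 18643272, 21288960, -25499225, 13865712, -73279080, 24647168, 128406630, -29211840, -52843168, -196706304, 134722224, 165742416, -80873520, 167282496, -182213314, -255874080, -145589976]

theorem hcIs_E4 : hcIs 40 ModularCurve.eisenstein4 hcE4L := by
  refine hcIs.of_coeff fun n hn => ?_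
  rw [ModularCurve.eisenstein4, PowerSeries.coeff_mk]
  revert n
  decide +kernel

theorem hcIs_E6 : hcIs 40 hcE6 hcE6L := by
  refine hcIs.of_coeff fun n hn => ?_
  rw [hcE6, PowerSeries.coeff_mk]
  revert n
  decide +kernel

theorem hcIs_E4cu : hcIs 40 (ModularCurve.eisenstein4 ^ 3) hcE4cuL := by
  have h2 : hcIs 40 (ModularCurve.eisenstein4 * ModularCurve.eisenstein4)
      [1, 480, 61920, 1050240, 7926240, 37500480, 135480960, 395301120, 1014559200, 2296875360, 4837561920, 9353842560, 17342613120, 30119288640, 50993844480, 82051050240, 129863578080, 196962563520, 296296921440, 429058435200, 619245426240, 864918850560, 1206645690240, 1634316215040, 2219855529600, 2929725000480, 3885388234560, 5023266412800, 6527607394560, 8279940628800, 10584585480960, 13206054773760, 16622537994720, 20466207521280, 25408170694080, 30883295301120, 37928302819680, 45567301024320, 55348538140800, 65901003544320] :=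
    hcIs_E4.mul hcIs_E4 (by decide +kernel)
  have h3 := h2.mul hcIs_E4 (c := hcE4cuL) (by decide +kernel)
  rwa [← pow_two, ← pow_succ] at h3

theorem hcIs_D : hcIs 40 hcD hcDL := by
  have h2 : hcIs 40 (hcE6 * hcE6)
      [1, -1008, 220752, 16519104, 399517776, 4624512480, 34423752384, 187506813312, 814794618960, 2975666040144, 9486668147040, 27052407031104, 70486610910912, 169931677686624, 384163181281152, 820165393918080, 1668889095288912, 3249638073414432, 6096879911992464, 11045490070184640, 19428447021913440, 33213190473275904, 55431604206748224, 90344545776342144, 144355717880176320, 226066390243409520, 348188686787630304, 527108191405971840, 786767263192100736, 1156841247463140960, 1680521674741176960, 2409209039828473344, 3417887313602394192, 4792384095147387648, 6658492624466592672, 9154704754652970240, 12486419010924646032, 16869989461426248672, 22632233527349691840, 30102944131223687808] :=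
    hcIs_E6.mul hcIs_E6 (by decide +kernel)
  rw [← pow_two] at h2
  have h3 := hcIs_E4cu.sub h2 (c := hcSmul 1728 hcDL) (by decide +kernel)
  rw [← hcD_eq] at h3
  exact hcIs.of_smul 1728 (by norm_num) (by exact_mod_cast h3) rfl

end Series

/-! ### integral power series as Laurent series over any commutative ring -/

section Laurent

open ModularCurve

variable (R : Type*) [CommRing R]

/-- integral power series as Laurent series over `R` -/
noncomputable def hcL : PowerSeries ℤ →+* LaurentSeries R :=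
  (HahnSeries.ofPowerSeries ℤ R).comp (PowerSeries.map (Int.castRingHom R))

theorem hcL_apply (P : PowerSeries ℤ) :
    hcL R P = HahnSeries.ofPowerSeries ℤ R (P.map (Int.castRingHom R)) := rfl

theorem hcL_X : hcL R X = HahnSeries.single 1 1 := by
  rw [hcL_apply, PowerSeries.map_X, HahnSeries.ofPowerSeries_X]

theorem hcL_coeff_nat (P : PowerSeries ℤ) (n : ℕ) :
    (hcL R P).coeff (n : ℤ) = ((coeff n P : ℤ) : R) := by
  rw [hcL_apply, HahnSeries.ofPowerSeries_apply_coeff, PowerSeries.coeff_map]
  rfl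

theorem hcL_coeff_neg (P : PowerSeries ℤ) {n : ℤ} (hn : n < 0) : (hcL R P).coeff n = 0 :=
  ofPowerSeries_coeff_of_neg _ hn

theorem hcL_expand (p : ℕ) [NeZero p] (P : PowerSeries ℤ) :
    hcL R (PowerSeries.expand p (NeZero.ne p) P) = qExpand R p (hcL R P) := by
  ext n
  by_cases hn : (p : ℤ) ∣ n
  · obtain ⟨k, rfl⟩ := hn
    rw [qExpand_coeff_mul]
    rcases lt_or_ge k 0 with hk | hk
    · have hp : (0 : ℤ) < p := by exact_mod_cast Nat.pos_of_ne_zero (NeZero.ne p)
      rw [hcL_coeff_neg _ _ hk, hcL_coeff_neg _ _ (mul_neg_of_pos_of_neg hp hk)]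
    · lift k to ℕ using hk
      rw [← Nat.cast_mul, hcL_coeff_nat, hcL_coeff_nat, PowerSeries.coeff_expand_mul]
  · rw [qExpand_coeff_of_not_dvd _ _ hn]
    rcases lt_or_ge n 0 with hk | hk
    · rw [hcL_coeff_neg _ _ hk]
    · lift n to ℕ using hk
      rw [hcL_coeff_nat, PowerSeries.coeff_expand_of_not_dvd, Int.cast_zero]
      exact fun h => hn (by exact_mod_cast h)

variable {R} in
theorem coeffMap_hcL {S : Type*} [CommRing S] (f : R →+* S) (P : PowerSeries ℤ) :
    coeffMap f (hcL R P) = hcL S P := by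
  rw [hcL_apply, coeffMap_ofPowerSeries,
    ← RingHom.comp_apply (PowerSeries.map f) (PowerSeries.map (Int.castRingHom R)),
    ← PowerSeries.map_comp, RingHom.ext_int (f.comp (Int.castRingHom R)) (Int.castRingHom S)]
  rfl

theorem hc_single_mul_single : (HahnSeries.single (-1 : ℤ) (1 : R) : LaurentSeries R) *
    HahnSeries.single 1 1 = 1 := by
  rw [HahnSeries.single_mul_single]; simp

theorem jqModC_eq_hcL : jqModC R = HahnSeries.single (-1 : ℤ) 1 * hcL R jNum := rfl

/-- `Δ` over `R` -/
noncomputable def hcDel : LaurentSeries R := hcL R hcD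

/-- `Δ⁻¹` over `R` -/
noncomputable def hcDelInv : LaurentSeries R :=
  HahnSeries.single (-1 : ℤ) 1 * hcL R dedekindEtaUnitInv

theorem hcDel_mul_inv : hcDel R * hcDelInv R = 1 := by
  have h1 : hcL R dedekindEtaUnit * hcL R dedekindEtaUnitInv = 1 := by
    rw [← map_mul, dedekindEtaUnit_mul_inv, map_one]
  have h2 := hc_single_mul_single R
  rw [hcDel, hcDelInv, hcD, map_mul, hcL_X]
  calc _ = (HahnSeries.single (-1 : ℤ) (1 : R) * HahnSeries.single 1 1) *
        (hcL R dedekindEtaUnit * hcL R dedekindEtaUnitInv) := by ring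
    _ = 1 := by rw [h1, h2, one_mul]

theorem jqModC_eq_mul : jqModC R = hcL R eisenstein4 ^ 3 * hcDelInv R := by
  rw [jqModC_eq_hcL, jNum, map_mul, map_pow, hcDelInv]
  ring

theorem jqModC_mul_hcDel : jqModC R * hcDel R = hcL R eisenstein4 ^ 3 := by
  rw [jqModC_eq_mul, mul_assoc, mul_comm (hcDelInv R), hcDel_mul_inv, mul_one]

variable {R} in
theorem coeffMap_hcDel {S : Type*} [CommRing S] (f : R →+* S) :
    coeffMap f (hcDel R) = hcDel S := coeffMap_hcL f _

variable {R} in
theorem coeffMap_hcDelInv {S : Type*} [CommRing S] (f : R →+* S) :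
    coeffMap f (hcDelInv R) = hcDelInv S := by
  rw [hcDelInv, map_mul, coeffMap_single, map_one, coeffMap_hcL, hcDelInv]

/-- the modular unit `Δ(q) / Δ(q ^ p)` over `R` -/
noncomputable def hcH (p : ℕ) [NeZero p] : LaurentSeries R :=
  hcDel R * qExpand R p (hcDelInv R)

/-- its inverse `Δ(q ^ p) / Δ(q)` -/
noncomputable def hcHInv (p : ℕ) [NeZero p] : LaurentSeries R :=
  hcDelInv R * qExpand R p (hcDel R)

theorem hcH_mul_inv (p : ℕ) [NeZero p] : hcH R p * hcHInv R p = 1 := by
  have h1 := hcDel_mul_inv R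
  have h2 : qExpand R p (hcDel R) * qExpand R p (hcDelInv R) = 1 := by
    rw [← map_mul, h1, map_one]
  rw [hcH, hcHInv]
  calc _ = (hcDel R * hcDelInv R) * (qExpand R p (hcDel R) * qExpand R p (hcDelInv R)) := by ring
    _ = 1 := by rw [h1, h2, one_mul]

theorem hcH_mul (p : ℕ) [NeZero p] : hcH R p * qExpand R p (hcDel R) = hcDel R := by
  have h2 : qExpand R p (hcDelInv R) * qExpand R p (hcDel R) = 1 := by
    rw [← map_mul, mul_comm, hcDel_mul_inv, map_one]
  rw [hcH, mul_assoc, h2, mul_one]

variable {R} in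
theorem coeffMap_hcH {S : Type*} [CommRing S] (f : R →+* S) (p : ℕ) [NeZero p] :
    coeffMap f (hcH R p) = hcH S p := by
  rw [hcH, map_mul, coeffMap_hcDel, S24Lib.coeffMap_qExpand, coeffMap_hcDelInv, hcH]

/-- the unit part of `Δ(q) / Δ(q ^ p)` -/
noncomputable def hcHU (p : ℕ) [NeZero p] : PowerSeries ℤ :=
  dedekindEtaUnit * PowerSeries.expand p (NeZero.ne p) dedekindEtaUnitInv

theorem constantCoeff_hcHU (p : ℕ) [NeZero p] : PowerSeries.constantCoeff (hcHU p) = 1 := by
  rw [hcHU, map_mul, constantCoeff_dedekindEtaUnit, PowerSeries.constantCoeff_expand,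
    constantCoeff_dedekindEtaUnitInv, one_mul]

/-- `Δ(q) / Δ(q ^ p) = q ^ (1 - p) (1 + ⋯)` with integral coefficients -/
theorem hcH_eq (p : ℕ) [NeZero p] :
    hcH R p = HahnSeries.single (1 - (p : ℤ)) 1 * hcL R (hcHU p) := by
  rw [hcH, hcDel, hcDelInv, hcD, hcHU, map_mul, map_mul, map_mul, hcL_X, qExpand_single,
    hcL_expand]
  have : (HahnSeries.single (1 - (p : ℤ)) (1 : R) : LaurentSeries R) =
      HahnSeries.single 1 1 * HahnSeries.single ((p : ℤ) * -1) 1 := by
    rw [HahnSeries.single_mul_single, one_mul, mul_neg_one, ← sub_eq_add_neg]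
  rw [this]
  ring

theorem hcDel_rat : hcDel ℚ = deltaSeries := by
  rw [hcDel, hcD, map_mul, hcL_X]
  rfl

theorem hcH_rat (p : ℕ) [NeZero p] : hcH ℚ p = modularUnitSeries p := by
  have h := hcH_mul ℚ p
  rw [hcDel_rat] at h
  rw [modularUnitSeries, ← h, deltaSeriesN, mul_assoc, mul_inv_cancel₀, mul_one]
  exact deltaSeriesN_ne_zero p

end Laurent
end Fermat.Agent.S18Lib
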