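import Fermat.Agent.S18.Ram

set_option autoImplicit false

/-!
# S18 [HU] : from places over `ℚ̄` to primes of the integral closure of `K0[t]`

The bridge `Ram + TR ⇒ hram` (hypothesis of `nrmT_tame`).
-/

open AlgebraicCurve IntermediateField Polynomial IsDedekindDomain

namespace Fermat.Agent.S18Lib

open Fermat.Agent.S24Lib

section Abs

variable {K F : Type} [Field K] [IsAlgClosed K] [CharZero K] [Field F] [Algebra K F]
variable {K0 : Type*} [Field K0] [CharZero K0] [Algebra K0 K] [Algebra.IsAlgebraic K0 K]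
variable {A B F0 : Type*} [CommRing A] [CommRing B] [IsDedekindDomain B] [Field F0]
  [Algebra B F0] [IsFractionRing B F0] [Algebra A B] [Algebra A F0] [IsScalarTower A B F0]
  [Algebra K0 F0]

omit [IsAlgClosed K] [CharZero K] [CharZero K0] [Algebra.IsAlgebraic K0 K] in
theorem hu_map_aeval (ι : F0 →+* F)
    (hι : ∀ a : K0, ι (algebraMap K0 F0 a) = algebraMap K F (algebraMap K0 K a)) (t : F0)
    (p : K0[X]) : ι (aeval t p) = aeval (ι t) (p.map (algebraMap K0 K)) := by
  rw [aeval_def, hom_eval₂, aeval_def, eval₂_map]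
  congr 1
  ext a
  exact hι a

theorem hu_abs (hFF : IsFF K F) (ι : F0 →+* F)
    (hι : ∀ a : K0, ι (algebraMap K0 F0 a) = algebraMap K F (algebraMap K0 K a))
    (hTR : ∀ V : ValuationSubring F0, (∀ a : K0, algebraMap K0 F0 a ∈ V) → V ≠ ⊤ →
      ∃ P : Place K F, ∀ y, y ∈ V ↔ ι y ∈ P.toValuationSubring)
    (t : F0) (ht : Transcendental K0 t)
    (hA : ∀ p : K0[X], ∃ a : A, algebraMap A F0 a = aeval t p)
    (Dp : K0[X]) (D : A) (hD : algebraMap A F0 D = aeval t Dp)
    (hram : ∀ c : K, (Dp.map (algebraMap K0 K)).eval c ≠ 0 → ∀ v : Place K F,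
      0 < v.ord (ι t - algebraMap K F c) → v.ord (ι t - algebraMap K F c) = 1)
    (P : Ideal B) (hP : P.IsPrime) (hP0 : P ≠ ⊥) (hDP : algebraMap A B D ∉ P) :
    ¬ P ^ 2 ∣ (P.under A).map (algebraMap A B) := by
  intro hdvd
  have hle : (P.under A).map (algebraMap A B) ≤ P ^ 2 := Ideal.dvd_iff_le.mp hdvd
  let w : HeightOneSpectrum B := ⟨P, hP, hP0⟩
  let V : ValuationSubring F0 := (w.valuation F0).valuationSubring
  have hinjB : Function.Injective (algebraMap B F0) := IsFractionRing.injective B F0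
  have hVB : ∀ b : B, algebraMap B F0 b ∈ V := fun b => w.valuation_le_one b
  have hAB : ∀ a : A, algebraMap A F0 a = algebraMap B F0 (algebraMap A B a) :=
    fun a => IsScalarTower.algebraMap_apply A B F0 a
  have hVK : ∀ a : K0, algebraMap K0 F0 a ∈ V := by
    intro a
    obtain ⟨a', ha'⟩ := hA (C a)
    rw [aeval_C] at ha'
    rw [← ha', hAB]
    exact hVB _
  have hinv : ∀ b : B, b ∈ P → b ≠ 0 → (algebraMap B F0 b)⁻¹ ∉ V := by
    intro b hb hb0 hmem
    have h1 : w.valuation F0 (algebraMap B F0 b) < 1 := (w.valuation_lt_one_iff_mem b).mpr hb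
    have h2 : w.valuation F0 (algebraMap B F0 b)⁻¹ ≤ 1 := hmem
    have h3 : w.valuation F0 (algebraMap B F0 b) ≠ 0 := by
      rw [Valuation.ne_zero_iff]
      exact fun h => hb0 (hinjB (by rw [h, map_zero]))
    rw [map_inv₀] at h2
    have h4 : 1 ≤ w.valuation F0 (algebraMap B F0 b) := by
      rwa [inv_le_one₀ (zero_lt_iff.mpr h3)] at h2
    exact absurd h1 (not_lt.mpr h4)
  have hVtop : V ≠ ⊤ := by
    intro h
    obtain ⟨b, hb, hb0⟩ := Submodule.exists_mem_ne_zero_of_ne_bot hP0
    exact hinv b hb hb0 (by rw [h]; trivial)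
  obtain ⟨P', hP'⟩ := hTR V hVK hVtop
  have key0 : ∀ b : B, 0 ≤ P'.ord (ι (algebraMap B F0 b)) :=
    fun b => ord_nonneg_of_mem P' ((hP' _).mp (hVB b))
  have key1 : ∀ b : B, b ∈ P → b ≠ 0 → 0 < P'.ord (ι (algebraMap B F0 b)) := by
    intro b hb hb0
    refine lt_of_le_of_ne (key0 b) fun h => ?_
    apply hinv b hb hb0
    rw [hP', map_inv₀]
    apply mem_toValuationSubring_of_ord_nonneg
    rw [P'.ord_inv, ← h]
    simp
  have key2 : ∀ b : B, 0 < P'.ord (ι (algebraMap B F0 b)) → b ∈ P := by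
    intro b hb
    by_contra hbP
    have h1 : w.valuation F0 (algebraMap B F0 b) = 1 :=
      le_antisymm (w.valuation_le_one b)
        (not_lt.mp (fun h => hbP ((w.valuation_lt_one_iff_mem b).mp h)))
    have h2 : (algebraMap B F0 b)⁻¹ ∈ V := by
      show w.valuation F0 (algebraMap B F0 b)⁻¹ ≤ 1
      rw [map_inv₀, h1, inv_one]
    have h3 := ord_nonneg_of_mem P' ((hP' _).mp h2)
    rw [map_inv₀, P'.ord_inv] at h3
    omega
  have key3 : ∀ b : B, b ∈ P ^ 2 → b = 0 ∨ 2 ≤ P'.ord (ι (algebraMap B F0 b)) := by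
    intro b hb
    rw [pow_two] at hb
    refine Submodule.mul_induction_on hb ?_ ?_
    · intro m hm n hn
      by_cases h0 : m * n = 0
      · exact Or.inl h0
      · right
        have hm0 := left_ne_zero_of_mul h0
        have hn0 := right_ne_zero_of_mul h0
        have e1 : ι (algebraMap B F0 m) ≠ 0 := by
          rw [Ne, map_eq_zero]
          exact fun h => hm0 (hinjB (by rw [h, map_zero]))
        have e2 : ι (algebraMap B F0 n) ≠ 0 := by
          rw [Ne, map_eq_zero]
          exact fun h => hn0 (hinjB (by rw [h, map_zero]))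
        rw [map_mul, map_mul, P'.ord_mul e1 e2]
        have := key1 m hm hm0
        have := key1 n hn hn0
        omega
    · intro x y hx hy
      by_cases h0 : x + y = 0
      · exact Or.inl h0
      right
      rcases hx with rfl | hx
      · rcases hy with rfl | hy
        · simp at h0
        · rwa [zero_add]
      rcases hy with rfl | hy
      · rwa [add_zero]
      have e : ι (algebraMap B F0 x) + ι (algebraMap B F0 y) ≠ 0 := by
        rw [← map_add, ← map_add, Ne, map_eq_zero]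
        exact fun h => h0 (hinjB (by rw [h, map_zero]))
      have := le_ord_add P' e
      rw [map_add, map_add]
      exact (le_min hx hy).trans this
  -- the value of `t` at `P'`
  obtain ⟨tA, htA⟩ := hA X
  rw [aeval_X] at htA
  have hT0 : 0 ≤ P'.ord (ι t) := by
    rw [← htA, hAB]
    exact key0 _
  obtain ⟨c, hc⟩ := exists_sub_algebraMap_ord_pos hFF P' hT0
  have hcint : IsIntegral K0 c := (Algebra.IsAlgebraic.isAlgebraic c).isIntegral
  set g := minpoly K0 c with hg
  have hg0 : g ≠ 0 := minpoly.ne_zero hcint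
  have hroot : (g.map (algebraMap K0 K)).IsRoot c := by
    rw [IsRoot, eval_map_algebraMap]
    exact minpoly.aeval K0 c
  rcases hc with hc | hc
  · -- impossible: `t` would be algebraic
    have h1 : ι (aeval t g) = 0 := by
      rw [hu_map_aeval ι hι, hc, aeval_algebraMap_apply, coe_aeval_eq_eval, hroot.eq_zero, map_zero]
    rw [map_eq_zero] at h1
    exact hg0 (transcendental_iff.mp ht g h1)
  have hTc0 : ι t - algebraMap K F c ≠ 0 := by
    intro h
    rw [h] at hc
    simp at hc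
  have hDc : (Dp.map (algebraMap K0 K)).eval c ≠ 0 := by
    intro h
    obtain ⟨Q, hQ⟩ := dvd_iff_isRoot.2 (show (Dp.map (algebraMap K0 K)).IsRoot c from h)
    have h1 : ι (algebraMap B F0 (algebraMap A B D)) = (ι t - algebraMap K F c) * aeval (ι t) Q := by
      rw [← hAB, hD, hu_map_aeval ι hι, hQ]
      simp
    by_cases h0 : aeval (ι t) Q = 0
    · rw [h0, mul_zero, map_eq_zero] at h1
      apply hDP
      rw [hinjB (h1.trans (map_zero _).symm)]
      exact P.zero_mem
    · apply hDP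
      apply key2
      rw [h1, P'.ord_mul hTc0 h0]
      have := aeval_ord_nonneg P' hT0 Q
      omega
  have h1 := hram c hDc P' hc
  obtain ⟨h, hh⟩ := dvd_iff_isRoot.2 hroot
  have hsep : g.Separable := (minpoly.irreducible hcint).separable
  have hhc : h.eval c ≠ 0 := by
    have h2 := hsep.aeval_derivative_ne_zero (minpoly.aeval K0 c)
    rw [← eval_map_algebraMap, ← derivative_map, hh, derivative_mul] at h2
    simpa using h2
  obtain ⟨a, ha⟩ := hA g
  obtain ⟨hu0, hu1⟩ := ram_aeval_unit P' hc h hhc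
  have h3 : ι (algebraMap B F0 (algebraMap A B a)) = (ι t - algebraMap K F c) * aeval (ι t) h := by
    rw [← hAB, ha, hu_map_aeval ι hι, hh]
    simp
  have h4 : P'.ord (ι (algebraMap B F0 (algebraMap A B a))) = 1 := by
    rw [h3, P'.ord_mul hTc0 hu0, h1, hu1, add_zero]
  have h5 : algebraMap A B a ∈ P := key2 _ (by rw [h4]; norm_num)
  have h6 : algebraMap A B a ∈ P ^ 2 := hle (Ideal.mem_map_of_mem _ (by
    rw [Ideal.mem_comap]; exact h5))
  rcases key3 _ h6 with h7 | h7
  · rw [h7, map_zero, map_zero, Place.ord_zero] at h4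
    norm_num at h4
  · omega

end Abs

section Inv

variable {K F : Type} [Field K] [IsAlgClosed K] [CharZero K] [Field F] [Algebra K F]

/-- passing from the coordinate `x` to the coordinate `1/x`. -/
theorem hu_inv (v : Place K F) {x : F} {c : K} (hc : c ≠ 0)
    (hv : 0 < v.ord (x⁻¹ - algebraMap K F c)) :
    v.ord (x⁻¹ - algebraMap K F c) = v.ord (x - algebraMap K F c⁻¹) := by
  have hx0 : x ≠ 0 := by
    rintro rfl
    rw [inv_zero, zero_sub, ord_neg, ord_algebraMap] at hv
    exact lt_irrefl _ hv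
  have hc0 : algebraMap K F c ≠ 0 := by rwa [Ne, map_eq_zero]
  obtain ⟨_, hxo⟩ := ram_sub_unit v (a := 0) (Ne.symm hc) hv
  rw [map_zero, sub_zero] at hxo
  have e : x⁻¹ - algebraMap K F c = algebraMap K F (-c) * ((x - algebraMap K F c⁻¹) * x⁻¹) := by
    rw [map_neg, map_inv₀]
    field_simp
    ring
  have hne : x⁻¹ - algebraMap K F c ≠ 0 := by
    intro h
    rw [h] at hv
    simp at hv
  rw [e] at hne
  have h1 := right_ne_zero_of_mul hne
  rw [e, v.ord_mul (left_ne_zero_of_mul hne) h1, ord_algebraMap,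
    v.ord_mul (left_ne_zero_of_mul h1) (right_ne_zero_of_mul h1), hxo]
  ring

end Inv

section Inst

variable {K0 : Type*} [Field K0] [Algebra K0 Kb] (M : ℕ) [NeZero M]

theorem hu_ram_j (c : Kb)
    (hc : ((X * (X - C 1728) : K0[X]).map (algebraMap K0 Kb)).eval c ≠ 0) (v : Place Kb (FN M))
    (hv : 0 < v.ord (jj M - algebraMap Kb (FN M) c)) :
    v.ord (jj M - algebraMap Kb (FN M) c) = 1 := by
  simp only [Polynomial.map_mul, Polynomial.map_sub, map_X, map_ofNat, Polynomial.map_ofNat, eval_ofNat, eval_mul, eval_X,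
    eval_sub, ne_eq, mul_eq_zero, not_or] at hc
  exact ram_j M c hc.1 (fun h => hc.2 (by rw [h, sub_self])) v hv

theorem hu_ram_j_inv (c : Kb)
    (hc : ((X * (1 - C 1728 * X) : K0[X]).map (algebraMap K0 Kb)).eval c ≠ 0)
    (v : Place Kb (FN M)) (hv : 0 < v.ord ((jj M)⁻¹ - algebraMap Kb (FN M) c)) :
    v.ord ((jj M)⁻¹ - algebraMap Kb (FN M) c) = 1 := by
  simp only [Polynomial.map_mul, Polynomial.map_sub, map_X, map_ofNat, Polynomial.map_ofNat, eval_ofNat, eval_mul, eval_X,
    eval_sub, ne_eq, mul_eq_zero, not_or, Polynomial.map_one, eval_one] at hc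
  have h := hu_inv v hc.1 hv
  rw [h] at hv ⊢
  refine ram_j M c⁻¹ (inv_ne_zero hc.1) (fun h2 => hc.2 ?_) v hv
  have : c = 1728⁻¹ := by rw [← h2, inv_inv]
  rw [this]
  norm_num

theorem hu_ram_h2 (x : FN M) (hx : jj M * x ^ 2 = (x + 256) ^ 3) (c : Kb)
    (hc : ((X * (X + C 64) : K0[X]).map (algebraMap K0 Kb)).eval c ≠ 0) (v : Place Kb (FN M))
    (hv : 0 < v.ord (x - algebraMap Kb (FN M) c)) :
    v.ord (x - algebraMap Kb (FN M) c) = 1 := by
  simp only [Polynomial.map_mul, Polynomial.map_add, map_X, map_ofNat, Polynomial.map_ofNat, eval_ofNat, eval_mul, eval_X,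
    eval_add, ne_eq, mul_eq_zero, not_or] at hc
  exact ram_h2 M x hx c hc.1 (fun h => hc.2 (by rw [h]; norm_num)) v hv

theorem hu_ram_h2_inv (x : FN M) (hx : jj M * x ^ 2 = (x + 256) ^ 3) (c : Kb)
    (hc : ((X * (1 + C 64 * X) : K0[X]).map (algebraMap K0 Kb)).eval c ≠ 0)
    (v : Place Kb (FN M)) (hv : 0 < v.ord (x⁻¹ - algebraMap Kb (FN M) c)) :
    v.ord (x⁻¹ - algebraMap Kb (FN M) c) = 1 := by
  simp only [Polynomial.map_mul, Polynomial.map_add, map_X, map_ofNat, Polynomial.map_ofNat, eval_ofNat, eval_mul, eval_X,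
    eval_add, ne_eq, mul_eq_zero, not_or, Polynomial.map_one, eval_one] at hc
  have h := hu_inv v hc.1 hv
  rw [h] at hv ⊢
  refine ram_h2 M x hx c⁻¹ (inv_ne_zero hc.1) (fun h2 => hc.2 ?_) v hv
  have : c = (-64)⁻¹ := by rw [← h2, inv_inv]
  rw [this]
  norm_num

theorem hu_ram_h3 (x : FN M) (hx : jj M * x ^ 3 = (x + 27) * (x + 243) ^ 3) (c : Kb)
    (hc : ((X * (X + C 27) : K0[X]).map (algebraMap K0 Kb)).eval c ≠ 0) (v : Place Kb (FN M))
    (hv : 0 < v.ord (x - algebraMap Kb (FN M) c)) :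
    v.ord (x - algebraMap Kb (FN M) c) = 1 := by
  simp only [Polynomial.map_mul, Polynomial.map_add, map_X, map_ofNat, Polynomial.map_ofNat, eval_ofNat, eval_mul, eval_X,
    eval_add, ne_eq, mul_eq_zero, not_or] at hc
  exact ram_h3 M x hx c hc.1 (fun h => hc.2 (by rw [h]; norm_num)) v hv

theorem hu_ram_h3_inv (x : FN M) (hx : jj M * x ^ 3 = (x + 27) * (x + 243) ^ 3) (c : Kb)
    (hc : ((X * (1 + C 27 * X) : K0[X]).map (algebraMap K0 Kb)).eval c ≠ 0)
    (v : Place Kb (FN M)) (hv : 0 < v.ord (x⁻¹ - algebraMap Kb (FN M) c)) :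
    v.ord (x⁻¹ - algebraMap Kb (FN M) c) = 1 := by
  simp only [Polynomial.map_mul, Polynomial.map_add, map_X, map_ofNat, Polynomial.map_ofNat, eval_ofNat, eval_mul, eval_X,
    eval_add, ne_eq, mul_eq_zero, not_or, Polynomial.map_one, eval_one] at hc
  have h := hu_inv v hc.1 hv
  rw [h] at hv ⊢
  refine ram_h3 M x hx c⁻¹ (inv_ne_zero hc.1) (fun h2 => hc.2 ?_) v hv
  have : c = (-27)⁻¹ := by rw [← h2, inv_inv]
  rw [this]
  norm_num

end Inst

end Fermat.Agent.S18Lib
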