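import Fermat.Agent.S18.HU
import Fermat.Agent.S18.Descent
import Fermat.Agent.S18.ChartDefs2

set_option autoImplicit false

/-!
# S18 [HUInst] : `RamOutside` for the modular function fields over a number field
-/

open AlgebraicCurve IntermediateField Polynomial

namespace Fermat.Agent.S18Lib

open Fermat.Agent.S24Lib

section Abs

variable {K F : Type} [Field K] [IsAlgClosed K] [CharZero K] [Field F] [Algebra K F]
variable {K0 F0 : Type} [Field K0] [CharZero K0] [Algebra K0 K] [Algebra.IsAlgebraic K0 K]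
  [Field F0] [Algebra K0 F0]

theorem hui_abs (hFF : IsFF K F) (ι : F0 →+* F)
    (hι : ∀ a : K0, ι (algebraMap K0 F0 a) = algebraMap K F (algebraMap K0 K a))
    (hTR : ∀ V : ValuationSubring F0, (∀ a : K0, algebraMap K0 F0 a ∈ V) → V ≠ ⊤ →
      ∃ P : Place K F, ∀ y, y ∈ V ↔ ι y ∈ P.toValuationSubring)
    (t : F0) (ht : Transcendental K0 t)
    [IsDedekindDomain (integralClosure (Algebra.adjoin K0 ({t} : Set F0)) F0)]
    [IsFractionRing (integralClosure (Algebra.adjoin K0 ({t} : Set F0)) F0) F0]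
    (Dp : K0[X])
    (hram : ∀ c : K, (Dp.map (algebraMap K0 K)).eval c ≠ 0 → ∀ v : Place K F,
      0 < v.ord (ι t - algebraMap K F c) → v.ord (ι t - algebraMap K F c) = 1) :
    RamOutside K0 t (aeval t Dp) := by
  intro P hP hP0 hd
  refine hu_abs (K0 := K0) (A := Algebra.adjoin K0 ({t} : Set F0)) hFF ι hι hTR t ht
    (fun p => ⟨⟨aeval t p, aeval_mem_adjoin_singleton K0 t⟩, rfl⟩) Dp
    ⟨aeval t Dp, aeval_mem_adjoin_singleton K0 t⟩ rfl hram P hP hP0 ?_
  intro h
  exact hd _ h rfl

end Abs

open ModularCurve in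
theorem hui_isAlgebraic (K0 : IntermediateField ℚ Kb) : Algebra.IsAlgebraic K0 Kb :=
  have : Algebra.IsAlgebraic ℚ Kb := AlgebraicClosure.isAlgebraic ℚ
  Algebra.IsAlgebraic.tower_top (K := ℚ) K0

open ModularCurve in
set_option synthInstance.maxHeartbeats 400000 in
set_option maxHeartbeats 4000000 in
theorem hui_ramOutside (M : ℕ) [NeZero M] (K0 : IntermediateField ℚ Kb)
    (t : modularFunctionFieldFullC K0 M) (ht : Transcendental K0 t)
    [IsDedekindDomain (integralClosure (Algebra.adjoin K0 ({t} : Set (modularFunctionFieldFullC K0 M)))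
      (modularFunctionFieldFullC K0 M))]
    [IsFractionRing (integralClosure (Algebra.adjoin K0 ({t} : Set (modularFunctionFieldFullC K0 M)))
      (modularFunctionFieldFullC K0 M)) (modularFunctionFieldFullC K0 M)]
    (Dp : K0[X])
    (hram : ∀ c : Kb, (Dp.map (algebraMap K0 Kb)).eval c ≠ 0 → ∀ v : Place Kb (FN M),
      0 < v.ord (descBar K0 M t - algebraMap Kb (FN M) c) →
        v.ord (descBar K0 M t - algebraMap Kb (FN M) c) = 1) :
    RamOutside K0 t (aeval t Dp) :=
  have := hui_isAlgebraic K0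
  hui_abs (K := Kb) (F := FN M) (K0 := K0) (F0 := modularFunctionFieldFullC K0 M)
    (isFF M) (descBar K0 M) (descBar_algebraMap K0 M) (desc_exists_place M K0) t ht Dp hram

end Fermat.Agent.S18Lib
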