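import Mathlib

set_option autoImplicit false

/-!
# S18 [Sqf] : squarefreeness mod `π` of the six branch polynomials
-/

open Polynomial

namespace Fermat.Agent.S18Lib

theorem sqf_field1 {k : Type*} [Field k] (a : k) (ha : a ≠ 0) :
    Squarefree (X * (X - C a) : k[X]) := by
  rw [squarefree_mul_iff]
  refine ⟨?_, irreducible_X.squarefree, (irreducible_X_sub_C a).squarefree⟩
  have h : IsCoprime (X : k[X]) (X - C a) := by
    refine ⟨C a⁻¹, - C a⁻¹, ?_⟩
    have : C a⁻¹ * C a = (1 : k[X]) := by rw [← C_mul, inv_mul_cancel₀ ha, C_1]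
    linear_combination this
  exact h.isRelPrime

theorem sqf_field2 {k : Type*} [Field k] (a : k) (ha : a ≠ 0) :
    Squarefree (X * (1 - C a * X) : k[X]) := by
  rw [squarefree_mul_iff]
  have h1 : (1 - C a * X : k[X]) = C (-a) * (X - C a⁻¹) := by
    have : C a * C a⁻¹ = (1 : k[X]) := by rw [← C_mul, mul_inv_cancel₀ ha, C_1]
    rw [C_neg]
    linear_combination -this
  have hu : IsUnit (C (-a) : k[X]) := isUnit_C.2 (neg_ne_zero.2 ha).isUnit
  refine ⟨?_, irreducible_X.squarefree, ?_⟩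
  · have h : IsCoprime (X : k[X]) (1 - C a * X) := ⟨C a, 1, by ring⟩
    exact h.isRelPrime
  · rw [h1]
    exact (associated_unit_mul_left _ _ hu).squarefree_iff.2
      (irreducible_X_sub_C a⁻¹).squarefree

section Quot

variable {A0 : Type*} [CommRing A0] [IsDomain A0] [IsPrincipalIdealRing A0]

omit [IsDomain A0] [IsPrincipalIdealRing A0] in
theorem sqf_mk_ne_zero {π : A0} (hπ : Irreducible π) {ℓ : ℕ} (hℓ : π ∣ (ℓ : A0)) {n : ℕ}
    (hn : Nat.Coprime ℓ n) : Ideal.Quotient.mk (Ideal.span {π}) (n : A0) ≠ 0 := by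
  intro h
  rw [Ideal.Quotient.eq_zero_iff_mem, Ideal.mem_span_singleton] at h
  apply hπ.not_isUnit
  apply isUnit_of_dvd_one
  have h1 : ((ℓ : ℤ) * Nat.gcdA ℓ n + (n : ℤ) * Nat.gcdB ℓ n) = 1 := by
    rw [← Nat.gcd_eq_gcd_ab, hn.gcd_eq_one, Nat.cast_one]
  have h2 : ((ℓ : A0) * (Nat.gcdA ℓ n : A0) + (n : A0) * (Nat.gcdB ℓ n : A0)) = 1 := by
    have := congrArg (Int.cast : ℤ → A0) h1
    push_cast at this
    exact this
  rw [← h2]
  exact dvd_add (hℓ.mul_right _) (h.mul_right _)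

theorem sqf_sub {π : A0} (hπ : Irreducible π) {ℓ : ℕ} (hℓ : π ∣ (ℓ : A0)) {n : ℕ}
    (hn : Nat.Coprime ℓ n) :
    Squarefree ((X * (X - C (n : A0)) : A0[X]).map (Ideal.Quotient.mk (Ideal.span {π}))) := by
  have hmax : (Ideal.span {π}).IsMaximal :=
    PrincipalIdealRing.isMaximal_of_irreducible hπ
  let _ := Ideal.Quotient.field (Ideal.span {π})
  rw [Polynomial.map_mul, Polynomial.map_sub, map_X, map_C]
  exact sqf_field1 _ (sqf_mk_ne_zero hπ hℓ hn)

theorem sqf_add {π : A0} (hπ : Irreducible π) {ℓ : ℕ} (hℓ : π ∣ (ℓ : A0)) {n : ℕ}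
    (hn : Nat.Coprime ℓ n) :
    Squarefree ((X * (X + C (n : A0)) : A0[X]).map (Ideal.Quotient.mk (Ideal.span {π}))) := by
  have hmax : (Ideal.span {π}).IsMaximal :=
    PrincipalIdealRing.isMaximal_of_irreducible hπ
  let _ := Ideal.Quotient.field (Ideal.span {π})
  rw [Polynomial.map_mul, Polynomial.map_add, map_X, map_C]
  have := sqf_field1 _ (neg_ne_zero.2 (sqf_mk_ne_zero hπ hℓ hn))
  rwa [C_neg, sub_neg_eq_add] at this

theorem sqf_sub_inv {π : A0} (hπ : Irreducible π) {ℓ : ℕ} (hℓ : π ∣ (ℓ : A0)) {n : ℕ}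
    (hn : Nat.Coprime ℓ n) :
    Squarefree ((X * (1 - C (n : A0) * X) : A0[X]).map
      (Ideal.Quotient.mk (Ideal.span {π}))) := by
  have hmax : (Ideal.span {π}).IsMaximal :=
    PrincipalIdealRing.isMaximal_of_irreducible hπ
  let _ := Ideal.Quotient.field (Ideal.span {π})
  rw [Polynomial.map_mul, Polynomial.map_sub, Polynomial.map_mul, map_X, map_C,
    Polynomial.map_one]
  exact sqf_field2 _ (sqf_mk_ne_zero hπ hℓ hn)

theorem sqf_add_inv {π : A0} (hπ : Irreducible π) {ℓ : ℕ} (hℓ : π ∣ (ℓ : A0)) {n : ℕ}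
    (hn : Nat.Coprime ℓ n) :
    Squarefree ((X * (1 + C (n : A0) * X) : A0[X]).map
      (Ideal.Quotient.mk (Ideal.span {π}))) := by
  have hmax : (Ideal.span {π}).IsMaximal :=
    PrincipalIdealRing.isMaximal_of_irreducible hπ
  let _ := Ideal.Quotient.field (Ideal.span {π})
  rw [Polynomial.map_mul, Polynomial.map_add, Polynomial.map_mul, map_X, map_C,
    Polynomial.map_one]
  have := sqf_field2 _ (neg_ne_zero.2 (sqf_mk_ne_zero hπ hℓ hn))
  rwa [C_neg, neg_mul, sub_neg_eq_add] at this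

/-! ### the six polynomials -/

theorem sqf_coprime_1728 {ℓ : ℕ} (hℓ : ℓ.Prime) (h2 : ℓ ≠ 2) (h3 : ℓ ≠ 3) :
    Nat.Coprime ℓ 1728 := by
  have h : (1728 : ℕ) = 2 ^ 6 * 3 ^ 3 := by norm_num
  rw [h]
  exact Nat.Coprime.mul_right
    (Nat.Coprime.pow_right _ ((Nat.coprime_primes hℓ Nat.prime_two).2 h2))
    (Nat.Coprime.pow_right _ ((Nat.coprime_primes hℓ Nat.prime_three).2 h3))

theorem sqf_j {π : A0} (hπ : Irreducible π) {ℓ : ℕ} (hp : ℓ.Prime) (h2 : ℓ ≠ 2) (h3 : ℓ ≠ 3)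
    (hℓ : π ∣ (ℓ : A0)) :
    Squarefree ((X * (X - C 1728) : A0[X]).map (Ideal.Quotient.mk (Ideal.span {π}))) := by
  have := sqf_sub hπ hℓ (sqf_coprime_1728 hp h2 h3)
  rwa [Nat.cast_ofNat] at this

theorem sqf_j_inv {π : A0} (hπ : Irreducible π) {ℓ : ℕ} (hp : ℓ.Prime) (h2 : ℓ ≠ 2)
    (h3 : ℓ ≠ 3) (hℓ : π ∣ (ℓ : A0)) :
    Squarefree ((X * (1 - C 1728 * X) : A0[X]).map (Ideal.Quotient.mk (Ideal.span {π}))) := by
  have := sqf_sub_inv hπ hℓ (sqf_coprime_1728 hp h2 h3)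
  rwa [Nat.cast_ofNat] at this

theorem sqf_h2 {π : A0} (hπ : Irreducible π) (hℓ : π ∣ ((3 : ℕ) : A0)) :
    Squarefree ((X * (X + C 64) : A0[X]).map (Ideal.Quotient.mk (Ideal.span {π}))) := by
  have := sqf_add hπ hℓ (n := 64) (by norm_num)
  rwa [Nat.cast_ofNat] at this

theorem sqf_h2_inv {π : A0} (hπ : Irreducible π) (hℓ : π ∣ ((3 : ℕ) : A0)) :
    Squarefree ((X * (1 + C 64 * X) : A0[X]).map (Ideal.Quotient.mk (Ideal.span {π}))) := by
  have := sqf_add_inv hπ hℓ (n := 64) (by norm_num)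
  rwa [Nat.cast_ofNat] at this

theorem sqf_h3 {π : A0} (hπ : Irreducible π) (hℓ : π ∣ ((2 : ℕ) : A0)) :
    Squarefree ((X * (X + C 27) : A0[X]).map (Ideal.Quotient.mk (Ideal.span {π}))) := by
  have := sqf_add hπ hℓ (n := 27) (by norm_num)
  rwa [Nat.cast_ofNat] at this

theorem sqf_h3_inv {π : A0} (hπ : Irreducible π) (hℓ : π ∣ ((2 : ℕ) : A0)) :
    Squarefree ((X * (1 + C 27 * X) : A0[X]).map (Ideal.Quotient.mk (Ideal.span {π}))) := by
  have := sqf_add_inv hπ hℓ (n := 27) (by norm_num)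
  rwa [Nat.cast_ofNat] at this

theorem sqf_dvd_of_mem [IsDiscreteValuationRing A0] {π : A0} (hπ : Irreducible π) {a : A0}
    (ha : a ∈ IsLocalRing.maximalIdeal A0) : π ∣ a := by
  rw [(IsDiscreteValuationRing.irreducible_iff_uniformizer π).1 hπ,
    Ideal.mem_span_singleton] at ha
  exact ha

end Quot

end Fermat.Agent.S18Lib
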