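import Fermat.Agent.S18.Chart

set_option autoImplicit false
set_option linter.style.haveILetI false
set_option linter.unusedSectionVars false

/-!
# S18 : transitivity of the weak form of (GE4)

If the trace `F → E1` is not `≡ 0 mod ϖ` on a valuation ring `V` of `F` which is integral over
`V ∩ E1`, then for every intermediate field `E1 ⊆ E2 ⊆ F` the trace `F → E2` is not `≡ 0 mod ϖ`.
-/

open Polynomial IntermediateField

namespace Fermat.Agent.S18Lib

theorem trtr_abs {E1 E2 F : Type*} [Field E1] [Field E2] [Field F] [Algebra E1 E2] [Algebra E2 F]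
    [Algebra E1 F] [IsScalarTower E1 E2 F] [FiniteDimensional E1 F]
    (V : ValuationSubring F)
    (hint : ∀ y ∈ V, ((algebraMap E1 F).comp
      (V.comap (algebraMap E1 F)).subtype).IsIntegralElem y)
    (ϖ : E1) (hϖ : ϖ ≠ 0)
    (h2 : ∀ s ∈ V, algebraMap E2 F (Algebra.trace E2 F s) / algebraMap E1 F ϖ ∈ V) :
    ∀ s ∈ V, algebraMap E1 F (Algebra.trace E1 F s) / algebraMap E1 F ϖ ∈ V := by
  intro s hs
  haveI : FiniteDimensional E1 E2 := FiniteDimensional.left E1 E2 F
  haveI : FiniteDimensional E2 F := FiniteDimensional.right E1 E2 F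
  set V1 : ValuationSubring E1 := V.comap (algebraMap E1 F) with hV1
  letI : Algebra V1 E2 := ((algebraMap E1 E2).comp V1.subtype).toAlgebra
  haveI : IsScalarTower V1 E1 E2 := IsScalarTower.of_algebraMap_eq (fun _ => rfl)
  set c : E2 := Algebra.trace E2 F s / algebraMap E1 E2 ϖ with hc
  have hcV : algebraMap E2 F c ∈ V := by
    rw [hc, map_div₀, ← IsScalarTower.algebraMap_apply E1 E2 F]
    exact h2 s hs
  have hcint : IsIntegral V1 c := by
    obtain ⟨p, hp, hpe⟩ := hint _ hcV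
    refine ⟨p, hp, ?_⟩
    apply (algebraMap E2 F).injective
    rw [map_zero, Polynomial.hom_eval₂, ← hpe]
    congr 1
    ext a
    exact (IsScalarTower.algebraMap_apply E1 E2 F _).symm
  have htr : IsIntegral V1 (Algebra.trace E1 E2 c) := Algebra.isIntegral_trace hcint
  obtain ⟨z, hz⟩ := (IsIntegrallyClosed.isIntegral_iff (R := V1) (K := E1)).mp htr
  have hϖ2 : algebraMap E1 E2 ϖ ≠ 0 := (_root_.map_ne_zero _).2 hϖ
  have hϖF : algebraMap E1 F ϖ ≠ 0 := (_root_.map_ne_zero _).2 hϖ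
  have h3 : Algebra.trace E2 F s = ϖ • c := by
    rw [hc, Algebra.smul_def, mul_div_cancel₀ _ hϖ2]
  have h4 : Algebra.trace E1 F s = ϖ * Algebra.trace E1 E2 c := by
    rw [← Algebra.trace_trace (S := E2), h3, map_smul, smul_eq_mul]
  rw [h4, map_mul, mul_div_cancel_left₀ _ hϖF, ← hz]
  exact z.2

section
variable {A0 K0 F0 : Type} [CommRing A0] [IsDomain A0] [IsDiscreteValuationRing A0]
    [Field K0] [CharZero K0] [Algebra A0 K0] [IsFractionRing A0 K0]
    [Field F0] [Algebra K0 F0] [Algebra A0 F0] [IsScalarTower A0 K0 F0]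

/-- `Ov` is integral over `Ov ∩ E` for every intermediate field `E` containing `t`. -/
theorem trtr_integral {π : A0} {t : F0} {Ov : ValuationSubring F0} (h : GEData π t Ov)
    (E : IntermediateField K0 F0) (ht : t ∈ E) :
    ∀ y ∈ Ov, ((algebraMap E F0).comp (Ov.comap (algebraMap E F0)).subtype).IsIntegralElem y := by
  intro y hy
  set V1 : ValuationSubring E := Ov.comap (algebraMap E F0) with hV1
  letI : Algebra V1 F0 := ((algebraMap E F0).comp V1.subtype).toAlgebra
  change IsIntegral V1 y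
  obtain ⟨Q, hQ, hint⟩ := h.hI y hy
  have hadj : ∀ a ∈ Algebra.adjoin A0 ({t} : Set F0), a ∈ Ov :=
    chart_adjoin_le_valuationSubring Ov h.hA _ (fun x hx => by
      rw [Set.mem_singleton_iff.1 hx]; exact h.ht)
  have hadjE : ∀ a ∈ Algebra.adjoin A0 ({t} : Set F0), a ∈ E := by
    have : Algebra.adjoin A0 ({t} : Set F0) ≤ E.toSubalgebra.restrictScalars A0 := by
      refine Algebra.adjoin_le fun x hx => ?_
      rw [Set.mem_singleton_iff.1 hx]
      exact ht
    exact fun a ha => this ha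
  let φ : Algebra.adjoin A0 ({t} : Set F0) →+* V1 :=
    { toFun := fun a => ⟨⟨a.1, hadjE a.1 a.2⟩, hadj a.1 a.2⟩
      map_one' := Subtype.ext (Subtype.ext rfl)
      map_mul' := fun _ _ => Subtype.ext (Subtype.ext rfl)
      map_zero' := Subtype.ext (Subtype.ext rfl)
      map_add' := fun _ _ => Subtype.ext (Subtype.ext rfl) }
  have h1 : IsIntegral V1 (aeval t Q * y) := chart_int_of_hom φ (fun _ => rfl) hint
  have hQmem : aeval t Q ∈ Algebra.adjoin A0 ({t} : Set F0) := by
    rw [Algebra.adjoin_singleton_eq_range_aeval]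
    exact ⟨Q, rfl⟩
  have hQOv : aeval t Q ∈ Ov := hadj _ hQmem
  have hQinv : (aeval t Q)⁻¹ ∈ Ov := by
    by_contra hcon
    exact hQ (h.hG Q (h.hπ2 _ hQOv hcon))
  have hQ0 : aeval t Q ≠ 0 := by
    intro h0
    apply hQ
    apply h.hG Q
    rw [h0, zero_div]
    exact zero_mem _
  have h2 : IsIntegral V1 ((aeval t Q)⁻¹ : F0) := by
    have : ((aeval t Q)⁻¹ : F0) = algebraMap V1 F0
        ⟨⟨(aeval t Q)⁻¹, inv_mem (hadjE _ hQmem)⟩, hQinv⟩ := rfl
    rw [this]
    exact isIntegral_algebraMap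
  have h3 := h2.mul h1
  rwa [← mul_assoc, inv_mul_cancel₀ hQ0, one_mul] at h3

/-- **Transitivity of weak (GE4).** -/
theorem trtr_main {π : A0} (hπ0 : π ≠ 0) {t : F0} {Ov : ValuationSubring F0} (h : GEData π t Ov)
    (E1 E2 : IntermediateField K0 F0) (ht : t ∈ E1) (h12 : E1 ≤ E2) [FiniteDimensional E1 F0]
    (hs : ∃ s ∈ Ov, algebraMap E1 F0 (Algebra.trace E1 F0 s) / algebraMap A0 F0 π ∉ Ov) :
    ∃ s ∈ Ov, algebraMap E2 F0 (Algebra.trace E2 F0 s) / algebraMap A0 F0 π ∉ Ov := by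
  by_contra hcon
  push Not at hcon
  obtain ⟨s, hsV, hs⟩ := hs
  apply hs
  letI : Algebra E1 E2 := (IntermediateField.inclusion h12).toRingHom.toAlgebra
  haveI : IsScalarTower E1 E2 F0 := IsScalarTower.of_algebraMap_eq (fun _ => rfl)
  have hπE : algebraMap A0 F0 π = algebraMap E1 F0 (algebraMap K0 E1 (algebraMap A0 K0 π)) := by
    rw [IsScalarTower.algebraMap_apply A0 K0 F0]
    rfl
  have hne : algebraMap K0 E1 (algebraMap A0 K0 π) ≠ 0 := by
    rw [Ne, map_eq_zero]
    simpa using (IsFractionRing.injective A0 K0).ne hπ0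
  rw [hπE]
  refine trtr_abs (E2 := E2) Ov (trtr_integral h E1 ht) _ hne ?_ s hsV
  intro s' hs'
  rw [← hπE]
  exact hcon s' hs'

end

end Fermat.Agent.S18Lib
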